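import Mathlib

set_option autoImplicit false

/-! # S29 [A1]: the algebra trick

A finite-dimensional representation in which every group element satisfies a quadratic equation
`g² - a g + δ(g) = 0`, `δ` a character, contains (or produces) a two-dimensional representation
with these characteristic polynomials. -/

namespace Fermat.Agent.S29.Alg

open Polynomial Module

variable {k : Type} [Field k] {Γ : Type} [Group Γ] {W : Type} [AddCommGroup W] [Module k W]

/-- the data: a representation, a character, and quadratic relations (pointwise form). -/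
structure QRep (r : Γ →* Module.End k W) (δ : Γ →* kˣ) (a : Γ → k) : Prop where
  rel : ∀ g x, r g (r g x) = a g • r g x - (δ g : k) • x

section Basic

variable {r : Γ →* Module.End k W} {δ : Γ →* kˣ} {a : Γ → k} (H : QRep r δ a)

theorem r_inv_apply (r : Γ →* Module.End k W) (g : Γ) (x : W) : r g (r g⁻¹ x) = x := by
  have : r g * r g⁻¹ = 1 := by rw [← map_mul, mul_inv_cancel, map_one]
  exact LinearMap.congr_fun this x

theorem r_mul_apply (r : Γ →* Module.End k W) (g h : Γ) (x : W) : r (g * h) x = r g (r h x) := by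
  rw [map_mul]; rfl

include H in
theorem QRep.adj (g : Γ) (x : W) : (δ g : k) • r g⁻¹ x = a g • x - r g x := by
  have h := H.rel g (r g⁻¹ x)
  rw [r_inv_apply] at h
  rw [h]; abel

include H in
/-- the fundamental identity. -/
theorem QRep.star (g h : Γ) (x : W) :
    r g (r h x) + r h (r g x) = a h • r g x + a g • r h x + (a (g * h) - a g * a h) • x := by
  have h1 := H.adj (g * h) x
  rw [mul_inv_rev, r_mul_apply, r_mul_apply, map_mul, Units.val_mul] at h1
  have h2 : ((δ g : k) * (δ h : k)) • r h⁻¹ (r g⁻¹ x) = (δ h : k) • r h⁻¹ ((δ g : k) • r g⁻¹ x) := by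
    rw [map_smul, smul_smul, mul_comm]
  rw [h2, H.adj g x, H.adj h] at h1
  simp only [map_sub, map_smul, smul_sub, smul_smul] at h1
  have h3 : r g (r h x) + r h (r g x) = a h • r g x + a g • r h x + (a (g * h) • x
      - (a h * a g) • x) := by
    have := h1
    -- `a h * a g • x - a h • r g x - (a g • r h x - r h (r g x)) = a (g*h) • x - r g (r h x)`
    have e : r g (r h x) = a (g * h) • x - ((a h * a g) • x - a h • r g x
        - (a g • r h x - r h (r g x))) := by
      rw [this]; abel
    rw [e]; abel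
  rw [h3, sub_smul, mul_comm (a g)]

end Basic

/-- irreducibility. -/
def Irr (r : Γ →* Module.End k W) : Prop :=
  ∀ S : Submodule k W, (∀ g, ∀ x ∈ S, r g x ∈ S) → S = ⊥ ∨ S = ⊤

/-- `g` acts as a scalar. -/
def IsScal (r : Γ →* Module.End k W) (g : Γ) : Prop := ∃ c : k, ∀ x, r g x = c • x

section Irred

variable {r : Γ →* Module.End k W} {δ : Γ →* kˣ} {a : Γ → k} (H : QRep r δ a) (hirr : Irr r)

include hirr in
theorem span_orbit_eq_top {v : W} (hv : v ≠ 0) :
    Submodule.span k (Set.range fun h : Γ => r h v) = ⊤ := by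
  have hinv : ∀ g, ∀ x ∈ Submodule.span k (Set.range fun h : Γ => r h v),
      r g x ∈ Submodule.span k (Set.range fun h : Γ => r h v) := by
    intro g x hx
    induction hx using Submodule.span_induction with
    | mem y hy =>
      obtain ⟨h, rfl⟩ := hy
      exact Submodule.subset_span ⟨g * h, by simp⟩
    | zero => simp
    | add y z _ _ hy hz => rw [map_add]; exact add_mem hy hz
    | smul c y _ hy => rw [map_smul]; exact Submodule.smul_mem _ _ hy
  rcases hirr _ hinv with h | h
  · exfalso
    apply hv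
    have : v ∈ Submodule.span k (Set.range fun h : Γ => r h v) :=
      Submodule.subset_span ⟨1, by simp⟩
    rw [h] at this
    simpa using this
  · exact h

include H hirr in
/-- Lemma A: if `v` is an eigenvector of `g` with eigenvalue `l`, then `g - (a g - l)` has image
in `k v`. -/
theorem QRep.sub_eq_smul {g : Γ} {v : W} {l : k} (hv : v ≠ 0) (hgv : r g v = l • v) (x : W) :
    ∃ c : k, r g x - (a g - l) • x = c • v := by
  have hx : x ∈ Submodule.span k (Set.range fun h : Γ => r h v) := by
    rw [span_orbit_eq_top hirr hv]; trivial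
  induction hx using Submodule.span_induction with
  | mem y hy =>
    obtain ⟨h, rfl⟩ := hy
    have h1 := H.star g h v
    rw [hgv, map_smul] at h1
    refine ⟨a h * l + (a (g * h) - a g * a h), ?_⟩
    have e : r g (r h v) = a h • l • v + a g • r h v + (a (g * h) - a g * a h) • v - l • r h v := by
      rw [← h1]; abel
    show r g (r h v) - (a g - l) • r h v = _
    rw [e]
    module
  | zero => exact ⟨0, by simp⟩
  | add y z _ _ hy hz =>
    obtain ⟨c, hc⟩ := hy
    obtain ⟨d, hd⟩ := hz
    refine ⟨c + d, ?_⟩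
    rw [map_add, smul_add, add_smul, ← hc, ← hd]; abel
  | smul e y _ hy =>
    obtain ⟨c, hc⟩ := hy
    refine ⟨e * c, ?_⟩
    rw [map_smul, smul_comm, ← smul_sub, hc, smul_smul]

include hirr in
/-- if every element is a scalar, the dimension is at most one. -/
theorem finrank_le_one_of_scal [Nontrivial W] (hs : ∀ g, IsScal r g) : finrank k W ≤ 1 := by
  obtain ⟨v, hv⟩ := exists_ne (0 : W)
  apply finrank_le_one v
  intro w
  have : Submodule.span k {v} = ⊤ := by
    have hinv : ∀ g, ∀ x ∈ Submodule.span k {v}, r g x ∈ Submodule.span k {v} := by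
      intro g x hx
      obtain ⟨c, hc⟩ := hs g
      rw [hc]; exact Submodule.smul_mem _ _ hx
    rcases hirr _ hinv with h | h
    · exfalso; apply hv
      have : v ∈ Submodule.span k {v} := Submodule.mem_span_singleton_self v
      rw [h] at this; simpa using this
    · exact h
  have hw : w ∈ Submodule.span k {v} := by rw [this]; trivial
  exact Submodule.mem_span_singleton.1 hw

theorem isScal_of_finrank_le_one [FiniteDimensional k W] (r : Γ →* Module.End k W)
    (h : finrank k W ≤ 1) (g : Γ) : IsScal r g := by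
  obtain ⟨v₀, hv₀⟩ := finrank_le_one_iff.1 h
  obtain ⟨c₀, hc₀⟩ := hv₀ (r g v₀)
  refine ⟨c₀, fun w => ?_⟩
  obtain ⟨c, rfl⟩ := hv₀ w
  rw [map_smul, ← hc₀, smul_comm]

include H hirr in
/-- if some element is not a scalar, the dimension is two. -/
theorem QRep.finrank_eq_two [IsAlgClosed k] [FiniteDimensional k W] [Nontrivial W] {g : Γ}
    (hg : ¬ IsScal r g) : finrank k W = 2 := by
  obtain ⟨l, hl⟩ := Module.End.exists_eigenvalue (r g)
  obtain ⟨v, hv⟩ := hl.exists_hasEigenvector
  have hgv : r g v = l • v := hv.apply_eq_smul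
  have hv0 : v ≠ 0 := hv.2
  set μ := a g - l with hμ
  let N : Module.End k W := r g - μ • 1
  have hN : ∀ x, N x = r g x - μ • x := fun x => by simp [N]
  -- the range
  have hrange : finrank k (LinearMap.range N) ≤ 1 := by
    have h1 : LinearMap.range N ≤ Submodule.span k {v} := by
      rintro _ ⟨x, rfl⟩
      obtain ⟨c, hc⟩ := H.sub_eq_smul hirr hv0 hgv x
      rw [hN, hc]
      exact Submodule.smul_mem _ _ (Submodule.mem_span_singleton_self v)
    exact (Submodule.finrank_mono h1).trans (by rw [finrank_span_singleton hv0])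
  -- a vector on which `g - l` does not vanish
  obtain ⟨x₀, hx₀⟩ : ∃ x₀, r g x₀ - l • x₀ ≠ 0 := by
    by_contra hcon
    push Not at hcon
    exact hg ⟨l, fun x => sub_eq_zero.1 (hcon x)⟩
  have hl' : a g - μ = l := by rw [hμ]; ring
  -- the kernel
  have hker : finrank k (LinearMap.ker N) ≤ 1 := by
    by_cases hbot : LinearMap.ker N = ⊥
    · rw [hbot, finrank_bot]; exact Nat.zero_le _
    obtain ⟨v', hv'mem, hv'0⟩ := Submodule.exists_mem_ne_zero_of_ne_bot hbot
    have hgv' : r g v' = μ • v' := by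
      have := LinearMap.mem_ker.1 hv'mem
      rw [hN] at this
      exact sub_eq_zero.1 this
    obtain ⟨c', hc'⟩ := H.sub_eq_smul hirr hv'0 hgv' x₀
    rw [hl'] at hc'
    apply finrank_le_one (⟨v', hv'mem⟩ : LinearMap.ker N)
    rintro ⟨w, hw⟩
    by_cases hw0 : w = 0
    · exact ⟨0, by ext; simp [hw0]⟩
    have hgw : r g w = μ • w := by
      have := LinearMap.mem_ker.1 hw
      rw [hN] at this
      exact sub_eq_zero.1 this
    obtain ⟨c'', hc''⟩ := H.sub_eq_smul hirr hw0 hgw x₀
    rw [hl'] at hc''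
    have hc''0 : c'' ≠ 0 := by
      rintro rfl
      rw [zero_smul] at hc''
      exact hx₀ hc''
    refine ⟨c''⁻¹ * c', ?_⟩
    ext
    show (c''⁻¹ * c') • v' = w
    rw [mul_smul, ← hc', hc'', smul_smul, inv_mul_cancel₀ hc''0, one_smul]
  have hsum := LinearMap.finrank_range_add_finrank_ker N
  have hge : ¬ finrank k W ≤ 1 := fun h => hg (isScal_of_finrank_le_one r h g)
  omega

end Irred

section Charpoly

theorem charpoly_two [FiniteDimensional k W] (h2 : finrank k W = 2) (f : Module.End k W) :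
    ∃ t D : k, f.charpoly = X ^ 2 - C t * X + C D := by
  let b := Module.finBasisOfFinrankEq k W h2
  refine ⟨(LinearMap.toMatrix b b f).trace, (LinearMap.toMatrix b b f).det, ?_⟩
  rw [← LinearMap.charpoly_toMatrix f b, Matrix.charpoly_fin_two]

theorem charpoly_scalar [FiniteDimensional k W] (h2 : finrank k W = 2) (c : k) :
    (c • (1 : Module.End k W)).charpoly = X ^ 2 - C (2 * c) * X + C (c ^ 2) := by
  let b := Module.finBasisOfFinrankEq k W h2
  rw [← LinearMap.charpoly_toMatrix _ b, Matrix.charpoly_fin_two]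
  have : LinearMap.toMatrix b b (c • (1 : Module.End k W)) = c • (1 : Matrix (Fin 2) (Fin 2) k) := by
    rw [map_smul]
    congr 1
    exact LinearMap.toMatrix_one b
  rw [this]
  simp only [Matrix.trace_fin_two, Matrix.det_fin_two, Matrix.smul_apply, Matrix.one_apply_eq,
    smul_eq_mul, mul_one]
  have h2' : (C (2 : k) : k[X]) = 2 := rfl
  simp only [Matrix.one_apply_ne (show (0 : Fin 2) ≠ 1 by decide),
    Matrix.one_apply_ne (show (1 : Fin 2) ≠ 0 by decide), mul_zero, sub_zero, map_mul, map_add,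
    map_pow, h2']
  ring

theorem eq_zero_of_not_isScal [Nontrivial W] {r : Γ →* Module.End k W} {h : Γ}
    (hh : ¬ IsScal r h) {α β : k} (e : ∀ x, α • r h x = β • x) : α = 0 ∧ β = 0 := by
  have hα : α = 0 := by
    by_contra hα
    apply hh
    refine ⟨α⁻¹ * β, fun x => ?_⟩
    rw [mul_smul, ← e x, smul_smul, inv_mul_cancel₀ hα, one_smul]
  refine ⟨hα, ?_⟩
  obtain ⟨x, hx⟩ := exists_ne (0 : W)
  have := e x
  rw [hα, zero_smul] at this
  exact (smul_eq_zero.1 this.symm).resolve_right hx

variable {r : Γ →* Module.End k W} {δ : Γ →* kˣ} {a : Γ → k} (H : QRep r δ a)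

include H in
theorem QRep.charpoly_of_not_isScal [FiniteDimensional k W] [Nontrivial W]
    (h2 : finrank k W = 2) {g : Γ} (hg : ¬ IsScal r g) :
    (r g).charpoly = X ^ 2 - C (a g) * X + C (δ g : k) := by
  obtain ⟨t, D, htD⟩ := charpoly_two h2 (r g)
  have hCH := LinearMap.aeval_self_charpoly (r g)
  rw [htD] at hCH
  have e : ∀ x, (a g - t) • r g x = ((δ g : k) - D) • x := by
    intro x
    have h1 := LinearMap.congr_fun hCH x
    simp only [map_add, map_sub, map_mul, aeval_X, aeval_C, LinearMap.add_apply,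
      LinearMap.sub_apply, LinearMap.zero_apply, pow_two, Module.End.mul_apply,
      Module.algebraMap_end_apply] at h1
    rw [H.rel] at h1
    have h3 : (a g - t) • r g x - ((δ g : k) - D) • x = 0 := by
      rw [← h1]; module
    exact sub_eq_zero.1 h3
  obtain ⟨e1, e2⟩ := eq_zero_of_not_isScal hg e
  rw [htD, ← sub_eq_zero.1 e1, ← sub_eq_zero.1 e2]

include H in
theorem QRep.charpoly_of_isScal [FiniteDimensional k W] [Nontrivial W]
    (h2 : finrank k W = 2) {g h : Γ} (hg : IsScal r g) (hh : ¬ IsScal r h) :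
    (r g).charpoly = X ^ 2 - C (a g) * X + C (δ g : k) := by
  obtain ⟨c, hc⟩ := hg
  have e : ∀ x, (c ^ 2 * a h - a (g * h) * c) • r h x
      = (c ^ 2 * (δ h : k) - (δ g : k) * (δ h : k)) • x := by
    intro x
    have h1 := H.rel (g * h) x
    rw [r_mul_apply, r_mul_apply, hc, hc, map_smul, map_mul, Units.val_mul, H.rel h x] at h1
    have h3 : (c ^ 2 * a h - a (g * h) * c) • r h x
      - (c ^ 2 * (δ h : k) - (δ g : k) * (δ h : k)) • x = 0 := by
      have h4 : c • c • (a h • r h x - (δ h : k) • x)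
          - (a (g * h) • c • r h x - ((δ g : k) * (δ h : k)) • x) = 0 := sub_eq_zero.2 h1
      rw [← h4]; module
    exact sub_eq_zero.1 h3
  obtain ⟨-, e2⟩ := eq_zero_of_not_isScal hh e
  have hδ : (δ g : k) = c ^ 2 := by
    have h5 : (c ^ 2 - (δ g : k)) * (δ h : k) = 0 := by rw [← e2]; ring
    rcases mul_eq_zero.1 h5 with h6 | h6
    · exact (sub_eq_zero.1 h6).symm
    · exact absurd h6 (δ h).ne_zero
  have hc0 : c ≠ 0 := by
    rintro rfl
    have := (δ g).ne_zero
    rw [hδ] at this
    simp at this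
  have ha : a g = 2 * c := by
    obtain ⟨x, hx⟩ := exists_ne (0 : W)
    have h1 := H.rel g x
    simp only [hc, hδ] at h1
    have h3 : (c * (2 * c - a g)) • x = 0 := by
      have h4 : c • c • x - (a g • c • x - c ^ 2 • x) = 0 := sub_eq_zero.2 h1
      rw [← h4]; module
    rcases smul_eq_zero.1 h3 with h5 | h5
    · rcases mul_eq_zero.1 h5 with h6 | h6
      · exact absurd h6 hc0
      · exact (sub_eq_zero.1 h6).symm
    · exact absurd h5 hx
  have hr : r g = c • (1 : Module.End k W) := by
    ext x; simp [hc]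
  rw [hr, charpoly_scalar h2, ha, hδ]

include H in
/-- the case where all elements act as scalars: `ψ ⊕ δ ψ⁻¹`. -/
theorem QRep.exists_rep_of_scal [Nontrivial W] (hs : ∀ g, IsScal r g) :
    ∃ ρ : Γ →* Module.End k (Fin 2 → k), (∀ g, r g = 1 → δ g = 1 → ρ g = 1) ∧
      ∀ g, (ρ g).charpoly = X ^ 2 - C (a g) * X + C (δ g : k) := by
  choose ψ hψ using hs
  obtain ⟨w, hw⟩ := exists_ne (0 : W)
  have key : ∀ {α β : k}, α • w = β • w → α = β := by
    intro α β h
    have : (α - β) • w = 0 := by rw [sub_smul, h, sub_self]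
    exact sub_eq_zero.1 ((smul_eq_zero.1 this).resolve_right hw)
  have hψ1 : ψ 1 = 1 := by
    apply key
    rw [← hψ, map_one, one_smul]; rfl
  have hψmul : ∀ g h, ψ (g * h) = ψ g * ψ h := by
    intro g h
    apply key
    rw [← hψ, r_mul_apply, hψ h, map_smul, hψ g, smul_smul, mul_comm]
  have hψ0 : ∀ g, ψ g ≠ 0 := by
    intro g h0
    have := hψmul g g⁻¹
    rw [mul_inv_cancel, hψ1, h0, zero_mul] at this
    exact one_ne_zero this
  have hrel : ∀ g, a g = ψ g + (δ g : k) * (ψ g)⁻¹ := by
    intro g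
    have h1 := H.rel g w
    simp only [hψ] at h1
    have h2 : ψ g * ψ g = a g * ψ g - (δ g : k) := by
      apply key
      rw [sub_smul, mul_smul, mul_smul]; exact h1
    have := hψ0 g
    field_simp
    linear_combination -h2
  let d : Γ → Fin 2 → k := fun g => ![ψ g, (δ g : k) * (ψ g)⁻¹]
  have hd1 : d 1 = 1 := by
    ext i; fin_cases i <;> simp [d, hψ1]
  have hdmul : ∀ g h, d (g * h) = d g * d h := by
    intro g h
    ext i; fin_cases i
    · simp [d, hψmul]
    · simp [d, hψmul]; ring
  let ρ : Γ →* Module.End k (Fin 2 → k) :=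
    { toFun := fun g => Matrix.toLin' (Matrix.diagonal (d g))
      map_one' := by
        rw [hd1]
        have : (Matrix.diagonal (1 : Fin 2 → k)) = 1 := Matrix.diagonal_one
        rw [this, Matrix.toLin'_one]; rfl
      map_mul' := fun g h => by
        rw [hdmul, Module.End.mul_eq_comp, ← Matrix.toLin'_mul, Matrix.diagonal_mul_diagonal]
        rfl }
  refine ⟨ρ, ?_, ?_⟩
  · intro g hg hδ
    have h1 : ψ g = 1 := by
      apply key
      rw [← hψ, hg, one_smul]; rfl
    have : d g = 1 := by
      ext i; fin_cases i <;> simp [d, h1, hδ]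
    show Matrix.toLin' (Matrix.diagonal (d g)) = 1
    rw [this]
    have : (Matrix.diagonal (1 : Fin 2 → k)) = 1 := Matrix.diagonal_one
    rw [this, Matrix.toLin'_one]; rfl
  · intro g
    show (Matrix.toLin' (Matrix.diagonal (d g))).charpoly = _
    rw [Matrix.charpoly_toLin', Matrix.charpoly_diagonal, Fin.prod_univ_two, hrel g]
    simp only [d, Matrix.cons_val_zero, Matrix.cons_val_one, map_add, map_mul]
    have h3 : (C (ψ g) : k[X]) * C (ψ g)⁻¹ = 1 := by
      rw [← C_mul, mul_inv_cancel₀ (hψ0 g), C_1]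
    linear_combination (C (δ g : k) : k[X]) * h3

include H in
/-- the irreducible case. -/
theorem QRep.exists_rep2_irr [IsAlgClosed k] [FiniteDimensional k W] [Nontrivial W]
    (hirr : Irr r) :
    ∃ (V : Type) (_ : AddCommGroup V) (_ : Module k V) (_ : Module.Finite k V)
      (ρ : Γ →* Module.End k V),
      finrank k V = 2 ∧ (∀ g, r g = 1 → δ g = 1 → ρ g = 1) ∧
      ∀ g, (ρ g).charpoly = X ^ 2 - C (a g) * X + C (δ g : k) := by
  by_cases hs : ∀ g, IsScal r g
  · obtain ⟨ρ, h1, h2⟩ := H.exists_rep_of_scal hs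
    exact ⟨Fin 2 → k, inferInstance, inferInstance, inferInstance, ρ, by simp, h1, h2⟩
  · push Not at hs
    obtain ⟨h, hh⟩ := hs
    have h2 := H.finrank_eq_two hirr hh
    refine ⟨W, inferInstance, inferInstance, inferInstance, r, h2, fun g hg _ => hg, fun g => ?_⟩
    by_cases hg : IsScal r g
    · exact H.charpoly_of_isScal h2 hg hh
    · exact H.charpoly_of_not_isScal h2 hg

end Charpoly

section General

/-- the restriction of a representation to an invariant subspace. -/
def restr (r : Γ →* Module.End k W) (U : Submodule k W) (hU : ∀ g, ∀ x ∈ U, r g x ∈ U) :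
    Γ →* Module.End k U where
  toFun g := (r g).restrict (hU g)
  map_one' := by ext x; simp
  map_mul' g h := by ext x; simp

@[simp] theorem restr_apply (r : Γ →* Module.End k W) (U : Submodule k W)
    (hU : ∀ g, ∀ x ∈ U, r g x ∈ U) (g : Γ) (x : U) : ((restr r U hU g x : U) : W) = r g x := rfl

/-- existence of an irreducible subrepresentation. -/
theorem exists_irr_sub [FiniteDimensional k W] [Nontrivial W] (r : Γ →* Module.End k W) :
    ∃ (U : Submodule k W) (hU : ∀ g, ∀ x ∈ U, r g x ∈ U), U ≠ ⊥ ∧ Irr (restr r U hU) := by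
  let 𝒮 : Set (Submodule k W) := {S | S ≠ ⊥ ∧ ∀ g, ∀ x ∈ S, r g x ∈ S}
  have hne : 𝒮.Nonempty := ⟨⊤, top_ne_bot, fun _ _ _ => trivial⟩
  obtain ⟨U, ⟨hU0, hU⟩, hmin⟩ := WellFounded.has_min (wellFounded_lt (α := Submodule k W)) 𝒮 hne
  refine ⟨U, hU, hU0, fun S hS => ?_⟩
  have hle : S.map U.subtype ≤ U := Submodule.map_subtype_le U S
  have hinv : ∀ g, ∀ x ∈ S.map U.subtype, r g x ∈ S.map U.subtype := by
    rintro g _ ⟨y, hy, rfl⟩
    exact ⟨restr r U hU g y, hS g y hy, rfl⟩
  by_cases hb : S.map U.subtype = ⊥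
  · left
    rw [Submodule.eq_bot_iff]
    intro x hx
    have : (x : W) ∈ S.map U.subtype := ⟨x, hx, rfl⟩
    rw [hb] at this
    exact Subtype.ext (by simpa using this)
  · right
    have heq : S.map U.subtype = U := eq_of_le_of_not_lt hle (hmin _ ⟨hb, hinv⟩)
    rw [Submodule.eq_top_iff']
    intro x
    have : (x : W) ∈ S.map U.subtype := by rw [heq]; exact x.2
    obtain ⟨y, hy, hyx⟩ := this
    have : y = x := Subtype.ext hyx
    rwa [← this]

/-- **The algebra trick.** -/
theorem exists_rep2 [IsAlgClosed k] [FiniteDimensional k W] [Nontrivial W]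
    (r : Γ →* Module.End k W) (δ : Γ →* kˣ)
    (hq : ∀ g, ∃ a : k, r g ^ 2 - a • r g + (δ g : k) • 1 = 0) :
    ∃ (V : Type) (_ : AddCommGroup V) (_ : Module k V) (_ : Module.Finite k V)
      (ρ : Γ →* Module.End k V),
      finrank k V = 2 ∧ (∀ g, r g = 1 → δ g = 1 → ρ g = 1) ∧
      ∀ g (a : k), r g ^ 2 - a • r g + (δ g : k) • 1 = 0 →
        (ρ g).charpoly = X ^ 2 - C a * X + C (δ g : k) := by
  have pt : ∀ g (a : k), r g ^ 2 - a • r g + (δ g : k) • 1 = 0 →
      ∀ x, r g (r g x) = a • r g x - (δ g : k) • x := by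
    intro g a h x
    have h1 := LinearMap.congr_fun h x
    simp only [pow_two, LinearMap.add_apply, LinearMap.sub_apply, Module.End.mul_apply,
      LinearMap.smul_apply, Module.End.one_apply, LinearMap.zero_apply] at h1
    have h2 : r g (r g x) - (a • r g x - (δ g : k) • x) = 0 := by rw [← h1]; abel
    exact sub_eq_zero.1 h2
  choose a ha using hq
  have huniq : ∀ g (a' : k), r g ^ 2 - a' • r g + (δ g : k) • 1 = 0 → a' = a g := by
    intro g a' h
    obtain ⟨w, hw⟩ := exists_ne (0 : W)
    have h1 := pt g a' h (r g⁻¹ w)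
    have h2 := pt g (a g) (ha g) (r g⁻¹ w)
    rw [r_inv_apply] at h1 h2
    have h3 : (a' - a g) • w = 0 := by
      have : a' • w - (δ g : k) • r g⁻¹ w = a g • w - (δ g : k) • r g⁻¹ w := h1.symm.trans h2
      rw [sub_smul]
      have h4 := sub_left_injective this
      rw [h4, sub_self]
    exact sub_eq_zero.1 ((smul_eq_zero.1 h3).resolve_right hw)
  obtain ⟨U, hU, hU0, hirr⟩ := exists_irr_sub r
  have : Nontrivial U := (Submodule.nontrivial_iff_ne_bot).2 hU0
  have H : QRep (restr r U hU) δ a := ⟨fun g x => Subtype.ext (pt g (a g) (ha g) x)⟩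
  obtain ⟨V, i1, i2, i3, ρ, h2, htriv, hchar⟩ := H.exists_rep2_irr hirr
  refine ⟨V, i1, i2, i3, ρ, h2, fun g hg hδ => htriv g ?_ hδ, fun g a' h => ?_⟩
  · ext x
    simp [hg]
  · rw [huniq g a' h]; exact hchar g

end General

section Power

/-- the power lemma: powers of an element satisfying a quadratic relation satisfy one. -/
theorem pow_rel [IsAlgClosed k] {B : Type} [Ring B] [Algebra k B] (T : B) (a d : k)
    (h : T ^ 2 - a • T + d • 1 = 0) (j : ℕ) :
    ∃ a' : k, (T ^ j) ^ 2 - a' • T ^ j + (d ^ j) • 1 = 0 := by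
  obtain ⟨α, hα⟩ := IsAlgClosed.exists_root (X ^ 2 - C a * X + C d : k[X]) (by
    have : (X ^ 2 - C a * X + C d : k[X]).degree = 2 := by compute_degree!
    rw [this]; decide)
  have hα' : α ^ 2 - a * α + d = 0 := by simpa [IsRoot] using hα
  set β := a - α with hβ
  have hp : (X ^ 2 - C a * X + C d : k[X]) = (X - C α) * (X - C β) := by
    have h1 : d = α * β := by rw [hβ]; linear_combination hα'
    have h2 : a = α + β := by rw [hβ]; ring
    rw [h1, h2]
    simp only [map_add, map_mul]
    ring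
  have hT : aeval T (X ^ 2 - C a * X + C d : k[X]) = 0 := by
    simp only [map_add, map_sub, map_mul, map_pow, aeval_X, aeval_C]
    rw [← h, Algebra.smul_def, Algebra.smul_def, mul_one]
  have hdvd : (X - C α) * (X - C β) ∣ (X ^ j - C α ^ j) * (X ^ j - C β ^ j) :=
    mul_dvd_mul (sub_dvd_pow_sub_pow _ _ j) (sub_dvd_pow_sub_pow _ _ j)
  obtain ⟨s, hs⟩ := hdvd
  have h0 : aeval T ((X ^ j - C α ^ j) * (X ^ j - C β ^ j) : k[X]) = 0 := by
    rw [hs, ← hp, map_mul, hT, zero_mul]
  refine ⟨α ^ j + β ^ j, ?_⟩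
  have hd : d = α * β := by rw [hβ]; linear_combination hα'
  have e : ((X ^ j - C α ^ j) * (X ^ j - C β ^ j) : k[X])
      = (X ^ j) ^ 2 - C (α ^ j + β ^ j) * X ^ j + C (d ^ j) := by
    rw [hd, mul_pow]
    simp only [map_add, map_mul, map_pow]
    ring
  rw [e] at h0
  simp only [map_add, map_sub, map_mul, map_pow, aeval_X, aeval_C] at h0
  rw [← h0, Algebra.smul_def, Algebra.smul_def, mul_one]
  simp only [map_add, map_pow]

/-- quadratic relations on a "dense" subset give quadratic relations everywhere. -/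
theorem hq_of_dense [IsAlgClosed k] (r : Γ →* Module.End k W) (δ : Γ →* kˣ) (S : Set Γ)
    (hS : ∀ s ∈ S, ∃ a : k, r s ^ 2 - a • r s + (δ s : k) • 1 = 0)
    (hd : ∀ g, ∃ s ∈ S, ∃ i : ℕ, r g = r s ^ i ∧ δ g = δ s ^ i) (g : Γ) :
    ∃ a : k, r g ^ 2 - a • r g + (δ g : k) • 1 = 0 := by
  obtain ⟨s, hs, i, h1, h2⟩ := hd g
  obtain ⟨a, ha⟩ := hS s hs
  obtain ⟨a', ha'⟩ := pow_rel (r s) a (δ s : k) ha i
  exact ⟨a', by rw [h1, h2, Units.val_pow_eq_pow_val]; exact ha'⟩

end Power

end Fermat.Agent.S29.Alg
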