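import Mathlib
import Fermat.Prelude.Def_GaloisRep_Residual

set_option autoImplicit false

/-! # S29 [A3]: the mod `p` cyclotomic character -/

namespace Fermat.Agent.S29.Cyc

open Polynomial

/-- `ℚ̄`. -/
abbrev Qb := AlgebraicClosure ℚ
/-- the absolute Galois group. -/
abbrev GQ := Qb ≃ₐ[ℚ] Qb

variable (p : ℕ) [hp : Fact p.Prime]

theorem exists_zeta : ∃ ζ : Qb, IsPrimitiveRoot ζ p :=
  HasEnoughRootsOfUnity.exists_primitiveRoot Qb p

/-- a primitive `p`-th root of unity. -/
noncomputable def zeta : Qb := (exists_zeta p).choose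

theorem zeta_spec : IsPrimitiveRoot (zeta p) p := (exists_zeta p).choose_spec

/-- the cyclotomic character with values in `(ℤ/p)ˣ`. -/
noncomputable def cycZ : GQ →* (ZMod p)ˣ := (zeta_spec p).autToPow ℚ

theorem cycZ_spec (σ : GQ) : zeta p ^ (cycZ p σ : ZMod p).val = σ (zeta p) :=
  (zeta_spec p).autToPow_spec ℚ σ

theorem prim_pow_eq_iff {M : Type} [CommMonoid M] {z : M} {n : ℕ} (h : IsPrimitiveRoot z n)
    (hn : n ≠ 0) (a b : ℕ) : z ^ a = z ^ b ↔ a ≡ b [MOD n] := by
  obtain ⟨u, rfl⟩ := h.isUnit hn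
  rw [← Units.val_pow_eq_pow_val, ← Units.val_pow_eq_pow_val, Units.val_inj, pow_eq_pow_iff_modEq,
    ← orderOf_units, ← h.eq_orderOf]

theorem zeta_pow_eq_iff (a b : ℕ) : zeta p ^ a = zeta p ^ b ↔ a ≡ b [MOD p] :=
  prim_pow_eq_iff (zeta_spec p) hp.out.ne_zero a b

theorem cycZ_eq_of_apply {σ : GQ} {n : ℕ} (h : σ (zeta p) = zeta p ^ n) :
    (cycZ p σ : ZMod p) = n := by
  have h1 := cycZ_spec p σ
  rw [h] at h1
  have h2 := (zeta_pow_eq_iff p _ _).1 h1
  have h3 := (ZMod.natCast_eq_natCast_iff _ _ _).2 h2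
  rwa [ZMod.natCast_val, ZMod.cast_id', id] at h3

variable (k : Type) [Field k] [CharP k p]

/-- the mod `p` cyclotomic character with values in a field of characteristic `p`. -/
noncomputable def cyc : GQ →* kˣ := (Units.map (ZMod.castHom (dvd_refl p) k).toMonoidHom).comp (cycZ p)

theorem cyc_apply (σ : GQ) : (cyc p k σ : k) = ZMod.castHom (dvd_refl p) k (cycZ p σ : ZMod p) := rfl

theorem cyc_eq_of_apply {σ : GQ} {n : ℕ} (h : σ (zeta p) = zeta p ^ n) : (cyc p k σ : k) = n := by
  rw [cyc_apply, cycZ_eq_of_apply p h, map_natCast]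

theorem cyc_eq_one_of_apply {σ : GQ} (h : σ (zeta p) = zeta p) : cyc p k σ = 1 := by
  ext
  rw [cyc_eq_of_apply p k (n := 1) (by rw [h, pow_one])]
  simp

/-- the cyclotomic character factors through a finite level. -/
theorem factors_cyc : GaloisFactorsThroughFiniteLevel (cyc p k) := by
  have hint : IsIntegral ℚ (zeta p) := ((zeta_spec p).isIntegral hp.out.pos).tower_top
  refine ⟨IntermediateField.adjoin ℚ {zeta p}, IntermediateField.adjoin.finiteDimensional hint,
    fun σ hσ => ?_⟩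
  exact cyc_eq_one_of_apply p k (hσ _ (IntermediateField.mem_adjoin_simple_self ℚ _))

section Local

variable {p}
variable (A : ValuationSubring Qb) {ℓ : ℕ}

theorem zeta_mem : zeta p ∈ A := by
  rw [← A.valuation_le_one_iff]
  by_contra hlt
  rw [not_le] at hlt
  have h1 : A.valuation (zeta p) ^ p = 1 := by
    rw [← map_pow, (zeta_spec p).pow_eq_one, map_one]
  have h2 : 1 < A.valuation (zeta p) ^ p := one_lt_pow₀ hlt hp.out.ne_zero
  rw [h1] at h2
  exact lt_irrefl _ h2

/-- `ζ` as an element of `A`. -/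
noncomputable def zA : A := ⟨zeta p, zeta_mem A⟩

theorem natCast_residue_ne_zero (hA : A.LiesOverPrime ℓ) (hℓ : ℓ.Prime) (hne : ℓ ≠ p) :
    IsLocalRing.residue A (p : A) ≠ 0 := by
  intro h0
  rw [IsLocalRing.residue_eq_zero_iff, ValuationSubring.valuation_lt_one_iff] at h0
  have h0' : A.valuation (p : Qb) < 1 := by simpa using h0
  have h1 : A.valuation (ℓ : Qb) < 1 := A.mem_nonunits_iff.mp hA
  have hint : ∀ z : ℤ, A.valuation (z : Qb) ≤ 1 := fun z =>
    (A.valuation_le_one_iff _).mpr (intCast_mem A z)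
  have hcop : IsCoprime (p : ℤ) (ℓ : ℤ) := by
    rw [Nat.isCoprime_iff_coprime]
    exact (Nat.coprime_primes hp.out hℓ).2 hne.symm
  obtain ⟨a, b, hab⟩ := hcop
  have h3 : (a : Qb) * p + b * ℓ = 1 := by exact_mod_cast congrArg (Int.cast : ℤ → Qb) hab
  have h4 : A.valuation ((a : Qb) * p + b * ℓ) < 1 := by
    apply A.valuation.map_add_lt
    · rw [map_mul]
      exact (mul_le_of_le_one_left' (hint a)).trans_lt h0'
    · rw [map_mul]
      exact (mul_le_of_le_one_left' (hint b)).trans_lt h1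
  rw [h3, map_one] at h4
  exact lt_irrefl _ h4

theorem orderOf_residue_zA (hA : A.LiesOverPrime ℓ) (hℓ : ℓ.Prime) (hne : ℓ ≠ p) :
    orderOf (IsLocalRing.residue A (zA (p := p) A)) = p := by
  apply orderOf_eq_prime
  · rw [← map_pow]
    have : (zA (p := p) A) ^ p = 1 := Subtype.ext (zeta_spec p).pow_eq_one
    rw [this, map_one]
  · intro h1
    have hs : ∑ i ∈ Finset.range p, (zA (p := p) A) ^ i = 0 := by
      apply Subtype.ext
      have := (zeta_spec p).geom_sum_eq_zero hp.out.one_lt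
      push_cast
      exact this
    have h2 := congrArg (IsLocalRing.residue A) hs
    rw [map_sum, map_zero] at h2
    simp only [map_pow, h1, one_pow, Finset.sum_const, Finset.card_range, nsmul_eq_mul,
      mul_one] at h2
    apply natCast_residue_ne_zero A hA hℓ hne
    rw [map_natCast]; exact h2

/-- if `σ` is in the decomposition group and acts on `ζ̄` as the `n`-th power, then `σ ζ = ζ ^ n`. -/
theorem apply_zeta_of_residue (hA : A.LiesOverPrime ℓ) (hℓ : ℓ.Prime) (hne : ℓ ≠ p)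
    (g : A.decompositionSubgroup ℚ) (n : ℕ)
    (h : g • IsLocalRing.residue A (zA (p := p) A) = IsLocalRing.residue A (zA (p := p) A) ^ n) :
    (g : GQ) (zeta p) = zeta p ^ n := by
  have h1 := cycZ_spec p (g : GQ)
  rw [← h1]
  rw [zeta_pow_eq_iff]
  rw [← IsLocalRing.ResidueField.residue_smul] at h
  have h2 : g • (zA (p := p) A) = (zA (p := p) A) ^ (cycZ p (g : GQ) : ZMod p).val :=
    Subtype.ext h1.symm
  rw [h2, map_pow] at h
  have hprim := IsPrimitiveRoot.orderOf (IsLocalRing.residue A (zA (p := p) A))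
  rw [orderOf_residue_zA A hA hℓ hne] at hprim
  exact (prim_pow_eq_iff hprim hp.out.ne_zero _ _).1 h

/-- the value of the cyclotomic character at a Frobenius element. -/
theorem cyc_frobenius (hA : A.LiesOverPrime ℓ) (hℓ : ℓ.Prime) (hne : ℓ ≠ p) {σ : GQ}
    (hσ : A.IsFrobeniusAt σ ℓ) : (cyc p k σ : k) = ℓ := by
  obtain ⟨hd, hx⟩ := hσ
  exact cyc_eq_of_apply p k (apply_zeta_of_residue A hA hℓ hne ⟨σ, hd⟩ ℓ (hx _))

/-- the cyclotomic character is unramified outside `p`. -/
theorem cyc_inertia (hA : A.LiesOverPrime ℓ) (hℓ : ℓ.Prime) (hne : ℓ ≠ p) {σ : GQ}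
    (hσ : σ ∈ A.inertiaSubgroupIn ℚ) : cyc p k σ = 1 := by
  obtain ⟨g, hg, rfl⟩ := hσ
  have h1 : ∀ r : IsLocalRing.ResidueField A, g • r = r := by
    intro r
    have := congrArg (fun f => f r) (MonoidHom.mem_ker.mp hg)
    simpa using this
  apply cyc_eq_one_of_apply
  have := apply_zeta_of_residue (p := p) A hA hℓ hne g 1 (by rw [h1, pow_one])
  rwa [pow_one] at this

end Local

end Fermat.Agent.S29.Cyc
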