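import Mathlib
import Fermat.Agent.S29.AlgTrick
import Fermat.Agent.S29.Cyclo

set_option autoImplicit false

/-! # S29 [A5]: packaging of the algebra trick, the cyclotomic character and Frobenius density -/

namespace Fermat.Agent.S29.Alg

open Polynomial Module Fermat.Agent.S29.Cyc

/-- the weak Frobenius density statement (proved in the block [Dens]). -/
def DensStmt : Prop :=
  ∀ (L : IntermediateField ℚ Qb) [FiniteDimensional ℚ L] (σ : GQ) (D : ℕ), D ≠ 0 →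
    ∃ ℓ : ℕ, ℓ.Prime ∧ ¬ ℓ ∣ D ∧ ∃ A : ValuationSubring Qb, A.LiesOverPrime ℓ ∧
      ∃ τ : GQ, A.IsFrobeniusAt τ ℓ ∧ ∃ i : ℕ, ∀ x ∈ L, (τ ^ i) x = σ x

theorem eq_of_agree {M : Type} [Monoid M] (f : GQ →* M) (L : IntermediateField ℚ Qb)
    (hL : ∀ σ : GQ, (∀ x ∈ L, σ x = x) → f σ = 1) {σ τ : GQ} (h : ∀ x ∈ L, τ x = σ x) :
    f σ = f τ := by
  have h1 : f (τ⁻¹ * σ) = 1 := by
    apply hL
    intro x hx
    rw [AlgEquiv.mul_apply, ← h x hx]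
    exact τ.symm_apply_apply x
  have h2 : f σ = f τ * f (τ⁻¹ * σ) := by
    rw [← map_mul, mul_inv_cancel_left]
  rw [h2, h1, mul_one]

/-- **Packaging.** A nonzero finite-dimensional representation of `G_ℚ` of finite level over an
algebraically closed field of characteristic `p`, on which the Frobenius lifts at `ℓ ∤ D` satisfy
`X² - a_ℓ X + ℓ` and the inertia groups at `ℓ ∤ D` act trivially, gives a two-dimensional residual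
representation with these characteristic polynomials, unramified outside `D`. -/
theorem exists_residual (hdens : DensStmt) {p : ℕ} [Fact p.Prime] {k : Type} [Field k] [CharP k p]
    [IsAlgClosed k] {W : Type} [AddCommGroup W] [Module k W] [FiniteDimensional k W] [Nontrivial W]
    (r : GQ →* Module.End k W) (hfin : GaloisFactorsThroughFiniteLevel r)
    (D : ℕ) (hD : D ≠ 0) (hpD : p ∣ D) (af : ℕ → k)
    (hfrob : ∀ ℓ : ℕ, ℓ.Prime → ¬ ℓ ∣ D → ∀ A : ValuationSubring Qb, A.LiesOverPrime ℓ →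
      ∀ σ : GQ, A.IsFrobeniusAt σ ℓ → r σ ^ 2 - af ℓ • r σ + (ℓ : k) • 1 = 0)
    (hin : ∀ ℓ : ℕ, ℓ.Prime → ¬ ℓ ∣ D → ∀ A : ValuationSubring Qb, A.LiesOverPrime ℓ →
      ∀ σ ∈ A.inertiaSubgroupIn ℚ, r σ = 1) :
    ∃ ρ : ResidualGaloisRep k,
      (∀ ℓ : ℕ, ℓ.Prime → ¬ ℓ ∣ D → ∀ A : ValuationSubring Qb, A.LiesOverPrime ℓ →
        ∀ σ : GQ, A.IsFrobeniusAt σ ℓ →
          LinearMap.charpoly (ρ.ρ σ) = X ^ 2 - C (af ℓ) * X + C ((ℓ : k))) ∧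
      ∀ ℓ : ℕ, ℓ.Prime → ¬ ℓ ∣ D → ρ.IsUnramifiedAt ℓ := by
  obtain ⟨L₁, hL₁fd, hL₁⟩ := hfin
  obtain ⟨L₂, hL₂fd, hL₂⟩ := factors_cyc p k
  let L := L₁ ⊔ L₂
  have hLfd : FiniteDimensional ℚ L := IntermediateField.finiteDimensional_sup L₁ L₂
  have hLr : ∀ σ : GQ, (∀ x ∈ L, σ x = x) → r σ = 1 := fun σ h =>
    hL₁ σ fun x hx => h x ((le_sup_left : L₁ ≤ L) hx)
  have hLδ : ∀ σ : GQ, (∀ x ∈ L, σ x = x) → cyc p k σ = 1 := fun σ h =>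
    hL₂ σ fun x hx => h x ((le_sup_right : L₂ ≤ L) hx)
  have hne : ∀ ℓ : ℕ, ¬ ℓ ∣ D → ℓ ≠ p := by
    rintro ℓ h rfl; exact h hpD
  let S : Set GQ := {τ | ∃ ℓ : ℕ, ℓ.Prime ∧ ¬ ℓ ∣ D ∧ ∃ A : ValuationSubring Qb,
    A.LiesOverPrime ℓ ∧ A.IsFrobeniusAt τ ℓ}
  have hS : ∀ s ∈ S, ∃ a : k, r s ^ 2 - a • r s + (cyc p k s : k) • 1 = 0 := by
    rintro s ⟨ℓ, hℓ, hℓD, A, hA, hs⟩
    exact ⟨af ℓ, by rw [cyc_frobenius k A hA hℓ (hne ℓ hℓD) hs]; exact hfrob ℓ hℓ hℓD A hA s hs⟩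
  have hd : ∀ g : GQ, ∃ s ∈ S, ∃ i : ℕ, r g = r s ^ i ∧ cyc p k g = cyc p k s ^ i := by
    intro g
    obtain ⟨ℓ, hℓ, hℓD, A, hA, τ, hτ, i, hi⟩ := hdens L g D hD
    refine ⟨τ, ⟨ℓ, hℓ, hℓD, A, hA, hτ⟩, i, ?_, ?_⟩
    · rw [← map_pow]; exact eq_of_agree r L hLr hi
    · rw [← map_pow]; exact eq_of_agree (cyc p k) L hLδ hi
  obtain ⟨V, i1, i2, i3, ρ, h2, htriv, hchar⟩ :=
    exists_rep2 r (cyc p k) (hq_of_dense r (cyc p k) S hS hd)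
  refine ⟨{ V := V, finrank_eq := h2, ρ := ρ,
            factorsThroughFiniteLevel := ⟨L, hLfd, fun σ hσ => htriv σ (hLr σ hσ) (hLδ σ hσ)⟩ },
    ?_, ?_⟩
  · intro ℓ hℓ hℓD A hA σ hσ
    have h1 := hchar σ (af ℓ) (by
      rw [cyc_frobenius k A hA hℓ (hne ℓ hℓD) hσ]; exact hfrob ℓ hℓ hℓD A hA σ hσ)
    rw [cyc_frobenius k A hA hℓ (hne ℓ hℓD) hσ] at h1
    exact h1
  · intro ℓ hℓ hℓD A hA σ hσ
    exact htriv σ (hin ℓ hℓ hℓD A hA σ hσ) (cyc_inertia k A hA hℓ (hne ℓ hℓD) hσ)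

end Fermat.Agent.S29.Alg
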