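import Fermat.Agent.S29.DensMain
import Fermat.Agent.S29.AlgPack

set_option autoImplicit false

/-! # S29 [A2]: the density statement in the shape consumed by `AlgPack` -/

namespace Fermat.Agent.S29.Dens

theorem densStmt : Alg.DensStmt := fun L _ σ D hD => exists_frobenius_pow L σ D hD

end Fermat.Agent.S29.Dens
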