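import Mathlib
import Fermat.Prelude.Def_ModularCurve_X0
import Fermat.Prelude.Def_ModularCurve_LaurentCoeff
import Fermat.Prelude.Thm_ModularCurve_coeffMap_qExpand

set_option autoImplicit false

/-! # S29 [H2]: the formal Hecke operator `T_ℓ` on Laurent series

`heckeS ℓ u a = a(q^ℓ) * ∏_{i<ℓ} a(u^i q^{1/ℓ})`. -/

namespace Fermat.Agent.S29

open ModularCurve

noncomputable section

variable {R : Type*} [CommRing R]

/-- underlying function of `rotU`. -/
def rotFunU (u : Rˣ) (f : LaurentSeries R) : LaurentSeries R where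
  coeff n := ((u ^ n : Rˣ) : R) * f.coeff n
  isPWO_support' := f.isPWO_support.mono (by
    intro n hn
    simp only [Function.mem_support, ne_eq] at hn
    intro h
    exact hn (by rw [h, mul_zero]))

@[simp] theorem rotFunU_coeff (u : Rˣ) (f : LaurentSeries R) (n : ℤ) :
    (rotFunU u f).coeff n = ((u ^ n : Rˣ) : R) * f.coeff n := rfl

/-- `t ↦ u t` on Laurent series. -/
def rotU (u : Rˣ) : LaurentSeries R →+* LaurentSeries R where
  toFun := rotFunU u
  map_one' := by
    ext n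
    rw [rotFunU_coeff, HahnSeries.coeff_one]
    split_ifs with h
    · simp [h]
    · simp
  map_zero' := by
    ext n
    simp
  map_add' f g := by
    ext n
    simp [mul_add]
  map_mul' f g := by
    ext n
    rw [rotFunU_coeff, HahnSeries.coeff_mul, HahnSeries.coeff_mul, Finset.mul_sum]
    refine Finset.sum_congr ?_ fun ij hij => ?_
    · ext ij
      simp
    · have h := (Finset.mem_antidiagonal.mp hij).2.2
      rw [rotFunU_coeff, rotFunU_coeff, ← h, zpow_add, Units.val_mul]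
      ring

@[simp] theorem rotU_coeff (u : Rˣ) (f : LaurentSeries R) (n : ℤ) :
    (rotU u f).coeff n = ((u ^ n : Rˣ) : R) * f.coeff n := rfl

theorem rotU_one (f : LaurentSeries R) : rotU (1 : Rˣ) f = f := by
  ext n
  simp

theorem rotU_rotU (u v : Rˣ) (f : LaurentSeries R) : rotU u (rotU v f) = rotU (u * v) f := by
  ext n
  rw [rotU_coeff, rotU_coeff, rotU_coeff, mul_zpow, Units.val_mul, mul_assoc]

theorem coeffMap_rotU {S : Type*} [CommRing S] (φ : R →+* S) (u : Rˣ) (f : LaurentSeries R) :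
    coeffMap φ (rotU u f) = rotU (Units.map (φ : R →* S) u) (coeffMap φ f) := by
  ext n
  rw [coeffMap_coeff, rotU_coeff, rotU_coeff, coeffMap_coeff, map_mul, ← map_zpow]
  rfl

/-- `(qContract ℓ x).coeff n = x.coeff (ℓ n)`. -/
def qContract (ℓ : ℕ) [NeZero ℓ] (f : LaurentSeries R) : LaurentSeries R :=
  HahnSeries.ofSuppBddBelow (fun n : ℤ => f.coeff ((ℓ : ℤ) * n))
    ⟨min f.order 0, by
      intro m hm
      by_contra hlt
      rw [not_le] at hlt
      apply hm
      apply HahnSeries.coeff_eq_zero_of_lt_order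
      have h1 : m < f.order := lt_of_lt_of_le hlt (min_le_left _ _)
      have h2 : m < 0 := lt_of_lt_of_le hlt (min_le_right _ _)
      have h3 : (1 : ℤ) ≤ ℓ := by exact_mod_cast Nat.pos_of_ne_zero (NeZero.ne ℓ)
      nlinarith⟩

section
variable (ℓ : ℕ) [NeZero ℓ]

@[simp] theorem qContract_coeff (f : LaurentSeries R) (n : ℤ) :
    (qContract ℓ f).coeff n = f.coeff ((ℓ : ℤ) * n) := rfl

theorem qContract_qExpand (f : LaurentSeries R) : qContract ℓ (qExpand R ℓ f) = f := by
  ext n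
  rw [qContract_coeff, qExpand_coeff_mul]

theorem qExpand_qContract (f : LaurentSeries R) (h : ∀ n : ℤ, ¬ (ℓ : ℤ) ∣ n → f.coeff n = 0) :
    qExpand R ℓ (qContract ℓ f) = f := by
  ext n
  by_cases hn : (ℓ : ℤ) ∣ n
  · obtain ⟨m, rfl⟩ := hn
    rw [qExpand_coeff_mul, qContract_coeff]
  · rw [qExpand_coeff_of_not_dvd ℓ _ hn, h n hn]

theorem coeffMap_qContract {S : Type*} [CommRing S] (φ : R →+* S) (f : LaurentSeries R) :
    coeffMap φ (qContract ℓ f) = qContract ℓ (coeffMap φ f) := by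
  ext n
  simp [coeffMap_coeff]

/-- `∏_{i<ℓ} a(u^i t)`. -/
def prodRot (u : Rˣ) (a : LaurentSeries R) : LaurentSeries R :=
  ∏ i ∈ Finset.range ℓ, rotU (u ^ i) a

/-- the formal Hecke operator. -/
def heckeS (u : Rˣ) (a : LaurentSeries R) : LaurentSeries R :=
  qExpand R ℓ a * qContract ℓ (prodRot ℓ u a)

omit [NeZero ℓ] in
theorem coeffMap_prodRot {S : Type*} [CommRing S] (φ : R →+* S) (u : Rˣ) (a : LaurentSeries R) :
    coeffMap φ (prodRot ℓ u a) = prodRot ℓ (Units.map (φ : R →* S) u) (coeffMap φ a) := by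
  unfold prodRot
  rw [map_prod]
  refine Finset.prod_congr rfl fun i _ => ?_
  rw [coeffMap_rotU, map_pow]

/-- (H2.1) compatibility with coefficient maps. -/
theorem coeffMap_heckeS {S : Type*} [CommRing S] (φ : R →+* S) (u : Rˣ) (a : LaurentSeries R) :
    coeffMap φ (heckeS ℓ u a) = heckeS ℓ (Units.map (φ : R →* S) u) (coeffMap φ a) := by
  unfold heckeS
  rw [map_mul, coeffMap_qContract, coeffMap_prodRot, coeffMap_qExpand]

omit [NeZero ℓ] in
theorem prodRot_mul (u : Rˣ) (a b : LaurentSeries R) :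
    prodRot ℓ u (a * b) = prodRot ℓ u a * prodRot ℓ u b := by
  unfold prodRot
  rw [← Finset.prod_mul_distrib]
  exact Finset.prod_congr rfl fun i _ => map_mul _ _ _

omit [NeZero ℓ] in
theorem prodRot_one (u : Rˣ) : prodRot ℓ u (1 : LaurentSeries R) = 1 := by
  unfold prodRot
  exact Finset.prod_eq_one fun i _ => map_one _

theorem rotU_prodRot (u : Rˣ) (hu : u ^ ℓ = 1) (a : LaurentSeries R) :
    rotU u (prodRot ℓ u a) = prodRot ℓ u a := by
  obtain ⟨m, hm⟩ : ∃ m, ℓ = m + 1 := Nat.exists_eq_succ_of_ne_zero (NeZero.ne ℓ)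
  unfold prodRot
  rw [map_prod]
  have h1 : ∀ i, rotU u (rotU (u ^ i) a) = rotU (u ^ (i + 1)) a := fun i => by
    rw [rotU_rotU, pow_succ']
  simp_rw [h1]
  rw [hm, Finset.prod_range_succ, Finset.prod_range_succ' (fun i => rotU (u ^ i) a), ← hm, hu,
    pow_zero]

theorem prodRot_coeff_of_not_dvd [IsDomain R] (u : Rˣ) (hu : IsPrimitiveRoot u ℓ)
    (a : LaurentSeries R) (n : ℤ) (hn : ¬ (ℓ : ℤ) ∣ n) : (prodRot ℓ u a).coeff n = 0 := by
  have h := congrArg (fun x : LaurentSeries R => x.coeff n) (rotU_prodRot ℓ u hu.pow_eq_one a)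
  simp only [rotU_coeff] at h
  have h1 : (((u ^ n : Rˣ) : R) - 1) * (prodRot ℓ u a).coeff n = 0 := by
    rw [sub_mul, one_mul, h, sub_self]
  rcases mul_eq_zero.mp h1 with h2 | h2
  · exfalso
    apply hn
    rw [← hu.zpow_eq_one_iff_dvd]
    apply Units.ext
    rw [Units.val_one]
    exact sub_eq_zero.mp h2
  · exact h2

theorem qExpand_qContract_prodRot [IsDomain R] (u : Rˣ) (hu : IsPrimitiveRoot u ℓ)
    (a : LaurentSeries R) : qExpand R ℓ (qContract ℓ (prodRot ℓ u a)) = prodRot ℓ u a :=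
  qExpand_qContract ℓ _ (prodRot_coeff_of_not_dvd ℓ u hu a)

/-- (H2.2) multiplicativity. -/
theorem heckeS_mul [IsDomain R] (u : Rˣ) (hu : IsPrimitiveRoot u ℓ) (a b : LaurentSeries R) :
    heckeS ℓ u (a * b) = heckeS ℓ u a * heckeS ℓ u b := by
  have h : qContract ℓ (prodRot ℓ u (a * b)) =
      qContract ℓ (prodRot ℓ u a) * qContract ℓ (prodRot ℓ u b) := by
    apply qExpand_injective (R := R) ℓ
    rw [map_mul, qExpand_qContract_prodRot ℓ u hu, qExpand_qContract_prodRot ℓ u hu,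
      qExpand_qContract_prodRot ℓ u hu, prodRot_mul]
  unfold heckeS
  rw [h, map_mul]
  ring

theorem heckeS_one (u : Rˣ) : heckeS ℓ u (1 : LaurentSeries R) = 1 := by
  unfold heckeS
  rw [prodRot_one, map_one, one_mul]
  have h := qContract_qExpand ℓ (1 : LaurentSeries R)
  rwa [map_one] at h

/-- the key formula in `R((t))`, `t = q^{1/ℓ}`. -/
theorem qExpand_heckeS [IsDomain R] (u : Rˣ) (hu : IsPrimitiveRoot u ℓ) (a : LaurentSeries R) :
    qExpand R ℓ (heckeS ℓ u a) = qExpand R ℓ (qExpand R ℓ a) * prodRot ℓ u a := by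
  unfold heckeS
  rw [map_mul, qExpand_qContract_prodRot ℓ u hu]

/-- (H2.3) independence of the primitive root. -/
theorem prodRot_eq_of_isPrimitiveRoot [IsDomain R] (u v : Rˣ) (hu : IsPrimitiveRoot u ℓ)
    (hv : IsPrimitiveRoot v ℓ) (a : LaurentSeries R) : prodRot ℓ u a = prodRot ℓ v a := by
  classical
  have key : ∀ w : Rˣ, IsPrimitiveRoot w ℓ → prodRot ℓ w a =
      ∏ ξ ∈ (Finset.range ℓ).image (fun i => w ^ i), rotU ξ a := by
    intro w hw
    unfold prodRot
    rw [Finset.prod_image]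
    intro i hi j hj hij
    exact hw.pow_inj (Finset.mem_range.mp hi) (Finset.mem_range.mp hj) hij
  have hcard : ∀ w : Rˣ, IsPrimitiveRoot w ℓ →
      ((Finset.range ℓ).image (fun i => w ^ i)).card = ℓ := by
    intro w hw
    rw [Finset.card_image_of_injOn, Finset.card_range]
    intro i hi j hj hij
    exact hw.pow_inj (Finset.mem_range.mp hi) (Finset.mem_range.mp hj) hij
  rw [key u hu, key v hv]
  congr 1
  apply Finset.eq_of_subset_of_card_le
  · intro ξ hξ
    obtain ⟨i, -, rfl⟩ := Finset.mem_image.mp hξ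
    have h1 : (u ^ i) ^ ℓ = 1 := by rw [← pow_mul, mul_comm, pow_mul, hu.pow_eq_one, one_pow]
    have h2 : (((u ^ i : Rˣ) : R)) ^ ℓ = 1 := by
      rw [← Units.val_pow_eq_pow_val, h1, Units.val_one]
    obtain ⟨j, hj, hj'⟩ := (IsPrimitiveRoot.coe_units_iff.mpr hv).eq_pow_of_pow_eq_one h2
    refine Finset.mem_image.mpr ⟨j, Finset.mem_range.mpr hj, Units.ext ?_⟩
    rw [Units.val_pow_eq_pow_val, hj']
  · rw [hcard u hu, hcard v hv]

theorem heckeS_eq_of_isPrimitiveRoot [IsDomain R] (u v : Rˣ) (hu : IsPrimitiveRoot u ℓ)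
    (hv : IsPrimitiveRoot v ℓ) (a : LaurentSeries R) : heckeS ℓ u a = heckeS ℓ v a := by
  unfold heckeS
  rw [prodRot_eq_of_isPrimitiveRoot ℓ u v hu hv]

omit [NeZero ℓ] in
theorem prodRot_one_left (a : LaurentSeries R) : prodRot ℓ (1 : Rˣ) a = a ^ ℓ := by
  unfold prodRot
  simp [rotU_one]

end

end

end Fermat.Agent.S29
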