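import Mathlib
import Fermat.Agent.S29.HeckeS

set_option autoImplicit false
set_option linter.style.haveILetI false

namespace Fermat.Agent.S29

open ModularCurve

noncomputable section

variable {R : Type*} [CommRing R] (ℓ : ℕ) [hℓ : Fact ℓ.Prime] [CharP R ℓ]

theorem powerSeries_coeff_pow_char (g : PowerSeries R) (n : ℕ) :
    PowerSeries.coeff n (g ^ ℓ) = if ℓ ∣ n then (PowerSeries.coeff (n / ℓ) g) ^ ℓ else 0 := by
  haveI : CharP (PowerSeries R) ℓ :=
    charP_of_injective_ringHom (PowerSeries.C_injective (R := R)) ℓ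
  have h1 := PowerSeries.eq_X_pow_mul_shift_add_trunc (n + 1) g
  set s := PowerSeries.mk fun i => PowerSeries.coeff (i + (n + 1)) g with hs
  set t := PowerSeries.trunc (n + 1) g with ht
  have h2 : g ^ ℓ = PowerSeries.X ^ ((n + 1) * ℓ) * s ^ ℓ + ((t ^ ℓ : Polynomial R) : PowerSeries R) := by
    conv_lhs => rw [h1]
    rw [add_pow_char, mul_pow, ← pow_mul, Polynomial.coe_pow]
  have h3 : n < (n + 1) * ℓ := by
    have := hℓ.out.one_lt
    nlinarith
  rw [h2, map_add, PowerSeries.coeff_X_pow_mul', if_neg (by omega), zero_add,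
    Polynomial.coeff_coe, ← Polynomial.map_frobenius_expand ℓ, Polynomial.coeff_map, Polynomial.coeff_expand hℓ.out.pos]
  split_ifs with hd
  · rw [frobenius_def, ht, PowerSeries.coeff_trunc, if_pos]
    exact lt_of_le_of_lt (Nat.div_le_self _ _) (Nat.lt_succ_self n)
  · simp

theorem pow_char_eq (a : LaurentSeries R) :
    a ^ ℓ = (haveI : NeZero ℓ := ⟨hℓ.out.ne_zero⟩; qExpand R ℓ (coeffMap (frobenius R ℓ) a)) := by
  haveI : NeZero ℓ := ⟨hℓ.out.ne_zero⟩
  have key : ∀ g : PowerSeries R, (HahnSeries.ofPowerSeries ℤ R g) ^ ℓ =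
      qExpand R ℓ (coeffMap (frobenius R ℓ) (HahnSeries.ofPowerSeries ℤ R g)) := by
    intro g
    rw [← map_pow]
    ext n
    rcases lt_or_ge n 0 with hn | hn
    · rw [ofPowerSeries_coeff_of_neg _ hn]
      by_cases hd : (ℓ : ℤ) ∣ n
      · obtain ⟨m, rfl⟩ := hd
        have hm : m < 0 := by
          by_contra h
          rw [not_lt] at h
          have : (0 : ℤ) ≤ ℓ * m := mul_nonneg (Int.natCast_nonneg _) h
          omega
        rw [qExpand_coeff_mul, coeffMap_coeff, ofPowerSeries_coeff_of_neg _ hm, map_zero]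
      · rw [qExpand_coeff_of_not_dvd ℓ _ hd]
    · lift n to ℕ using hn
      rw [HahnSeries.ofPowerSeries_apply_coeff, powerSeries_coeff_pow_char]
      split_ifs with hd
      · obtain ⟨m, rfl⟩ := hd
        rw [Nat.mul_div_cancel_left _ hℓ.out.pos]
        push_cast
        rw [qExpand_coeff_mul, coeffMap_coeff, HahnSeries.ofPowerSeries_apply_coeff, frobenius_def]
      · rw [qExpand_coeff_of_not_dvd ℓ _ (by exact_mod_cast hd)]
  conv_lhs => rw [← LaurentSeries.single_order_mul_powerSeriesPart a]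
  conv_rhs => rw [← LaurentSeries.single_order_mul_powerSeriesPart a]
  rw [mul_pow, map_mul, map_mul, ← key, HahnSeries.single_pow, coeffMap_single, qExpand_single]
  simp

/-- (H2.4) the formal Hecke operator in characteristic `ℓ`. -/
theorem heckeS_char (a : LaurentSeries R) :
    (haveI : NeZero ℓ := ⟨hℓ.out.ne_zero⟩; heckeS ℓ (1 : Rˣ) a) =
      (haveI : NeZero ℓ := ⟨hℓ.out.ne_zero⟩; qExpand R ℓ a) * coeffMap (frobenius R ℓ) a := by
  haveI : NeZero ℓ := ⟨hℓ.out.ne_zero⟩
  unfold heckeS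
  rw [prodRot_one_left, pow_char_eq ℓ a, qContract_qExpand]

end
end Fermat.Agent.S29
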