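import Mathlib
import Fermat.Agent.S24.ModDefs
import Fermat.Agent.S29.HeckeS
import Fermat.Agent.S29.HeckeChar

set_option autoImplicit false
set_option linter.style.haveILetI false

/-! # S29: common definitions -/

namespace Fermat.Agent.S29

open ModularCurve AlgebraicCurve Fermat.Agent.S24

noncomputable section

/-- the Galois action on `FN N` (on `q`-expansion coefficients). -/
abbrev gal (N : ℕ) (σ : Kb ≃ₐ[ℚ] Kb) : FN N ≃+* FN N := arithmeticRingAut (modularFunctionFieldFull N) σ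

theorem coe_gal (N : ℕ) (σ : Kb ≃ₐ[ℚ] Kb) (x : FN N) :
    ((gal N σ x : FN N) : LaurentSeries Kb) = coeffMap (σ : Kb →+* Kb) (x : LaurentSeries Kb) := rfl

theorem gal_mul (N : ℕ) (σ τ : Kb ≃ₐ[ℚ] Kb) (x : FN N) : gal N (σ * τ) x = gal N σ (gal N τ x) := by
  apply Subtype.ext
  rw [coe_gal, coe_gal, coe_gal, coeffMap_coeffMap]
  exact coeffMap_congr (RingHom.ext fun _ => rfl) _

theorem gal_one (N : ℕ) (x : FN N) : gal N 1 x = x := by
  apply Subtype.ext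
  rw [coe_gal]
  rw [show ((1 : Kb ≃ₐ[ℚ] Kb) : Kb →+* Kb) = RingHom.id Kb from RingHom.ext fun _ => rfl, coeffMap_id]

/-- all orders of `f` are divisible by `p`. -/
def DivBy (p : ℕ) (K : Type) {F : Type} [Field K] [Field F] [Algebra K F] (f : F) : Prop :=
  ∀ P : Place K F, (p : ℤ) ∣ P.ord f

theorem exists_zl (ℓ : ℕ) [NeZero ℓ] : ∃ u : Kbˣ, IsPrimitiveRoot u ℓ := by
  obtain ⟨ζ, hζ⟩ := HasEnoughRootsOfUnity.exists_primitiveRoot Kb ℓ
  obtain ⟨u, rfl⟩ := hζ.isUnit (NeZero.ne ℓ)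
  exact ⟨u, IsPrimitiveRoot.coe_units_iff.mp hζ⟩

/-- a primitive `ℓ`-th root of unity in `ℚ̄`. -/
def zl (ℓ : ℕ) [NeZero ℓ] : Kbˣ := (exists_zl ℓ).choose

theorem zl_spec (ℓ : ℕ) [NeZero ℓ] : IsPrimitiveRoot (zl ℓ) ℓ := (exists_zl ℓ).choose_spec

/-- [H3]: the formal Hecke operator preserves `FN N`. -/
def HeckeMem (N ℓ : ℕ) [NeZero ℓ] : Prop :=
  ∀ x : FN N, heckeS ℓ (zl ℓ) (x : LaurentSeries Kb) ∈ modularFunctionFieldBar N

open Classical in
/-- the Hecke operator on `FN N` (multiplicative version: `f ↦ f(ℓz) ∏ f((z+i)/ℓ)`). -/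
def TT (N ℓ : ℕ) [NeZero ℓ] (x : FN N) : FN N :=
  if h : heckeS ℓ (zl ℓ) (x : LaurentSeries Kb) ∈ modularFunctionFieldBar N then ⟨_, h⟩ else 1

section
variable {N ℓ : ℕ} [NeZero ℓ] (hm : HeckeMem N ℓ)
include hm

theorem coe_TT (x : FN N) :
    ((TT N ℓ x : FN N) : LaurentSeries Kb) = heckeS ℓ (zl ℓ) (x : LaurentSeries Kb) := by
  unfold TT
  rw [dif_pos (hm x)]

theorem TT_mul (x y : FN N) : TT N ℓ (x * y) = TT N ℓ x * TT N ℓ y := by
  apply Subtype.ext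
  rw [coe_TT hm]
  change _ = ((TT N ℓ x : FN N) : LaurentSeries Kb) * ((TT N ℓ y : FN N) : LaurentSeries Kb)
  rw [coe_TT hm, coe_TT hm]
  exact heckeS_mul ℓ (zl ℓ) (zl_spec ℓ) _ _

theorem TT_one : TT N ℓ (1 : FN N) = 1 := by
  apply Subtype.ext
  rw [coe_TT hm]
  exact heckeS_one ℓ (zl ℓ)

/-- `TT` as a monoid homomorphism. -/
def TThom : FN N →* FN N where
  toFun := TT N ℓ
  map_one' := TT_one hm
  map_mul' := TT_mul hm

theorem TThom_apply (x : FN N) : TThom hm x = TT N ℓ x := rfl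

theorem TT_pow (x : FN N) (n : ℕ) : TT N ℓ (x ^ n) = TT N ℓ x ^ n := map_pow (TThom hm) x n

theorem TT_ne_zero {x : FN N} (hx : x ≠ 0) : TT N ℓ x ≠ 0 := by
  intro h
  have h1 := TT_mul hm x x⁻¹
  rw [mul_inv_cancel₀ hx, TT_one hm, h, zero_mul] at h1
  exact one_ne_zero h1

theorem TT_inv {x : FN N} (hx : x ≠ 0) : TT N ℓ x⁻¹ = (TT N ℓ x)⁻¹ := by
  have h1 := TT_mul hm x x⁻¹
  rw [mul_inv_cancel₀ hx, TT_one hm] at h1
  exact eq_inv_of_mul_eq_one_right h1.symm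

theorem TT_div {x y : FN N} (hy : y ≠ 0) : TT N ℓ (x / y) = TT N ℓ x / TT N ℓ y := by
  rw [div_eq_mul_inv, TT_mul hm, TT_inv hm hy, div_eq_mul_inv]

/-- the Hecke operator commutes with the Galois action. -/
theorem gal_TT (σ : Kb ≃ₐ[ℚ] Kb) (x : FN N) : gal N σ (TT N ℓ x) = TT N ℓ (gal N σ x) := by
  apply Subtype.ext
  rw [coe_gal, coe_TT hm, coe_TT hm, coe_gal, coeffMap_heckeS]
  apply heckeS_eq_of_isPrimitiveRoot ℓ _ _ _ (zl_spec ℓ)
  exact (zl_spec ℓ).map_of_injective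
    (f := Units.map ((σ : Kb →+* Kb) : Kb →* Kb))
    (Units.map_injective (f := ((σ : Kb →+* Kb) : Kb →* Kb)) σ.injective)

end

end

end Fermat.Agent.S29
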