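import Mathlib
import Fermat.Agent.S18.Asm4
import Fermat.Agent.S18.Asm5
import Fermat.Agent.S18.Glue5
import Fermat.Agent.S18.Glue23
import Fermat.Agent.S18.Mo3aThreeFinal

set_option autoImplicit false
set_option synthInstance.maxHeartbeats 400000

/-! # S29: the CORE statement at every level `N` prime to `ℓ` (all `ℓ`, including `2, 3`) -/

namespace Fermat.Agent.S29

open ModularCurve AlgebraicCurve IntermediateField Fermat.Agent.S24
open Fermat.Agent.S18 Fermat.Agent.S18.Asm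

theorem natCast_map_eq_zero (A : ValuationSubring Kb) {ℓ : ℕ} (hA : A.LiesOverPrime ℓ)
    {k : Type} [Field k] (π : A →+* k) (hπ : Function.Surjective π) : (ℓ : k) = 0 := by
  by_contra hne
  have h1 : π (ℓ : A) ≠ 0 := by rwa [map_natCast]
  have h2 : IsUnit (ℓ : A) := Mo1.isUnit_of_map_ne_zero hπ h1
  obtain ⟨ha, hm⟩ := A.mem_nonunits_iff_exists_mem_maximalIdeal.mp hA
  have h3 : (⟨(ℓ : Kb), ha⟩ : A) = (ℓ : A) := Subtype.ext (by simp)
  rw [h3] at hm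
  exact (IsLocalRing.mem_maximalIdeal _).mp hm h2

/-- CORE at level `N`, for every prime `ℓ ∤ N`. -/
theorem coreStmt_level {ℓ : ℕ} (hℓ : ℓ.Prime) (A : ValuationSubring Kb) (hA : A.LiesOverPrime ℓ)
    (N : ℕ) [NeZero N] (hN : ¬ ℓ ∣ N) {k : Type} [Field k] [IsAlgClosed k] (π : A →+* k)
    (hπ : Function.Surjective π) : CoreStmt A π N := by
  haveI : Fact ℓ.Prime := ⟨hℓ⟩
  obtain ⟨M, hM0, hNM, hℓM, hcase, e, he⟩ := Asm.exists_level ℓ N (NeZero.ne N) hℓ hN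
  haveI : NeZero M := ⟨hM0⟩
  have hcore : Asm.CoreStmt A π M := by
    rcases hcase with h5 | ⟨h3, h2⟩ | ⟨h2, h3⟩
    · exact Asm.coreStmt_five hℓ A hA M hℓM _ hπ h5
    · exact Asm.coreStmt_three hℓ A hA M hℓM _ hπ h3 h2
    · obtain ⟨I, -, -, -, -, H⟩ := Mo3a.exists_haupt_three ℓ (by rw [h2]; decide)
      exact Asm.coreStmt_of_haupt hℓ A hA M hℓM _ hπ 3 (Or.inr rfl) h3 I H
  intro m y₁ y₂ t0 h₁ h₂ hm0 hmk n₁ n₂ ht0m ht0 hdvd
  set f : FN N := (⟨_, h₁⟩ : FN N) / ⟨_, h₂⟩ with hf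
  have hincl : IntermediateField.inclusion (FN_le hNM) f =
      (⟨_, FN_le hNM h₁⟩ : FN M) / ⟨_, FN_le hNM h₂⟩ := by
    rw [hf, map_div₀]
    rfl
  obtain ⟨s, hs⟩ := hcore m y₁ y₂ t0 (FN_le hNM h₁) (FN_le hNM h₂) hm0 hmk n₁ n₂
    (fullC_le_of_dvd k hNM ht0m) ht0 (fun P' => by
      rw [← hincl]
      exact dvd_ord_of_dvd hNM m f hdvd P')
  have hℓm : ¬ ℓ ∣ m := by
    rintro ⟨c, rfl⟩
    apply hmk
    rw [Nat.cast_mul, natCast_map_eq_zero A hA π hπ, zero_mul]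
  have hcop : Nat.Coprime (dedekindPsi M / dedekindPsi N) m := by
    rw [he]; exact Nat.Coprime.pow_left _ ((Nat.Prime.coprime_iff_not_dvd hℓ).2 hℓm)
  exact norm_descent hNM m hcop f s (hincl.trans hs)

end Fermat.Agent.S29
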