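import Mathlib
import Fermat.Prelude.Def_ModularCurve_X0ModL
import Fermat.Prelude.Def_ModularCurve_ArithmeticGalois
import Fermat.Prelude.Def_EllipticCurve_FrobeniusTrace
import Fermat.Prelude.Def_FLTPrelim_Ramification

set_option autoImplicit false

/-! # S29 [ES] part a: Laurent series in characteristic `ℓ`, decomposition group on `A((q))` -/

namespace Fermat.Agent.S29.ES

noncomputable section

open ModularCurve AlgebraicCurve

section Char

variable {k : Type} [Field k]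

theorem qExpand_ofPowerSeries {R : Type} [CommRing R] (ℓ : ℕ) [NeZero ℓ] (φ : PowerSeries R) :
    qExpand R ℓ (HahnSeries.ofPowerSeries ℤ R φ) =
      HahnSeries.ofPowerSeries ℤ R (PowerSeries.expand ℓ (NeZero.ne ℓ) φ) := by
  ext n
  by_cases hd : (ℓ : ℤ) ∣ n
  · obtain ⟨m, rfl⟩ := hd
    rw [qExpand_coeff_mul]
    rcases lt_or_ge m 0 with hm | hm
    · rw [ofPowerSeries_coeff_of_neg _ hm, ofPowerSeries_coeff_of_neg]
      have : (0 : ℤ) < ℓ := by exact_mod_cast Nat.pos_of_ne_zero (NeZero.ne ℓ)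
      exact mul_neg_of_pos_of_neg this hm
    · obtain ⟨m, rfl⟩ := Int.eq_ofNat_of_zero_le hm
      rw [← Nat.cast_mul, HahnSeries.ofPowerSeries_apply_coeff, HahnSeries.ofPowerSeries_apply_coeff,
        PowerSeries.coeff_expand_mul]
  · rw [qExpand_coeff_of_not_dvd _ _ hd]
    rcases lt_or_ge n 0 with hm | hm
    · rw [ofPowerSeries_coeff_of_neg _ hm]
    · obtain ⟨m, rfl⟩ := Int.eq_ofNat_of_zero_le hm
      rw [HahnSeries.ofPowerSeries_apply_coeff, PowerSeries.coeff_expand_of_not_dvd]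
      intro h
      exact hd (by exact_mod_cast h)

theorem powerSeries_pow_char (ℓ : ℕ) [NeZero ℓ] [CharP k ℓ] [Fact ℓ.Prime] (φ : PowerSeries k) :
    φ ^ ℓ = PowerSeries.expand ℓ (NeZero.ne ℓ) (PowerSeries.map (frobenius k ℓ) φ) := by
  rw [← PowerSeries.map_expand]
  exact (MvPowerSeries.map_frobenius_expand ℓ (NeZero.ne ℓ) (f := φ)).symm

/-- `y ^ ℓ = y^{(ℓ)}(q ^ ℓ)` in characteristic `ℓ`. -/
theorem pow_char_eq {ℓ : ℕ} [NeZero ℓ] (hℓ : ℓ.Prime) (h0 : (ℓ : k) = 0) (Fr : k →+* k)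
    (hFr : ∀ c, Fr c = c ^ ℓ) (y : LaurentSeries k) :
    y ^ ℓ = qExpand k ℓ (coeffMap Fr y) := by
  haveI : Fact ℓ.Prime := ⟨hℓ⟩
  haveI : CharP k ℓ := (CharP.charP_iff_prime_eq_zero hℓ).2 h0
  have hFr' : Fr = frobenius k ℓ := RingHom.ext fun c => by rw [hFr, frobenius_def]
  subst hFr'
  conv_lhs => rw [← LaurentSeries.single_order_mul_powerSeriesPart y]
  conv_rhs => rw [← LaurentSeries.single_order_mul_powerSeriesPart y]
  rw [mul_pow, map_mul, map_mul, coeffMap_single, qExpand_single, map_one (frobenius k ℓ),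
    HahnSeries.single_pow, one_pow, nsmul_eq_mul]
  congr 1
  show (HahnSeries.ofPowerSeries ℤ k y.powerSeriesPart) ^ ℓ =
    qExpand k ℓ (coeffMap (frobenius k ℓ) (HahnSeries.ofPowerSeries ℤ k y.powerSeriesPart))
  rw [coeffMap_ofPowerSeries, qExpand_ofPowerSeries, ← map_pow, powerSeries_pow_char]

end Char

end

end Fermat.Agent.S29.ES
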