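import Mathlib
import Fermat.Agent.S29.ESa
import Fermat.Agent.S29.CoreN

set_option autoImplicit false
set_option synthInstance.maxHeartbeats 400000
set_option linter.style.haveILetI false

/-! # S29 [ES] part b: the Eichler-Shimura relation modulo `p`-th powers (abstract in `T_ℓ`) -/

namespace Fermat.Agent.S29.ES

noncomputable section

open ModularCurve AlgebraicCurve IntermediateField Fermat.Agent.S24
open Fermat.Agent.S18 Fermat.Agent.S18.Asm Fermat.Agent.S18.Mo1

theorem coeffMap_qExpand {R S : Type} [CommRing R] [CommRing S] (f : R →+* S) (n : ℕ)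
    [NeZero n] (x : LaurentSeries R) : coeffMap f (qExpand R n x) = qExpand S n (coeffMap f x) := by
  ext k
  by_cases hk : (n : ℤ) ∣ k
  · obtain ⟨m, rfl⟩ := hk
    rw [coeffMap_coeff, qExpand_coeff_mul, qExpand_coeff_mul, coeffMap_coeff]
  · rw [coeffMap_coeff, qExpand_coeff_of_not_dvd n _ hk, qExpand_coeff_of_not_dvd n _ hk,
      map_zero]

variable (A : ValuationSubring Kb)

/-- the action of the decomposition group on `A`. -/
def actA (g : A.decompositionSubgroup ℚ) : A →+* A := MulSemiringAction.toRingHom _ A g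

theorem actA_coe (g : A.decompositionSubgroup ℚ) (a : A) :
    ((actA A g a : A) : Kb) = (g : Kb ≃ₐ[ℚ] Kb) (a : Kb) := rfl

theorem subtype_actA (g : A.decompositionSubgroup ℚ) (y : LaurentSeries A) :
    coeffMap A.subtype (coeffMap (actA A g) y) =
      coeffMap (((g : Kb ≃ₐ[ℚ] Kb)) : Kb →+* Kb) (coeffMap A.subtype y) := by
  ext n
  simp only [coeffMap_coeff]
  rfl

theorem residue_actA (g : A.decompositionSubgroup ℚ)
    (φ : IsLocalRing.ResidueField A →+* IsLocalRing.ResidueField A)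
    (hφ : ∀ r : IsLocalRing.ResidueField A, g • r = φ r) (y : LaurentSeries A) :
    coeffMap (IsLocalRing.residue A) (coeffMap (actA A g) y) =
      coeffMap φ (coeffMap (IsLocalRing.residue A) y) := by
  ext n
  simp only [coeffMap_coeff]
  rw [← hφ, ← IsLocalRing.ResidueField.residue_smul]
  rfl

variable (N : ℕ)

/-- the Galois action on `FN N`. -/
abbrev gal (σ : Kb ≃ₐ[ℚ] Kb) : FN N ≃+* FN N := arithmeticRingAut (modularFunctionFieldFull N) σ

theorem dvd_ord_gal (σ : Kb ≃ₐ[ℚ] Kb) (p : ℕ) (x : FN N)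
    (h : ∀ P : Place Kb (FN N), (p : ℤ) ∣ P.ord x) (P : Place Kb (FN N)) :
    (p : ℤ) ∣ P.ord (gal N σ x) := by
  have h1 := SemilinearAut.ord_smul (arithmeticGalois (modularFunctionFieldFull N) σ)
    ((arithmeticGalois (modularFunctionFieldFull N) σ)⁻¹ • P) x
  rw [smul_inv_smul] at h1
  have h2 : arithmeticGalois (modularFunctionFieldFull N) σ • x = gal N σ x := rfl
  rw [h2] at h1
  rw [h1]
  exact h _

/-- the action on `F ∩ A((q))`. -/
def gW (g : A.decompositionSubgroup ℚ) (w : WF A (modularFunctionFieldBar N)) :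
    WF A (modularFunctionFieldBar N) :=
  ⟨coeffMap (actA A g) w.1, by
    rw [mem_WF, subtype_actA]
    exact coeffMap_mem_laurentBaseChange _ w.2⟩

theorem iW_gW (g : A.decompositionSubgroup ℚ) (w : WF A (modularFunctionFieldBar N)) :
    iW A _ (gW A N g w) = gal N (g : Kb ≃ₐ[ℚ] Kb) (iW A _ w) :=
  Subtype.ext (subtype_actA A g w.1)

theorem rW_gW (g : A.decompositionSubgroup ℚ)
    (φ : IsLocalRing.ResidueField A →+* IsLocalRing.ResidueField A)
    (hφ : ∀ r : IsLocalRing.ResidueField A, g • r = φ r) (w : WF A (modularFunctionFieldBar N)) :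
    rW A (IsLocalRing.residue A) _ (gW A N g w) = coeffMap φ (rW A (IsLocalRing.residue A) _ w) :=
  residue_actA A g φ hφ w.1

section Dvd

variable {N}

theorem dvd_ord_mul {p : ℕ} {x y : FN N} (hx : ∀ P : Place Kb (FN N), (p : ℤ) ∣ P.ord x)
    (hy : ∀ P : Place Kb (FN N), (p : ℤ) ∣ P.ord y) (P : Place Kb (FN N)) :
    (p : ℤ) ∣ P.ord (x * y) := by
  rcases eq_or_ne x 0 with rfl | hx0
  · rw [zero_mul]; exact hx P
  rcases eq_or_ne y 0 with rfl | hy0
  · rw [mul_zero]; exact hy P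
  rw [P.ord_mul hx0 hy0]
  exact dvd_add (hx P) (hy P)

theorem dvd_ord_inv {p : ℕ} {x : FN N} (hx : ∀ P : Place Kb (FN N), (p : ℤ) ∣ P.ord x)
    (P : Place Kb (FN N)) : (p : ℤ) ∣ P.ord x⁻¹ := by
  rw [P.ord_inv]
  exact (dvd_neg).2 (hx P)

theorem dvd_ord_pow {p : ℕ} {x : FN N} (hx : ∀ P : Place Kb (FN N), (p : ℤ) ∣ P.ord x) (n : ℕ)
    (P : Place Kb (FN N)) : (p : ℤ) ∣ P.ord (x ^ n) := by
  rw [← zpow_natCast, P.ord_zpow]
  exact Dvd.dvd.mul_left (hx P) _

theorem dvd_ord_ppow (p : ℕ) (x : FN N) (P : Place Kb (FN N)) : (p : ℤ) ∣ P.ord (x ^ p) := by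
  rw [← zpow_natCast, P.ord_zpow]
  exact Dvd.intro _ rfl

end Dvd

/-- CORE with `t0 = 1`. -/
theorem core_one {ℓ : ℕ} (hℓ : ℓ.Prime) (hA : A.LiesOverPrime ℓ) [NeZero N] (hN : ¬ ℓ ∣ N)
    (p : ℕ) (hp : 0 < p) (hpℓ : ¬ ℓ ∣ p) (Y₁ Y₂ : WF A (modularFunctionFieldBar N))
    (h0 : rW A (IsLocalRing.residue A) _ Y₂ ≠ 0)
    (he : rW A (IsLocalRing.residue A) _ Y₁ = rW A (IsLocalRing.residue A) _ Y₂)
    (hdiv : ∀ P : Place Kb (FN N), (p : ℤ) ∣ P.ord (iW A _ Y₁ / iW A _ Y₂)) :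
    ∃ s : FN N, iW A _ Y₁ / iW A _ Y₂ = s ^ p := by
  haveI := Asm.isAlgClosed_residueField A
  have hcore := coreStmt_level hℓ A hA N hN (IsLocalRing.residue A) IsLocalRing.residue_surjective
  have hpk : (p : IsLocalRing.ResidueField A) ≠ 0 := by
    haveI : CharP (IsLocalRing.ResidueField A) ℓ := (CharP.charP_iff_prime_eq_zero hℓ).2
      (natCast_map_eq_zero A hA (IsLocalRing.residue A) IsLocalRing.residue_surjective)
    intro h
    exact hpℓ ((CharP.cast_eq_zero_iff (IsLocalRing.ResidueField A) ℓ p).1 h)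
  exact hcore p Y₁.1 Y₂.1 1 Y₁.2 Y₂.2 hp hpk (by rw [← rW_apply, he]; exact h0) h0 (one_mem _)
    (by rw [one_pow, one_mul]; exact he) hdiv

end

end Fermat.Agent.S29.ES
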