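import Mathlib
import Fermat.Agent.S29.ESb

set_option autoImplicit false
set_option synthInstance.maxHeartbeats 400000
set_option linter.style.haveILetI false

/-! # S29 [ES]: the Eichler-Shimura relation modulo `p`-th powers (abstract in `T_ℓ`) -/

namespace Fermat.Agent.S29.ES

noncomputable section

open ModularCurve AlgebraicCurve IntermediateField Fermat.Agent.S24
open Fermat.Agent.S18 Fermat.Agent.S18.Asm Fermat.Agent.S18.Mo1

variable (A : ValuationSubring Kb) (N : ℕ)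

theorem iW_ne_zero {w : WF A (modularFunctionFieldBar N)}
    (h : rW A (IsLocalRing.residue A) _ w ≠ 0) : iW A _ w ≠ 0 := by
  intro h0
  apply h
  have : w = 0 := iW_injective A _ (by rw [h0, map_zero])
  rw [this, map_zero]

/-- unramifiedness: inertia acts trivially modulo `p`-th powers. -/
theorem inertia_rel {ℓ : ℕ} (hℓ : ℓ.Prime) (hA : A.LiesOverPrime ℓ) [NeZero N] (hN : ¬ ℓ ∣ N)
    (p : ℕ) (hp : 0 < p) (hpℓ : ¬ ℓ ∣ p) (σ : Kb ≃ₐ[ℚ] Kb) (hσ : σ ∈ A.inertiaSubgroupIn ℚ)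
    (x : FN N) (hx : x ≠ 0) (hdiv : ∀ P : Place Kb (FN N), (p : ℤ) ∣ P.ord x) :
    ∃ s : FN N, gal N σ x = x * s ^ p := by
  obtain ⟨g, hg, rfl⟩ := hσ
  have hφ : ∀ r : IsLocalRing.ResidueField A, g • r = RingHom.id _ r := by
    intro r
    have := congrArg (fun f => f r) (MonoidHom.mem_ker.mp hg)
    simpa using this
  obtain ⟨G⟩ := Mo1.exists_genData hℓ A hA N hN (IsLocalRing.residue A)
  obtain ⟨c, a, b, hc, ha, hb, e⟩ := G.normHyp x hx
  obtain ⟨d, hd⟩ := IsAlgClosed.exists_pow_nat_eq c hp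
  have hd0 : d ≠ 0 := by
    rintro rfl
    rw [zero_pow hp.ne'] at hd
    exact hc hd.symm
  set γ : FN N ≃+* FN N := gal N ((A.decompositionSubgroup ℚ).subtype g) with hγ
  set D : FN N := algebraMap Kb (FN N) d with hD
  have hD0 : D ≠ 0 := by
    rw [hD]; exact (map_ne_zero _).2 hd0
  have hC : algebraMap Kb (FN N) c = D ^ p := by rw [hD, ← map_pow, hd]
  rw [hC] at e
  set ia := iW A _ a with hia
  set ib := iW A _ b with hib
  have hia0 : ia ≠ 0 := iW_ne_zero A N ha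
  have hib0 : ib ≠ 0 := iW_ne_zero A N hb
  have hra : rW A (IsLocalRing.residue A) _ (gW A N g a) = rW A (IsLocalRing.residue A) _ a := by
    rw [rW_gW A N g _ hφ, coeffMap_id]
  have hrb : rW A (IsLocalRing.residue A) _ (gW A N g b) = rW A (IsLocalRing.residue A) _ b := by
    rw [rW_gW A N g _ hφ, coeffMap_id]
  have key1 : γ ib * γ x = (γ D) ^ p * γ ia := by
    rw [← map_mul, e, map_mul, map_pow]
  have hγne : ∀ y : FN N, y ≠ 0 → γ y ≠ 0 := fun y hy => (map_ne_zero_iff _ γ.injective).2 hy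
  have hY₁ : iW A _ (gW A N g a * b) = γ ia * ib := by rw [map_mul, iW_gW]; rfl
  have hY₂ : iW A _ (gW A N g b * a) = γ ib * ia := by rw [map_mul, iW_gW]; rfl
  have hZ : iW A _ (gW A N g a * b) / iW A _ (gW A N g b * a) =
      γ x * D ^ p * (x * (γ D) ^ p)⁻¹ := by
    rw [hY₁, hY₂, div_eq_mul_inv]
    rw [mul_inv_eq_iff_eq_mul₀ (mul_ne_zero (hγne _ hib0) hia0), eq_comm, mul_assoc, mul_comm _ (γ ib * ia),
      ← mul_assoc, mul_inv_eq_iff_eq_mul₀ (mul_ne_zero hx (pow_ne_zero _ (hγne _ hD0)))]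
    calc γ x * D ^ p * (γ ib * ia) = (γ ib * γ x) * (D ^ p * ia) := by ring
      _ = ((γ D) ^ p * γ ia) * (ib * x) := by rw [key1, e]
      _ = _ := by ring
  obtain ⟨s, hs⟩ := core_one A N hℓ hA hN p hp hpℓ (gW A N g a * b) (gW A N g b * a)
    (by rw [map_mul, hrb]; exact mul_ne_zero hb ha)
    (by rw [map_mul, map_mul, hra, hrb, mul_comm])
    (by
      rw [hZ]
      exact dvd_ord_mul (dvd_ord_mul (dvd_ord_gal N _ p x hdiv) (dvd_ord_ppow p D))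
        (dvd_ord_inv (dvd_ord_mul hdiv (dvd_ord_ppow p _))))
  rw [hZ, mul_inv_eq_iff_eq_mul₀ (mul_ne_zero hx (pow_ne_zero _ (hγne _ hD0)))] at hs
  refine ⟨s * γ D / D, ?_⟩
  rw [div_pow, mul_pow, mul_div_assoc', eq_div_iff (pow_ne_zero _ hD0), hs]
  ring

/-- the Eichler-Shimura relation modulo `p`-th powers. -/
theorem frobenius_rel {ℓ : ℕ} [NeZero ℓ] (hℓ : ℓ.Prime) (hA : A.LiesOverPrime ℓ) [NeZero N]
    (hN : ¬ ℓ ∣ N) (p : ℕ) (hp : 0 < p) (hpℓ : ¬ ℓ ∣ p)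
    (Fr : IsLocalRing.ResidueField A →+* IsLocalRing.ResidueField A) (hFr : ∀ c, Fr c = c ^ ℓ)
    (T : FN N → FN N) (hmul : ∀ x y, T (x * y) = T x * T y)
    (hred : ∀ (y : LaurentSeries A) (hy : coeffMap A.subtype y ∈ modularFunctionFieldBar N),
      ∃ z : LaurentSeries A, coeffMap A.subtype z = (T ⟨_, hy⟩ : LaurentSeries Kb) ∧
        coeffMap (IsLocalRing.residue A) z =
          qExpand _ ℓ (coeffMap (IsLocalRing.residue A) y) *
            coeffMap Fr (coeffMap (IsLocalRing.residue A) y))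
    (σ : Kb ≃ₐ[ℚ] Kb) (hσ : A.IsFrobeniusAt σ ℓ)
    (x : FN N) (hx : x ≠ 0) (hdiv : ∀ P : Place Kb (FN N), (p : ℤ) ∣ P.ord x)
    (hdivT : ∀ P : Place Kb (FN N), (p : ℤ) ∣ P.ord (T (gal N σ x))) :
    ∃ s : FN N, gal N σ (gal N σ x) * x ^ ℓ = T (gal N σ x) * s ^ p := by
  obtain ⟨hdec, hfr⟩ := hσ
  set g : A.decompositionSubgroup ℚ := ⟨σ, hdec⟩ with hg
  have hφ : ∀ r : IsLocalRing.ResidueField A, g • r = Fr r := fun r => by rw [hFr]; exact hfr r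
  have hred' : ∀ w : WF A (modularFunctionFieldBar N), ∃ z : WF A (modularFunctionFieldBar N),
      iW A _ z = T (iW A _ w) ∧ rW A (IsLocalRing.residue A) _ z =
        qExpand _ ℓ (rW A (IsLocalRing.residue A) _ w) *
          coeffMap Fr (rW A (IsLocalRing.residue A) _ w) := by
    intro w
    obtain ⟨z, hz1, hz2⟩ := hred w.1 w.2
    refine ⟨⟨z, ?_⟩, Subtype.ext hz1, hz2⟩
    rw [mem_WF, hz1]
    exact (T _).2
  have hT1 : T 1 = 1 := by
    obtain ⟨z, hz1, hz2⟩ := hred' 1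
    rw [map_one, map_one, map_one, mul_one] at hz2
    rw [map_one] at hz1
    have h0 : T 1 ≠ 0 := by
      rw [← hz1]
      exact iW_ne_zero A N (by rw [hz2]; exact one_ne_zero)
    have h1 : T 1 * T 1 = T 1 * 1 := by rw [← hmul, mul_one, mul_one]
    exact mul_left_cancel₀ h0 h1
  have hTpow : ∀ (y : FN N) (n : ℕ), T (y ^ n) = T y ^ n := by
    intro y n
    induction n with
    | zero => rw [pow_zero, pow_zero, hT1]
    | succ n ih => rw [pow_succ, hmul, ih, pow_succ]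
  have hTne : ∀ y : FN N, y ≠ 0 → T y ≠ 0 := by
    intro y hy h0
    have : T y * T y⁻¹ = 1 := by rw [← hmul, mul_inv_cancel₀ hy, hT1]
    rw [h0, zero_mul] at this
    exact zero_ne_one this
  obtain ⟨G⟩ := Mo1.exists_genData hℓ A hA N hN (IsLocalRing.residue A)
  obtain ⟨c, a, b, hc, ha, hb, e⟩ := G.normHyp x hx
  obtain ⟨d, hd⟩ := IsAlgClosed.exists_pow_nat_eq c hp
  have hd0 : d ≠ 0 := by
    rintro rfl
    rw [zero_pow hp.ne'] at hd
    exact hc hd.symm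
  set γ : FN N ≃+* FN N := gal N σ with hγ
  set D : FN N := algebraMap Kb (FN N) d with hD
  have hD0 : D ≠ 0 := by
    rw [hD]; exact (map_ne_zero _).2 hd0
  have hC : algebraMap Kb (FN N) c = D ^ p := by rw [hD, ← map_pow, hd]
  rw [hC] at e
  set ia := iW A _ a with hia
  set ib := iW A _ b with hib
  have hia0 : ia ≠ 0 := iW_ne_zero A N ha
  have hib0 : ib ≠ 0 := iW_ne_zero A N hb
  have hγne : ∀ y : FN N, y ≠ 0 → γ y ≠ 0 := fun y hy => (map_ne_zero_iff _ γ.injective).2 hy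
  set ra := rW A (IsLocalRing.residue A) _ a with hra
  set rb := rW A (IsLocalRing.residue A) _ b with hrb
  obtain ⟨Ta, hTa1, hTa2⟩ := hred' (gW A N g a)
  obtain ⟨Tb, hTb1, hTb2⟩ := hred' (gW A N g b)
  rw [rW_gW A N g _ hφ, ← hra] at hTa2
  rw [rW_gW A N g _ hφ, ← hrb] at hTb2
  have hiWg : ∀ w, iW A _ (gW A N g w) = γ (iW A _ w) := fun w => iW_gW A N g w
  rw [hiWg, ← hia] at hTa1
  rw [hiWg, ← hib] at hTb1
  have h0k : (ℓ : IsLocalRing.ResidueField A) = 0 :=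
    natCast_map_eq_zero A hA (IsLocalRing.residue A) IsLocalRing.residue_surjective
  have hΦ : Function.Injective (coeffMap Fr) := S24.coeffMap_injective Fr Fr.injective
  have hΦne : ∀ y : LaurentSeries (IsLocalRing.ResidueField A), y ≠ 0 → coeffMap Fr y ≠ 0 :=
    fun y hy => (map_ne_zero_iff _ hΦ).2 hy
  have hVne : ∀ y : LaurentSeries (IsLocalRing.ResidueField A), y ≠ 0 →
      qExpand (IsLocalRing.ResidueField A) ℓ y ≠ 0 :=
    fun y hy => (map_ne_zero_iff _ (qExpand_injective ℓ)).2 hy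
  set Y₁ : WF A (modularFunctionFieldBar N) := gW A N g (gW A N g a) * a ^ ℓ * Tb with hY₁
  set Y₂ : WF A (modularFunctionFieldBar N) := gW A N g (gW A N g b) * b ^ ℓ * Ta with hY₂
  have hrY₁ : rW A (IsLocalRing.residue A) _ Y₁ = coeffMap Fr (coeffMap Fr ra) *
      qExpand _ ℓ (coeffMap Fr ra) * (qExpand _ ℓ (coeffMap Fr rb) *
        coeffMap Fr (coeffMap Fr rb)) := by
    rw [hY₁, map_mul, map_mul, map_pow, rW_gW A N g _ hφ, rW_gW A N g _ hφ, hTb2, ← hra,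
      pow_char_eq hℓ h0k Fr hFr]
  have hrY₂ : rW A (IsLocalRing.residue A) _ Y₂ = coeffMap Fr (coeffMap Fr rb) *
      qExpand _ ℓ (coeffMap Fr rb) * (qExpand _ ℓ (coeffMap Fr ra) *
        coeffMap Fr (coeffMap Fr ra)) := by
    rw [hY₂, map_mul, map_mul, map_pow, rW_gW A N g _ hφ, rW_gW A N g _ hφ, hTa2, ← hrb,
      pow_char_eq hℓ h0k Fr hFr]
  have hiY₁ : iW A _ Y₁ = γ (γ ia) * ia ^ ℓ * T (γ ib) := by
    rw [hY₁, map_mul, map_mul, map_pow, hiWg, hiWg, hTb1]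
  have hiY₂ : iW A _ Y₂ = γ (γ ib) * ib ^ ℓ * T (γ ia) := by
    rw [hY₂, map_mul, map_mul, map_pow, hiWg, hiWg, hTa1]
  have key1 : γ (γ ib) * γ (γ x) = (γ (γ D)) ^ p * γ (γ ia) := by
    rw [← map_mul, ← map_mul, e, map_mul, map_mul, map_pow, map_pow]
  have key2 : ib ^ ℓ * x ^ ℓ = (D ^ ℓ) ^ p * ia ^ ℓ := by
    rw [← mul_pow, e, mul_pow, ← pow_mul, ← pow_mul, mul_comm p ℓ]
  have key3 : T (γ ib) * T (γ x) = (T (γ D)) ^ p * T (γ ia) := by
    rw [← hmul, ← map_mul, e, map_mul, hmul, map_pow, hTpow]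
  have hY₂ne : iW A _ Y₂ ≠ 0 := by
    rw [hiY₂]
    exact mul_ne_zero (mul_ne_zero (hγne _ (hγne _ hib0)) (pow_ne_zero _ hib0))
      (hTne _ (hγne _ hia0))
  set E : FN N := γ (γ D) * D ^ ℓ with hE
  have hE0 : E ≠ 0 := mul_ne_zero (hγne _ (hγne _ hD0)) (pow_ne_zero _ hD0)
  have hE'0 : T (γ D) ≠ 0 := hTne _ (hγne _ hD0)
  have hden : T (γ x) * E ^ p ≠ 0 := mul_ne_zero (hTne _ (hγne _ hx)) (pow_ne_zero _ hE0)
  have hZ : iW A _ Y₁ / iW A _ Y₂ =
      γ (γ x) * x ^ ℓ * (T (γ D)) ^ p * (T (γ x) * E ^ p)⁻¹ := by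
    rw [div_eq_mul_inv, mul_inv_eq_iff_eq_mul₀ hY₂ne, eq_comm, mul_assoc, mul_comm _ (iW A _ Y₂),
      ← mul_assoc, mul_inv_eq_iff_eq_mul₀ hden, hiY₁, hiY₂, hE, mul_pow]
    calc γ (γ x) * x ^ ℓ * T (γ D) ^ p * (γ (γ ib) * ib ^ ℓ * T (γ ia))
        = (γ (γ ib) * γ (γ x)) * (ib ^ ℓ * x ^ ℓ) * (T (γ D) ^ p * T (γ ia)) := by ring
      _ = ((γ (γ D)) ^ p * γ (γ ia)) * ((D ^ ℓ) ^ p * ia ^ ℓ) * (T (γ ib) * T (γ x)) := by
          rw [key1, key2, key3]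
      _ = _ := by ring
  obtain ⟨s, hs⟩ := core_one A N hℓ hA hN p hp hpℓ Y₁ Y₂
    (by
      rw [hrY₂]
      exact mul_ne_zero (mul_ne_zero (hΦne _ (hΦne _ hb)) (hVne _ (hΦne _ hb)))
        (mul_ne_zero (hVne _ (hΦne _ ha)) (hΦne _ (hΦne _ ha))))
    (by rw [hrY₁, hrY₂]; ring)
    (by
      rw [hZ]
      exact dvd_ord_mul (dvd_ord_mul (dvd_ord_mul
        (dvd_ord_gal N _ p _ (dvd_ord_gal N _ p x hdiv)) (dvd_ord_pow hdiv ℓ)) (dvd_ord_ppow p _))
        (dvd_ord_inv (dvd_ord_mul hdivT (dvd_ord_ppow p _))))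
  rw [hZ, mul_inv_eq_iff_eq_mul₀ hden] at hs
  refine ⟨s * E / T (γ D), ?_⟩
  rw [div_pow, mul_pow, mul_div_assoc', eq_div_iff (pow_ne_zero _ hE'0), hs]
  ring

end

end Fermat.Agent.S29.ES
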