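import Mathlib
import Fermat.Agent.S29.ES
import Fermat.Agent.S29.Defs

set_option autoImplicit false
set_option synthInstance.maxHeartbeats 400000
set_option linter.style.haveILetI false

/-! # S29 [ES]: the Eichler-Shimura relation for `TT N ℓ` -/

namespace Fermat.Agent.S29

noncomputable section

open ModularCurve AlgebraicCurve IntermediateField Fermat.Agent.S24

theorem divBy_gal {N p : ℕ} (σ : Kb ≃ₐ[ℚ] Kb) {x : FN N} (h : DivBy p Kb x) :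
    DivBy p Kb (gal N σ x) := ES.dvd_ord_gal N σ p x h

/-- a root of unity lies in every valuation ring. -/
theorem exists_unit_of_pow_eq_one (A : ValuationSubring Kb) (u : Kbˣ) {n : ℕ} (hn : n ≠ 0)
    (hu : u ^ n = 1) : ∃ v : Aˣ, Units.map (A.subtype : A →* Kb) v = u ∧ v ^ n = 1 := by
  have hval : ∀ w : Kbˣ, w ^ n = 1 → (w : Kb) ∈ A := by
    intro w hw
    rw [← A.valuation_le_one_iff]
    have h1 : A.valuation (w : Kb) ^ n = 1 := by
      rw [← map_pow, ← Units.val_pow_eq_pow_val, hw, Units.val_one, map_one]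
    exact le_of_eq ((pow_eq_one_iff_of_nonneg zero_le' hn).1 h1)
  have hu' : u⁻¹ ^ n = 1 := by rw [inv_pow, hu, inv_one]
  refine ⟨⟨⟨u, hval u hu⟩, ⟨(u⁻¹ : Kbˣ), hval _ hu'⟩, Subtype.ext (by simp), Subtype.ext (by simp)⟩,
    Units.ext rfl, ?_⟩
  apply Units.ext
  apply Subtype.ext
  have := congrArg (fun w : Kbˣ => (w : Kb)) hu
  simpa using this

theorem es_inertia {ℓ : ℕ} (hℓ : ℓ.Prime) (A : ValuationSubring Kb) (hA : A.LiesOverPrime ℓ)
    (N : ℕ) [NeZero N] (hN : ¬ ℓ ∣ N) (p : ℕ) (hp : 0 < p) (hpℓ : ¬ ℓ ∣ p) (σ : Kb ≃ₐ[ℚ] Kb)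
    (hσ : σ ∈ A.inertiaSubgroupIn ℚ) (x : FN N) (hx : x ≠ 0) (hdx : DivBy p Kb x) :
    ∃ s : FN N, gal N σ x = x * s ^ p :=
  ES.inertia_rel A N hℓ hA hN p hp hpℓ σ hσ x hx hdx

theorem es_frob {ℓ : ℕ} [NeZero ℓ] (hℓ : ℓ.Prime) (A : ValuationSubring Kb)
    (hA : A.LiesOverPrime ℓ) (N : ℕ) [NeZero N] (hN : ¬ ℓ ∣ N) (hm : HeckeMem N ℓ) (p : ℕ)
    (hp : 0 < p) (hpℓ : ¬ ℓ ∣ p) (σ : Kb ≃ₐ[ℚ] Kb) (hσ : A.IsFrobeniusAt σ ℓ) (x : FN N)
    (hx : x ≠ 0) (hdx : DivBy p Kb x) (hdT : DivBy p Kb (TT N ℓ (gal N σ x))) :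
    ∃ s : FN N, gal N σ (gal N σ x) * x ^ ℓ = TT N ℓ (gal N σ x) * s ^ p := by
  haveI : Fact ℓ.Prime := ⟨hℓ⟩
  haveI : CharP (IsLocalRing.ResidueField A) ℓ := (CharP.charP_iff_prime_eq_zero hℓ).2
    (natCast_map_eq_zero A hA (IsLocalRing.residue A) IsLocalRing.residue_surjective)
  obtain ⟨v, hv1, hv2⟩ := exists_unit_of_pow_eq_one A (zl ℓ) hℓ.ne_zero (zl_spec ℓ).pow_eq_one
  have hv3 : Units.map (IsLocalRing.residue A : A →* IsLocalRing.ResidueField A) v = 1 := by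
    apply Units.ext
    apply frobenius_inj (IsLocalRing.ResidueField A) ℓ
    rw [frobenius_def, frobenius_def, Units.val_one, one_pow, ← Units.val_pow_eq_pow_val, ← map_pow,
      hv2, map_one, Units.val_one]
  refine ES.frobenius_rel A N hℓ hA hN p hp hpℓ (frobenius _ ℓ) (fun c => frobenius_def ℓ c)
    (TT N ℓ) (TT_mul hm) ?_ σ hσ x hx hdx hdT
  intro y hy
  refine ⟨heckeS ℓ v y, ?_, ?_⟩
  · rw [coe_TT hm, coeffMap_heckeS]
    show heckeS ℓ (Units.map (A.subtype : A →* Kb) v) _ = _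
    rw [hv1]
  · rw [coeffMap_heckeS]
    show heckeS ℓ (Units.map (IsLocalRing.residue A : A →* IsLocalRing.ResidueField A) v) _ = _
    rw [hv3]
    exact heckeS_char ℓ _

end

end Fermat.Agent.S29
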