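import Mathlib
import Fermat.Agent.S29.AlgPack

set_option autoImplicit false
set_option linter.unusedSectionVars false
set_option linter.style.haveILetI false

/-! # S29 [GLUE], abstract part: from an eigenvector in `k ⊗ HH` and an injective map
`Θ : HH → X` into a Galois module to a residual Galois representation. -/

namespace Fermat.Agent.S29.Glue

open scoped TensorProduct
open Polynomial Module Fermat.Agent.S29.Cyc Fermat.Agent.S29.Alg

section abs

variable {𝔽 k : Type} [Field 𝔽] [Field k] [Algebra 𝔽 k]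
  {X HH : Type} [AddCommGroup X] [Module 𝔽 X] [AddCommGroup HH] [Module 𝔽 HH]
  (act : GQ →* Module.End 𝔽 X) (Θ : HH →ₗ[𝔽] X)

variable (k) in
/-- the base-changed action. -/
noncomputable def r0 : GQ →* Module.End k (k ⊗[𝔽] X) where
  toFun σ := (act σ).baseChange k
  map_one' := by rw [map_one, LinearMap.baseChange_one]
  map_mul' σ τ := by rw [map_mul, LinearMap.baseChange_mul]

theorem r0_tmul (σ : GQ) (a : k) (x : X) : r0 k act σ (a ⊗ₜ x) = a ⊗ₜ act σ x := rfl

theorem baseChange_injective (hΘ : Function.Injective Θ) :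
    Function.Injective (Θ.baseChange k) := by
  rw [LinearMap.baseChange_eq_ltensor]
  exact Module.Flat.lTensor_preserves_injective_linearMap Θ hΘ

/-- every vector of `k ⊗ HH` has a finite level. -/
theorem exists_level
    (hlev : ∀ c : HH, ∃ L : IntermediateField ℚ Qb, FiniteDimensional ℚ L ∧
      ∀ σ : GQ, (∀ x ∈ L, σ x = x) → act σ (Θ c) = Θ c) (z : k ⊗[𝔽] HH) :
    ∃ L : IntermediateField ℚ Qb, FiniteDimensional ℚ L ∧
      ∀ σ : GQ, (∀ x ∈ L, σ x = x) → r0 k act σ (Θ.baseChange k z) = Θ.baseChange k z := by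
  induction z using TensorProduct.induction_on with
  | zero => exact ⟨⊥, inferInstance, fun σ _ => by rw [map_zero, map_zero]⟩
  | tmul a c =>
    obtain ⟨L, hL, h⟩ := hlev c
    refine ⟨L, hL, fun σ hσ => ?_⟩
    rw [LinearMap.baseChange_tmul, r0_tmul, h σ hσ]
  | add z₁ z₂ h₁ h₂ =>
    obtain ⟨L₁, hL₁, h₁⟩ := h₁
    obtain ⟨L₂, hL₂, h₂⟩ := h₂
    refine ⟨L₁ ⊔ L₂, IntermediateField.finiteDimensional_sup L₁ L₂, fun σ hσ => ?_⟩
    rw [map_add, map_add, h₁ σ fun x hx => hσ x ((le_sup_left : L₁ ≤ L₁ ⊔ L₂) hx),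
      h₂ σ fun x hx => hσ x ((le_sup_right : L₂ ≤ L₁ ⊔ L₂) hx)]

/-- a normal finite level. -/
theorem exists_normal_level (w : k ⊗[𝔽] X)
    (h : ∃ L : IntermediateField ℚ Qb, FiniteDimensional ℚ L ∧
      ∀ σ : GQ, (∀ x ∈ L, σ x = x) → r0 k act σ w = w) :
    ∃ L : IntermediateField ℚ Qb, FiniteDimensional ℚ L ∧
      ∀ σ : GQ, (∀ x ∈ L, σ x = x) → ∀ τ : GQ, r0 k act σ (r0 k act τ w) = r0 k act τ w := by
  obtain ⟨L, hL, h⟩ := h
  refine ⟨IntermediateField.normalClosure ℚ L Qb, inferInstance, fun σ hσ τ => ?_⟩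
  have h1 : r0 k act (τ⁻¹ * σ * τ) w = w := by
    apply h
    intro x hx
    have hmem : τ x ∈ IntermediateField.normalClosure ℚ L Qb :=
      ((τ : Qb →ₐ[ℚ] Qb).comp L.val).fieldRange_le_normalClosure ⟨⟨x, hx⟩, rfl⟩
    rw [AlgEquiv.mul_apply, AlgEquiv.mul_apply, hσ _ hmem]
    exact τ.symm_apply_apply x
  have h2 : σ * τ = τ * (τ⁻¹ * σ * τ) := by group
  calc r0 k act σ (r0 k act τ w) = r0 k act (σ * τ) w := by rw [map_mul]; rfl
    _ = r0 k act τ (r0 k act (τ⁻¹ * σ * τ) w) := by rw [h2, map_mul]; rfl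
    _ = r0 k act τ w := by rw [h1]

/-- the span of the orbit. -/
noncomputable def orbSpan (w : k ⊗[𝔽] X) : Submodule k (k ⊗[𝔽] X) :=
  Submodule.span k (Set.range fun τ : GQ => r0 k act τ w)

theorem mem_orbSpan (w : k ⊗[𝔽] X) (τ : GQ) : r0 k act τ w ∈ orbSpan act w :=
  Submodule.subset_span ⟨τ, rfl⟩

theorem self_mem_orbSpan (w : k ⊗[𝔽] X) : w ∈ orbSpan act w := by
  have := mem_orbSpan act w 1
  rwa [map_one] at this

theorem orbSpan_stable (w : k ⊗[𝔽] X) (σ : GQ) :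
    ∀ y ∈ orbSpan act w, r0 k act σ y ∈ orbSpan act w := by
  intro y hy
  have : orbSpan act w ≤ (orbSpan act w).comap (r0 k act σ) := by
    refine Submodule.span_le.2 ?_
    rintro _ ⟨τ, rfl⟩
    show r0 k act σ (r0 k act τ w) ∈ orbSpan act w
    have h := mem_orbSpan act w (σ * τ)
    rwa [map_mul] at h
  exact this hy

theorem eq_zero_on_orbSpan (w : k ⊗[𝔽] X) (E : Module.End k (k ⊗[𝔽] X))
    (h : ∀ τ : GQ, E (r0 k act τ w) = 0) : ∀ y ∈ orbSpan act w, E y = 0 := by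
  intro y hy
  have : orbSpan act w ≤ LinearMap.ker E := by
    refine Submodule.span_le.2 ?_
    rintro _ ⟨τ, rfl⟩
    exact h τ
  exact this hy

/-- the representation on the span of the orbit. -/
noncomputable def rW (w : k ⊗[𝔽] X) : GQ →* Module.End k (orbSpan act w) where
  toFun σ := (r0 k act σ).restrict (orbSpan_stable act w σ)
  map_one' := by
    ext y
    simp [LinearMap.restrict_apply]
  map_mul' σ τ := by
    ext y
    simp [LinearMap.restrict_apply]

theorem rW_apply (w : k ⊗[𝔽] X) (σ : GQ) (y : orbSpan act w) :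
    ((rW act w σ y : orbSpan act w) : k ⊗[𝔽] X) = r0 k act σ y := rfl

theorem finiteDimensional_orbSpan (w : k ⊗[𝔽] X)
    (h : ∃ L : IntermediateField ℚ Qb, FiniteDimensional ℚ L ∧
      ∀ σ : GQ, (∀ x ∈ L, σ x = x) → r0 k act σ w = w) :
    FiniteDimensional k (orbSpan act w) := by
  obtain ⟨L, hL, h⟩ := h
  let res : GQ → (L →ₐ[ℚ] Qb) := fun τ => (τ : Qb →ₐ[ℚ] Qb).comp L.val
  have hF : Function.FactorsThrough (fun τ : GQ => r0 k act τ w) res := by
    intro τ₁ τ₂ h12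
    have h1 : r0 k act (τ₂⁻¹ * τ₁) w = w := by
      apply h
      intro x hx
      have : τ₁ x = τ₂ x := congrArg (fun f : L →ₐ[ℚ] Qb => f ⟨x, hx⟩) h12
      rw [AlgEquiv.mul_apply, this]
      exact τ₂.symm_apply_apply x
    have h2 : τ₁ = τ₂ * (τ₂⁻¹ * τ₁) := by group
    show r0 k act τ₁ w = r0 k act τ₂ w
    calc r0 k act τ₁ w = r0 k act τ₂ (r0 k act (τ₂⁻¹ * τ₁) w) := by
          conv_lhs => rw [h2, map_mul]
          rfl
      _ = r0 k act τ₂ w := by rw [h1]
  obtain ⟨e, he⟩ := (Function.factorsThrough_iff _).1 hF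
  have hfin : (Set.range fun τ : GQ => r0 k act τ w).Finite := by
    refine (Set.finite_range e).subset ?_
    rintro _ ⟨τ, rfl⟩
    exact ⟨res τ, (congrFun he τ).symm⟩
  exact FiniteDimensional.span_of_finite k hfin

end abs

/-- **Abstract GLUE.** -/
theorem exists_residual_of_theta (hdens : DensStmt) {p : ℕ} [Fact p.Prime] {k : Type} [Field k]
    [CharP k p] [IsAlgClosed k] [Algebra (ZMod p) k]
    {X HH : Type} [AddCommGroup X] [Module (ZMod p) X] [AddCommGroup HH] [Module (ZMod p) HH]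
    (act : GQ →* Module.End (ZMod p) X) (Θ : HH →ₗ[ZMod p] X) (hΘ : Function.Injective Θ)
    (hlev : ∀ c : HH, ∃ L : IntermediateField ℚ Qb, FiniteDimensional ℚ L ∧
      ∀ σ : GQ, (∀ x ∈ L, σ x = x) → act σ (Θ c) = Θ c)
    (TH : ℕ → Module.End (ZMod p) HH) (c : k ⊗[ZMod p] HH) (hc : c ≠ 0)
    (D : ℕ) (hD : D ≠ 0) (hpD : p ∣ D) (af : ℕ → k)
    (heig : ∀ ℓ : ℕ, ℓ.Prime → ¬ ℓ ∣ D → (TH ℓ).baseChange k c = af ℓ • c)
    (hES : ∀ ℓ : ℕ, ℓ.Prime → ¬ ℓ ∣ D → ∀ A : ValuationSubring Qb, A.LiesOverPrime ℓ →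
      ∀ σ : GQ, A.IsFrobeniusAt σ ℓ → ∀ (c : HH) (τ : GQ),
        act σ (act σ (act τ (Θ c))) - act σ (act τ (Θ (TH ℓ c))) + (ℓ : ZMod p) • act τ (Θ c) = 0)
    (hIN : ∀ ℓ : ℕ, ℓ.Prime → ¬ ℓ ∣ D → ∀ A : ValuationSubring Qb, A.LiesOverPrime ℓ →
      ∀ σ ∈ A.inertiaSubgroupIn ℚ, ∀ (c : HH) (τ : GQ), act σ (act τ (Θ c)) = act τ (Θ c)) :
    ∃ ρ : ResidualGaloisRep k,
      (∀ ℓ : ℕ, ℓ.Prime → ¬ ℓ ∣ D → ∀ A : ValuationSubring Qb, A.LiesOverPrime ℓ →
        ∀ σ : GQ, A.IsFrobeniusAt σ ℓ →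
          LinearMap.charpoly (ρ.ρ σ) = Polynomial.X ^ 2 - C (af ℓ) * Polynomial.X + C ((ℓ : k))) ∧
      ∀ ℓ : ℕ, ℓ.Prime → ¬ ℓ ∣ D → ρ.IsUnramifiedAt ℓ := by
  set w : k ⊗[ZMod p] X := Θ.baseChange k c with hw
  have hw0 : w ≠ 0 := by
    intro h
    apply hc
    apply baseChange_injective (k := k) Θ hΘ
    rw [map_zero]; exact h
  have hl := exists_level (k := k) act Θ hlev c
  haveI : FiniteDimensional k (orbSpan act w) := finiteDimensional_orbSpan act w hl
  haveI : Nontrivial (orbSpan act w) :=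
    ⟨⟨⟨w, self_mem_orbSpan act w⟩, 0, fun h => hw0 (congrArg Subtype.val h)⟩⟩
  refine exists_residual hdens (W := ↥(orbSpan act w)) (rW act w) ?_ D hD hpD af ?_ ?_
  · obtain ⟨L, hL, h⟩ := exists_normal_level act w hl
    refine ⟨L, hL, fun σ hσ => ?_⟩
    ext y
    have := eq_zero_on_orbSpan act w (r0 k act σ - 1) (fun τ => by
      rw [LinearMap.sub_apply, h σ hσ τ]
      exact sub_self _) y y.2
    rw [LinearMap.sub_apply, sub_eq_zero] at this
    exact this
  · intro ℓ hℓ hℓD A hA σ hσ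
    ext y
    have key : ∀ (z : k ⊗[ZMod p] HH) (τ : GQ),
        r0 k act σ (r0 k act σ (r0 k act τ (Θ.baseChange k z)))
          - r0 k act σ (r0 k act τ (Θ.baseChange k ((TH ℓ).baseChange k z)))
          + (ℓ : k) • r0 k act τ (Θ.baseChange k z) = 0 := by
      intro z τ
      induction z using TensorProduct.induction_on with
      | zero => simp
      | tmul a c =>
        simp only [LinearMap.baseChange_tmul, r0_tmul]
        have e : (ℓ : k) • (a ⊗ₜ[ZMod p] act τ (Θ c)) = a ⊗ₜ[ZMod p] ((ℓ : ZMod p) • act τ (Θ c)) := by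
          rw [TensorProduct.tmul_smul, ← algebraMap_smul k (ℓ : ZMod p), map_natCast]
        rw [e, ← TensorProduct.tmul_sub, ← TensorProduct.tmul_add, hES ℓ hℓ hℓD A hA σ hσ c τ,
          TensorProduct.tmul_zero]
      | add z₁ z₂ h₁ h₂ =>
        simp only [map_add, smul_add]
        have h12 := congrArg₂ (· + ·) h₁ h₂
        simp only [add_zero] at h12
        rw [← h12]
        abel
    have := eq_zero_on_orbSpan act w
      (r0 k act σ * r0 k act σ - af ℓ • r0 k act σ + (ℓ : k) • 1) (fun τ => by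
        have h := key c τ
        rw [heig ℓ hℓ hℓD, map_smul, map_smul, map_smul] at h
        exact h) y y.2
    rw [pow_two]
    exact this
  · intro ℓ hℓ hℓD A hA σ hσ
    ext y
    have key : ∀ (z : k ⊗[ZMod p] HH) (τ : GQ),
        r0 k act σ (r0 k act τ (Θ.baseChange k z)) = r0 k act τ (Θ.baseChange k z) := by
      intro z τ
      induction z using TensorProduct.induction_on with
      | zero => simp
      | tmul a c =>
        simp only [LinearMap.baseChange_tmul, r0_tmul]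
        rw [hIN ℓ hℓ hℓD A hA σ hσ c τ]
      | add z₁ z₂ h₁ h₂ =>
        simp only [map_add]
        rw [h₁, h₂]
    have := eq_zero_on_orbSpan act w (r0 k act σ - 1) (fun τ => by
      rw [LinearMap.sub_apply, key c τ]
      exact sub_self _) y y.2
    rw [LinearMap.sub_apply, sub_eq_zero] at this
    exact this

end Fermat.Agent.S29.Glue
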