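import Mathlib

set_option autoImplicit false
set_option linter.unusedSectionVars false
set_option linter.style.haveILetI false

/-! # S29 [GLUE], part B: the `𝔽_p`-module `U / U^p` of a commutative group, functoriality, and the
linear map attached to an additive relation. -/

namespace Fermat.Agent.S29.Glue

section quot

variable (U : Type) [CommGroup U] (p : ℕ)

/-- `U / U^p`, written additively. -/
def Xq : Type := Additive (U ⧸ (powMonoidHom p : U →* U).range)

noncomputable instance : AddCommGroup (Xq U p) :=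
  inferInstanceAs (AddCommGroup (Additive (U ⧸ (powMonoidHom p : U →* U).range)))

variable {U}

/-- the class of an element. -/
def cls (u : U) : Xq U p := Additive.ofMul (QuotientGroup.mk u)

theorem cls_mul (u v : U) : cls p (u * v) = cls p u + cls p v := rfl

theorem cls_one : cls p (1 : U) = 0 := rfl

theorem cls_inv (u : U) : cls p u⁻¹ = - cls p u := rfl

theorem cls_pow (u : U) (n : ℕ) : cls p (u ^ n) = n • cls p u := rfl

theorem cls_eq_zero_iff (u : U) : cls p u = 0 ↔ ∃ s : U, s ^ p = u := by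
  have : cls p u = 0 ↔ (QuotientGroup.mk u : U ⧸ (powMonoidHom p : U →* U).range) = 1 := Iff.rfl
  rw [this, QuotientGroup.eq_one_iff, MonoidHom.mem_range]
  rfl

theorem cls_surj (x : Xq U p) : ∃ u : U, cls p u = x := by
  obtain ⟨u, hu⟩ := QuotientGroup.mk_surjective (Additive.toMul x)
  exact ⟨u, congrArg Additive.ofMul hu⟩

theorem p_nsmul (x : Xq U p) : p • x = 0 := by
  obtain ⟨u, rfl⟩ := cls_surj p x
  rw [← cls_pow, cls_eq_zero_iff]
  exact ⟨u, rfl⟩

noncomputable instance : Module (ZMod p) (Xq U p) := AddCommGroup.zmodModule (p_nsmul p)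

theorem cls_eq_iff (u v : U) : cls p u = cls p v ↔ ∃ s : U, u = v * s ^ p := by
  have h : cls p u = cls p v ↔ cls p (u * v⁻¹) = 0 := by
    rw [cls_mul, cls_inv, ← sub_eq_add_neg, sub_eq_zero]
  rw [h, cls_eq_zero_iff]
  constructor
  · rintro ⟨s, hs⟩
    exact ⟨s, by rw [hs, mul_comm u, mul_inv_cancel_left]⟩
  · rintro ⟨s, hs⟩
    exact ⟨s, by rw [hs, mul_comm v, mul_inv_cancel_right]⟩

/-- functoriality. -/
noncomputable def mapA (e : U →* U) : Xq U p →+ Xq U p :=
  MonoidHom.toAdditive (QuotientGroup.map _ _ e (by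
    rintro _ ⟨s, rfl⟩
    exact ⟨e s, by simp⟩))

theorem mapA_cls (e : U →* U) (u : U) : mapA p e (cls p u) = cls p (e u) := rfl

/-- functoriality, linear version. -/
noncomputable def mapX (e : U →* U) : Module.End (ZMod p) (Xq U p) :=
  (mapA p e).toZModLinearMap p

theorem mapX_cls (e : U →* U) (u : U) : mapX p e (cls p u) = cls p (e u) := rfl

/-- the action of a group acting on `U`. -/
noncomputable def actX {G : Type} [Group G] (g : G → (U →* U)) (h1 : ∀ u, g 1 u = u)
    (hm : ∀ σ τ u, g (σ * τ) u = g σ (g τ u)) :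
    G →* Module.End (ZMod p) (Xq U p) where
  toFun σ := mapX p (g σ)
  map_one' := by
    ext x
    obtain ⟨u, rfl⟩ := cls_surj p x
    rw [mapX_cls, h1]
    rfl
  map_mul' σ τ := by
    ext x
    obtain ⟨u, rfl⟩ := cls_surj p x
    rw [mapX_cls, hm]
    rfl

theorem actX_cls {G : Type} [Group G] (g : G → (U →* U)) (h1 : ∀ u, g 1 u = u)
    (hm : ∀ σ τ u, g (σ * τ) u = g σ (g τ u)) (σ : G) (u : U) :
    actX p g h1 hm σ (cls p u) = cls p (g σ u) := rfl

/-- the linear map attached to an additive relation. -/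
theorem exists_theta {HH : Type} [AddCommGroup HH] [Module (ZMod p) HH] (R : HH → U → Prop)
    (htot : ∀ c, ∃ u, R c u)
    (hmul : ∀ c c' u u', R c u → R c' u' → R (c + c') (u * u'))
    (hinv : ∀ c u, R c u → R (-c) u⁻¹)
    (hzero : ∀ u, R 0 u → ∃ s : U, s ^ p = u)
    (hinj : ∀ c u, R c u → (∃ s : U, s ^ p = u) → c = 0) :
    ∃ Θ : HH →ₗ[ZMod p] Xq U p, Function.Injective Θ ∧ ∀ c u, R c u → Θ c = cls p u := by
  choose f hf using htot
  have key : ∀ c u u', R c u → R c u' → cls p u = cls p u' := by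
    intro c u u' h h'
    have h1 := hmul _ _ _ _ h (hinv _ _ h')
    rw [add_neg_cancel] at h1
    have h2 := (cls_eq_zero_iff p _).2 (hzero _ h1)
    rw [cls_mul, cls_inv, ← sub_eq_add_neg, sub_eq_zero] at h2
    exact h2
  let Θ₀ : HH →+ Xq U p := AddMonoidHom.mk' (fun c => cls p (f c)) (fun c c' => by
    rw [← cls_mul]
    exact key _ _ _ (hf _) (hmul _ _ _ _ (hf c) (hf c')))
  refine ⟨Θ₀.toZModLinearMap p, ?_, fun c u h => key _ _ _ (hf c) h⟩
  have : Function.Injective Θ₀ := by
    rw [injective_iff_map_eq_zero]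
    intro c hc
    exact hinj c (f c) (hf c) ((cls_eq_zero_iff p _).1 hc)
  exact this

end quot

end Fermat.Agent.S29.Glue
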