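import Mathlib
import Fermat.Agent.S29.Defs

set_option autoImplicit false
set_option linter.unusedSectionVars false
set_option linter.style.haveILetI false

/-! # S29 [GLUE]: every element of `FN N` has a finite level. -/

namespace Fermat.Agent.S29.Glue

open ModularCurve AlgebraicCurve Fermat.Agent.S24

theorem exists_level_series {F₀ : IntermediateField ℚ (LaurentSeries ℚ)} {x : LaurentSeries Kb}
    (hx : x ∈ laurentBaseChange Kb F₀) :
    ∃ L : IntermediateField ℚ Kb, FiniteDimensional ℚ L ∧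
      ∀ σ : Kb ≃ₐ[ℚ] Kb, (∀ a ∈ L, σ a = a) → coeffMap (σ : Kb →+* Kb) x = x := by
  rw [mem_laurentBaseChange_iff] at hx
  induction hx using Subfield.closure_induction with
  | mem y hy =>
      rcases hy with ⟨a, rfl⟩ | ⟨z, hz, rfl⟩
      · refine ⟨IntermediateField.adjoin ℚ {a},
          IntermediateField.adjoin.finiteDimensional
            ((AlgebraicClosure.isAlgebraic ℚ).isAlgebraic a).isIntegral,
          fun σ hσ => ?_⟩
        rw [coeffMap_algebraMap]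
        congr 1
        exact hσ a (IntermediateField.mem_adjoin_simple_self ℚ a)
      · exact ⟨⊥, inferInstance, fun σ _ => coeffMap_coeffEmb σ z⟩
  | one => exact ⟨⊥, inferInstance, fun σ _ => map_one _⟩
  | add x y _ _ hx hy =>
      obtain ⟨L₁, hL₁, h₁⟩ := hx
      obtain ⟨L₂, hL₂, h₂⟩ := hy
      refine ⟨L₁ ⊔ L₂, IntermediateField.finiteDimensional_sup L₁ L₂, fun σ hσ => ?_⟩
      rw [map_add, h₁ σ fun x hx => hσ x ((le_sup_left : L₁ ≤ L₁ ⊔ L₂) hx),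
        h₂ σ fun x hx => hσ x ((le_sup_right : L₂ ≤ L₁ ⊔ L₂) hx)]
  | neg x _ hx =>
      obtain ⟨L₁, hL₁, h₁⟩ := hx
      exact ⟨L₁, hL₁, fun σ hσ => by rw [map_neg, h₁ σ hσ]⟩
  | inv x _ hx =>
      obtain ⟨L₁, hL₁, h₁⟩ := hx
      exact ⟨L₁, hL₁, fun σ hσ => by rw [map_inv₀, h₁ σ hσ]⟩
  | mul x y _ _ hx hy =>
      obtain ⟨L₁, hL₁, h₁⟩ := hx
      obtain ⟨L₂, hL₂, h₂⟩ := hy
      refine ⟨L₁ ⊔ L₂, IntermediateField.finiteDimensional_sup L₁ L₂, fun σ hσ => ?_⟩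
      rw [map_mul, h₁ σ fun x hx => hσ x ((le_sup_left : L₁ ≤ L₁ ⊔ L₂) hx),
        h₂ σ fun x hx => hσ x ((le_sup_right : L₂ ≤ L₁ ⊔ L₂) hx)]

theorem exists_level_FN (N : ℕ) (f : FN N) :
    ∃ L : IntermediateField ℚ Kb, FiniteDimensional ℚ L ∧
      ∀ σ : Kb ≃ₐ[ℚ] Kb, (∀ a ∈ L, σ a = a) → gal N σ f = f := by
  obtain ⟨L, hL, h⟩ := exists_level_series f.2
  exact ⟨L, hL, fun σ hσ => Subtype.ext (h σ hσ)⟩

end Fermat.Agent.S29.Glue
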