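import Mathlib

set_option autoImplicit false
set_option linter.style.haveILetI false

/-! # S29 [C]: reduction of a complex valued homomorphism modulo a prime of `ℤ̄` (abstract part) -/

namespace Fermat.Agent.S29

open scoped MatrixGroups

/-- the kernel of a homomorphism from `ℤ̄` to a field of characteristic `p` is maximal. -/
theorem ker_isMaximal {p : ℕ} (hp : p.Prime) {k : Type*} [Field k] [CharP k p]
    (φ : integralClosure ℤ ℂ →+* k) : (RingHom.ker φ).IsMaximal := by
  haveI : Fact p.Prime := ⟨hp⟩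
  haveI : (RingHom.ker φ).IsPrime := RingHom.ker_isPrime φ
  apply Ideal.isMaximal_of_isIntegral_of_isMaximal_comap (R := ℤ)
  have h : (RingHom.ker φ).comap (algebraMap ℤ (integralClosure ℤ ℂ)) = Ideal.span {(p : ℤ)} := by
    rw [← CharP.ker_intAlgebraMap_eq_span (R := k) p]
    ext a
    simp [RingHom.mem_ker]
  rw [h]
  exact Int.ideal_span_isMaximal_of_prime p

/-- a valuation ring of `ℂ` containing `ℤ̄` and an additive map to `k`, semilinear along `φ`,
not killing `1`. -/
theorem exists_val_functional {p : ℕ} (hp : p.Prime) {k : Type*} [Field k] [CharP k p]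
    (φ : integralClosure ℤ ℂ →+* k) :
    ∃ (B : ValuationSubring ℂ) (hB : ∀ a : integralClosure ℤ ℂ, (a : ℂ) ∈ B) (Λ : B →+ k),
      (∀ (a : integralClosure ℤ ℂ) (x : B), Λ (⟨a, hB a⟩ * x) = φ a * Λ x) ∧ Λ 1 ≠ 0 := by
  haveI hmax := ker_isMaximal hp φ
  let A : Subring ℂ := (integralClosure ℤ ℂ).toSubring
  let e : A →+* integralClosure ℤ ℂ := A.subtype.codRestrict (integralClosure ℤ ℂ) (fun x => x.2)
  obtain ⟨B, hAB, hI⟩ := Ideal.image_subset_nonunits_valuationSubring
    (RingHom.ker (φ.comp e)) (RingHom.ker_ne_top _)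
  have hB : ∀ a : integralClosure ℤ ℂ, (a : ℂ) ∈ B := fun a => hAB a.2
  let inc : integralClosure ℤ ℂ →+* B :=
    (integralClosure ℤ ℂ).val.toRingHom.codRestrict B hB
  let ψ : integralClosure ℤ ℂ →+* IsLocalRing.ResidueField B :=
    (IsLocalRing.residue B).comp inc
  have hψ : ∀ a ∈ RingHom.ker φ, ψ a = 0 := by
    intro a ha
    have h1 : (a : ℂ) ∈ B.nonunits := by
      apply hI
      refine ⟨⟨a, a.2⟩, ?_, rfl⟩
      exact ha
    show IsLocalRing.residue B (inc a) = 0
    rw [IsLocalRing.residue_eq_zero_iff]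
    exact ValuationSubring.coe_mem_nonunits_iff.mp h1
  letI : Field (integralClosure ℤ ℂ ⧸ RingHom.ker φ) := Ideal.Quotient.field _
  let ψ' : (integralClosure ℤ ℂ ⧸ RingHom.ker φ) →+* IsLocalRing.ResidueField B :=
    Ideal.Quotient.lift _ ψ hψ
  letI : Module (integralClosure ℤ ℂ ⧸ RingHom.ker φ) (IsLocalRing.ResidueField B) :=
    Module.compHom _ ψ'
  obtain ⟨f, hf⟩ : ∃ f : Module.Dual (integralClosure ℤ ℂ ⧸ RingHom.ker φ)
      (IsLocalRing.ResidueField B), f 1 ≠ 0 := by
    by_contra hcon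
    push Not at hcon
    exact one_ne_zero ((Module.forall_dual_apply_eq_zero_iff _ _).mp hcon)
  refine ⟨B, hB, ((RingHom.kerLift φ).toAddMonoidHom.comp f.toAddMonoidHom).comp
    (IsLocalRing.residue B).toAddMonoidHom, ?_, ?_⟩
  · intro a x
    show RingHom.kerLift φ (f (IsLocalRing.residue B (⟨a, hB a⟩ * x))) =
      φ a * RingHom.kerLift φ (f (IsLocalRing.residue B x))
    have h1 : IsLocalRing.residue B (⟨a, hB a⟩ * x) =
        (Ideal.Quotient.mk (RingHom.ker φ) a) • IsLocalRing.residue B x := by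
      rw [map_mul]
      rfl
    rw [h1, map_smul, smul_eq_mul, map_mul]
    rfl
  · show RingHom.kerLift φ (f (IsLocalRing.residue B 1)) ≠ 0
    rw [map_one]
    intro h
    exact hf ((map_eq_zero_iff _ (RingHom.kerLift_injective φ)).mp h)

/-- reduction of a nonzero homomorphism from a finitely generated group to `ℂ`. -/
theorem exists_red {Γ : Type*} [Group Γ] [Group.FG Γ] (c : Additive Γ →+ ℂ) (hc : c ≠ 0)
    {p : ℕ} (hp : p.Prime) {k : Type*} [Field k] [CharP k p] (φ : integralClosure ℤ ℂ →+* k) :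
    ∃ (B : ValuationSubring ℂ) (hB : ∀ a : integralClosure ℤ ℂ, (a : ℂ) ∈ B) (Λ : B →+ k)
      (c' : Additive Γ →+ B) (u : ℂ),
      (∀ (a : integralClosure ℤ ℂ) (x : B), Λ (⟨a, hB a⟩ * x) = φ a * Λ x) ∧
      (∀ γ, (c' γ : ℂ) = u * c γ) ∧ Λ.comp c' ≠ 0 := by
  obtain ⟨B, hB, Λ, hΛ, hΛ1⟩ := exists_val_functional hp φ
  obtain ⟨S, hS⟩ := (Group.FG.out : (⊤ : Subgroup Γ).FG)
  have hex : ∃ s ∈ S, c (Additive.ofMul s) ≠ 0 := by
    by_contra hcon
    push Not at hcon
    apply hc
    ext γ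
    have : ∀ γ : Γ, γ ∈ Subgroup.closure (S : Set Γ) → c (Additive.ofMul γ) = 0 := by
      intro γ hγ
      induction hγ using Subgroup.closure_induction with
      | mem x hx => exact hcon x hx
      | one => simp
      | mul x y _ _ hx hy => rw [ofMul_mul, map_add, hx, hy, add_zero]
      | inv x _ hx => rw [ofMul_inv, map_neg, hx, neg_zero]
    exact this (Additive.toMul γ) (hS ▸ Subgroup.mem_top _)
  obtain ⟨s1, hs1, hs1c⟩ := hex
  obtain ⟨s0, hs0, hmax⟩ := Finset.exists_max_image S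
    (fun s => B.valuation (c (Additive.ofMul s))) ⟨s1, hs1⟩
  have hs0c : c (Additive.ofMul s0) ≠ 0 := by
    intro h
    have h1 := hmax s1 hs1
    simp only [h, map_zero, le_zero_iff, map_eq_zero] at h1
    exact hs1c h1
  set u : ℂ := (c (Additive.ofMul s0))⁻¹ with hu
  have hmem : ∀ γ : Additive Γ, u * c γ ∈ B := by
    have : ∀ γ : Γ, γ ∈ Subgroup.closure (S : Set Γ) → u * c (Additive.ofMul γ) ∈ B := by
      intro γ hγ
      induction hγ using Subgroup.closure_induction with
      | mem x hx =>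
        rw [← ValuationSubring.valuation_le_one_iff, map_mul, hu, map_inv₀]
        have h0 : B.valuation (c (Additive.ofMul s0)) ≠ 0 := by simpa using hs0c
        rw [inv_mul_le_iff₀ (zero_lt_iff.mpr h0), mul_one]
        exact hmax x hx
      | one => simp [B.zero_mem]
      | mul x y _ _ hx hy => rw [ofMul_mul, map_add, mul_add]; exact B.add_mem _ _ hx hy
      | inv x _ hx => rw [ofMul_inv, map_neg, mul_neg]; exact B.neg_mem _ hx
    exact fun γ => this (Additive.toMul γ) (hS ▸ Subgroup.mem_top _)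
  refine ⟨B, hB, Λ, ((AddMonoidHom.mulLeft u).comp c).codRestrict B hmem, u, hΛ, fun γ => rfl, ?_⟩
  intro h
  apply hΛ1
  have h1 := DFunLike.congr_fun h (Additive.ofMul s0)
  have h2 : (((AddMonoidHom.mulLeft u).comp c).codRestrict B hmem) (Additive.ofMul s0) = 1 := by
    apply Subtype.ext
    show u * c (Additive.ofMul s0) = 1
    rw [hu, inv_mul_cancel₀ hs0c]
  rw [AddMonoidHom.comp_apply, h2] at h1
  exact h1

theorem fg_SL2Z : Group.FG SL(2, ℤ) :=
  (Group.fg_iff).mpr ⟨{ModularGroup.S, ModularGroup.T},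
    SpecialLinearGroup.SL2Z_generators, by simp⟩

theorem fg_Gamma0 (N : ℕ) [NeZero N] : Group.FG (CongruenceSubgroup.Gamma0 N) := by
  haveI := fg_SL2Z
  infer_instance

end Fermat.Agent.S29
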