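import Mathlib
import Fermat.Prelude.Def_ModularCurve_PeriodMap
import Fermat.Prelude.Sol.S_ModularForm_heckeT_slash_eq_self_of_mem_Gamma0

set_option autoImplicit false

/-! # S29 [C]: homomorphisms `Γ₀(N) → A`, the Hecke operators on them -/

namespace Fermat.Agent.S29

open CongruenceSubgroup Matrix.SpecialLinearGroup
open scoped MatrixGroups
open P2MW.S_ModularForm_heckeT_slash_eq_self_of_mem_Gamma0.ModularForm.HeckeSlashInvariance

/-- parabolic, `±1` or elliptic. -/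
def IsPE (γ : SL(2, ℤ)) : Prop := (γ : Matrix (Fin 2) (Fin 2) ℤ).trace ^ 2 ≤ 4

/-- the homomorphisms `Γ₀(N) → A` killing the parabolic and the elliptic elements. -/
def peHoms (R : Type*) [Semiring R] (N : ℕ) (A : Type*) [AddCommGroup A] [Module R A] :
    Submodule R (Additive (Gamma0 N) →+ A) where
  carrier := {c | ∀ γ : Gamma0 N, IsPE (γ : SL(2, ℤ)) → c (Additive.ofMul γ) = 0}
  zero_mem' := fun _ _ => rfl
  add_mem' := by
    intro φ ψ hφ hψ γ hγ
    show φ (Additive.ofMul γ) + ψ (Additive.ofMul γ) = 0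
    rw [hφ γ hγ, hψ γ hγ, add_zero]
  smul_mem' := by
    intro c φ hφ γ hγ
    show c • φ (Additive.ofMul γ) = 0
    rw [hφ γ hγ, smul_zero]

theorem mem_peHoms {R : Type*} [Semiring R] {N : ℕ} {A : Type*} [AddCommGroup A] [Module R A]
    {c : Additive (Gamma0 N) →+ A} :
    c ∈ peHoms R N A ↔ ∀ γ : Gamma0 N, IsPE (γ : SL(2, ℤ)) → c (Additive.ofMul γ) = 0 := Iff.rfl

variable {N l : ℕ} [Fact l.Prime]

theorem dvd_of_mem_Gamma0 (γ : Gamma0 N) : (N : ℤ) ∣ (γ : SL(2, ℤ)) 1 0 :=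
  (ZMod.intCast_zmod_eq_zero_iff_dvd _ _).mp (Gamma0_mem.mp γ.2)

/-- `α_x γ = δ(γ, x) α_{x γ}`. -/
noncomputable def hdelta (hl : ¬ l ∣ N) (γ : Gamma0 N) (x : OnePoint (ZMod l)) : Gamma0 N :=
  ⟨(heckeRep_mul hl (γ : SL(2, ℤ)) (dvd_of_mem_Gamma0 γ) x).choose,
    Gamma0_mem.mpr ((ZMod.intCast_zmod_eq_zero_iff_dvd _ _).mpr
      (heckeRep_mul hl (γ : SL(2, ℤ)) (dvd_of_mem_Gamma0 γ) x).choose_spec.1)⟩

theorem hdelta_spec (hl : ¬ l ∣ N) (γ : Gamma0 N) (x : OnePoint (ZMod l)) :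
    heckeRep l x * mapGL ℝ (γ : SL(2, ℤ)) =
      mapGL ℝ (hdelta hl γ x : SL(2, ℤ)) * heckeRep l (redMatrix l (γ : SL(2, ℤ)) • x) :=
  (heckeRep_mul hl (γ : SL(2, ℤ)) (dvd_of_mem_Gamma0 γ) x).choose_spec.2

theorem mapGL_injective' : Function.Injective (mapGL ℝ : SL(2, ℤ) → GL (Fin 2) ℝ) :=
  Matrix.SpecialLinearGroup.mapGL_injective

theorem redMatrix_mul (g h : SL(2, ℤ)) : redMatrix l (g * h) = redMatrix l h * redMatrix l g := by
  apply Units.ext
  ext i j
  fin_cases i <;> fin_cases j <;>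
    simp [redMatrix, Matrix.mul_apply, Fin.sum_univ_two, Matrix.SpecialLinearGroup.coe_mul] <;> ring

theorem redMatrix_one : redMatrix l (1 : SL(2, ℤ)) = 1 := by
  apply Units.ext
  ext i j
  fin_cases i <;> fin_cases j <;> simp [redMatrix]

/-- uniqueness of `δ`. -/
theorem hdelta_eq_of (hl : ¬ l ∣ N) (γ δ : Gamma0 N) (x : OnePoint (ZMod l))
    (h : heckeRep l x * mapGL ℝ (γ : SL(2, ℤ)) =
      mapGL ℝ (δ : SL(2, ℤ)) * heckeRep l (redMatrix l (γ : SL(2, ℤ)) • x)) :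
    hdelta hl γ x = δ := by
  apply Subtype.ext
  apply mapGL_injective'
  have := (hdelta_spec hl γ x).symm.trans h
  exact mul_right_cancel this

theorem hdelta_mul (hl : ¬ l ∣ N) (γ γ' : Gamma0 N) (x : OnePoint (ZMod l)) :
    hdelta hl (γ * γ') x = hdelta hl γ x * hdelta hl γ' (redMatrix l (γ : SL(2, ℤ)) • x) := by
  apply hdelta_eq_of
  rw [Subgroup.coe_mul, Subgroup.coe_mul, map_mul, map_mul, ← mul_assoc, hdelta_spec, mul_assoc,
    hdelta_spec, redMatrix_mul, mul_smul, mul_assoc]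

theorem hdelta_one (hl : ¬ l ∣ N) (x : OnePoint (ZMod l)) : hdelta hl (1 : Gamma0 N) x = 1 := by
  apply hdelta_eq_of
  simp [redMatrix_one]

/-- the Hecke operator `T_l` on `Hom(Γ₀(N), A)`. -/
noncomputable def heckeHom {A : Type*} [AddCommGroup A] (hl : ¬ l ∣ N)
    (c : Additive (Gamma0 N) →+ A) : Additive (Gamma0 N) →+ A where
  toFun γ := ∑ x : OnePoint (ZMod l), c (Additive.ofMul (hdelta hl (Additive.toMul γ) x))
  map_zero' := by
    simp only [toMul_zero, hdelta_one, ofMul_one, map_zero, Finset.sum_const_zero]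
  map_add' γ γ' := by
    simp only [toMul_add, hdelta_mul, ofMul_mul, map_add, Finset.sum_add_distrib]
    congr 1
    exact Equiv.sum_comp (MulAction.toPerm (redMatrix l ((Additive.toMul γ : Gamma0 N) : SL(2, ℤ))))
      (fun x => c (Additive.ofMul (hdelta hl (Additive.toMul γ') x)))

theorem heckeHom_apply {A : Type*} [AddCommGroup A] (hl : ¬ l ∣ N)
    (c : Additive (Gamma0 N) →+ A) (γ : Gamma0 N) :
    heckeHom hl c (Additive.ofMul γ) =
      ∑ x : OnePoint (ZMod l), c (Additive.ofMul (hdelta hl γ x)) := rfl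

theorem heckeHom_add {A : Type*} [AddCommGroup A] (hl : ¬ l ∣ N)
    (c c' : Additive (Gamma0 N) →+ A) : heckeHom hl (c + c') = heckeHom hl c + heckeHom hl c' := by
  ext γ
  show ∑ x : OnePoint (ZMod l), (c _ + c' _) = ∑ x : OnePoint (ZMod l), c _ +
    ∑ x : OnePoint (ZMod l), c' _
  rw [Finset.sum_add_distrib]

theorem heckeHom_zero {A : Type*} [AddCommGroup A] (hl : ¬ l ∣ N) :
    heckeHom hl (0 : Additive (Gamma0 N) →+ A) = 0 := by
  ext γ
  show ∑ x : OnePoint (ZMod l), (0 : A) = 0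
  simp

theorem heckeHom_smul {R A : Type*} [Semiring R] [AddCommGroup A] [Module R A] (hl : ¬ l ∣ N)
    (r : R) (c : Additive (Gamma0 N) →+ A) : heckeHom hl (r • c) = r • heckeHom hl c := by
  ext γ
  show ∑ x : OnePoint (ZMod l), r • c _ = r • ∑ x : OnePoint (ZMod l), c _
  rw [Finset.smul_sum]

theorem heckeHom_comp {A B : Type*} [AddCommGroup A] [AddCommGroup B] (hl : ¬ l ∣ N)
    (f : A →+ B) (c : Additive (Gamma0 N) →+ A) :
    heckeHom hl (f.comp c) = f.comp (heckeHom hl c) := by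
  ext γ
  show ∑ x : OnePoint (ZMod l), f (c _) = f (∑ x : OnePoint (ZMod l), c _)
  rw [map_sum]

/-- `T_l` as a linear map. -/
noncomputable def heckeLin (R : Type*) {A : Type*} [Semiring R] [AddCommGroup A] [Module R A]
    (hl : ¬ l ∣ N) : (Additive (Gamma0 N) →+ A) →ₗ[R] (Additive (Gamma0 N) →+ A) where
  toFun := heckeHom hl
  map_add' := heckeHom_add hl
  map_smul' := heckeHom_smul hl

end Fermat.Agent.S29
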