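import Mathlib
import Fermat.Agent.S29.HomDefs
import Fermat.Agent.Lib.QCoeff
import Fermat.Agent.S21.PeriodMap
import Fermat.Agent.S21.Parabolic
import Fermat.Agent.S21.Injective
import Fermat.Agent.S22
import Fermat.Prelude.Def_FLTPrelim_Modularity

set_option autoImplicit false
set_option linter.style.haveILetI false

/-! # S29 [C]: the period homomorphism of an eigenform is a Hecke eigenvector -/

namespace Fermat.Agent.S29

open CongruenceSubgroup Matrix.SpecialLinearGroup UpperHalfPlane ModularFormClass ModularCurve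
  ModularCurve.Period
open scoped MatrixGroups ModularForm
open P2MW.S_ModularForm_heckeT_slash_eq_self_of_mem_Gamma0.ModularForm.HeckeSlashInvariance
open Fermat.Agent.Lib.QCoeff

variable {N : ℕ}

/-- (E1) a normalised eigenform is an eigenvector of `T_l`. -/
theorem heckeTLin_eq {g : CuspForm (Gamma0 N) 2} (hg : g.IsNormalizedEigenform) {l : ℕ}
    (hl : l.Prime) (hlN : ¬ l ∣ N) : CuspForm.heckeTLin 2 hl hlN g = qCoeff g l • g := by
  apply ext_qCoeff
  intro n
  rw [qCoeff_heckeTLin, qCoeff_smul]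
  rcases Nat.eq_zero_or_pos n with rfl | hn
  · simp [qCoeff_zero_idx]
  obtain ⟨r, m, hm, rfl⟩ := Nat.exists_eq_pow_mul_and_not_dvd hn.ne' l hl.ne_one
  have hcop : ∀ s : ℕ, (l ^ s).Coprime m := fun s =>
    Nat.Coprime.pow_left s ((Nat.Prime.coprime_iff_not_dvd hl).mpr hm)
  have h1 : l ^ r * m * l = l ^ (r + 1) * m := by ring
  rw [h1, hg.qCoeff_mul_of_coprime _ _ (hcop _), hg.qCoeff_mul_of_coprime _ _ (hcop _)]
  cases r with
  | zero =>
    have : ¬ l ∣ l ^ 0 * m := by simpa using hm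
    rw [if_neg this]
    simp [hg.qCoeff_one]
  | succ r =>
    have hd : l ∣ l ^ (r + 1) * m := Dvd.dvd.mul_right (dvd_pow_self l (Nat.succ_ne_zero r)) m
    have hq : l ^ (r + 1) * m / l = l ^ r * m := by
      rw [pow_succ, mul_assoc, mul_comm l m, ← mul_assoc]
      exact Nat.mul_div_cancel _ hl.pos
    rw [if_pos hd, hq, hg.qCoeff_mul_of_coprime _ _ (hcop _),
      hg.qCoeff_prime_pow_of_not_dvd l r hl hlN]
    norm_num
    ring

theorem ne_zero_of_eigen {g : CuspForm (Gamma0 N) 2} (hg : g.IsNormalizedEigenform) : g ≠ 0 := by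
  rintro rfl
  have h := hg.qCoeff_one
  have h0 : qCoeff (⇑(0 : CuspForm (Gamma0 N) 2)) 1 = 0 := by
    simpa using (coeffLin N 2 1).map_zero
  rw [h0] at h
  exact zero_ne_one h

/-- (E2) the eigenvalues are algebraic integers. -/
theorem isIntegral_qCoeff [NeZero N] {g : CuspForm (Gamma0 N) 2} (hg : g.IsNormalizedEigenform)
    {l : ℕ} (hl : l.Prime) (hlN : ¬ l ∣ N) : IsIntegral ℤ (qCoeff g l) := by
  haveI : Module.Finite ℤ (CuspForm.heckeAlgebra N 2 ∅) := Fermat.Agent.S22.result N 2 ∅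
  have hint : IsIntegral ℤ (CuspForm.heckeAlgebra.T (S := ∅) (k := 2) hl hlN (by simp)) :=
    Algebra.IsIntegral.isIntegral _
  obtain ⟨P, hP, hP0⟩ := hint
  refine ⟨P, hP, ?_⟩
  have h1 : Polynomial.aeval (CuspForm.heckeTLin 2 hl hlN) P = 0 := by
    have := congrArg (Subalgebra.val (CuspForm.heckeAlgebra N 2 ∅)) hP0
    rw [← Polynomial.aeval_def, ← Polynomial.aeval_algHom_apply] at this
    simpa using this
  have h2 : ∀ Q : Polynomial ℤ, Polynomial.aeval (CuspForm.heckeTLin 2 hl hlN) Q g =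
      Polynomial.aeval (qCoeff g l) Q • g := by
    intro Q
    induction Q using Polynomial.induction_on' with
    | add p q hp hq => rw [map_add, map_add, LinearMap.add_apply, hp, hq, add_smul]
    | monomial n a =>
      rw [Polynomial.aeval_monomial, Polynomial.aeval_monomial]
      have h3 : ∀ n : ℕ, (CuspForm.heckeTLin 2 hl hlN ^ n) g = qCoeff g l ^ n • g := by
        intro n
        induction n with
        | zero => simp
        | succ n ih =>
          rw [pow_succ, Module.End.mul_apply, heckeTLin_eq hg hl hlN, map_smul, ih, smul_smul,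
            pow_succ, mul_comm]
      rw [Module.End.mul_apply, h3, map_smul, Module.algebraMap_end_apply, smul_comm, mul_smul]
      rw [eq_intCast, Int.cast_smul_eq_zsmul]
  have h4 := h2 P
  rw [h1, LinearMap.zero_apply] at h4
  rw [← Polynomial.aeval_def]
  exact (smul_eq_zero.mp h4.symm).resolve_right (ne_zero_of_eigen hg)

/-- (E3) chain rule for the action of `GL₂(ℝ)⁺`. -/
theorem hasDerivAt_comp_GL (F f : ℍ → ℂ) (hF : ∀ τ : ℍ, HasDerivAt (F ∘ ofComplex) (f τ) ↑τ)
    (α : GL (Fin 2) ℝ) (hα : 0 < (α.det : ℝ)) (τ : ℍ) :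
    HasDerivAt ((fun w : ℍ => F (α • w)) ∘ ofComplex) ((f ∣[(2 : ℤ)] α) τ) ↑τ := by
  have hdet : (0 : ℝ) < α.val.det := by
    rwa [← Matrix.GeneralLinearGroup.val_det_apply]
  have h1 : HasDerivAt (fun w ↦ ↑(α • ofComplex w) : ℂ → ℂ)
      ((α.val.det : ℂ) / denom α τ ^ 2) ↑τ :=
    (hasStrictDerivAt_smul hdet τ).hasDerivAt
  have h2 : HasDerivAt (F ∘ ofComplex) (f (α • τ)) ↑(α • ofComplex (τ : ℂ)) := by
    rw [ofComplex_apply]
    exact hF _
  have h3 := h2.comp (τ : ℂ) h1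
  have h4 : ((F ∘ ofComplex) ∘ fun w ↦ ↑(α • ofComplex w) : ℂ → ℂ) =
      (fun w : ℍ => F (α • w)) ∘ ofComplex := by
    funext w
    simp only [Function.comp_apply, ofComplex_apply]
  rw [h4] at h3
  have hval : (f ∣[(2 : ℤ)] α) τ = f (α • τ) * ((α.val.det : ℂ) / denom α τ ^ 2) := by
    have hσ : UpperHalfPlane.σ α = .refl ℝ ℂ := by rw [UpperHalfPlane.σ, if_pos hα]
    rw [ModularForm.slash_apply, hσ]
    simp only [ContinuousAlgEquiv.refl_apply]
    rw [abs_of_pos hα, Matrix.GeneralLinearGroup.val_det_apply, zpow_neg]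
    norm_num
    ring
  rw [hval]
  exact h3

theorem det_heckeRep_pos (l : ℕ) (x : OnePoint (ZMod l)) : 0 < ((heckeRep l x).det : ℝ) := by
  induction x using OnePoint.rec with
  | infty => exact ModularForm.det_heckeDiagMatrix_pos l
  | coe j => exact ModularForm.det_heckeMatrix_pos l _

/-- (E4) the period homomorphism of an eigenform is an eigenvector. -/
theorem heckeHom_periodMap [NeZero N] {g : CuspForm (Gamma0 N) 2} (hg : g.IsNormalizedEigenform)
    {l : ℕ} [Fact l.Prime] (hlN : ¬ l ∣ N) :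
    heckeHom hlN (periodMap N g) = qCoeff g l • periodMap N g := by
  have hl : l.Prime := Fact.out
  obtain ⟨F, hF⟩ := Fermat.Agent.S21.exists_hasEquivariantPrimitive N g
  set Φ : ℍ → ℂ := fun z => ∑ x : OnePoint (ZMod l), F (heckeRep l x • z) with hΦ
  have hΦd : ∀ τ : ℍ, HasDerivAt (Φ ∘ ofComplex) (qCoeff g l * g τ) ↑τ := by
    intro τ
    have h1 : HasDerivAt (fun w : ℂ => ∑ x : OnePoint (ZMod l),
        ((fun w : ℍ => F (heckeRep l x • w)) ∘ ofComplex) w)
        (∑ x : OnePoint (ZMod l), ((⇑g) ∣[(2 : ℤ)] heckeRep l x) τ) ↑τ :=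
      HasDerivAt.fun_sum fun x _ => hasDerivAt_comp_GL F g hF.1 _ (det_heckeRep_pos l x) τ
    have h2 : (∑ x : OnePoint (ZMod l), ((⇑g) ∣[(2 : ℤ)] heckeRep l x) τ) = qCoeff g l * g τ := by
      have h3 := congrArg (fun f : CuspForm (Gamma0 N) 2 => f τ) (heckeTLin_eq hg hl hlN)
      simp only [CuspForm.heckeTLin_apply_apply] at h3
      rw [heckeT_eq_sum_onePoint, Finset.sum_apply] at h3
      rw [h3]
      rfl
    rw [h2] at h1
    exact h1
  obtain ⟨C, hC⟩ := Fermat.Agent.S21.exists_const_of_hasDerivAt_eq Φ (fun z => qCoeff g l * F z)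
    (fun τ => qCoeff g l * g τ) hΦd (fun τ => (hF.1 τ).const_mul _)
  refine AddMonoidHom.ext fun γ => ?_
  obtain ⟨γ, rfl⟩ := Additive.ofMul.surjective γ
  rw [heckeHom_apply, AddMonoidHom.smul_apply, smul_eq_mul,
    Fermat.Agent.S21.periodMap_apply hF γ UpperHalfPlane.I]
  have h5 : ∀ x : OnePoint (ZMod l), periodMap N g (Additive.ofMul (hdelta hlN γ x)) =
      F (heckeRep l x • ((γ : SL(2, ℤ)) • UpperHalfPlane.I)) -
        F (heckeRep l (redMatrix l (γ : SL(2, ℤ)) • x) • UpperHalfPlane.I) := by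
    intro x
    rw [Fermat.Agent.S21.periodMap_apply hF (hdelta hlN γ x)
      (heckeRep l (redMatrix l (γ : SL(2, ℤ)) • x) • UpperHalfPlane.I)]
    congr 2
    change mapGL ℝ (hdelta hlN γ x : SL(2, ℤ)) •
        (heckeRep l (redMatrix l (γ : SL(2, ℤ)) • x) • UpperHalfPlane.I) =
      heckeRep l x • (mapGL ℝ (γ : SL(2, ℤ)) • UpperHalfPlane.I)
    rw [← mul_smul, ← mul_smul, hdelta_spec]
  rw [Finset.sum_congr rfl fun x _ => h5 x, Finset.sum_sub_distrib]
  have h6 : ∑ x : OnePoint (ZMod l),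
      F (heckeRep l (redMatrix l (γ : SL(2, ℤ)) • x) • UpperHalfPlane.I) = Φ UpperHalfPlane.I :=
    Equiv.sum_comp (MulAction.toPerm (redMatrix l (γ : SL(2, ℤ))))
      (fun x => F (heckeRep l x • UpperHalfPlane.I))
  rw [h6]
  have h7 := hC ((γ : SL(2, ℤ)) • UpperHalfPlane.I)
  have h8 := hC UpperHalfPlane.I
  show Φ ((γ : SL(2, ℤ)) • UpperHalfPlane.I) - Φ UpperHalfPlane.I = _
  linear_combination h7 - h8

/-- Cayley-Hamilton for `SL₂(ℤ)`. -/
theorem sq_eq_trace_smul_sub_one (γ : SL(2, ℤ)) :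
    (γ : Matrix (Fin 2) (Fin 2) ℤ) ^ 2 =
      (γ : Matrix (Fin 2) (Fin 2) ℤ).trace • (γ : Matrix (Fin 2) (Fin 2) ℤ) - 1 := by
  have hdet : γ 0 0 * γ 1 1 - γ 0 1 * γ 1 0 = 1 := by
    have := γ.det_coe
    rw [Matrix.det_fin_two] at this
    exact this
  rw [pow_two]
  ext i j
  rw [Matrix.sub_apply, Matrix.smul_apply, Matrix.mul_apply, Fin.sum_univ_two,
    Matrix.trace_fin_two, smul_eq_mul]
  fin_cases i <;> fin_cases j <;> simp <;>
    first | linear_combination -hdet | ring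

theorem pow_twelve_eq_one (γ : SL(2, ℤ))
    (h : (γ : Matrix (Fin 2) (Fin 2) ℤ).trace ^ 2 < 4) : γ ^ 12 = 1 := by
  apply Subtype.ext
  rw [Matrix.SpecialLinearGroup.coe_pow, Matrix.SpecialLinearGroup.coe_one]
  have h2 := sq_eq_trace_smul_sub_one γ
  set M := (γ : Matrix (Fin 2) (Fin 2) ℤ) with hM
  set t := M.trace with ht
  have ht1 : -2 < t := by nlinarith
  have ht2 : t < 2 := by nlinarith
  have hcases : t = -1 ∨ t = 0 ∨ t = 1 := by omega
  have e : M ^ 3 = M ^ 2 * M := pow_succ M 2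
  rcases hcases with h | h | h
  · have h2' : M ^ 2 = -M - 1 := by rw [h2, h, neg_one_zsmul]
    have h3 : M ^ 3 = 1 := by
      rw [e, h2', sub_mul, neg_mul, one_mul, ← pow_two, h2']
      abel
    calc M ^ 12 = (M ^ 3) ^ 4 := by rw [← pow_mul]
      _ = 1 := by rw [h3, one_pow]
  · have h3 : M ^ 2 = -1 := by rw [h2, h, zero_smul, zero_sub]
    calc M ^ 12 = (M ^ 2) ^ 6 := by rw [← pow_mul]
      _ = 1 := by rw [h3]; exact Even.neg_one_pow ⟨3, rfl⟩
  · have h2' : M ^ 2 = M - 1 := by rw [h2, h, one_zsmul]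
    have h3 : M ^ 3 = -1 := by
      rw [e, h2', sub_mul, one_mul, ← pow_two, h2']
      abel
    calc M ^ 12 = (M ^ 3) ^ 4 := by rw [← pow_mul]
      _ = 1 := by rw [h3]; exact Even.neg_one_pow ⟨2, rfl⟩

/-- a parabolic homomorphism to a torsion free group kills the elliptic elements as well. -/
theorem mem_peHoms_of_parabolic {c : Additive (Gamma0 N) →+ ℂ}
    (hc : c ∈ parabolicHoms ℂ (Gamma0 N) ℂ) : c ∈ peHoms ℂ N ℂ := by
  intro γ hγ
  rcases (show (γ : SL(2, ℤ)).1.trace ^ 2 ≤ 4 from hγ).eq_or_lt with h | h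
  · exact hc γ h
  · have h1 : γ ^ 12 = 1 := Subtype.ext (by
      rw [Subgroup.coe_pow, pow_twelve_eq_one _ h]; rfl)
    have h2 : (12 : ℕ) • c (Additive.ofMul γ) = 0 := by
      rw [← map_nsmul, ← ofMul_pow, h1, ofMul_one, map_zero]
    simpa using h2

/-- (E5) -/
theorem periodMap_mem_peHoms [NeZero N] (g : CuspForm (Gamma0 N) 2) :
    periodMap N g ∈ peHoms ℂ N ℂ :=
  mem_peHoms_of_parabolic (Fermat.Agent.S21.periodMap_mem_parabolicHoms N g)

theorem periodMap_ne_zero [NeZero N] {g : CuspForm (Gamma0 N) 2} (hg : g ≠ 0) :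
    periodMap N g ≠ 0 := by
  intro h
  obtain ⟨pml, hpml⟩ := Fermat.Agent.S21.existsPeriodMapLinear N
  have h0 : periodMap N (0 : CuspForm (Gamma0 N) 2) = 0 := by rw [← hpml, map_zero]
  have := Fermat.Agent.S21.eq_zero_of_periodMap_add_charInvolution N g 0 (by
    rw [h, h0, map_zero, add_zero])
  exact hg this.1

end Fermat.Agent.S29
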