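import Mathlib
import Fermat.Agent.S29.PeriodEig
import Fermat.Agent.S29.EigRedAbs

set_option autoImplicit false
set_option linter.style.haveILetI false

/-! # S29 [C]: the mod `p` eigen-homomorphism attached to a normalised eigenform -/

namespace Fermat.Agent.S29

open CongruenceSubgroup Matrix.SpecialLinearGroup UpperHalfPlane ModularFormClass ModularCurve
  ModularCurve.Period
open scoped MatrixGroups ModularForm
open Fermat.Agent.Lib.QCoeff

/-- OUTPUT of block [C]. -/
theorem exists_eigen_hom {N : ℕ} [NeZero N] {g : CuspForm (Gamma0 N) 2}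
    (hg : g.IsNormalizedEigenform) {p : ℕ} (hp : p.Prime) {k : Type} [Field k] [CharP k p]
    (φ : integralClosure ℤ ℂ →+* k) :
    ∃ c ∈ peHoms k N k, c ≠ 0 ∧ ∀ (l : ℕ) (hl : l.Prime) (hlN : ¬ l ∣ N),
      ∃ a : integralClosure ℤ ℂ, (a : ℂ) = qCoeff g l ∧
        (haveI : Fact l.Prime := ⟨hl⟩; heckeHom hlN c) = φ a • c := by
  haveI := fg_Gamma0 N
  obtain ⟨B, hB, Λ, c', u, hΛ, hc', hne⟩ :=
    exists_red (periodMap N g) (periodMap_ne_zero (ne_zero_of_eigen hg)) hp φ
  refine ⟨Λ.comp c', ?_, hne, ?_⟩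
  · intro γ hγ
    have h0 : c' (Additive.ofMul γ) = 0 := by
      apply Subtype.ext
      rw [hc', periodMap_mem_peHoms g γ hγ, mul_zero]
      rfl
    rw [AddMonoidHom.comp_apply, h0, map_zero]
  · intro l hl hlN
    haveI : Fact l.Prime := ⟨hl⟩
    refine ⟨⟨qCoeff g l, isIntegral_qCoeff hg hl hlN⟩, rfl, ?_⟩
    rw [heckeHom_comp]
    refine DFunLike.ext _ _ fun γ => ?_
    have h1 : heckeHom hlN c' γ = ⟨qCoeff g l, hB ⟨qCoeff g l, isIntegral_qCoeff hg hl hlN⟩⟩ * c' γ := by
      apply Subtype.ext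
      have h2 : ((heckeHom hlN c' γ : B) : ℂ) = heckeHom hlN (B.subtype.toAddMonoidHom.comp c') γ := by
        rw [heckeHom_comp]
        rfl
      have h3 : B.subtype.toAddMonoidHom.comp c' = u • periodMap N g := by
        ext δ
        exact hc' δ
      rw [h2, h3, heckeHom_smul, heckeHom_periodMap hg hlN]
      show u * (qCoeff g l * periodMap N g γ) = qCoeff g l * (c' γ : ℂ)
      rw [hc']
      ring
    show Λ (heckeHom hlN c' γ) = _
    rw [h1]
    exact hΛ ⟨qCoeff g l, isIntegral_qCoeff hg hl hlN⟩ (c' γ)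

end Fermat.Agent.S29
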