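import Mathlib
import Fermat.Agent.S29.HomDefs

set_option autoImplicit false
set_option linter.style.haveILetI false

/-! # S29 [C]: the Hecke operators preserve the homomorphisms killing parabolic and elliptic
elements -/

namespace Fermat.Agent.S29

open CongruenceSubgroup Matrix.SpecialLinearGroup
open scoped MatrixGroups
open P2MW.S_ModularForm_heckeT_slash_eq_self_of_mem_Gamma0.ModularForm.HeckeSlashInvariance

/-- the cycle lemma. -/
theorem sum_eq_zero_of_cycles {X A : Type*} [Fintype X] [DecidableEq X] [AddCommGroup A]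
    (π : Equiv.Perm X) (a : X → A)
    (h : ∀ x m, π^[m] x = x → ∑ i ∈ Finset.range m, a (π^[i] x) = 0) : ∑ x, a x = 0 := by
  have key : ∀ s : Finset X, (∀ x ∈ s, π x ∈ s) → ∑ x ∈ s, a x = 0 := by
    intro s
    induction s using Finset.strongInduction with
    | H s ih =>
      intro hs
      rcases s.eq_empty_or_nonempty with rfl | ⟨x, hx⟩
      · simp
      set m := Function.minimalPeriod π x with hm
      have hper : x ∈ Function.periodicPts π := by
        refine Function.mk_mem_periodicPts (orderOf_pos π) ?_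
        show π^[orderOf π] x = x
        rw [Equiv.Perm.iterate_eq_pow, pow_orderOf_eq_one]
        rfl
      have hmpos : 0 < m := Function.minimalPeriod_pos_of_mem_periodicPts hper
      have hmx : π^[m] x = x := Function.iterate_minimalPeriod
      set O : Finset X := (Finset.range m).image (fun i => π^[i] x) with hO
      have hOs : O ⊆ s := by
        intro y hy
        obtain ⟨i, -, rfl⟩ := Finset.mem_image.mp hy
        clear hy
        induction i with
        | zero => exact hx
        | succ i ih' =>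
          show π^[i + 1] x ∈ s
          rw [Function.iterate_succ_apply']
          exact hs _ ih'
      have hxO : x ∈ O := Finset.mem_image.mpr ⟨0, Finset.mem_range.mpr hmpos, rfl⟩
      have hsd : s \ O ⊂ s := by
        refine Finset.ssubset_iff_subset_ne.mpr ⟨Finset.sdiff_subset, fun he => ?_⟩
        have := he ▸ hx
        exact (Finset.mem_sdiff.mp this).2 hxO
      have hinv : ∀ y ∈ s \ O, π y ∈ s \ O := by
        intro y hy
        obtain ⟨hys, hyO⟩ := Finset.mem_sdiff.mp hy
        refine Finset.mem_sdiff.mpr ⟨hs y hys, fun hc => hyO ?_⟩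
        obtain ⟨i, hi, hiy⟩ := Finset.mem_image.mp hc
        rcases Nat.eq_zero_or_pos i with rfl | hipos
        · refine Finset.mem_image.mpr ⟨m - 1, Finset.mem_range.mpr (by omega), ?_⟩
          apply π.injective
          show π (π^[m - 1] x) = π y
          rw [← Function.iterate_succ_apply' (⇑π), ← hiy]
          have : (m - 1).succ = m := by omega
          rw [this, hmx]
          rfl
        · refine Finset.mem_image.mpr ⟨i - 1, Finset.mem_range.mpr
            (by have := Finset.mem_range.mp hi; omega), ?_⟩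
          apply π.injective
          show π (π^[i - 1] x) = π y
          rw [← Function.iterate_succ_apply' (⇑π), ← hiy]
          have : (i - 1).succ = i := by omega
          rw [this]
      rw [← Finset.sum_sdiff hOs, ih _ hsd hinv, zero_add, hO, Finset.sum_image]
      · exact h x m hmx
      · intro i hi j hj hij
        exact Function.iterate_injOn_Iio_minimalPeriod (Finset.mem_range.mp hi)
          (Finset.mem_range.mp hj) hij
  exact key Finset.univ (fun x _ => Finset.mem_univ _)

/-- Cayley-Hamilton for `SL₂(ℤ)`. -/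
theorem sq_eq_trace_smul_sub_one' (γ : SL(2, ℤ)) :
    (γ : Matrix (Fin 2) (Fin 2) ℤ) ^ 2 =
      (γ : Matrix (Fin 2) (Fin 2) ℤ).trace • (γ : Matrix (Fin 2) (Fin 2) ℤ) - 1 := by
  have hdet : γ 0 0 * γ 1 1 - γ 0 1 * γ 1 0 = 1 := by
    have := γ.det_coe
    rw [Matrix.det_fin_two] at this
    exact this
  rw [pow_two]
  ext i j
  rw [Matrix.sub_apply, Matrix.smul_apply, Matrix.mul_apply, Fin.sum_univ_two,
    Matrix.trace_fin_two, smul_eq_mul]
  fin_cases i <;> fin_cases j <;> simp <;>
    first | linear_combination -hdet | ring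

theorem trace_pow_rec (γ : SL(2, ℤ)) (m : ℕ) :
    ((γ : Matrix (Fin 2) (Fin 2) ℤ) ^ (m + 2)).trace =
      (γ : Matrix (Fin 2) (Fin 2) ℤ).trace * ((γ : Matrix (Fin 2) (Fin 2) ℤ) ^ (m + 1)).trace -
        ((γ : Matrix (Fin 2) (Fin 2) ℤ) ^ m).trace := by
  rw [pow_add, sq_eq_trace_smul_sub_one', mul_sub, mul_one, Matrix.mul_smul, ← pow_succ,
    Matrix.trace_sub, Matrix.trace_smul, smul_eq_mul]

theorem IsPE.pow {γ : SL(2, ℤ)} (h : IsPE γ) (m : ℕ) : IsPE (γ ^ m) := by
  unfold IsPE at h ⊢
  rw [Matrix.SpecialLinearGroup.coe_pow]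
  set M := (γ : Matrix (Fin 2) (Fin 2) ℤ) with hM
  set t := M.trace with ht
  have key : ∀ m : ℕ, (M ^ m).trace ^ 2 ≤ 4 ∧ (M ^ (m + 1)).trace ^ 2 ≤ 4 ∧
      (M ^ m).trace ^ 2 - t * (M ^ m).trace * (M ^ (m + 1)).trace + (M ^ (m + 1)).trace ^ 2
        = 4 - t ^ 2 := by
    intro m
    induction m with
    | zero =>
      have h0 : (M ^ 0).trace = 2 := by simp
      have h1 : (M ^ (0 + 1)).trace = t := by simp [ht]
      rw [h0, h1]
      refine ⟨by norm_num, h, by ring⟩
    | succ m ih =>
      obtain ⟨h1, h2, h3⟩ := ih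
      have hrec := trace_pow_rec γ m
      rw [← hM, ← ht] at hrec
      set x := (M ^ m).trace
      set y := (M ^ (m + 1)).trace
      set z := (M ^ (m + 1 + 1)).trace
      have hz : z = t * y - x := hrec
      have h4 : y ^ 2 - t * y * z + z ^ 2 = 4 - t ^ 2 := by rw [hz]; linear_combination h3
      refine ⟨h2, ?_, h4⟩
      rcases h.eq_or_lt with ht4 | ht4
      · have h5 : (2 * y - t * z) ^ 2 = 0 := by nlinarith
        have h6 : 2 * y = t * z := by
          have := pow_eq_zero_iff (two_ne_zero) |>.mp h5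
          linarith
        have h7 : 4 * y ^ 2 = 4 * z ^ 2 := by
          have : (2 * y) ^ 2 = (t * z) ^ 2 := by rw [h6]
          nlinarith
        linarith
      · have h5 : (4 - t ^ 2) * z ^ 2 ≤ 4 * (4 - t ^ 2) := by nlinarith [sq_nonneg (2 * y - t * z)]
        have h6 : 0 < 4 - t ^ 2 := by linarith
        nlinarith
  exact (key m).1

variable {N l : ℕ} [Fact l.Prime]

theorem redMatrix_pow_smul (γ : SL(2, ℤ)) (m : ℕ) (x : OnePoint (ZMod l)) :
    redMatrix l (γ ^ m) • x = (fun y => redMatrix l γ • y)^[m] x := by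
  induction m with
  | zero => simp [redMatrix_one]
  | succ m ih => rw [pow_succ, redMatrix_mul, mul_smul, ih, Function.iterate_succ_apply']

theorem map_hdelta_pow {A : Type*} [AddCommGroup A] (hl : ¬ l ∣ N)
    (c : Additive (Gamma0 N) →+ A) (γ : Gamma0 N) (m : ℕ) (x : OnePoint (ZMod l)) :
    c (Additive.ofMul (hdelta hl (γ ^ m) x)) = ∑ i ∈ Finset.range m,
      c (Additive.ofMul (hdelta hl γ ((fun y => redMatrix l (γ : SL(2, ℤ)) • y)^[i] x))) := by
  induction m with
  | zero => simp [hdelta_one]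
  | succ m ih =>
    rw [pow_succ, hdelta_mul, ofMul_mul, map_add, ih, Finset.sum_range_succ, Subgroup.coe_pow,
      redMatrix_pow_smul]

/-- at a fixed point `δ(γ, x)` is conjugate to `γ`. -/
theorem trace_hdelta_of_fixed (hl : ¬ l ∣ N) (γ : Gamma0 N) (x : OnePoint (ZMod l))
    (hx : redMatrix l (γ : SL(2, ℤ)) • x = x) :
    ((hdelta hl γ x : SL(2, ℤ)) : Matrix (Fin 2) (Fin 2) ℤ).trace =
      ((γ : SL(2, ℤ)) : Matrix (Fin 2) (Fin 2) ℤ).trace := by
  have h := hdelta_spec hl γ x
  rw [hx] at h
  have h1 : mapGL ℝ (hdelta hl γ x : SL(2, ℤ)) =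
      heckeRep l x * mapGL ℝ (γ : SL(2, ℤ)) * (heckeRep l x)⁻¹ := by
    rw [h, mul_assoc, mul_inv_cancel, mul_one]
  have h2 : ((mapGL ℝ (hdelta hl γ x : SL(2, ℤ)) : GL (Fin 2) ℝ) :
      Matrix (Fin 2) (Fin 2) ℝ).trace =
      ((mapGL ℝ (γ : SL(2, ℤ)) : GL (Fin 2) ℝ) : Matrix (Fin 2) (Fin 2) ℝ).trace := by
    rw [h1, Units.val_mul, Units.val_mul, Matrix.trace_units_conj]
  simp only [Matrix.trace_fin_two, Matrix.SpecialLinearGroup.mapGL_coe_matrix,
    Matrix.SpecialLinearGroup.map_apply_coe, RingHom.mapMatrix_apply, Matrix.map_apply,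
    algebraMap_int_eq, Int.coe_castRingHom] at h2 ⊢
  exact_mod_cast h2

/-- `T_l` preserves `peHoms`. -/
theorem heckeHom_mem_peHoms {R A : Type*} [Semiring R] [AddCommGroup A] [Module R A]
    (hl : ¬ l ∣ N) {c : Additive (Gamma0 N) →+ A} (hc : c ∈ peHoms R N A) :
    heckeHom hl c ∈ peHoms R N A := by
  intro γ hγ
  rw [heckeHom_apply]
  classical
  apply sum_eq_zero_of_cycles (MulAction.toPerm (redMatrix l (γ : SL(2, ℤ))))
  intro x m hx
  have hx' : (fun y => redMatrix l (γ : SL(2, ℤ)) • y)^[m] x = x := hx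
  have h1 := map_hdelta_pow hl c γ m x
  refine h1.symm.trans ?_
  apply hc
  show _ ≤ _
  rw [trace_hdelta_of_fixed hl (γ ^ m) x (by rw [Subgroup.coe_pow, redMatrix_pow_smul, hx']),
    Subgroup.coe_pow]
  exact hγ.pow m

end Fermat.Agent.S29
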