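import Mathlib
import Fermat.Agent.S29.HomPE
import Fermat.Agent.S29.EigRed

set_option autoImplicit false
set_option linter.style.haveILetI false

/-! # S29 [C]: `k ⊗ Hom(Γ₀(N), 𝔽_p) = Hom(Γ₀(N), k)` and the eigenvector in `k ⊗ HH` -/

namespace Fermat.Agent.S29

open CongruenceSubgroup Matrix.SpecialLinearGroup ModularFormClass
open scoped MatrixGroups TensorProduct

/-- the `𝔽_p`-valued homomorphisms killing parabolic and elliptic elements. -/
abbrev HH (p N : ℕ) : Type := ↥(peHoms (ZMod p) N (ZMod p))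

/-- the Hecke operator on `HH`. -/
noncomputable def TH (p N ℓ : ℕ) : Module.End (ZMod p) (HH p N) :=
  if h : ℓ.Prime ∧ ¬ ℓ ∣ N then
    (haveI : Fact ℓ.Prime := ⟨h.1⟩
     (heckeLin (ZMod p) h.2).restrict (fun _ hc => heckeHom_mem_peHoms h.2 hc))
  else 0

theorem coe_TH (p : ℕ) {N ℓ : ℕ} (hl : ℓ.Prime) (hlN : ¬ ℓ ∣ N) (c : HH p N) :
    ((TH p N ℓ c : HH p N) : Additive (Gamma0 N) →+ ZMod p) =
      (haveI : Fact ℓ.Prime := ⟨hl⟩; heckeHom hlN c.1) := by
  unfold TH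
  rw [dif_pos ⟨hl, hlN⟩]
  rfl

section mu

variable (p N : ℕ) [Fact p.Prime] (k : Type) [Field k] [Algebra (ZMod p) k]

instance isScalarTower_hom : IsScalarTower (ZMod p) k (Additive (Gamma0 N) →+ k) :=
  ⟨fun a b c => by
    refine DFunLike.ext _ _ fun γ => ?_
    show (a • b) • c γ = a • (b • c γ)
    rw [smul_assoc]⟩

/-- extension of scalars of a homomorphism. -/
noncomputable def iotaHom : HH p N →ₗ[ZMod p] (Additive (Gamma0 N) →+ k) where
  toFun c := (algebraMap (ZMod p) k).toAddMonoidHom.comp c.1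
  map_add' c c' := by
    refine DFunLike.ext _ _ fun γ => ?_
    show algebraMap (ZMod p) k (c.1 γ + c'.1 γ) = algebraMap (ZMod p) k (c.1 γ) +
      algebraMap (ZMod p) k (c'.1 γ)
    rw [map_add]
  map_smul' a c := by
    refine DFunLike.ext _ _ fun γ => ?_
    show algebraMap (ZMod p) k (a * c.1 γ) = a • algebraMap (ZMod p) k (c.1 γ)
    rw [map_mul, Algebra.smul_def]

theorem iotaHom_apply (c : HH p N) (γ : Additive (Gamma0 N)) :
    iotaHom p N k c γ = algebraMap (ZMod p) k (c.1 γ) := rfl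

/-- `k ⊗ HH → Hom(Γ₀(N), k)`. -/
noncomputable def muHom : k ⊗[ZMod p] HH p N →ₗ[k] (Additive (Gamma0 N) →+ k) :=
  (iotaHom p N k).liftBaseChange k

theorem muHom_tmul (a : k) (c : HH p N) : muHom p N k (a ⊗ₜ c) = a • iotaHom p N k c := rfl

theorem muHom_injective : Function.Injective (muHom p N k) := by
  rw [injective_iff_map_eq_zero]
  intro z hz
  let b := Module.Basis.ofVectorSpace (ZMod p) k
  obtain ⟨d, rfl⟩ := TensorProduct.eq_repr_basis_left b z
  have hd : d = 0 := by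
    refine Finsupp.ext fun i => Subtype.ext (DFunLike.ext _ _ fun γ => ?_)
    have h1 := DFunLike.congr_fun hz γ
    rw [Finsupp.sum, map_sum] at h1
    have h2 : (∑ i ∈ d.support, muHom p N k (b i ⊗ₜ[ZMod p] d i)) γ =
        ∑ i ∈ d.support, ((d i).1 γ) • b i := by
      rw [AddMonoidHom.finsetSum_apply]
      refine Finset.sum_congr rfl fun i _ => ?_
      show b i * algebraMap (ZMod p) k ((d i).1 γ) = _
      rw [Algebra.smul_def, mul_comm]
    rw [h2] at h1
    have h3 := linearIndependent_iff'.mp b.linearIndependent d.support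
      (fun i => (d i).1 γ) h1
    by_cases hi : i ∈ d.support
    · exact h3 i hi
    · rw [Finsupp.notMem_support_iff.mp hi]
      rfl
  rw [hd]
  simp

theorem muHom_surjective [NeZero N] {c : Additive (Gamma0 N) →+ k} (hc : c ∈ peHoms k N k) :
    ∃ z, muHom p N k z = c := by
  classical
  let b := Module.Basis.ofVectorSpace (ZMod p) k
  haveI := fg_Gamma0 N
  obtain ⟨S, hS⟩ := (Group.FG.out : (⊤ : Subgroup (Gamma0 N)).FG)
  let ci : Module.Basis.ofVectorSpaceIndex (ZMod p) k → HH p N := fun i =>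
    ⟨(b.coord i).toAddMonoidHom.comp c, fun γ hγ => by
      show b.coord i (c (Additive.ofMul γ)) = 0
      rw [hc γ hγ, map_zero]⟩
  let I : Finset (Module.Basis.ofVectorSpaceIndex (ZMod p) k) :=
    S.biUnion fun s => (b.repr (c (Additive.ofMul s))).support
  have hI : ∀ i, i ∉ I → ∀ γ : Additive (Gamma0 N), b.repr (c γ) i = 0 := by
    intro i hi
    have : ∀ γ : Gamma0 N, γ ∈ Subgroup.closure (S : Set (Gamma0 N)) →
        b.repr (c (Additive.ofMul γ)) i = 0 := by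
      intro γ hγ
      induction hγ using Subgroup.closure_induction with
      | mem x hx =>
        by_contra hne
        exact hi (Finset.mem_biUnion.mpr ⟨x, hx, Finsupp.mem_support_iff.mpr hne⟩)
      | one => simp
      | mul x y _ _ hx hy =>
        rw [ofMul_mul, map_add, map_add, Finsupp.add_apply, hx, hy, add_zero]
      | inv x _ hx => rw [ofMul_inv, map_neg, map_neg, Finsupp.neg_apply, hx, neg_zero]
    exact fun γ => this (Additive.toMul γ) (hS ▸ Subgroup.mem_top _)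
  refine ⟨∑ i ∈ I, b i ⊗ₜ[ZMod p] ci i, ?_⟩
  refine DFunLike.ext _ _ fun γ => ?_
  rw [map_sum, AddMonoidHom.finsetSum_apply]
  have h1 : ∀ i ∈ I, muHom p N k (b i ⊗ₜ[ZMod p] ci i) γ = (b.repr (c γ) i) • b i := by
    intro i _
    show b i * algebraMap (ZMod p) k (b.repr (c γ) i) = _
    rw [Algebra.smul_def, mul_comm]
  rw [Finset.sum_congr rfl h1]
  conv_rhs => rw [← b.linearCombination_repr (c γ), Finsupp.linearCombination_apply]
  rw [Finsupp.sum_of_support_subset (s := I)]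
  · intro i hi
    by_contra hne
    exact (Finsupp.mem_support_iff.mp hi) (hI i hne γ)
  · intro i _
    rw [zero_smul]

theorem muHom_TH {ℓ : ℕ} (hl : ℓ.Prime) (hlN : ¬ ℓ ∣ N) (z : k ⊗[ZMod p] HH p N) :
    muHom p N k ((TH p N ℓ).baseChange k z) =
      (haveI : Fact ℓ.Prime := ⟨hl⟩; heckeHom hlN (muHom p N k z)) := by
  haveI : Fact ℓ.Prime := ⟨hl⟩
  induction z using TensorProduct.induction_on with
  | zero => simp [heckeHom_zero]
  | tmul a c =>
    rw [LinearMap.baseChange_tmul, muHom_tmul, muHom_tmul, heckeHom_smul]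
    congr 1
    show (algebraMap (ZMod p) k).toAddMonoidHom.comp (TH p N ℓ c).1 =
      heckeHom hlN ((algebraMap (ZMod p) k).toAddMonoidHom.comp c.1)
    rw [coe_TH p hl hlN, heckeHom_comp]
  | add z₁ z₂ h₁ h₂ => rw [map_add, map_add, map_add, heckeHom_add, h₁, h₂]

end mu

/-- the inputs `(HH, TH, c, af)` of the abstract GLUE. -/
theorem exists_eigen_tensor {N : ℕ} [NeZero N] {g : CuspForm (Gamma0 N) 2}
    (hg : g.IsNormalizedEigenform) {p : ℕ} [Fact p.Prime] {k : Type} [Field k] [CharP k p]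
    [Algebra (ZMod p) k] (φ : integralClosure ℤ ℂ →+* k) :
    ∃ (c : k ⊗[ZMod p] HH p N) (af : ℕ → k), c ≠ 0 ∧
      (∀ ℓ : ℕ, ℓ.Prime → ¬ ℓ ∣ N →
        ∃ a : integralClosure ℤ ℂ, (a : ℂ) = qCoeff g ℓ ∧ af ℓ = φ a) ∧
      ∀ ℓ : ℕ, ℓ.Prime → ¬ ℓ ∣ N → (TH p N ℓ).baseChange k c = af ℓ • c := by
  classical
  obtain ⟨c, hc, hc0, heig⟩ := exists_eigen_hom hg (Fact.out : p.Prime) φ
  obtain ⟨z, hz⟩ := muHom_surjective p N k hc
  refine ⟨z, fun ℓ => if h : ℓ.Prime ∧ ¬ ℓ ∣ N then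
    φ ⟨qCoeff g ℓ, isIntegral_qCoeff hg h.1 h.2⟩ else 0, ?_, ?_, ?_⟩
  · rintro rfl
    exact hc0 (by rw [← hz, map_zero])
  · intro ℓ hl hlN
    exact ⟨⟨qCoeff g ℓ, isIntegral_qCoeff hg hl hlN⟩, rfl, dif_pos ⟨hl, hlN⟩⟩
  · intro ℓ hl hlN
    apply muHom_injective p N k
    obtain ⟨a, ha, hh⟩ := heig ℓ hl hlN
    have ha' : a = ⟨qCoeff g ℓ, isIntegral_qCoeff hg hl hlN⟩ := Subtype.ext ha
    rw [muHom_TH p N k hl hlN, map_smul, hz, hh, ha']
    simp only [dif_pos (show ℓ.Prime ∧ ¬ ℓ ∣ N from ⟨hl, hlN⟩)]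

end Fermat.Agent.S29
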