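import Mathlib
import Fermat.Prelude.Def_GaloisRep_Residual

/-!
# S29 wrapper

Reduction of the frozen statement S29 to the case: `N ≠ 0`, the coefficient field is
algebraically closed and `φ` is surjective.
-/

set_option autoImplicit false
set_option linter.style.haveILetI false

namespace Fermat.Agent.S29.Wrap

open Polynomial

/-- The core statement: level `N ≠ 0`, `k` algebraically closed, `φ` surjective. -/
def Core : Prop :=
  ∀ (N : ℕ) [NeZero N] (g : CuspForm (CongruenceSubgroup.Gamma0 N) 2),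
    g.IsNormalizedEigenform → ∀ (p : ℕ), p.Prime → ∀ (k : Type) [Field k] [CharP k p]
    [IsAlgClosed k] (φ : integralClosure ℤ ℂ →+* k), Function.Surjective φ →
    ∃ ρ : ResidualGaloisRep k, ρ.IsAttachedTo g φ ∧
      ∀ ℓ : ℕ, ℓ.Prime → ¬ ℓ ∣ N * p → ρ.IsUnramifiedAt ℓ

/-- the trivial two dimensional representation. -/
noncomputable def trivialRep (k : Type) [Field k] : ResidualGaloisRep k where
  V := Fin 2 → k
  finrank_eq := by simp
  ρ := 1
  factorsThroughFiniteLevel := ⟨⊥, inferInstance, fun _ _ => rfl⟩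

/-- the kernel of a ring hom from `ℤ̄` to a field of characteristic `p` is maximal. -/
theorem ker_isMaximal {p : ℕ} (hp : p.Prime) {k : Type} [Field k] [CharP k p]
    (φ : integralClosure ℤ ℂ →+* k) : (RingHom.ker φ).IsMaximal := by
  haveI : (RingHom.ker φ).IsPrime := RingHom.ker_isPrime φ
  haveI : Algebra.IsIntegral ℤ (integralClosure ℤ ℂ) := inferInstance
  have hcomap : (RingHom.ker φ).comap (algebraMap ℤ (integralClosure ℤ ℂ)) =
      Ideal.span {(p : ℤ)} := by
    ext x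
    rw [Ideal.mem_comap, RingHom.mem_ker, Ideal.mem_span_singleton]
    have : φ (algebraMap ℤ (integralClosure ℤ ℂ) x) = (x : k) := by
      simp
    rw [this]
    exact CharP.intCast_eq_zero_iff k p x
  have hmax : ((RingHom.ker φ).comap (algebraMap ℤ (integralClosure ℤ ℂ))).IsMaximal := by
    rw [hcomap]
    exact PrincipalIdealRing.isMaximal_of_irreducible
      (Nat.prime_iff_prime_int.mp hp).irreducible
  exact Ideal.isMaximal_of_isIntegral_of_isMaximal_comap (R := ℤ) _ hmax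

/-- quotients of `ℤ̄` by maximal ideals are algebraically closed. -/
theorem isAlgClosed_quot (𝔪 : Ideal (integralClosure ℤ ℂ)) [h𝔪 : 𝔪.IsMaximal] :
    letI : Field (integralClosure ℤ ℂ ⧸ 𝔪) := Ideal.Quotient.field 𝔪
    IsAlgClosed (integralClosure ℤ ℂ ⧸ 𝔪) := by
  letI : Field (integralClosure ℤ ℂ ⧸ 𝔪) := Ideal.Quotient.field 𝔪
  refine IsAlgClosed.of_exists_root _ ?_
  intro f hf _
  obtain ⟨F, hF, hdeg, hmon⟩ :=
    Polynomial.lifts_and_degree_eq_and_monic (f := Ideal.Quotient.mk 𝔪)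
      ((Polynomial.mem_lifts f).mpr
        (Polynomial.map_surjective _ Ideal.Quotient.mk_surjective f)) hf
  have hdeg' : (F.map (algebraMap (integralClosure ℤ ℂ) ℂ)).degree ≠ 0 := by
    rw [hmon.degree_map, hdeg]
    intro h0
    have := ‹Irreducible f›.not_isUnit
    exact this (Polynomial.isUnit_iff_degree_eq_zero.mpr h0)
  obtain ⟨z, hz⟩ := IsAlgClosed.exists_root _ hdeg'
  have hzint : IsIntegral (integralClosure ℤ ℂ) z := by
    refine ⟨F, hmon, ?_⟩
    rwa [Polynomial.IsRoot.def, Polynomial.eval_map] at hz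
  have hzint' : IsIntegral ℤ z := isIntegral_trans z hzint
  refine ⟨Ideal.Quotient.mk 𝔪 ⟨z, hzint'⟩, ?_⟩
  rw [← hF, Polynomial.eval_map, Polynomial.eval₂_hom]
  have : Polynomial.eval (⟨z, hzint'⟩ : integralClosure ℤ ℂ) F = 0 := by
    apply Subtype.ext
    have h1 : ((Polynomial.eval (⟨z, hzint'⟩ : integralClosure ℤ ℂ) F : integralClosure ℤ ℂ) : ℂ)
        = Polynomial.eval₂ (algebraMap (integralClosure ℤ ℂ) ℂ) z F := by
      have := Polynomial.hom_eval₂ F (RingHom.id _) (algebraMap (integralClosure ℤ ℂ) ℂ)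
        (⟨z, hzint'⟩ : integralClosure ℤ ℂ)
      simpa [Polynomial.eval₂_id] using this
    rw [h1]
    rwa [Polynomial.IsRoot.def, Polynomial.eval_map] at hz
  rw [this, map_zero]

/-- base change of an attached representation. -/
theorem baseChangeAlong_spec {N : ℕ} {g : CuspForm (CongruenceSubgroup.Gamma0 N) 2}
    {k₀ k : Type} [Field k₀] [Field k] (ψ : k₀ →+* k)
    (φ₀ : integralClosure ℤ ℂ →+* k₀) (ρ : ResidualGaloisRep k₀) (h : ρ.IsAttachedTo g φ₀) :
    (ρ.baseChangeAlong ψ).IsAttachedTo g (ψ.comp φ₀) := by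
  intro ℓ hℓ hN hk A hA σ hσ
  have hk0 : (ℓ : k₀) ≠ 0 := by
    intro h0
    apply hk
    have := congrArg ψ h0
    simpa using this
  obtain ⟨a, ha, hc⟩ := h ℓ hℓ hN hk0 A hA σ hσ
  refine ⟨a, ha, ?_⟩
  letI : Algebra k₀ k := ψ.toAlgebra
  have h1 : ((ρ.baseChangeAlong ψ).ρ σ) = (ρ.ρ σ).baseChange k := rfl
  have h2 : LinearMap.charpoly ((ρ.ρ σ).baseChange k) =
      (LinearMap.charpoly (ρ.ρ σ)).map (algebraMap k₀ k) := LinearMap.charpoly_baseChange _ _
  have h3 : LinearMap.charpoly ((ρ.baseChangeAlong ψ).ρ σ) =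
      (LinearMap.charpoly (ρ.ρ σ)).map (algebraMap k₀ k) := h2
  rw [h3, hc]
  have h4 : algebraMap k₀ k = ψ := rfl
  rw [h4]
  simp

theorem baseChangeAlong_unram {k₀ k : Type} [Field k₀] [Field k] (ψ : k₀ →+* k)
    (ρ : ResidualGaloisRep k₀) (ℓ : ℕ) (h : ρ.IsUnramifiedAt ℓ) :
    (ρ.baseChangeAlong ψ).IsUnramifiedAt ℓ := by
  intro A hA σ hσ
  letI : Algebra k₀ k := ψ.toAlgebra
  have h1 : ((ρ.baseChangeAlong ψ).ρ σ) = (ρ.ρ σ).baseChange k := rfl
  rw [h1, h A hA σ hσ]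
  exact LinearMap.baseChange_one _ _

/-- **The wrapper**: the frozen statement S29 follows from `Core`. -/
theorem of_core (hcore : Core)
    {N : ℕ} {g : CuspForm (CongruenceSubgroup.Gamma0 N) 2} (hg : g.IsNormalizedEigenform)
    {p : ℕ} (hp : p.Prime) {k : Type} [Field k] [CharP k p]
    (φ : integralClosure ℤ ℂ →+* k) :
    ∃ ρ : ResidualGaloisRep k, ρ.IsAttachedTo g φ ∧
      ∀ ℓ : ℕ, ℓ.Prime → ¬ ℓ ∣ N * p → ρ.IsUnramifiedAt ℓ := by
  rcases Nat.eq_zero_or_pos N with rfl | hN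
  · refine ⟨trivialRep k, ?_, ?_⟩
    · intro ℓ _ h
      exact absurd (dvd_zero ℓ) h
    · intro ℓ _ h
      exact absurd (by simp) h
  · haveI : NeZero N := ⟨hN.ne'⟩
    haveI hmax : (RingHom.ker φ).IsMaximal := ker_isMaximal hp φ
    letI : Field (integralClosure ℤ ℂ ⧸ RingHom.ker φ) := Ideal.Quotient.field _
    haveI : IsAlgClosed (integralClosure ℤ ℂ ⧸ RingHom.ker φ) := isAlgClosed_quot _
    let ψ : (integralClosure ℤ ℂ ⧸ RingHom.ker φ) →+* k := RingHom.kerLift φ
    haveI : CharP (integralClosure ℤ ℂ ⧸ RingHom.ker φ) p :=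
      (RingHom.charP_iff ψ ψ.injective p).mpr inferInstance
    obtain ⟨ρ, h1, h2⟩ := hcore N g hg p hp (integralClosure ℤ ℂ ⧸ RingHom.ker φ)
      (Ideal.Quotient.mk _) Ideal.Quotient.mk_surjective
    refine ⟨ρ.baseChangeAlong ψ, ?_, fun ℓ hℓ hn => baseChangeAlong_unram ψ ρ ℓ (h2 ℓ hℓ hn)⟩
    have h3 := baseChangeAlong_spec ψ _ ρ h1
    have h4 : ψ.comp (Ideal.Quotient.mk (RingHom.ker φ)) = φ := by
      ext x
      rfl
    rwa [h4] at h3

end Fermat.Agent.S29.Wrap
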