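import Mathlib
import Fermat.Agent.S29.GlueAbs
import Fermat.Agent.S29.GlueB
import Fermat.Agent.S29.GlueL
import Fermat.Agent.S29.HomSplit
import Fermat.Agent.S29.ESFinal
import Fermat.Agent.S29.Wrap

set_option autoImplicit false
set_option linter.unusedSectionVars false
set_option linter.style.haveILetI false
set_option synthInstance.maxHeartbeats 400000

/-! # S29 [GLUE], part C: the core statement from the theta package. -/

namespace Fermat.Agent.S29.Glue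

open scoped TensorProduct
open CongruenceSubgroup ModularCurve AlgebraicCurve Fermat.Agent.S24
open Fermat.Agent.S29.Cyc Fermat.Agent.S29.Alg

/-- the theta package: a relation between `Hom(Γ₀(N), 𝔽_p)` and `FN N`. -/
structure ThetaPkg (N p : ℕ) : Type where
  Rel : (Additive (Gamma0 N) →+ ZMod p) → FN N → Prop
  ex : ∀ c ∈ peHoms (ZMod p) N (ZMod p), ∃ f, Rel c f
  ne_zero : ∀ {c f}, Rel c f → f ≠ 0
  divBy : ∀ {c f}, c ∈ peHoms (ZMod p) N (ZMod p) → Rel c f → DivBy p Kb f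
  mul : ∀ {c c' f f'}, Rel c f → Rel c' f' → Rel (c + c') (f * f')
  inv : ∀ {c f}, Rel c f → Rel (-c) f⁻¹
  zero : ∀ {f}, Rel 0 f → ∃ s : FN N, f = s ^ p
  inj : ∀ {c f}, Rel c f → (∃ s : FN N, f = s ^ p) → c = 0
  hecke : ∀ (l : ℕ) [Fact l.Prime] (hl : ¬ l ∣ N) {c f}, c ∈ peHoms (ZMod p) N (ZMod p) →
    Rel c f → Rel (heckeHom hl c) (TT N l f)

/-- the Galois action on units. -/
noncomputable def galU (N : ℕ) (σ : GQ) : (FN N)ˣ →* (FN N)ˣ :=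
  Units.map ((gal N σ : FN N →+* FN N) : FN N →* FN N)

theorem coe_galU (N : ℕ) (σ : GQ) (u : (FN N)ˣ) : ((galU N σ u : (FN N)ˣ) : FN N) = gal N σ u := rfl

/-- the Galois action on `FN^× / p`. -/
noncomputable def actG (N p : ℕ) : GQ →* Module.End (ZMod p) (Xq (FN N)ˣ p) :=
  actX p (galU N) (fun u => Units.ext (gal_one N u)) (fun σ τ u => Units.ext (gal_mul N σ τ u))

theorem actG_cls (N p : ℕ) (σ : GQ) (u : (FN N)ˣ) :
    actG N p σ (cls p u) = cls p (galU N σ u) := rfl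

theorem core_of (hdens : DensStmt)
    (pkg : ∀ (N p : ℕ) [NeZero N] [Fact p.Prime], ThetaPkg N p)
    (hmem : ∀ (N ℓ : ℕ) [NeZero N] [Fact ℓ.Prime], ¬ ℓ ∣ N → HeckeMem N ℓ) : Wrap.Core := by
  intro N _ g hg p hp k _ _ _ φ _
  haveI : Fact p.Prime := ⟨hp⟩
  letI : Algebra (ZMod p) k := ZMod.algebra k p
  obtain ⟨c, af, hc, haf, heig⟩ := exists_eigen_tensor (k := k) hg φ
  let P := pkg N p
  let R : HH p N → (FN N)ˣ → Prop := fun c u => P.Rel c.1 (u : FN N)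
  have htot : ∀ c, ∃ u, R c u := by
    intro c
    obtain ⟨f, hf⟩ := P.ex c.1 c.2
    exact ⟨Units.mk0 f (P.ne_zero hf), hf⟩
  have hroot : ∀ (u : (FN N)ˣ) (s : FN N), (u : FN N) = s ^ p → ∃ s' : (FN N)ˣ, s' ^ p = u := by
    intro u s hs
    have hs0 : s ≠ 0 := by
      rintro rfl
      rw [zero_pow hp.ne_zero] at hs
      exact u.ne_zero hs
    exact ⟨Units.mk0 s hs0, Units.ext hs.symm⟩
  obtain ⟨Θ, hΘinj, hΘ⟩ := exists_theta p R htot
    (fun c c' u u' h h' => P.mul h h')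
    (fun c u h => by
      have := P.inv h
      show P.Rel (-c.1) ((u⁻¹ : (FN N)ˣ) : FN N)
      rw [Units.val_inv_eq_inv_val]
      exact this)
    (fun u h => by
      obtain ⟨s, hs⟩ := P.zero h
      exact hroot u s hs)
    (fun c u h ⟨s, hs⟩ => Subtype.ext (P.inj h ⟨(s : FN N), by rw [← hs]; rfl⟩))
  have hndvd : ∀ ℓ : ℕ, ¬ ℓ ∣ N * p → ¬ ℓ ∣ N ∧ ¬ ℓ ∣ p := fun ℓ h =>
    ⟨fun h' => h (Dvd.dvd.mul_right h' p), fun h' => h (Dvd.dvd.mul_left h' N)⟩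
  have hlev : ∀ c : HH p N, ∃ L : IntermediateField ℚ Qb, FiniteDimensional ℚ L ∧
      ∀ σ : GQ, (∀ x ∈ L, σ x = x) → actG N p σ (Θ c) = Θ c := by
    intro c
    obtain ⟨u, hu⟩ := htot c
    obtain ⟨L, hL, h⟩ := exists_level_FN N (u : FN N)
    refine ⟨L, hL, fun σ hσ => ?_⟩
    rw [hΘ c u hu, actG_cls]
    congr 1
    exact Units.ext (h σ hσ)
  have hES : ∀ ℓ : ℕ, ℓ.Prime → ¬ ℓ ∣ N * p → ∀ A : ValuationSubring Qb, A.LiesOverPrime ℓ →
      ∀ σ : GQ, A.IsFrobeniusAt σ ℓ → ∀ (c : HH p N) (τ : GQ),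
        actG N p σ (actG N p σ (actG N p τ (Θ c))) - actG N p σ (actG N p τ (Θ (TH p N ℓ c)))
          + (ℓ : ZMod p) • actG N p τ (Θ c) = 0 := by
    intro ℓ hℓ hℓD A hA σ hσ c τ
    haveI : Fact ℓ.Prime := ⟨hℓ⟩
    obtain ⟨hℓN, hℓp⟩ := hndvd ℓ hℓD
    have hm := hmem N ℓ hℓN
    obtain ⟨u, hu⟩ := htot c
    have hT : P.Rel (TH p N ℓ c).1 (TT N ℓ (u : FN N)) := by
      rw [coe_TH p hℓ hℓN]
      exact P.hecke ℓ hℓN c.2 hu
    set uT : (FN N)ˣ := Units.mk0 (TT N ℓ (u : FN N)) (P.ne_zero hT) with huT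
    have hΘT : Θ (TH p N ℓ c) = cls p uT := hΘ _ uT hT
    rw [hΘ c u hu, hΘT]
    simp only [actG_cls]
    set x : FN N := gal N τ u with hx
    have hx0 : x ≠ 0 := (map_ne_zero _).2 u.ne_zero
    have hdx : DivBy p Kb x := divBy_gal τ (P.divBy c.2 hu)
    have hTx : TT N ℓ (gal N σ x) = gal N σ (gal N τ (TT N ℓ (u : FN N))) := by
      rw [gal_TT hm, gal_TT hm]
    have hdT : DivBy p Kb (TT N ℓ (gal N σ x)) := by
      rw [hTx]
      exact divBy_gal σ (divBy_gal τ (P.divBy (TH p N ℓ c).2 hT))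
    obtain ⟨s, hs⟩ := es_frob hℓ A hA N hℓN hm p hp.pos hℓp σ hσ x hx0 hdx hdT
    have hs0 : s ≠ 0 := by
      rintro rfl
      rw [zero_pow hp.ne_zero, mul_zero] at hs
      exact mul_ne_zero ((map_ne_zero _).2 ((map_ne_zero _).2 hx0)) (pow_ne_zero _ hx0) hs
    have e : cls p (galU N σ (galU N σ (galU N τ u)) * (galU N τ u) ^ ℓ) =
        cls p (galU N σ (galU N τ uT)) := by
      rw [cls_eq_iff]
      refine ⟨Units.mk0 s hs0, Units.ext ?_⟩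
      rw [hTx] at hs
      exact hs
    rw [cls_mul, cls_pow] at e
    rw [Nat.cast_smul_eq_nsmul, ← e]
    abel
  have hIN : ∀ ℓ : ℕ, ℓ.Prime → ¬ ℓ ∣ N * p → ∀ A : ValuationSubring Qb, A.LiesOverPrime ℓ →
      ∀ σ ∈ A.inertiaSubgroupIn ℚ, ∀ (c : HH p N) (τ : GQ),
        actG N p σ (actG N p τ (Θ c)) = actG N p τ (Θ c) := by
    intro ℓ hℓ hℓD A hA σ hσ c τ
    obtain ⟨hℓN, hℓp⟩ := hndvd ℓ hℓD
    obtain ⟨u, hu⟩ := htot c
    rw [hΘ c u hu]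
    simp only [actG_cls]
    have hx0 : gal N τ (u : FN N) ≠ 0 := (map_ne_zero _).2 u.ne_zero
    obtain ⟨s, hs⟩ := es_inertia hℓ A hA N hℓN p hp.pos hℓp σ hσ (gal N τ u) hx0
      (divBy_gal τ (P.divBy c.2 hu))
    have hs0 : s ≠ 0 := by
      rintro rfl
      rw [zero_pow hp.ne_zero, mul_zero] at hs
      exact (map_ne_zero _).2 hx0 hs
    rw [cls_eq_iff]
    exact ⟨Units.mk0 s hs0, Units.ext hs⟩
  obtain ⟨ρ, h1, h2⟩ := exists_residual_of_theta hdens (actG N p) Θ hΘinj hlev (TH p N) c hc (N * p)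
    (mul_ne_zero (NeZero.ne N) hp.ne_zero) (Dvd.intro_left N rfl) af
    (fun ℓ hℓ hℓD => heig ℓ hℓ (hndvd ℓ hℓD).1) hES hIN
  refine ⟨ρ, ?_, h2⟩
  intro ℓ hℓ hℓN hℓk A hA σ hσ
  obtain ⟨a, ha, haf'⟩ := haf ℓ hℓ hℓN
  refine ⟨a, ha, ?_⟩
  rw [← haf']
  refine h1 ℓ hℓ ?_ A hA σ hσ
  intro hdvd
  rcases (Nat.Prime.dvd_mul hℓ).1 hdvd with h | h
  · exact hℓN h
  · apply hℓk
    rw [(Nat.prime_dvd_prime_iff_eq hℓ hp).1 h]
    exact CharP.cast_eq_zero k p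

end Fermat.Agent.S29.Glue
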