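import Mathlib
import Fermat.Agent.S24.LevelOne

set_option autoImplicit false
set_option maxHeartbeats 400000

/-! # S29 [B3]: level one functions are polynomials in `j` (complex coefficients) -/

namespace Fermat.Agent.S29.An

open UpperHalfPlane ModularForm EisensteinSeries Matrix.SpecialLinearGroup Filter
open scoped MatrixGroups ModularForm Manifold Topology
open Fermat.Agent.S20 Fermat.Agent.S24

theorem levelOne_baseC (N : ℕ) [NeZero N] (s : ℍ → ℂ) (hs : s ∈ Mer N)
    (hinv : ∀ (γ : SL(2, ℤ)) (z : ℍ), s (γ • z) = s z)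
    (hM : ∀ n : ℤ, n < 0 → (expInf N ⟨s, hs⟩).coeff n = 0) : ∃ c : ℂ, ∀ z, s z = c := by
  have hord : 0 ≤ (expInf N ⟨s, hs⟩).order := by
    by_cases h0 : expInf N ⟨s, hs⟩ = 0
    · rw [h0, HahnSeries.order_zero]
    · by_contra hlt
      rw [not_le] at hlt
      apply h0
      apply HahnSeries.coeff_order_eq_zero.mp
      exact hM _ hlt
  have hb : IsBoundedAtImInfty s := isBoundedAtImInfty_of_order_nonneg N ⟨s, hs⟩ hord
  have hL : s ∈ Ls 0 := by
    refine mem_Ls_of hs.1 (fun γ => ?_) hb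
    funext z
    rw [ModularForm.SL_slash_apply, hinv]
    simp
  obtain ⟨c, hc⟩ := exists_const_of_mem_Ls_zero hL
  exact ⟨c, fun z => by rw [hc]⟩

theorem levelOne_auxC (N : ℕ) [NeZero N] (M : ℕ) : ∀ (s : ℍ → ℂ) (hs : s ∈ Mer N)
    (_ : ∀ (γ : SL(2, ℤ)) (z : ℍ), s (γ • z) = s z)
    (_ : ∀ n : ℤ, n < -((N : ℤ) * M) → (expInf N ⟨s, hs⟩).coeff n = 0),
    ∃ p : Polynomial ℂ, ∀ z, s z = p.eval (jfun z) := by
  induction M with
  | zero =>
    intro s hs hinv hM
    obtain ⟨c, hc⟩ := levelOne_baseC N s hs hinv (fun n hn => hM n (by simpa using hn))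
    exact ⟨Polynomial.C c, fun z => by rw [hc z, Polynomial.eval_C]⟩
  | succ M ih =>
    intro s hs hinv hM
    have hN : (0 : ℤ) < N := by exact_mod_cast Nat.pos_of_ne_zero (NeZero.ne N)
    set S := expInf N ⟨s, hs⟩ with hS
    set a : ℂ := S.coeff (-((N : ℤ) * (M + 1 : ℕ))) with ha
    set jN : Mer N := ⟨jfun, jfun_mem_Mer_level N⟩ with hjN
    set s' : Mer N := ⟨s, hs⟩ - algebraMap ℂ (Mer N) a * jN ^ (M + 1) with hs'
    have hval : ∀ z, s'.1 z = s z - a * jfun z ^ (M + 1) := fun z => rfl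
    have hE : expInf N ⟨s'.1, s'.2⟩ =
        S - HahnSeries.single 0 a * ModularCurve.coeffMap iota (JNf N ^ (M + 1)) := by
      show expInf N s' = _
      rw [hs', map_sub, map_mul, map_pow, AlgHom.commutes, expInf_jfun_level,
        ModularCurve.algebraMap_laurentSeries_eq_single, map_pow]
    have hper : ∀ n : ℤ, ¬ (N : ℤ) ∣ n → S.coeff n = 0 := by
      intro n hn
      apply expInf_coeff_eq_zero_of_periodic N _ _ n hn
      intro z
      show s ((1 : ℝ) +ᵥ z) = s z
      rw [← UpperHalfPlane.modular_T_smul, hinv]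
    obtain ⟨p, hp⟩ := ih s'.1 s'.2 (fun γ z => by rw [hval, hval, hinv, jfun_smul_aux]) (by
      intro n hn
      rw [hE, HahnSeries.coeff_sub, HahnSeries.coeff_single_mul, sub_zero,
        ModularCurve.coeffMap_coeff]
      rcases lt_trichotomy n (-((N : ℤ) * (M + 1 : ℕ))) with h | h | h
      · rw [hM n h, JNf_pow_coeff_of_lt N _ n h, map_zero]; ring
      · rw [h, JNf_pow_coeff_self, ← ha, map_one]; ring
      · have hnd : ¬ (N : ℤ) ∣ n := by
          rintro ⟨k, rfl⟩
          push_cast at h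
          have h1 : -((M : ℤ) + 1) < k := by nlinarith
          have h2 : k < -(M : ℤ) := by nlinarith
          omega
        rw [hper n hnd, JNf_pow_coeff_of_not_dvd N _ n hnd, map_zero]; ring)
    refine ⟨p + Polynomial.C a * Polynomial.X ^ (M + 1), fun z => ?_⟩
    rw [Polynomial.eval_add, Polynomial.eval_mul, Polynomial.eval_pow, Polynomial.eval_C,
      Polynomial.eval_X, ← hp z, hval]
    ring

/-- level one functions are polynomials in `j`. -/
theorem levelOne_polynomialC (N : ℕ) [NeZero N] (s : ℍ → ℂ) (hs : s ∈ Mer N)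
    (hinv : ∀ (γ : SL(2, ℤ)) (z : ℍ), s (γ • z) = s z) :
    ∃ p : Polynomial ℂ, ∀ z, s z = p.eval (jfun z) := by
  refine levelOne_auxC N (-(expInf N ⟨s, hs⟩).order).toNat s hs hinv (fun n hn => ?_)
  apply HahnSeries.coeff_eq_zero_of_lt_order
  have hN : (1 : ℤ) ≤ N := by exact_mod_cast Nat.pos_of_ne_zero (NeZero.ne N)
  have h1 : -(expInf N ⟨s, hs⟩).order ≤ ((-(expInf N ⟨s, hs⟩).order).toNat : ℤ) :=
    Int.self_le_toNat _
  have h2 : (0 : ℤ) ≤ ((-(expInf N ⟨s, hs⟩).order).toNat : ℤ) := Int.natCast_nonneg _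
  nlinarith

end Fermat.Agent.S29.An
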