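import Mathlib
import Fermat.Agent.S29.AnLevelOne
import Fermat.Agent.S24.Integral
import Fermat.Agent.S21.Cocycle

set_option autoImplicit false
set_option linter.style.haveILetI false

/-! # S29 [B3]: the algebra of holomorphic `Γ₀(N)`-invariant functions, meromorphic at the cusps;
every element satisfies a monic equation of degree `ψ(N)` over `ℂ[j]` -/

namespace Fermat.Agent.S29.An

open UpperHalfPlane ModularForm Matrix.SpecialLinearGroup
open scoped MatrixGroups ModularForm Manifold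
open Fermat.Agent.S20 (Quo sl)
open Fermat.Agent.S21 (rep mk_rep coc_mem)
open Fermat.Agent.S24
open Fermat.Agent.S24.Intg (compHom compHom_apply)

/-- `h ∘ γ`. -/
noncomputable def cmp (h : ℍ → ℂ) (γ : SL(2, ℤ)) : ℍ → ℂ := fun z => h (γ • z)

theorem cmp_apply (h : ℍ → ℂ) (γ : SL(2, ℤ)) (z : ℍ) : cmp h γ z = h (γ • z) := rfl

theorem cmp_one (h : ℍ → ℂ) : cmp h 1 = h := by
  funext z; rw [cmp_apply, one_smul]

theorem cmp_mul (h : ℍ → ℂ) (γ γ' : SL(2, ℤ)) : cmp h (γ * γ') = cmp (cmp h γ) γ' := by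
  funext z; rw [cmp_apply, cmp_apply, cmp_apply, mul_smul]

/-- holomorphic `Γ₀(N)`-invariant functions all of whose conjugates are meromorphic at `i∞`. -/
def AA (N : ℕ) [NeZero N] : Subalgebra ℂ (ℍ → ℂ) where
  carrier := {h | (∀ γ : SL(2, ℤ), cmp h γ ∈ Mer N) ∧
    ∀ δ ∈ CongruenceSubgroup.Gamma0 N, ∀ z, h (δ • z) = h z}
  mul_mem' := by
    rintro a b ⟨ha, ha'⟩ ⟨hb, hb'⟩
    refine ⟨fun γ => (Mer N).mul_mem (ha γ) (hb γ), fun δ hδ z => ?_⟩
    show a (δ • z) * b (δ • z) = a z * b z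
    rw [ha' δ hδ, hb' δ hδ]
  add_mem' := by
    rintro a b ⟨ha, ha'⟩ ⟨hb, hb'⟩
    refine ⟨fun γ => (Mer N).add_mem (ha γ) (hb γ), fun δ hδ z => ?_⟩
    show a (δ • z) + b (δ • z) = a z + b z
    rw [ha' δ hδ, hb' δ hδ]
  algebraMap_mem' := by
    intro c
    exact ⟨fun γ => (Mer N).algebraMap_mem c, fun δ _ z => rfl⟩

variable {N : ℕ} [NeZero N]

theorem mem_AA {h : ℍ → ℂ} : h ∈ AA N ↔ (∀ γ : SL(2, ℤ), cmp h γ ∈ Mer N) ∧
    ∀ δ ∈ CongruenceSubgroup.Gamma0 N, ∀ z, h (δ • z) = h z := Iff.rfl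

theorem cmp_Gamma0_mul {h : ℍ → ℂ} (hh : h ∈ AA N) (δ γ : SL(2, ℤ))
    (hδ : δ ∈ CongruenceSubgroup.Gamma0 N) : cmp h (δ * γ) = cmp h γ := by
  funext z
  rw [cmp_apply, cmp_apply, mul_smul, hh.2 δ hδ]

theorem qN_one_eq (N : ℕ) [NeZero N] (z : ℍ) : qN 1 z = qN N z ^ N := by
  unfold qN Function.Periodic.qParam
  rw [← Complex.exp_nat_mul]
  congr 1
  have : (N : ℂ) ≠ 0 := Nat.cast_ne_zero.2 (NeZero.ne N)
  push_cast
  field_simp

theorem mem_Mer_one_of_periodic {h : ℍ → ℂ} (hh : h ∈ Mer N)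
    (hper : ∀ z : ℍ, h ((1 : ℝ) +ᵥ z) = h z) : h ∈ Mer 1 := by
  obtain ⟨h1, -, m, hm⟩ := hh
  refine ⟨h1, fun z => by rw [Nat.cast_one]; exact hper z, m, ?_⟩
  have e : (fun z => qN 1 z ^ m * h z) = fun z => qN N z ^ (N * m) * h z := by
    funext z
    rw [qN_one_eq N, ← pow_mul]
  rw [e]
  exact IsMer.bdd_of_le (Nat.le_mul_of_pos_left m (Nat.pos_of_ne_zero (NeZero.ne N))) hm

theorem T_mem_Gamma0 (N : ℕ) : ModularGroup.T ∈ CongruenceSubgroup.Gamma0 N := by
  rw [CongruenceSubgroup.Gamma0_mem, ModularGroup.coe_T]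
  simp

theorem mem_Mer_one {h : ℍ → ℂ} (hh : h ∈ AA N) : h ∈ Mer 1 := by
  have h1 := hh.1 1
  rw [cmp_one] at h1
  refine mem_Mer_one_of_periodic h1 fun z => ?_
  rw [← UpperHalfPlane.modular_T_smul, hh.2 _ (T_mem_Gamma0 N)]

/-- the `q`-expansion on `AA N`. -/
noncomputable def Phi (N : ℕ) [NeZero N] : AA N →ₐ[ℂ] LaurentSeries ℂ :=
  (expInf 1).comp (Subalgebra.inclusion (fun _ hh => mem_Mer_one hh : AA N ≤ Mer 1))

theorem Phi_apply (h : AA N) : Phi N h = expInf 1 ⟨h.1, mem_Mer_one h.2⟩ := rfl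

theorem AA_le_Mer_one : AA N ≤ Mer 1 := fun _ hh => mem_Mer_one hh

theorem Phi_injective : Function.Injective (Phi N) :=
  (expInf_injective 1).comp (Subalgebra.inclusion_injective AA_le_Mer_one)

/-- the conjugates indexed by the coset space. -/
noncomputable def GA (h : ℍ → ℂ) (q : Quo N) : ℍ → ℂ := cmp h (rep q)⁻¹

theorem GA_mk {h : ℍ → ℂ} (hh : h ∈ AA N) (γ : SL(2, ℤ)) :
    GA h (QuotientGroup.mk (sl γ) : Quo N) = cmp h γ⁻¹ := by
  unfold GA
  set δ := rep (QuotientGroup.mk (sl γ) : Quo N) with hδ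
  have h1 : (QuotientGroup.mk (sl γ) : Quo N) = QuotientGroup.mk (sl δ) := (mk_rep _).symm
  rw [S20.mk_eq_mk_iff] at h1
  have h2 : δ⁻¹ = (γ⁻¹ * δ)⁻¹ * γ⁻¹ := by group
  rw [h2, cmp_Gamma0_mul hh _ _ (inv_mem h1)]

theorem GA_mem {h : ℍ → ℂ} (hh : h ∈ AA N) (q : Quo N) : GA h q ∈ Mer N := hh.1 _

theorem GA_smul {h : ℍ → ℂ} (hh : h ∈ AA N) (q : Quo N) (γ : SL(2, ℤ)) (z : ℍ) :
    GA h q (γ • z) = GA h (sl γ⁻¹ • q) z := by
  obtain ⟨δ, rfl⟩ := S20.exists_mk q
  rw [S20.sl_smul_mk, GA_mk hh, GA_mk hh, cmp_apply, cmp_apply, ← mul_smul]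
  congr 2
  group

open Polynomial in
/-- the characteristic polynomial of `h` over the level one functions. -/
noncomputable def chiA (N : ℕ) [NeZero N] (h : ℍ → ℂ) : Polynomial (ℍ → ℂ) :=
  ∏ q : Quo N, (X - C (GA h q))

open Polynomial in
theorem chiA_coeff_mem {h : ℍ → ℂ} (hh : h ∈ AA N) (i : ℕ) : (chiA N h).coeff i ∈ Mer N := by
  have e : chiA N h = (∏ q : Quo N, (X - C (⟨GA h q, GA_mem hh q⟩ : Mer N))).map
      (Mer N).val.toRingHom := by
    rw [Polynomial.map_prod]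
    unfold chiA
    refine Finset.prod_congr rfl fun q _ => ?_
    simp
  rw [e, Polynomial.coeff_map]
  exact SetLike.coe_mem _

theorem chiA_monic (h : ℍ → ℂ) : (chiA N h).Monic :=
  Polynomial.monic_prod_of_monic _ _ fun _ _ => Polynomial.monic_X_sub_C _

theorem chiA_natDegree (h : ℍ → ℂ) : (chiA N h).natDegree = Fintype.card (Quo N) := by
  unfold chiA
  rw [Polynomial.natDegree_prod_of_monic _ _ fun q _ => Polynomial.monic_X_sub_C _]
  simp

theorem chiA_map {h : ℍ → ℂ} (hh : h ∈ AA N) (γ : SL(2, ℤ)) :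
    (chiA N h).map (compHom γ) = chiA N h := by
  unfold chiA
  rw [Polynomial.map_prod]
  have e : ∀ q : Quo N, (Polynomial.X - Polynomial.C (GA h q)).map (compHom γ) =
      Polynomial.X - Polynomial.C (GA h (sl γ⁻¹ • q)) := by
    intro q
    have h1 : compHom γ (GA h q) = GA h (sl γ⁻¹ • q) := by
      funext z
      rw [compHom_apply, GA_smul hh]
    rw [Polynomial.map_sub, Polynomial.map_X, Polynomial.map_C, h1]
  rw [Finset.prod_congr rfl fun q _ => e q]
  exact Equiv.prod_comp (MulAction.toPerm (sl γ⁻¹ : 𝒮ℒ) : Equiv.Perm (Quo N))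
    (fun q => Polynomial.X - Polynomial.C (GA h q))

theorem chiA_coeff_smul {h : ℍ → ℂ} (hh : h ∈ AA N) (i : ℕ) (γ : SL(2, ℤ)) (z : ℍ) :
    (chiA N h).coeff i (γ • z) = (chiA N h).coeff i z := by
  conv_rhs => rw [← chiA_map hh γ, Polynomial.coeff_map]
  rfl

theorem exists_coeff_polyA {h : ℍ → ℂ} (hh : h ∈ AA N) (i : ℕ) :
    ∃ p : Polynomial ℂ, ∀ z, (chiA N h).coeff i z = p.eval (jfun z) :=
  levelOne_polynomialC N _ (chiA_coeff_mem hh i) (chiA_coeff_smul hh i)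

theorem chiA_eval {h : ℍ → ℂ} (hh : h ∈ AA N) : (chiA N h).eval h = 0 := by
  unfold chiA
  rw [Polynomial.eval_prod]
  refine Finset.prod_eq_zero (Finset.mem_univ (QuotientGroup.mk (sl 1) : Quo N)) ?_
  rw [GA_mk hh, inv_one, cmp_one]
  simp

theorem aeval_jfun_applyC (p : Polynomial ℂ) (z : ℍ) :
    (Polynomial.aeval jfun p : ℍ → ℂ) z = p.eval (jfun z) := by
  have h := (Polynomial.aeval_algHom_apply (Pi.evalAlgHom ℂ (fun _ : ℍ => ℂ) z) jfun p).symm
  have h2 : Polynomial.aeval ((Pi.evalAlgHom ℂ (fun _ : ℍ => ℂ) z) jfun) p = p.eval (jfun z) :=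
    Polynomial.coe_aeval_eq_eval (jfun z) ▸ rfl
  exact h.trans h2

/-- the monic relation, on functions. -/
theorem exists_monic_fun {h : ℍ → ℂ} (hh : h ∈ AA N) :
    ∃ χ : Polynomial (Polynomial ℂ), χ.Monic ∧ χ.natDegree = Fintype.card (Quo N) ∧
      χ.eval₂ (Polynomial.aeval jfun : Polynomial ℂ →ₐ[ℂ] (ℍ → ℂ)).toRingHom h = 0 := by
  classical
  set μ := Fintype.card (Quo N) with hμ
  choose p hp using exists_coeff_polyA hh
  let c : ℕ → Polynomial ℂ := fun i => if i = μ then 1 else p i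
  let χ : Polynomial (Polynomial ℂ) := ∑ i ∈ Finset.range (μ + 1), Polynomial.monomial i (c i)
  have hcoeff : ∀ i, χ.coeff i = if i < μ + 1 then c i else 0 := by
    intro i
    simp only [χ, Polynomial.finsetSum_coeff, Polynomial.coeff_monomial]
    rw [Finset.sum_ite_eq' (Finset.range (μ + 1)) i]
    simp
  have hle : χ.natDegree ≤ μ := by
    rw [Polynomial.natDegree_le_iff_coeff_eq_zero]
    intro i hi
    rw [hcoeff, if_neg (by omega)]
  have hμ1 : χ.coeff μ = 1 := by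
    rw [hcoeff, if_pos (by omega)]
    simp [c]
  have hmonic : χ.Monic := Polynomial.monic_of_natDegree_le_of_coeff_eq_one μ hle hμ1
  have hnat : χ.natDegree = μ :=
    Polynomial.natDegree_eq_of_le_of_coeff_ne_zero hle (by rw [hμ1]; exact one_ne_zero)
  refine ⟨χ, hmonic, hnat, ?_⟩
  have hmap : χ.map (Polynomial.aeval jfun : Polynomial ℂ →ₐ[ℂ] (ℍ → ℂ)).toRingHom
      = chiA N h := by
    ext i : 1
    rw [Polynomial.coeff_map, hcoeff]
    rcases lt_trichotomy i μ with hi | hi | hi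
    · rw [if_pos (by omega)]
      simp only [c, if_neg hi.ne]
      funext z
      rw [hp i z]
      exact aeval_jfun_applyC (p i) z
    · subst hi
      rw [if_pos (by omega)]
      simp only [c, if_true]
      rw [map_one]
      have := (chiA_monic (N := N) h).coeff_natDegree
      rw [chiA_natDegree] at this
      exact this.symm
    · rw [if_neg (by omega), map_zero]
      symm
      apply Polynomial.coeff_eq_zero_of_natDegree_lt
      rw [chiA_natDegree]
      exact hi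
  rw [Polynomial.eval₂_eq_eval_map, hmap]
  exact chiA_eval hh

theorem jfun_mem_AA : jfun ∈ AA N := by
  refine ⟨fun γ => ?_, fun δ _ z => jfun_smul_aux δ z⟩
  have : cmp jfun γ = jfun := by
    funext z; exact jfun_smul_aux γ z
  rw [this]
  exact jfun_mem_Mer_level N

/-- `j` as an element of `AA N`. -/
noncomputable def jA (N : ℕ) [NeZero N] : AA N := ⟨jfun, jfun_mem_AA⟩

theorem Phi_jA : Phi N (jA N) = ModularCurve.coeffEmb ℂ ModularCurve.jq := by
  rw [Phi_apply]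
  exact expInf_jfun

/-- the monic relation, on `q`-expansions. -/
theorem exists_monic_Phi (h : AA N) :
    ∃ χ : Polynomial (Polynomial ℂ), χ.Monic ∧ χ.natDegree = Fintype.card (Quo N) ∧
      χ.eval₂ (Polynomial.aeval (Phi N (jA N)) : Polynomial ℂ →ₐ[ℂ] LaurentSeries ℂ).toRingHom
        (Phi N h) = 0 := by
  obtain ⟨χ, h1, h2, h3⟩ := exists_monic_fun h.2
  refine ⟨χ, h1, h2, ?_⟩
  have e1 : χ.eval₂ (Polynomial.aeval (jA N) : Polynomial ℂ →ₐ[ℂ] AA N).toRingHom h = 0 := by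
    apply Subtype.val_injective
    have := Polynomial.hom_eval₂ χ (Polynomial.aeval (jA N) : Polynomial ℂ →ₐ[ℂ] AA N).toRingHom
      (AA N).val.toRingHom h
    have e2 : (AA N).val.toRingHom.comp
        (Polynomial.aeval (jA N) : Polynomial ℂ →ₐ[ℂ] AA N).toRingHom =
        (Polynomial.aeval jfun : Polynomial ℂ →ₐ[ℂ] (ℍ → ℂ)).toRingHom := by
      have : ((AA N).val.comp (Polynomial.aeval (jA N))) = Polynomial.aeval jfun := by
        apply Polynomial.algHom_ext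
        simp [jA]
      exact congrArg AlgHom.toRingHom this
    rw [e2] at this
    exact this.trans h3
  have := Polynomial.hom_eval₂ χ (Polynomial.aeval (jA N) : Polynomial ℂ →ₐ[ℂ] AA N).toRingHom
    (Phi N).toRingHom h
  have e2 : (Phi N).toRingHom.comp (Polynomial.aeval (jA N) : Polynomial ℂ →ₐ[ℂ] AA N).toRingHom =
      (Polynomial.aeval (Phi N (jA N)) : Polynomial ℂ →ₐ[ℂ] LaurentSeries ℂ).toRingHom := by
    have : ((Phi N).comp (Polynomial.aeval (jA N))) = Polynomial.aeval (Phi N (jA N)) := by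
      apply Polynomial.algHom_ext
      simp
    exact congrArg AlgHom.toRingHom this
  rw [e2, e1] at this
  exact this.symm.trans (map_zero _)

end Fermat.Agent.S29.An
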