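import Mathlib
import Fermat.Agent.S18.Mo1d
import Fermat.Agent.S28.AnData

set_option autoImplicit false

/-! # S29 [D2] part a: `GenData` for `L(j,u)` from analytic data over `R` and a ring hom `R → A` -/

namespace Fermat.Agent.S29.D2

noncomputable section

open ModularCurve Polynomial IntermediateField
open Fermat.Agent.S28 (AnData evJN eval₂_C_injective)
open Fermat.Agent.S28.RAT
open Fermat.Agent.S18.Mo1 (GenData coeffMap_subtype_inj)

variable {R : Subring ℂ} {M : ℕ} [NeZero M] (D : AnData M R)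
  {L : Type} [Field L] {A : ValuationSubring L} (ε : ↥R →+* ↥A)
  {k : Type} [Field k] (π : ↥A →+* k)

/-- the modular unit over `A`. -/
def uA (A : ValuationSubring L) : LaurentSeries A := coeffMap (Int.castRingHom A) D.u

/-- its polynomial over `A`. -/
def ΨA : (↥A)[X][X] := D.Ψ.map (mapRingHom ε)

theorem monic_ΨA : (ΨA D ε).Monic := (monic_Ψ D).map _

theorem coeffMap_r₀ : coeffMap ε (D.r D.q₀) = qExpand A M (uA D A) := by
  rw [D.r₀, coeffMap_qExpand, coeffMap_coeffMap, uA,
    RingHom.ext_int (ε.comp (Int.castRingHom _)) (Int.castRingHom A)]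

/-- key lemma: from `t = q_M` back to `q`. -/
theorem qExpand_eval₂ (Q : (↥R)[X][X]) :
    qExpand A M ((Q.map (mapRingHom ε)).eval₂ (ev1 A) (uA D A)) =
      coeffMap ε (Q.eval₂ (evJN M ↥R) (D.r D.q₀)) := by
  rw [coeffMap_eval₂, coeffMap_r₀]
  have h := Th_eval₂ M (RingHom.id ↥A) (Q.map (mapRingHom ε)) (uA D A)
  rw [Th_apply, Th_apply, coeffMap_id, coeffMap_id] at h
  rw [h]
  congr 1
  simp

theorem root_ΨA : (ΨA D ε).eval₂ (ev1 A) (uA D A) = 0 := by
  apply qExpand_injective (R := ↥A) M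
  rw [ΨA, qExpand_eval₂, root_Ψ, map_zero, map_zero]

/-- `R → k`. -/
def πR : ↥R →+* k := π.comp ε

theorem map_ε_map_π (P : (↥R)[X][X]) :
    (P.map (mapRingHom ε)).map (mapRingHom π) = P.map (mapRingHom (πR ε π)) := by
  rw [Polynomial.map_map, Polynomial.mapRingHom_comp]
  rfl

theorem order_jqModC_neg (K : Type) [Field K] : (jqModC K).order < 0 := by
  have h2 : (jqModC K).order ≤ -1 :=
    HahnSeries.order_le_of_coeff_ne_zero (by rw [coeff_jqModC_neg_one]; exact one_ne_zero)
  linarith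

theorem ev1_injective (K : Type) [Field K] : Function.Injective (ev1 K) :=
  eval₂_C_injective (jqModC K) (order_jqModC_neg K)

theorem root_k : ((ΨA D ε).map (mapRingHom π)).eval₂ (ev1 k) (coeffMap π (uA D A)) = 0 := by
  rw [← coeffMap_eval₂_ev1, root_ΨA, map_zero]

theorem indep_k (Q : k[X][X]) (hdeg : Q.degree < (ΨA D ε).degree)
    (hQ : Q.eval₂ (ev1 k) (coeffMap π (uA D A)) = 0) : Q = 0 := by
  obtain ⟨ι, hι'⟩ : ∃ ι : RatFunc k →+* LaurentSeries k,
      ∀ x, ι (algebraMap k[X] (RatFunc k) x) = ev1 k x :=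
    ⟨IsFractionRing.lift (ev1_injective k), IsFractionRing.lift_algebraMap _⟩
  have hι : ι.comp (algebraMap k[X] (RatFunc k)) = ev1 k := RingHom.ext hι'
  have hainj : Function.Injective (algebraMap k[X] (RatFunc k)) := IsFractionRing.injective _ _
  have h1 : ((ΨA D ε).map (mapRingHom π)).map (algebraMap k[X] (RatFunc k)) ∣
      Q.map (algebraMap k[X] (RatFunc k)) := by
    apply dvd_of_root ι (coeffMap π (uA D A)) _ _
    · rw [ΨA, map_ε_map_π]
      exact irreducible_map D (πR ε π)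
    · rw [Polynomial.eval₂_map, hι]
      exact root_k D ε π
    · rw [Polynomial.eval₂_map, hι, hQ]
  have h2 := Polynomial.eq_zero_of_dvd_of_degree_lt h1 (by
    rw [Polynomial.degree_map_eq_of_injective hainj, Polynomial.degree_map_eq_of_injective hainj,
      (monic_ΨA D ε).degree_map]
    exact hdeg)
  exact (Polynomial.map_eq_zero_iff hainj).mp h2

theorem rbar_ne (q : S20.Quo M) (hq : q ≠ D.q₀) :
    coeffMap (πR ε π) (D.r D.q₀) ≠ coeffMap (πR ε π) (D.r q) := by
  intro h
  have h1 : 0 ≤ (coeffMap (πR ε π) (D.r D.q₀)).order :=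
    order_nonneg_of_const D.q₀ (evJN M k) (fun a => by simp [evJN])
      (fun q => coeffMap (πR ε π) (D.r q)) (r_map_ne_zero D (πR ε π)) (r_map_order D (πR ε π))
      _ (split_map D (πR ε π)) _ (const_map D (πR ε π))
  have h2 := r_map_order D (πR ε π) q hq
  rw [← h] at h2
  omega

theorem sep_k :
    ((derivative (ΨA D ε)).map (mapRingHom π)).eval₂ (ev1 k) (coeffMap π (uA D A)) ≠ 0 := by
  rw [← coeffMap_eval₂_ev1]
  intro h0
  have h1 : coeffMap π (qExpand A M ((derivative (ΨA D ε)).eval₂ (ev1 A) (uA D A))) = 0 := by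
    rw [coeffMap_qExpand, h0, map_zero]
  rw [ΨA, derivative_map, qExpand_eval₂, coeffMap_coeffMap, eval₂_derivative_Ψ,
    map_prod, Finset.prod_eq_zero_iff] at h1
  obtain ⟨q, hq, h2⟩ := h1
  rw [map_sub, sub_eq_zero] at h2
  exact rbar_ne D ε π q (Finset.ne_of_mem_erase hq) h2

/-- the field `L(j,u)`. -/
def Fu (A : ValuationSubring L) : IntermediateField L (LaurentSeries L) :=
  adjoin L {jqModC L, coeffMap A.subtype (uA D A)}

/-- the generator data for a field equal to `L(j,u)`. -/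
def genOf (F : IntermediateField L (LaurentSeries L)) (hF : F = Fu D A) : GenData A π F where
  u := uA D A
  Ψ := ΨA D ε
  monic := monic_ΨA D ε
  root := root_ΨA D ε
  indep := indep_k D ε π
  gen := hF
  sep := sep_k D ε π

theorem natDegree_ΨA : (ΨA D ε).natDegree = Fintype.card (S20.Quo M) := by
  rw [ΨA, (monic_Ψ D).natDegree_map, ← (monic_Ψ D).natDegree_map (evJN M _), D.split,
    natDegree_prod_of_monic _ _ fun q _ => monic_X_sub_C _]
  simp

include ε π in
/-- `j(q^d) ∈ L(j,u)`. -/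
theorem jd_mem_Fu (d : ℕ) [NeZero d] (hd : d ∣ M) : qExpand L d (jqModC L) ∈ Fu D A := by
  obtain ⟨G', hG', -⟩ := exists_numerator D d hd
  set G : (↥A)[X][X] := G'.map (mapRingHom ε) with hG
  have h1 : G.eval₂ (ev1 A) (uA D A) = qExpand A d (jqModC A) *
      (derivative (ΨA D ε)).eval₂ (ev1 A) (uA D A) := by
    apply qExpand_injective (R := ↥A) M
    rw [map_mul, hG, qExpand_eval₂, ΨA, derivative_map, qExpand_eval₂, hG', map_mul,
      coeffMap_qExpand, coeffMap_qExpand, coeffMap_jqModC]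
  have h2 : (derivative (ΨA D ε)).eval₂ (ev1 A) (uA D A) ≠ 0 := by
    intro h
    apply sep_k D ε π
    rw [← coeffMap_eval₂_ev1, h, map_zero]
  have h3 := congrArg (coeffMap A.subtype) h1
  rw [map_mul, coeffMap_eval₂_ev1, coeffMap_eval₂_ev1, coeffMap_qExpand, coeffMap_jqModC] at h3
  have h4 : ((derivative (ΨA D ε)).map (mapRingHom A.subtype)).eval₂ (ev1 L)
      (coeffMap A.subtype (uA D A)) ≠ 0 := by
    rw [← coeffMap_eval₂_ev1]
    exact fun h => h2 (coeffMap_subtype_inj A (by rw [h, map_zero]))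
  have h5 : qExpand L d (jqModC L) = (G.map (mapRingHom A.subtype)).eval₂ (ev1 L)
      (coeffMap A.subtype (uA D A)) / ((derivative (ΨA D ε)).map (mapRingHom A.subtype)).eval₂
      (ev1 L) (coeffMap A.subtype (uA D A)) := by
    rw [eq_div_iff h4]
    exact h3.symm
  rw [h5]
  have hj : jqModC L ∈ Fu D A := subset_adjoin _ _ (by simp)
  have hx : coeffMap A.subtype (uA D A) ∈ Fu D A := subset_adjoin _ _ (by simp)
  exact div_mem (GenData.eval₂_mem _ hj hx _) (GenData.eval₂_mem _ hj hx _)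

end

end Fermat.Agent.S29.D2
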