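import Mathlib
import Fermat.Agent.S18.Mo1d

set_option autoImplicit false

/-! # S29 [D2] part b: the valued field data with a prescribed name for the residue field -/

namespace Fermat.Agent.S29.D2

noncomputable section

open ModularCurve
open Fermat.Agent.S18 (VData)
open Fermat.Agent.S18.Mo1

variable {L k : Type} [Field L] [Field k] {A : ValuationSubring L} {π : A →+* k}
  {F : IntermediateField L (LaurentSeries L)}

/-- the reduction map, with values in `E = kap`. -/
def redE (h : NormHyp A π F) (hπ : Function.Surjective π)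
    (E : IntermediateField k (LaurentSeries k)) (hE : kap h hπ = E) : OV h →+* E where
  toFun x := ⟨rdF A π F x.1, by rw [← hE]; exact ⟨x.1, x.2, rfl⟩⟩
  map_one' := Subtype.ext rdF_one
  map_mul' x y := Subtype.ext (rdF_mul h x.2 y.2)
  map_zero' := Subtype.ext rdF_zero
  map_add' x y := Subtype.ext (rdF_add h x.2 y.2)

/-- the valued function field data, with residue field `E = kap`. -/
def vdataE (h : NormHyp A π F) (hπ : Function.Surjective π)
    (E : IntermediateField k (LaurentSeries k)) (hE : kap h hπ = E) : VData L F k E where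
  A := A
  O := OV h
  π := π
  red := redE h hπ E hE
  π_surj := hπ
  red_surj := by
    subst hE
    rintro ⟨_, x, hx, rfl⟩
    exact ⟨⟨x, hx⟩, rfl⟩
  mem_iff := (vdata h hπ).mem_iff
  red_algebraMap := by
    intro c hc
    apply Subtype.ext
    have h1 := congrArg Subtype.val ((vdata h hπ).red_algebraMap c hc)
    exact h1
  scale := by
    intro x hx
    obtain ⟨c, hc, hm, hne⟩ := (vdata h hπ).scale x hx
    refine ⟨c, hc, hm, ?_⟩
    intro h0
    apply hne
    apply Subtype.ext
    have h1 := congrArg Subtype.val h0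
    exact h1

theorem vdataE_rd (h : NormHyp A π F) (hπ : Function.Surjective π)
    (E : IntermediateField k (LaurentSeries k)) (hE : kap h hπ = E) {x : F} (hx : x ∈ OV h) :
    (((vdataE h hπ E hE).rd x : E) : LaurentSeries k) = rdF A π F x := by
  rw [(vdataE h hπ E hE).rd_of_mem hx]
  rfl

/-- LINK. -/
theorem vdataE_link (h : NormHyp A π F) (hπ : Function.Surjective π)
    (E : IntermediateField k (LaurentSeries k)) (hE : kap h hπ = E) (y : LaurentSeries A)
    (hy : coeffMap A.subtype y ∈ F) :
    (⟨coeffMap A.subtype y, hy⟩ : F) ∈ (vdataE h hπ E hE).O ∧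
      (((vdataE h hπ E hE).rd ⟨coeffMap A.subtype y, hy⟩ : E) : LaurentSeries k) =
        coeffMap π y := by
  have h1 : (⟨coeffMap A.subtype y, hy⟩ : F) ∈ OV h := (vdata_link h hπ y hy).1
  refine ⟨h1, ?_⟩
  rw [vdataE_rd h hπ E hE h1]
  exact rdF_iW (⟨y, hy⟩ : WF A F)

end

end Fermat.Agent.S29.D2
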