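import Mathlib
import Fermat.Agent.S29.D2a
import Fermat.Agent.S29.D2b
import Fermat.Agent.S18.Mo1g

set_option autoImplicit false
set_option synthInstance.maxHeartbeats 400000

/-! # S29 [D2] part c: the valued field data on `F_ℂ` with residue field `FN M` -/

namespace Fermat.Agent.S29.D2

noncomputable section

open ModularCurve Polynomial IntermediateField
open Fermat.Agent.S24 (Kb iota FN jF)
open Fermat.Agent.S28 (AnData exists_anData)
open Fermat.Agent.S18 (VData)
open Fermat.Agent.S18.Mo1 (GenData RA)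

/-- the function field over `ℂ`. -/
abbrev FCf (M : ℕ) : IntermediateField ℂ (LaurentSeries ℂ) :=
  laurentBaseChange ℂ (modularFunctionFieldFull M)

/-- the function field over `ℂ`, as a type. -/
abbrev FC (M : ℕ) : Type := ↥(FCf M)

theorem iota_comp_algebraMap : iota.comp (algebraMap ℚ Kb) = algebraMap ℚ ℂ :=
  Subsingleton.elim _ _

theorem coeffMap_iota_coeffEmb (x : LaurentSeries ℚ) :
    coeffMap iota (coeffEmb Kb x) = coeffEmb ℂ x := by
  rw [coeffEmb, coeffMap_coeffMap, iota_comp_algebraMap]; rfl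

theorem coeffMap_iota_algebraMap (c : Kb) :
    coeffMap iota (algebraMap Kb (LaurentSeries Kb) c) =
      algebraMap ℂ (LaurentSeries ℂ) (iota c) := by
  rw [algebraMap_laurentSeries_eq_single, algebraMap_laurentSeries_eq_single, coeffMap_single]

/-- constant lift: `coeffMap iota` maps `FN M` into `F_ℂ`. -/
theorem coeffMap_iota_mem (M : ℕ) {y : LaurentSeries Kb} (hy : y ∈ modularFunctionFieldBar M) :
    coeffMap iota y ∈ FCf M := by
  induction hy using IntermediateField.adjoin_induction with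
  | mem x hx =>
    obtain ⟨z, hz, rfl⟩ := hx
    rw [coeffMap_iota_coeffEmb]
    exact coeffEmb_mem_laurentBaseChange ℂ hz
  | algebraMap c =>
    rw [coeffMap_iota_algebraMap]
    exact IntermediateField.algebraMap_mem _ _
  | add a b _ _ ha hb => rw [map_add]; exact add_mem ha hb
  | inv a _ ha => rw [map_inv₀]; exact inv_mem ha
  | mul a b _ _ ha hb => rw [map_mul]; exact mul_mem ha hb

/-- the constant lift `FN M → F_ℂ`. -/
def cl (M : ℕ) : FN M →+* FC M where
  toFun y := ⟨coeffMap iota y.1, coeffMap_iota_mem M y.2⟩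
  map_one' := Subtype.ext (map_one _)
  map_mul' _ _ := Subtype.ext (map_mul _ _ _)
  map_zero' := Subtype.ext (map_zero _)
  map_add' _ _ := Subtype.ext (map_add _ _ _)

@[simp] theorem cl_coe (M : ℕ) (y : FN M) :
    ((cl M y : FC M) : LaurentSeries ℂ) = coeffMap iota (y : LaurentSeries Kb) := rfl

theorem cl_algebraMap (M : ℕ) (c : Kb) :
    cl M (algebraMap Kb (FN M) c) = algebraMap ℂ (FC M) (iota c) :=
  Subtype.ext (coeffMap_iota_algebraMap c)

theorem coeffEmb_algebraMapC (c : ℚ) :
    coeffEmb ℂ (algebraMap ℚ (LaurentSeries ℚ) c) =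
      algebraMap ℂ (LaurentSeries ℂ) (algebraMap ℚ ℂ c) := by
  rw [algebraMap_laurentSeries_eq_single, algebraMap_laurentSeries_eq_single, coeffEmb,
    coeffMap_single]

theorem coeffEmb_jd (d : ℕ) [NeZero d] :
    coeffEmb ℂ (qExpand ℚ d jq) = qExpand ℂ d (jqModC ℂ) := by
  rw [coeffEmb, coeffMap_qExpand, ← jqModC_rat, coeffMap_jqModC]

theorem jqModC_mem_FCf (M : ℕ) : jqModC ℂ ∈ FCf M := by
  have h := coeffEmb_mem_laurentBaseChange ℂ (jqd_mem_full M (one_dvd M))
  rwa [coeffEmb_jd, qExpand_one_apply] at h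

/-- `j` in `F_ℂ`. -/
def jC (M : ℕ) : FC M := ⟨jqModC ℂ, jqModC_mem_FCf M⟩

variable (M : ℕ) [NeZero M]

/-- analytic data over `iota(Kb)`. -/
theorem exists_anData_top : Nonempty (AnData M (RA (⊤ : ValuationSubring Kb))) :=
  exists_anData M _ (S18.Mo1.root_mem_RA ⊤ M) ⟨((M : Kb))⁻¹, trivial, by simp⟩

variable {M} (D : AnData M (RA (⊤ : ValuationSubring Kb)))
  (B : ValuationSubring ℂ) (π : B →+* Kb)
  (hB : ∀ x : Kb, ∃ h : iota x ∈ B, π ⟨iota x, h⟩ = x)

include hB in
theorem mem_B_of_mem_RA {x : ℂ} (hx : x ∈ RA (⊤ : ValuationSubring Kb)) : x ∈ B := by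
  obtain ⟨y, -, rfl⟩ := hx
  exact (hB y).choose

/-- `iota(Kb) → B`. -/
def epsB : ↥(RA (⊤ : ValuationSubring Kb)) →+* ↥B where
  toFun x := ⟨x.1, mem_B_of_mem_RA B π hB x.2⟩
  map_one' := rfl
  map_mul' _ _ := rfl
  map_zero' := rfl
  map_add' _ _ := rfl

include hB in
theorem pi_surjective : Function.Surjective π := fun x => ⟨_, (hB x).choose_spec⟩

theorem coeffMap_subtype_uA :
    coeffMap B.subtype (uA D B) = coeffMap (Int.castRingHom ℂ) D.u := by
  rw [uA, coeffMap_coeffMap, RingHom.ext_int (B.subtype.comp (Int.castRingHom _))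
    (Int.castRingHom ℂ)]

theorem coeffMap_pi_uA : coeffMap π (uA D B) = coeffMap (Int.castRingHom Kb) D.u := by
  rw [uA, coeffMap_coeffMap, RingHom.ext_int (π.comp (Int.castRingHom _)) (Int.castRingHom Kb)]

theorem coeffMap_top_uA :
    coeffMap (⊤ : ValuationSubring Kb).subtype (S18.Mo1.uA D) =
      coeffMap (Int.castRingHom Kb) D.u := by
  rw [S18.Mo1.uA, coeffMap_coeffMap,
    RingHom.ext_int ((⊤ : ValuationSubring Kb).subtype.comp (Int.castRingHom _))
      (Int.castRingHom Kb)]

/-- `FN M = Kb(j,u)`. -/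
theorem FN_eq_adjoin :
    modularFunctionFieldBar M = adjoin Kb {jqModC Kb, coeffMap (Int.castRingHom Kb) D.u} := by
  rw [← S18.Mo1.Fu_eq D, S18.Mo1.Fu, coeffMap_top_uA]

theorem uKb_mem : coeffMap (Int.castRingHom Kb) D.u ∈ modularFunctionFieldBar M := by
  rw [FN_eq_adjoin D]
  exact subset_adjoin _ _ (by simp)

theorem uC_mem : coeffMap (Int.castRingHom ℂ) D.u ∈ FCf M := by
  have h := coeffMap_iota_mem M (uKb_mem D)
  rwa [coeffMap_coeffMap, RingHom.ext_int (iota.comp (Int.castRingHom Kb))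
    (Int.castRingHom ℂ)] at h

include hB in
/-- `F_ℂ = ℂ(j,u)`. -/
theorem FCf_eq_Fu : FCf M = Fu D B := by
  apply le_antisymm
  · have h1 : ∀ x ∈ modularFunctionFieldFull M, coeffEmb ℂ x ∈ Fu D B := by
      intro x hx
      induction hx using IntermediateField.adjoin_induction with
      | mem y hy =>
        obtain ⟨d, hd0, hdN, rfl⟩ := hy
        rw [coeffEmb_jd]
        exact jd_mem_Fu D (epsB B π hB) π d hdN
      | algebraMap a =>
        rw [coeffEmb_algebraMapC]
        exact IntermediateField.algebraMap_mem _ _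
      | add a b _ _ ha hb => rw [map_add]; exact add_mem ha hb
      | inv a _ ha => rw [map_inv₀]; exact inv_mem ha
      | mul a b _ _ ha hb => rw [map_mul]; exact mul_mem ha hb
    rw [FCf, laurentBaseChange, IntermediateField.adjoin_le_iff]
    rintro _ ⟨x, hx, rfl⟩
    exact h1 x hx
  · rw [Fu, adjoin_le_iff]
    rintro y (rfl | hy)
    · exact jqModC_mem_FCf M
    · rw [Set.mem_singleton_iff] at hy
      subst hy
      rw [coeffMap_subtype_uA]
      exact uC_mem D

/-- the generator data on `F_ℂ`. -/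
def genC : GenData B π (FCf M) := genOf D (epsB B π hB) π (FCf M) (FCf_eq_Fu D B π hB)

theorem kp_eq_FN :
    (genC D B π hB).kp (pi_surjective B π hB) = modularFunctionFieldBar M := by
  have e : (genC D B π hB).ub = coeffMap (Int.castRingHom Kb) D.u := coeffMap_pi_uA D B π
  rw [GenData.kp_eq, FN_eq_adjoin D, e]

/-- **(D2)** the valued field data on `F_ℂ` with residue field `FN M`. -/
def VC : VData ℂ (FC M) Kb (FN M) :=
  vdataE (genC D B π hB).normHyp (pi_surjective B π hB) (modularFunctionFieldBar M)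
    (kp_eq_FN D B π hB)

@[simp] theorem VC_A : (VC D B π hB).A = B := rfl

@[simp] theorem VC_π : (VC D B π hB).π = π := rfl

/-- LINK. -/
theorem VC_link (y : LaurentSeries B) (hy : coeffMap B.subtype y ∈ FCf M) :
    (⟨coeffMap B.subtype y, hy⟩ : FC M) ∈ (VC D B π hB).O ∧
      (((VC D B π hB).rd ⟨coeffMap B.subtype y, hy⟩ : FN M) : LaurentSeries Kb) = coeffMap π y :=
  vdataE_link _ _ _ _ y hy

/-- `Kb → B`. -/
def iotaB : Kb →+* ↥B where
  toFun x := ⟨iota x, (hB x).choose⟩
  map_one' := Subtype.ext (map_one _)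
  map_mul' _ _ := Subtype.ext (map_mul _ _ _)
  map_zero' := Subtype.ext (map_zero _)
  map_add' _ _ := Subtype.ext (map_add _ _ _)

theorem pi_comp_iotaB : π.comp (iotaB B π hB) = RingHom.id Kb :=
  RingHom.ext fun x => (hB x).choose_spec

theorem subtype_comp_iotaB : B.subtype.comp (iotaB B π hB) = iota := rfl

/-- the constant lift of `y : FN M` lies in `O` and reduces to `y`. -/
theorem VC_cl (y : FN M) : cl M y ∈ (VC D B π hB).O ∧ (VC D B π hB).rd (cl M y) = y := by
  have e : coeffMap B.subtype (coeffMap (iotaB B π hB) (y : LaurentSeries Kb)) =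
      coeffMap iota (y : LaurentSeries Kb) := by
    rw [coeffMap_coeffMap, subtype_comp_iotaB]
  have hy : coeffMap B.subtype (coeffMap (iotaB B π hB) (y : LaurentSeries Kb)) ∈ FCf M := by
    rw [e]; exact coeffMap_iota_mem M y.2
  have h := VC_link D B π hB _ hy
  have e2 : (⟨_, hy⟩ : FC M) = cl M y := Subtype.ext e
  rw [e2] at h
  refine ⟨h.1, Subtype.ext ?_⟩
  rw [h.2, coeffMap_coeffMap, pi_comp_iotaB, coeffMap_id]

theorem cl_jF : cl M (jF M) = jC M := by
  apply Subtype.ext
  rw [cl_coe, S18.Mo1.coe_jF_eq, coeffMap_jqModC]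
  rfl

theorem VC_rd_jC : (VC D B π hB).rd (jC M) = jF M := by
  rw [← cl_jF]; exact (VC_cl D B π hB (jF M)).2

/-- `j` is a good coordinate. -/
theorem VC_goodCoord : (VC D B π hB).GoodCoord (jC M) where
  htr := by rw [VC_rd_jC]; exact S24.transcendental_jF M
  fd := (genC D B π hB).finiteDimensional_F
  hn := by
    rw [VC_rd_jC, ← S18.Mo2.card_quo_eq_finrank, ← natDegree_ΨA D (epsB B π hB)]
    exact (genC D B π hB).finrank_F

end

end Fermat.Agent.S29.D2
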