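import Fermat.Agent.S29.ExoticGen
import Fermat.Agent.S24.ModDefs

set_option autoImplicit false
set_option linter.unusedSectionVars false
set_option linter.style.haveILetI false

/-! # S29 (D1): a rank one valuation ring of `ℂ` containing `ℚ̄` with residue field `ℚ̄`. -/

namespace Fermat.Agent.S29

open Fermat.Agent.S24 (Kb iota)
open Cardinal Polynomial

instance instIsAlgebraicKb : Algebra.IsAlgebraic ℚ Kb := AlgebraicClosure.isAlgebraic ℚ

/-- two embeddings of an algebraic closure of `ℚ` have the same range. -/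
theorem range_le_range {L : Type} [Field L] (ι₁ ι₂ : Kb →+* L) : ι₁.range ≤ ι₂.range := by
  rintro _ ⟨x, rfl⟩
  let m := (minpoly ℚ x).map (algebraMap ℚ Kb)
  have hm0 : m ≠ 0 := Polynomial.map_ne_zero (minpoly.ne_zero (Algebra.IsIntegral.isIntegral x))
  have hsp : m.Splits := IsAlgClosed.splits m
  have hroot : (m.map ι₂).IsRoot (ι₁ x) := by
    have h1 : m.map ι₂ = m.map ι₁ := by
      simp only [m, Polynomial.map_map]
      congr 1
      exact RingHom.ext_rat _ _
    rw [h1, Polynomial.IsRoot.def, Polynomial.eval_map, Polynomial.eval₂_hom]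
    have : m.eval x = 0 := by
      simp only [m, Polynomial.eval_map]
      exact minpoly.aeval ℚ x
    rw [this, map_zero]
  exact hsp.mem_range_of_isRoot hm0 hroot

abbrev K1 : Type := LaurentSeries Kb
abbrev L1 : Type := AlgebraicClosure K1

noncomputable def fPS : PowerSeries Kb →+* L1 :=
  (algebraMap K1 L1).comp (algebraMap (PowerSeries Kb) K1)

theorem fPS_injective : Function.Injective fPS :=
  (algebraMap K1 L1).injective.comp (IsFractionRing.injective (PowerSeries Kb) K1)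

theorem fPS_alg (c : L1) : ∃ p : (PowerSeries Kb)[X], p ≠ 0 ∧ p.eval₂ fPS c = 0 := by
  have h1 : IsAlgebraic K1 c := Algebra.IsAlgebraic.isAlgebraic c
  have h2 : IsAlgebraic (PowerSeries Kb) c :=
    (IsFractionRing.isAlgebraic_iff (PowerSeries Kb) K1 L1).2 h1
  obtain ⟨p, hp0, hp⟩ := h2
  refine ⟨p, hp0, ?_⟩
  rw [← hp, Polynomial.aeval_def]
  congr 1

theorem exists_dominates : ∃ B : ValuationSubring L1, Dominates fPS B := by
  obtain ⟨B, hmem, hloc⟩ := IsLocalRing.exists_factor_valuationRing fPS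
  refine ⟨B, fPS_injective, hmem, ?_, fPS_alg⟩
  intro r hr
  have h1 : IsUnit (⟨fPS r, hmem r⟩ : B) := (B.valuation_eq_one_iff _).2 hr
  exact hloc.map_nonunit r h1

theorem mk_fun_Kb (α : Type) (hα : #α = ℵ₀) : #(α → Kb) = 𝔠 := by
  have hKb : #Kb ≤ 𝔠 := by
    have h1 : #Kb ≤ max #ℚ ℵ₀ := Algebra.IsAlgebraic.cardinalMk_le_max ℚ Kb
    rw [Cardinal.mkRat, max_self] at h1
    exact h1.trans Cardinal.aleph0_le_continuum
  have hKb2 : 2 ≤ #Kb := Cardinal.two_le_iff.2 ⟨0, 1, zero_ne_one⟩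
  rw [Cardinal.mk_arrow, Cardinal.lift_id, Cardinal.lift_id, hα]
  exact Cardinal.power_aleph0_of_le_continuum hKb2 hKb

theorem mk_K1 : #K1 = 𝔠 := by
  apply le_antisymm
  · rw [← mk_fun_Kb ℤ Cardinal.mk_int]
    exact Cardinal.mk_le_of_injective (f := fun x : K1 => x.coeff) HahnSeries.coeff_injective
  · rw [← mk_fun_Kb ℕ Cardinal.mk_nat]
    refine Cardinal.mk_le_of_injective
      (f := fun a : ℕ → Kb => algebraMap (PowerSeries Kb) K1 (PowerSeries.mk a)) ?_
    intro a b hab
    have h1 := IsFractionRing.injective (PowerSeries Kb) K1 hab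
    funext n
    have := congrArg (PowerSeries.coeff n) h1
    simpa using this

theorem mk_L1 : #L1 = 𝔠 := by
  apply le_antisymm
  · have h1 : #L1 ≤ max #K1 ℵ₀ := Algebra.IsAlgebraic.cardinalMk_le_max K1 L1
    rw [mk_K1, max_eq_left Cardinal.aleph0_le_continuum] at h1
    exact h1
  · rw [← mk_K1]
    exact Cardinal.mk_le_of_injective (algebraMap K1 L1).injective

theorem exists_ringEquiv : Nonempty (ℂ ≃+* L1) := by
  haveI : CharZero K1 := charZero_of_injective_algebraMap (algebraMap Kb K1).injective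
  haveI : CharZero L1 := charZero_of_injective_algebraMap (algebraMap K1 L1).injective
  apply IsAlgClosed.ringEquiv_of_equiv_of_charZero
  · rw [Cardinal.mk_complex]; exact Cardinal.aleph0_lt_continuum
  · exact Cardinal.eq.1 (by rw [Cardinal.mk_complex, mk_L1])

/-- ring hom into a valuation subring. -/
noncomputable def toVS {R L : Type} [CommRing R] [Field L] (B : ValuationSubring L) (g : R →+* L)
    (hg : ∀ x, g x ∈ B) : R →+* B where
  toFun x := ⟨g x, hg x⟩
  map_one' := Subtype.ext (map_one g)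
  map_mul' x y := Subtype.ext (map_mul g x y)
  map_zero' := Subtype.ext (map_zero g)
  map_add' x y := Subtype.ext (map_add g x y)

theorem val_le_iff_mem {L : Type} [Field L] (B : ValuationSubring L) (x y : L) (hy : y ≠ 0) :
    B.valuation x ≤ B.valuation y ↔ x / y ∈ B := by
  rw [← B.valuation_le_one_iff, map_div₀,
    div_le_one₀ (zero_lt_iff.2 ((Valuation.ne_zero_iff _).2 hy))]

theorem val_lt_one_iff {L : Type} [Field L] (B : ValuationSubring L) (x : L) :
    B.valuation x < 1 ↔ x = 0 ∨ x⁻¹ ∉ B := by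
  by_cases hx : x = 0
  · simp [hx]
  · rw [← B.valuation_le_one_iff, map_inv₀, not_le,
      one_lt_inv₀ (zero_lt_iff.2 ((Valuation.ne_zero_iff _).2 hx))]
    simp [hx]

/-- **(D1)** a rank one valuation ring of `ℂ` with a retraction onto `ℚ̄`. -/
theorem exists_exotic : ∃ (B : ValuationSubring ℂ) (π : B →+* Kb),
    (∀ x : Kb, ∃ h : iota x ∈ B, π ⟨iota x, h⟩ = x) ∧
    (∀ c c0 : ℂ, B.valuation c < 1 → c0 ≠ 0 → ∃ j : ℕ, B.valuation c ^ j ≤ B.valuation c0) := by
  obtain ⟨e⟩ := exists_ringEquiv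
  obtain ⟨B', hD⟩ := exists_dominates
  let ι₂ : Kb →+* L1 := fPS.comp PowerSeries.C
  let ι₁ : Kb →+* L1 := e.toRingHom.comp iota
  have hι₂mem : ∀ x, ι₂ x ∈ B' := fun x => hD.mem _
  have hι₁mem : ∀ x, ι₁ x ∈ B' := by
    intro x
    obtain ⟨y, hy⟩ := range_le_range ι₁ ι₂ ⟨x, rfl⟩
    rw [← hy]; exact hι₂mem y
  let res := IsLocalRing.residue B'
  let θ : Kb →+* IsLocalRing.ResidueField B' := res.comp (toVS B' ι₂ hι₂mem)
  have hθ : Function.Bijective θ := by
    refine ⟨θ.injective, fun y => ?_⟩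
    obtain ⟨z, rfl⟩ := IsLocalRing.residue_surjective y
    obtain ⟨a, ha⟩ := hD.exists_residue PowerSeries.C (fun r => ⟨PowerSeries.constantCoeff r, by
      rw [PowerSeries.isUnit_iff_constantCoeff]
      simp⟩) z z.2
    refine ⟨a, ?_⟩
    have h1 : z - toVS B' ι₂ hι₂mem a ∈ IsLocalRing.maximalIdeal B' :=
      (B'.valuation_lt_one_iff _).2 ha
    have h2 := (IsLocalRing.residue_eq_zero_iff _).2 h1
    rw [map_sub, sub_eq_zero] at h2
    exact h2.symm
  let θe := RingEquiv.ofBijective θ hθ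
  let π' : B' →+* Kb := θe.symm.toRingHom.comp res
  have hπ'ι₂ : ∀ x, π' (toVS B' ι₂ hι₂mem x) = x := fun x => θe.symm_apply_apply x
  let α : Kb →+* Kb := π'.comp (toVS B' ι₁ hι₁mem)
  have hα : Function.Bijective α := by
    refine ⟨α.injective, fun b => ?_⟩
    obtain ⟨a, ha⟩ := range_le_range ι₂ ι₁ ⟨b, rfl⟩
    refine ⟨a, ?_⟩
    have h1 : toVS B' ι₁ hι₁mem a = toVS B' ι₂ hι₂mem b := Subtype.ext ha
    show π' (toVS B' ι₁ hι₁mem a) = b
    rw [h1, hπ'ι₂]
  let αe := RingEquiv.ofBijective α hα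
  let B := B'.comap e.toRingHom
  have hBmem : ∀ z : ℂ, z ∈ B ↔ e z ∈ B' := fun z => Iff.rfl
  let eB : B →+* B' := toVS B' (e.toRingHom.comp B.subtype) (fun z => z.2)
  refine ⟨B, αe.symm.toRingHom.comp (π'.comp eB), fun x => ⟨hι₁mem x, ?_⟩, ?_⟩
  · show αe.symm (π' (eB ⟨iota x, hι₁mem x⟩)) = x
    have h1 : eB ⟨iota x, hι₁mem x⟩ = toVS B' ι₁ hι₁mem x := Subtype.ext rfl
    rw [h1]
    exact αe.symm_apply_apply x
  · intro c c0 hc hc0
    have hc' : B'.valuation (e c) < 1 := by
      rw [val_lt_one_iff] at hc ⊢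
      rcases hc with h | h
      · left; rw [h, map_zero]
      · right; rwa [hBmem, map_inv₀] at h
    obtain ⟨j, hj⟩ := hD.rank_one (e c) (e c0) hc' (by simpa using hc0)
    refine ⟨j, ?_⟩
    rw [← map_pow, val_le_iff_mem _ _ _ hc0, hBmem, map_div₀, map_pow,
      ← val_le_iff_mem _ _ _ (by simpa using hc0), map_pow]
    exact hj

end Fermat.Agent.S29
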