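import Mathlib
import Fermat.Agent.S29.AnAlg
import Fermat.Agent.S29.D2c
import Fermat.Agent.S29.Exotic

set_option autoImplicit false
set_option synthInstance.maxHeartbeats 400000
set_option linter.style.haveILetI false

/-! # S29 [K]: the `q`-expansion of an element of `AA N` lies in the function field `F_ℂ` -/

namespace Fermat.Agent.S29.An

open UpperHalfPlane ModularForm Matrix.SpecialLinearGroup IntermediateField ModularCurve
open scoped MatrixGroups ModularForm Manifold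
open Fermat.Agent.S20 (Quo sl)
open Fermat.Agent.S24
open Fermat.Agent.S29.D2 (FCf FC jC)

variable {N : ℕ} [NeZero N]

theorem cmp_jdg (d : Dv N) (γ : SL(2, ℤ)) : cmp (jdg N d 1) γ = jdg N d γ := by
  funext z
  rw [cmp_apply, ← jdg_mul, one_mul]

theorem jdg_mem_AA (d : Dv N) : jdg N d 1 ∈ AA N := by
  refine ⟨fun γ => ?_, fun δ hδ z => ?_⟩
  · rw [cmp_jdg]
    exact jdg_mem_Mer N d γ
  · rw [← jdg_mul, one_mul]
    have := jdg_Gamma0_mul N d δ 1 hδ
    rw [mul_one] at this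
    rw [this]

/-- `j(dz)` as an element of `AA N`. -/
noncomputable def jdA (d : Dv N) : AA N := ⟨jdg N d 1, jdg_mem_AA d⟩

theorem Phi_jdA (d : Dv N) :
    haveI : NeZero d.1 := ⟨d.ne_zero⟩
    Phi N (jdA d) = coeffEmb ℂ (qExpand ℚ d.1 jq) := by
  haveI : NeZero d.1 := ⟨d.ne_zero⟩
  rw [Phi_apply]
  refine (expInf_jdg_one N d).trans ?_
  rw [coe_Jd, D2.coeffMap_iota_coeffEmb]

theorem Phi_jdA_mem (d : Dv N) : Phi N (jdA d) ∈ FCf N := by
  haveI : NeZero d.1 := ⟨d.ne_zero⟩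
  rw [Phi_jdA]
  exact coeffEmb_mem_laurentBaseChange ℂ (jqd_mem_full N d.2)

theorem coeffEmb_jq_eq : coeffEmb ℂ jq = jqModC ℂ := by
  have := D2.coeffEmb_jd 1
  rwa [qExpand_one_apply, qExpand_one_apply] at this

/-- generators of the auxiliary field. -/
noncomputable def gA (h : AA N) : Option (Dv N) → AA N := fun o => o.elim h jdA

/-- the auxiliary field `F_ℂ(h)`. -/
noncomputable def FK (h : AA N) : IntermediateField ℂ (LaurentSeries ℂ) :=
  adjoin ℂ (Set.range fun o => Phi N (gA h o))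

theorem FCf_le_FK (h : AA N) : FCf N ≤ FK h := by
  have h1 : ∀ x ∈ modularFunctionFieldFull N, coeffEmb ℂ x ∈ FK h := by
    intro x hx
    induction hx using IntermediateField.adjoin_induction with
    | mem y hy =>
      obtain ⟨d, hd0, hdN, rfl⟩ := hy
      apply subset_adjoin
      refine ⟨some ⟨d, hdN⟩, ?_⟩
      exact Phi_jdA (N := N) ⟨d, hdN⟩
    | algebraMap a =>
      rw [D2.coeffEmb_algebraMapC]
      exact IntermediateField.algebraMap_mem _ _
    | add a b _ _ ha hb => rw [map_add]; exact add_mem ha hb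
    | inv a _ ha => rw [map_inv₀]; exact inv_mem ha
    | mul a b _ _ ha hb => rw [map_mul]; exact mul_mem ha hb
  rw [FCf, laurentBaseChange, IntermediateField.adjoin_le_iff]
  rintro _ ⟨x, hx, rfl⟩
  exact h1 x hx

theorem Phi_gA_mem (h : AA N) (o : Option (Dv N)) : Phi N (gA h o) ∈ FK h :=
  subset_adjoin _ _ ⟨o, rfl⟩

/-- generators, in the field. -/
noncomputable def gF (h : AA N) (o : Option (Dv N)) : FK h := ⟨Phi N (gA h o), Phi_gA_mem h o⟩

theorem adjoin_range_gF (h : AA N) : adjoin ℂ (Set.range (gF h)) = ⊤ := by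
  rw [eq_top_iff]
  intro y _
  have h3 : (y : LaurentSeries ℂ) ∈ adjoin ℂ ((FK h).val '' Set.range (gF h)) := by
    have e : (FK h).val '' Set.range (gF h) = Set.range fun o => Phi N (gA h o) := by
      ext x
      constructor
      · rintro ⟨_, ⟨o, rfl⟩, rfl⟩
        exact ⟨o, rfl⟩
      · rintro ⟨o, rfl⟩
        exact ⟨gF h o, ⟨o, rfl⟩, rfl⟩
    rw [e]
    exact y.2
  rw [← IntermediateField.adjoin_map] at h3
  obtain ⟨z, hz, hzy⟩ := h3
  have : z = y := Subtype.ext hzy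
  rwa [← this]

theorem jq_mem_FK (h : AA N) : jqModC ℂ ∈ FK h := FCf_le_FK h (D2.jqModC_mem_FCf N)

theorem coe_aeval_gF (h : AA N) (P : MvPolynomial (Option (Dv N)) ℂ) :
    ((MvPolynomial.aeval (gF h) P : FK h) : LaurentSeries ℂ) =
      Phi N (MvPolynomial.aeval (gA h) P) := by
  have e1 := MvPolynomial.comp_aeval_apply (gF h) (FK h).val P
  have e2 := MvPolynomial.comp_aeval_apply (gA h) (Phi N) P
  rw [e2]
  exact e1

theorem finrank_FK_le (h : AA N) :
    FiniteDimensional ℂ⟮(⟨jqModC ℂ, jq_mem_FK h⟩ : FK h)⟯ (FK h) ∧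
      Module.finrank ℂ⟮(⟨jqModC ℂ, jq_mem_FK h⟩ : FK h)⟯ (FK h) ≤ Fintype.card (Quo N) := by
  haveI : Finite (Dv N) :=
    (Set.Finite.subset (Set.finite_Iic N) (fun d (hd : d ∣ N) =>
      Nat.le_of_dvd (Nat.pos_of_ne_zero (NeZero.ne N)) hd)).to_subtype
  refine finrank_le_of_monic _ (gF h) (adjoin_range_gF h) _ fun P => ?_
  obtain ⟨χ, h1, h2, h3⟩ := exists_monic_Phi (MvPolynomial.aeval (gA h) P)
  refine ⟨χ, h1, h2, ?_⟩
  apply Subtype.val_injective
  have := Polynomial.hom_eval₂ χ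
    (Polynomial.aeval (⟨jqModC ℂ, jq_mem_FK h⟩ : FK h) : Polynomial ℂ →ₐ[ℂ] FK h).toRingHom
    (FK h).val.toRingHom (MvPolynomial.aeval (gF h) P)
  have e2 : (FK h).val.toRingHom.comp
      (Polynomial.aeval (⟨jqModC ℂ, jq_mem_FK h⟩ : FK h) : Polynomial ℂ →ₐ[ℂ] FK h).toRingHom =
      (Polynomial.aeval (Phi N (jA N)) : Polynomial ℂ →ₐ[ℂ] LaurentSeries ℂ).toRingHom := by
    have : ((FK h).val.comp (Polynomial.aeval (⟨jqModC ℂ, jq_mem_FK h⟩ : FK h))) =
        Polynomial.aeval (Phi N (jA N)) := by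
      apply Polynomial.algHom_ext
      simp [Phi_jA, coeffEmb_jq_eq]
    exact congrArg AlgHom.toRingHom this
  rw [e2] at this
  refine this.trans ?_
  have e3 : (FK h).val.toRingHom (MvPolynomial.aeval (gF h) P) =
      Phi N (MvPolynomial.aeval (gA h) P) := coe_aeval_gF h P
  rw [e3, h3]
  rfl

theorem finrank_FC (N : ℕ) [NeZero N] :
    Module.finrank ℂ⟮jC N⟯ (FC N) = Fintype.card (Quo N) := by
  obtain ⟨D⟩ := D2.exists_anData_top N
  obtain ⟨B, π, hB, -⟩ := exists_exotic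
  rw [← D2.natDegree_ΨA D (D2.epsB B π hB)]
  exact (D2.genC D B π hB).finrank_F

/-- **(K)** the `q`-expansion of an element of `AA N` lies in `F_ℂ`. -/
theorem Phi_mem_FCf (h : AA N) : Phi N h ∈ FCf N := by
  have h1 : relfinrank ℂ⟮jqModC ℂ⟯ (FCf N) = Fintype.card (Quo N) := by
    have := S18.Mo1.relfinrank_adjoin_simple (FCf N) (jC N)
    rw [finrank_FC] at this
    exact this
  obtain ⟨hfd, hle'⟩ := finrank_FK_le h
  have h2 := S18.Mo1.relfinrank_adjoin_simple (FK h) ⟨jqModC ℂ, jq_mem_FK h⟩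
  have hle : ℂ⟮jqModC ℂ⟯ ≤ FCf N := by
    rw [adjoin_simple_le_iff]
    exact D2.jqModC_mem_FCf N
  have h3 := relfinrank_mul_relfinrank hle (FCf_le_FK h)
  rw [h1, h2] at h3
  have hpos : 0 < Module.finrank ℂ⟮(⟨jqModC ℂ, jq_mem_FK h⟩ : FK h)⟯ (FK h) := Module.finrank_pos
  have h4 : relfinrank (FCf N) (FK h) = 1 := by
    have hc : 0 < Fintype.card (Quo N) := Fintype.card_pos_iff.mpr ⟨QuotientGroup.mk 1⟩
    have h5 : relfinrank (FCf N) (FK h) ≠ 0 := by
      intro h0
      rw [h0, mul_zero] at h3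
      omega
    have h6 : Fintype.card (Quo N) * relfinrank (FCf N) (FK h) ≤ Fintype.card (Quo N) * 1 := by
      rw [h3, mul_one]; exact hle'
    have := Nat.le_of_mul_le_mul_left h6 hc
    omega
  exact relfinrank_eq_one_iff.mp h4 (Phi_gA_mem h none)

/-- the `q`-expansion as a map `AA N → F_ℂ`. -/
noncomputable def PhiF (N : ℕ) [NeZero N] : AA N →ₐ[ℂ] FC N :=
  (Phi N).codRestrict (FCf N).toSubalgebra Phi_mem_FCf

theorem coe_PhiF (h : AA N) : ((PhiF N h : FC N) : LaurentSeries ℂ) = Phi N h := rfl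

theorem PhiF_injective : Function.Injective (PhiF N) := fun a b hab =>
  Phi_injective (congrArg Subtype.val hab)

end Fermat.Agent.S29.An
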