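import Mathlib
import Fermat.Agent.S29.AnAlg
import Fermat.Agent.S29.HomDefs
import Fermat.Agent.S24.MerTri
import Fermat.Agent.S29.HeckeS
import Fermat.Agent.S21.Injective

set_option autoImplicit false
set_option linter.style.haveILetI false

/-! # S29 [H1]: the multiplicative Hecke operator on functions on the upper half plane -/

namespace Fermat.Agent.S29.HA

open UpperHalfPlane ModularForm Matrix.SpecialLinearGroup CongruenceSubgroup
open scoped MatrixGroups ModularForm Manifold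
open Fermat.Agent.S24 Fermat.Agent.S29.An
open P2MW.S_ModularForm_heckeT_slash_eq_self_of_mem_Gamma0.ModularForm.HeckeSlashInvariance

theorem qN_scale (h : ℕ) [NeZero h] (z : ℍ) :
    qN h (S22.tri h 1 0 (NeZero.ne h) one_ne_zero • z) = qN 1 z := by
  have hh : (h : ℂ) ≠ 0 := by exact_mod_cast NeZero.ne h
  unfold qN Function.Periodic.qParam
  rw [S22.coe_tri_smul]
  congr 1
  push_cast
  field_simp
  ring

/-- `z ↦ f (h z)` has period one. -/
theorem scale_mem_Mer_one (h : ℕ) [NeZero h] (f : Mer h) :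
    (fun z : ℍ => f.1 (S22.tri h 1 0 (NeZero.ne h) one_ne_zero • z)) ∈ Mer 1 := by
  obtain ⟨m, hm⟩ := exists_shiftF_bdd f
  refine ⟨mdiff_comp_tri f.2.1 _ _ _ _ _, fun z => ?_, m, ?_⟩
  · show f.1 (S22.tri h 1 0 (NeZero.ne h) one_ne_zero • (((1 : ℕ) : ℝ) +ᵥ z)) = _
    have e : S22.tri h 1 0 (NeZero.ne h) one_ne_zero • (((1 : ℕ) : ℝ) +ᵥ z) =
        (h : ℝ) +ᵥ (S22.tri h 1 0 (NeZero.ne h) one_ne_zero • z) := by
      ext
      rw [S22.coe_tri_smul, coe_vadd, coe_vadd, S22.coe_tri_smul]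
      push_cast
      ring
    rw [e, f.2.2.1]
  · have h1 := bdd_comp_tri hm h 1 0 (NeZero.ne h) one_ne_zero
    refine h1.congr' ?_ (Filter.EventuallyEq.refl _ _)
    exact Filter.Eventually.of_forall fun z => by
      show shiftF h m f.1 _ = _
      unfold shiftF
      rw [qN_scale]

theorem comp_tri_mem_Mer_gen (h N a d : ℕ) (b : ℤ) (ha : a ≠ 0) (hd : d ≠ 0) [NeZero h] [NeZero N]
    (hdN : h * d ∣ N) (f : Mer h) : (fun z : ℍ => f.1 (S22.tri a d b ha hd • z)) ∈ Mer N := by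
  have hhd : h * d ≠ 0 := mul_ne_zero (NeZero.ne h) hd
  have h1 := comp_tri_mem_Mer N a (h * d) b ha hhd hdN ⟨_, scale_mem_Mer_one h f⟩
  have e : (fun z : ℍ => f.1 (S22.tri a d b ha hd • z)) = fun z : ℍ =>
      f.1 (S22.tri h 1 0 (NeZero.ne h) one_ne_zero • (S22.tri a (h * d) b ha hhd • z)) := by
    funext z
    have hh : (h : ℂ) ≠ 0 := by exact_mod_cast NeZero.ne h
    have hd' : (d : ℂ) ≠ 0 := by exact_mod_cast hd
    have e1 : S22.tri a d b ha hd • z =
        S22.tri h 1 0 (NeZero.ne h) one_ne_zero • (S22.tri a (h * d) b ha hhd • z) := by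
      ext
      rw [S22.coe_tri_smul, S22.coe_tri_smul, S22.coe_tri_smul]
      push_cast
      field_simp
      ring
    rw [e1]
  rw [e]
  exact h1

variable {l : ℕ} [Fact l.Prime]

theorem l_ne_zero : l ≠ 0 := (Fact.out : l.Prime).ne_zero

theorem heckeRep_infty_smul (z : ℍ) :
    heckeRep l (OnePoint.infty) • z = S22.tri l 1 0 l_ne_zero one_ne_zero • z := by
  ext
  rw [heckeRep_infty, ModularForm.coe_heckeDiagMatrix_smul l_ne_zero, S22.coe_tri_smul]
  push_cast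
  ring

theorem heckeRep_coe_smul (j : ZMod l) (z : ℍ) :
    heckeRep l (j : OnePoint (ZMod l)) • z = S22.tri 1 l (j.val : ℤ) one_ne_zero l_ne_zero • z := by
  ext
  rw [heckeRep_coe, ModularForm.coe_heckeMatrix_smul l_ne_zero, S22.coe_tri_smul]
  push_cast
  ring

theorem comp_heckeRep_mem_Mer (h : ℕ) [NeZero h] (f : Mer h) (x : OnePoint (ZMod l)) :
    (fun z : ℍ => f.1 (heckeRep l x • z)) ∈ Mer (h * l) := by
  haveI : NeZero (h * l) := ⟨mul_ne_zero (NeZero.ne h) l_ne_zero⟩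
  induction x using OnePoint.rec with
  | infty =>
    simp only [heckeRep_infty_smul]
    exact comp_tri_mem_Mer_gen h (h * l) l 1 0 _ _ (by simp) f
  | coe j =>
    simp only [heckeRep_coe_smul]
    exact comp_tri_mem_Mer_gen h (h * l) 1 l _ _ _ dvd_rfl f

/-- the multiplicative Hecke operator. -/
noncomputable def heckeProd (l : ℕ) [Fact l.Prime] (v : ℍ → ℂ) : ℍ → ℂ :=
  fun z => ∏ x : OnePoint (ZMod l), v (heckeRep l x • z)

theorem heckeProd_apply (v : ℍ → ℂ) (z : ℍ) :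
    heckeProd l v z = ∏ x : OnePoint (ZMod l), v (heckeRep l x • z) := rfl

theorem heckeProd_mul (v w : ℍ → ℂ) : heckeProd l (v * w) = heckeProd l v * heckeProd l w := by
  funext z
  simp only [heckeProd_apply, Pi.mul_apply, Finset.prod_mul_distrib]

theorem heckeProd_one : heckeProd l (1 : ℍ → ℂ) = 1 := by
  funext z
  simp [heckeProd_apply]

theorem heckeProd_pow (v : ℍ → ℂ) (n : ℕ) : heckeProd l (v ^ n) = heckeProd l v ^ n := by
  funext z
  simp only [heckeProd_apply, Pi.pow_apply, Finset.prod_pow]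

/-- the conjugates of `heckeProd l v`. -/
theorem cmp_heckeProd_mem {h : ℕ} [NeZero h] {v : ℍ → ℂ} (hv : ∀ γ : SL(2, ℤ), cmp v γ ∈ Mer h)
    (γ : SL(2, ℤ)) : cmp (heckeProd l v) γ ∈ Mer (h * l) := by
  have e : cmp (heckeProd l v) γ = ∏ x : OnePoint (ZMod l), fun z : ℍ =>
      v (heckeRep l x • (γ • z)) := by
    funext z
    rw [cmp_apply, heckeProd_apply, Finset.prod_apply]
  rw [e]
  refine Subalgebra.prod_mem _ fun x _ => ?_
  obtain ⟨g', -, hg'⟩ := heckeRep_mul (N := 1) (p := l)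
    (fun hd => (Fact.out : l.Prime).one_lt.ne' (Nat.dvd_one.mp hd)) γ (by simp) x
  have e2 : (fun z : ℍ => v (heckeRep l x • (γ • z))) = fun z : ℍ =>
      cmp v g' (heckeRep l (redMatrix l γ • x) • z) := by
    funext z
    rw [cmp_apply]
    congr 1
    change heckeRep l x • (mapGL ℝ γ • z) = mapGL ℝ g' • (heckeRep l (redMatrix l γ • x) • z)
    rw [← mul_smul, ← mul_smul, hg']
  rw [e2]
  exact comp_heckeRep_mem_Mer h ⟨_, hv g'⟩ _

/-- the multiplier of `heckeProd l v`. -/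
theorem heckeProd_smul {N : ℕ} (hl : ¬ l ∣ N) {v : ℍ → ℂ} (χ : Gamma0 N → ℂ)
    (hv : ∀ (γ : Gamma0 N) (z : ℍ), v ((γ : SL(2, ℤ)) • z) = χ γ * v z) (γ : Gamma0 N) (z : ℍ) :
    heckeProd l v ((γ : SL(2, ℤ)) • z) =
      (∏ x : OnePoint (ZMod l), χ (hdelta hl γ x)) * heckeProd l v z := by
  rw [heckeProd_apply, heckeProd_apply]
  have e : ∀ x : OnePoint (ZMod l), v (heckeRep l x • ((γ : SL(2, ℤ)) • z)) =
      χ (hdelta hl γ x) * v (heckeRep l (redMatrix l (γ : SL(2, ℤ)) • x) • z) := by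
    intro x
    rw [← hv]
    congr 1
    change heckeRep l x • (mapGL ℝ (γ : SL(2, ℤ)) • z) =
      mapGL ℝ (hdelta hl γ x : SL(2, ℤ)) • (heckeRep l (redMatrix l (γ : SL(2, ℤ)) • x) • z)
    rw [← mul_smul, ← mul_smul, hdelta_spec]
  rw [Finset.prod_congr rfl fun x _ => e x, Finset.prod_mul_distrib]
  congr 1
  exact Equiv.prod_comp (MulAction.toPerm (redMatrix l (γ : SL(2, ℤ))))
    (fun x => v (heckeRep l x • z))

/-! ### expansions -/

/-- `exp (2πi/l)` as a unit. -/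
noncomputable def zetaC (l : ℕ) : ℂˣ :=
  Units.mk0 (Complex.exp (2 * Real.pi * Complex.I / l)) (Complex.exp_ne_zero _)

theorem coe_zetaC (l : ℕ) : ((zetaC l : ℂˣ) : ℂ) = Complex.exp (2 * Real.pi * Complex.I / l) := rfl

theorem zetaC_spec (l : ℕ) [NeZero l] : IsPrimitiveRoot (zetaC l) l :=
  IsPrimitiveRoot.coe_units_iff.mp (Complex.isPrimitiveRoot_exp l (NeZero.ne l))

theorem exp_eq_zetaC_pow (l b : ℕ) :
    Complex.exp (2 * Real.pi * Complex.I * ((b : ℤ) : ℂ) / l) = ((zetaC l ^ b : ℂˣ) : ℂ) := by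
  rw [Units.val_pow_eq_pow_val, coe_zetaC, ← Complex.exp_nat_mul]
  congr 1
  push_cast
  ring

instance neZero_l : NeZero l := ⟨l_ne_zero⟩

open ModularCurve in
theorem expInf_comp_coe (V : Mer 1) (j : ZMod l)
    (hm : (fun z : ℍ => V.1 (heckeRep l (j : OnePoint (ZMod l)) • z)) ∈ Mer l) :
    expInf l ⟨_, hm⟩ = rotU (zetaC l ^ j.val) (expInf 1 V) := by
  have e : (⟨_, hm⟩ : Mer l) =
      ⟨_, comp_tri_mem_Mer l 1 l (j.val : ℤ) one_ne_zero l_ne_zero dvd_rfl V⟩ :=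
    Subtype.ext (funext fun z => congrArg V.1 (heckeRep_coe_smul j z))
  rw [e]
  ext n
  have h1 := expInf_comp_tri_coeff_mul l 1 l (j.val : ℤ) one_ne_zero l_ne_zero dvd_rfl V n
  rw [Nat.div_self (Nat.pos_of_ne_zero l_ne_zero), mul_one, Nat.cast_one, one_mul] at h1
  rw [h1, rotU_coeff, exp_eq_zetaC_pow, Units.val_zpow_eq_zpow_val]

open ModularCurve in
theorem expInf_comp_infty (V : Mer 1)
    (hm : (fun z : ℍ => V.1 (heckeRep l (OnePoint.infty) • z)) ∈ Mer l) :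
    expInf l ⟨_, hm⟩ = qExpand ℂ l (qExpand ℂ l (expInf 1 V)) := by
  have e : (⟨_, hm⟩ : Mer l) =
      ⟨_, comp_tri_mem_Mer l l 1 0 l_ne_zero one_ne_zero (one_dvd _) V⟩ :=
    Subtype.ext (funext fun z => congrArg V.1 (heckeRep_infty_smul z))
  rw [e]
  ext n
  by_cases hn : ((l * l : ℕ) : ℤ) ∣ n
  · obtain ⟨m, rfl⟩ := hn
    have h1 := expInf_comp_tri_coeff_mul l l 1 0 l_ne_zero one_ne_zero (one_dvd _) V m
    rw [Nat.div_one] at h1
    rw [h1]
    have e2 : ((l * l : ℕ) : ℤ) * m = (l : ℤ) * ((l : ℤ) * m) := by push_cast; ring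
    rw [e2, qExpand_coeff_mul, qExpand_coeff_mul]
    simp
  · have h1 := expInf_comp_tri_coeff_of_not_dvd l l 1 0 l_ne_zero one_ne_zero (one_dvd _) V n
      (by rwa [Nat.div_one])
    rw [h1]
    by_cases hn1 : (l : ℤ) ∣ n
    · obtain ⟨m, rfl⟩ := hn1
      rw [qExpand_coeff_mul, qExpand_coeff_of_not_dvd]
      intro hm'
      apply hn
      push_cast
      exact mul_dvd_mul_left _ hm'
    · rw [qExpand_coeff_of_not_dvd _ _ hn1]

open ModularCurve in
theorem expInf_level (h : ℕ) [NeZero h] (V : Mer 1) (hm : V.1 ∈ Mer h) :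
    expInf h ⟨_, hm⟩ = qExpand ℂ h (expInf 1 V) := by
  have e : (⟨_, hm⟩ : Mer h) =
      ⟨_, comp_tri_mem_Mer h 1 1 0 one_ne_zero one_ne_zero (one_dvd _) V⟩ := by
    refine Subtype.ext (funext fun z => ?_)
    have e1 : z = S22.tri 1 1 0 one_ne_zero one_ne_zero • z := by
      ext
      rw [S22.coe_tri_smul]
      simp
    exact congrArg V.1 e1
  rw [e]
  ext n
  by_cases hn : (h : ℤ) ∣ n
  · obtain ⟨m, rfl⟩ := hn
    have h1 := expInf_comp_tri_coeff_mul h 1 1 0 one_ne_zero one_ne_zero (one_dvd _) V m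
    rw [Nat.div_one, one_mul] at h1
    rw [h1, qExpand_coeff_mul]
    simp
  · have h1 := expInf_comp_tri_coeff_of_not_dvd h 1 1 0 one_ne_zero one_ne_zero (one_dvd _) V n
      (by rwa [Nat.div_one, one_mul])
    rw [h1, qExpand_coeff_of_not_dvd _ _ hn]

theorem prod_range_eq_prod_zmod {M : Type*} [CommMonoid M] (F : ℕ → M) :
    ∏ j ∈ Finset.range l, F j = ∏ x : ZMod l, F x.val := by
  refine Finset.prod_nbij' (fun j : ℕ ↦ (j : ZMod l)) (fun x : ZMod l ↦ x.val)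
    (fun _ _ ↦ Finset.mem_univ _)
    (fun x _ ↦ Finset.mem_range.mpr x.val_lt) (fun j hj ↦ ?_) (fun x _ ↦ ?_) (fun j hj ↦ ?_)
  · exact ZMod.val_cast_of_lt (Finset.mem_range.mp hj)
  · exact ZMod.natCast_zmod_val x
  · rw [ZMod.val_cast_of_lt (Finset.mem_range.mp hj)]

theorem comp_heckeRep_mem_Mer_one (V : Mer 1) (x : OnePoint (ZMod l)) :
    (fun z : ℍ => V.1 (heckeRep l x • z)) ∈ Mer l := by
  have := comp_heckeRep_mem_Mer (l := l) 1 V x
  rwa [one_mul] at this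

theorem heckeProd_mem_Mer_l (V : Mer 1) : heckeProd l V.1 ∈ Mer l := by
  have e : heckeProd l V.1 = ∏ x : OnePoint (ZMod l), fun z : ℍ => V.1 (heckeRep l x • z) := by
    funext z
    rw [heckeProd_apply, Finset.prod_apply]
  rw [e]
  exact Subalgebra.prod_mem _ fun x _ => comp_heckeRep_mem_Mer_one V x

open ModularCurve in
theorem expInf_heckeProd_l (V : Mer 1) :
    expInf l ⟨_, heckeProd_mem_Mer_l (l := l) V⟩ =
      qExpand ℂ l (qExpand ℂ l (expInf 1 V)) * prodRot l (zetaC l) (expInf 1 V) := by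
  have e : (⟨_, heckeProd_mem_Mer_l (l := l) V⟩ : Mer l) =
      ∏ x : OnePoint (ZMod l), (⟨_, comp_heckeRep_mem_Mer_one V x⟩ : Mer l) := by
    apply Subtype.ext
    rw [SubmonoidClass.coe_finsetProd]
    funext z
    rw [Finset.prod_apply]
    rfl
  rw [e, map_prod]
  have h2 := Fintype.prod_option (fun x : OnePoint (ZMod l) =>
    expInf l (⟨_, comp_heckeRep_mem_Mer_one V x⟩ : Mer l))
  refine h2.trans ?_
  congr 1
  · exact expInf_comp_infty V _
  · unfold prodRot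
    rw [prod_range_eq_prod_zmod]
    exact Finset.prod_congr rfl fun j _ => expInf_comp_coe V j _

theorem periodic_of_coeff (h : ℕ) [NeZero h] (f : Mer h)
    (hf : ∀ n : ℤ, ¬ (h : ℤ) ∣ n → (expInf h f).coeff n = 0) (z : ℍ) :
    f.1 ((1 : ℝ) +ᵥ z) = f.1 z := by
  have h1 : (⟨_, vadd_mem_Mer h f 1⟩ : Mer h) = f := by
    apply expInf_injective h
    ext n
    rw [expInf_vadd_coeff]
    by_cases hn : (h : ℤ) ∣ n
    · obtain ⟨m, rfl⟩ := hn
      have hh : (h : ℂ) ≠ 0 := by exact_mod_cast NeZero.ne h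
      have e : Complex.exp (2 * Real.pi * Complex.I * ((1 : ℤ) : ℂ) / h) ^ ((h : ℤ) * m) = 1 := by
        rw [zpow_mul, zpow_natCast, ← Complex.exp_nat_mul]
        have : (h : ℂ) * (2 * Real.pi * Complex.I * ((1 : ℤ) : ℂ) / h) = 2 * Real.pi * Complex.I := by
          push_cast
          field_simp
        rw [this, Complex.exp_two_pi_mul_I, one_zpow]
      rw [e, one_mul]
    · rw [hf n hn, mul_zero]
  have h2 := congrFun (congrArg Subtype.val h1) z
  simpa using h2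

theorem qN_eq_pow (h l : ℕ) [NeZero h] [NeZero l] (z : ℍ) : qN h z = qN (h * l) z ^ l := by
  unfold qN Function.Periodic.qParam
  rw [← Complex.exp_nat_mul]
  congr 1
  have h1 : (h : ℂ) ≠ 0 := Nat.cast_ne_zero.2 (NeZero.ne h)
  have h2 : (l : ℂ) ≠ 0 := Nat.cast_ne_zero.2 (NeZero.ne l)
  push_cast
  field_simp

theorem mem_Mer_of_periodic (h l : ℕ) [NeZero h] [NeZero l] {f : ℍ → ℂ} (hf : f ∈ Mer (h * l))
    (hper : ∀ z : ℍ, f ((h : ℝ) +ᵥ z) = f z) : f ∈ Mer h := by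
  obtain ⟨h1, -, m, hm⟩ := hf
  refine ⟨h1, hper, m, ?_⟩
  have e : (fun z => qN h z ^ m * f z) = fun z => qN (h * l) z ^ (l * m) * f z := by
    funext z
    rw [qN_eq_pow h l, ← pow_mul]
  rw [e]
  exact IsMer.bdd_of_le (Nat.le_mul_of_pos_left m (Nat.pos_of_ne_zero (NeZero.ne l))) hm

open ModularCurve in
theorem heckeProd_mem_Mer_one (V : Mer 1) : heckeProd l V.1 ∈ Mer 1 := by
  refine mem_Mer_one_of_periodic (heckeProd_mem_Mer_l (l := l) V)
    (periodic_of_coeff l ⟨_, heckeProd_mem_Mer_l (l := l) V⟩ fun n hn => ?_)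
  rw [expInf_heckeProd_l, ← qExpand_heckeS l (zetaC l) (zetaC_spec l),
    qExpand_coeff_of_not_dvd _ _ hn]

open ModularCurve in
/-- **(H1)** the `q`-expansion of the multiplicative Hecke operator. -/
theorem expInf_heckeProd (V : Mer 1) :
    expInf 1 ⟨_, heckeProd_mem_Mer_one (l := l) V⟩ = heckeS l (zetaC l) (expInf 1 V) := by
  apply qExpand_injective (R := ℂ) l
  rw [qExpand_heckeS l (zetaC l) (zetaC_spec l), ← expInf_heckeProd_l,
    ← expInf_level l ⟨_, heckeProd_mem_Mer_one (l := l) V⟩ (heckeProd_mem_Mer_l (l := l) V)]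

/-! ### the algebra `AA N` -/

theorem heckeProd_mem_AA {N : ℕ} [NeZero N] (hl : ¬ l ∣ N) {a : ℍ → ℂ} (ha : a ∈ AA N) :
    heckeProd l a ∈ AA N := by
  have hinv : ∀ δ ∈ Gamma0 N, ∀ z, heckeProd l a (δ • z) = heckeProd l a z := by
    intro δ hδ z
    have := heckeProd_smul hl (v := a) (fun _ => 1) (fun γ z => by rw [ha.2 _ γ.2, one_mul])
      ⟨δ, hδ⟩ z
    simpa using this
  refine ⟨fun γ => ?_, hinv⟩
  refine mem_Mer_of_periodic N l (cmp_heckeProd_mem ha.1 γ) fun z => ?_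
  rw [cmp_apply, cmp_apply, S21.smul_natCast_vadd, hinv _ (S21.conj_T_pow_mem_Gamma0 N γ)]

/-- the multiplicative Hecke operator on `AA N`. -/
noncomputable def heckeA {N : ℕ} [NeZero N] (hl : ¬ l ∣ N) (a : AA N) : AA N :=
  ⟨heckeProd l a.1, heckeProd_mem_AA hl a.2⟩

theorem Phi_heckeA {N : ℕ} [NeZero N] (hl : ¬ l ∣ N) (a : AA N) :
    Phi N (heckeA hl a) = heckeS l (zetaC l) (Phi N a) := by
  rw [Phi_apply, Phi_apply]
  exact expInf_heckeProd ⟨a.1, mem_Mer_one a.2⟩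

omit [Fact l.Prime] in
theorem heckeRep_smul_surjective (x : OnePoint (ZMod l)) :
    Function.Surjective (fun z : ℍ => heckeRep l x • z) :=
  fun w => ⟨(heckeRep l x)⁻¹ • w, by simp⟩

theorem heckeProd_ne_zero {h : ℕ} [NeZero h] {v : ℍ → ℂ} (hv : v ∈ Mer h) (hv0 : v ≠ 0) :
    heckeProd l v ≠ 0 := by
  haveI : NeZero (h * l) := ⟨mul_ne_zero (NeZero.ne h) l_ne_zero⟩
  intro h0
  have e : (∏ x : OnePoint (ZMod l), (⟨_, comp_heckeRep_mem_Mer h ⟨v, hv⟩ x⟩ : Mer (h * l))) = 0 := by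
    apply Subtype.ext
    rw [SubmonoidClass.coe_finsetProd]
    funext z
    rw [Finset.prod_apply]
    exact congrFun h0 z
  have e2 := congrArg (expInf (h * l)) e
  rw [map_prod, map_zero, Finset.prod_eq_zero_iff] at e2
  obtain ⟨x, -, hx⟩ := e2
  have e3 := (map_eq_zero_iff _ (expInf_injective (h * l))).mp hx
  apply hv0
  funext w
  obtain ⟨z, rfl⟩ := heckeRep_smul_surjective (l := l) x w
  exact congrFun (congrArg Subtype.val e3) z

end Fermat.Agent.S29.HA
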