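import Mathlib
import Fermat.Agent.S29.HeckeAn
import Fermat.Agent.S29.AnK
import Fermat.Agent.S29.Defs

set_option autoImplicit false
set_option synthInstance.maxHeartbeats 400000
set_option linter.style.haveILetI false

/-! # S29 [H3]: the formal Hecke operator preserves the function fields -/

namespace Fermat.Agent.S29.HA

open UpperHalfPlane ModularForm Matrix.SpecialLinearGroup CongruenceSubgroup ModularCurve
open scoped MatrixGroups ModularForm Manifold
open Fermat.Agent.S24 Fermat.Agent.S29.An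
open Fermat.Agent.S29.D2 (FCf cl)

/-- `F_ℂ ∩ ℚ̄((q)) = FN`. -/
theorem mem_FN_of_coeffMap_iota_mem (M : ℕ) [NeZero M] (y : LaurentSeries Kb)
    (hy : coeffMap iota y ∈ FCf M) : y ∈ modularFunctionFieldBar M := by
  obtain ⟨D⟩ := D2.exists_anData_top M
  obtain ⟨B, π, hB, -⟩ := exists_exotic
  have e : coeffMap B.subtype (coeffMap (D2.iotaB B π hB) y) = coeffMap iota y := by
    rw [coeffMap_coeffMap, D2.subtype_comp_iotaB]
  have hy' : coeffMap B.subtype (coeffMap (D2.iotaB B π hB) y) ∈ FCf M := by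
    rw [e]; exact hy
  have h := (D2.VC_link D B π hB _ hy').2
  have e2 : coeffMap π (coeffMap (D2.iotaB B π hB) y) = y := by
    rw [coeffMap_coeffMap, D2.pi_comp_iotaB, coeffMap_id]
  rw [← e2, ← h]
  exact SetLike.coe_mem _

variable {N : ℕ} [NeZero N]

theorem exists_frac {x : LaurentSeries ℂ} (hx : x ∈ FCf N) :
    ∃ a b : AA N, x = Phi N a / Phi N b := by
  have h1 := FCf_le_FK (1 : AA N) hx
  rw [FK, IntermediateField.mem_adjoin_range_iff] at h1
  obtain ⟨r, s, rfl⟩ := h1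
  refine ⟨MvPolynomial.aeval (gA (1 : AA N)) r, MvPolynomial.aeval (gA (1 : AA N)) s, ?_⟩
  rw [MvPolynomial.comp_aeval_apply (gA (1 : AA N)) (Phi N) r,
    MvPolynomial.comp_aeval_apply (gA (1 : AA N)) (Phi N) s]

variable {l : ℕ} [Fact l.Prime]

theorem heckeS_zero {R : Type*} [CommRing R] (u : Rˣ) : heckeS l u (0 : LaurentSeries R) = 0 := by
  unfold heckeS
  rw [map_zero, zero_mul]

theorem heckeS_div {K : Type*} [Field K] (u : Kˣ) (hu : IsPrimitiveRoot u l)
    (a b : LaurentSeries K) : heckeS l u (a / b) = heckeS l u a / heckeS l u b := by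
  by_cases hb : b = 0
  · rw [hb, div_zero, heckeS_zero, div_zero]
  · have h1 : heckeS l u b * heckeS l u b⁻¹ = 1 := by
      rw [← heckeS_mul l u hu, mul_inv_cancel₀ hb, heckeS_one]
    rw [div_eq_mul_inv, heckeS_mul l u hu, div_eq_mul_inv, eq_inv_of_mul_eq_one_right h1]

/-- **(H3)** over `ℂ`. -/
theorem heckeS_mem_FCf (hl : ¬ l ∣ N) (u : ℂˣ) (hu : IsPrimitiveRoot u l) {x : LaurentSeries ℂ}
    (hx : x ∈ FCf N) : heckeS l u x ∈ FCf N := by
  obtain ⟨a, b, rfl⟩ := exists_frac hx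
  rw [heckeS_eq_of_isPrimitiveRoot l u (zetaC l) hu (zetaC_spec l),
    heckeS_div _ (zetaC_spec l), ← Phi_heckeA hl, ← Phi_heckeA hl]
  exact div_mem (Phi_mem_FCf _) (Phi_mem_FCf _)

theorem coeffMap_iota_heckeS (u : Kbˣ) (hu : IsPrimitiveRoot u l) (x : LaurentSeries Kb) :
    coeffMap iota (heckeS l u x) = heckeS l (zetaC l) (coeffMap iota x) := by
  rw [coeffMap_heckeS]
  apply heckeS_eq_of_isPrimitiveRoot l _ _ _ (zetaC_spec l)
  exact hu.map_of_injective (f := Units.map (iota : Kb →* ℂ))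
    (Units.map_injective (f := (iota : Kb →* ℂ)) iota.injective)

/-- **(H3)** over `ℚ̄`. -/
theorem heckeMem (hl : ¬ l ∣ N) : HeckeMem N l := by
  intro x
  apply mem_FN_of_coeffMap_iota_mem
  rw [coeffMap_iota_heckeS _ (zl_spec l)]
  exact heckeS_mem_FCf hl _ (zetaC_spec l) (D2.coeffMap_iota_mem N x.2)

/-- the Hecke operator on `F_ℂ`. -/
noncomputable def TC (hl : ¬ l ∣ N) (x : D2.FC N) : D2.FC N :=
  ⟨heckeS l (zetaC l) (x : LaurentSeries ℂ), heckeS_mem_FCf hl _ (zetaC_spec l) x.2⟩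

theorem coe_TC (hl : ¬ l ∣ N) (x : D2.FC N) :
    ((TC hl x : D2.FC N) : LaurentSeries ℂ) = heckeS l (zetaC l) (x : LaurentSeries ℂ) := rfl

theorem TC_mul (hl : ¬ l ∣ N) (x y : D2.FC N) : TC hl (x * y) = TC hl x * TC hl y :=
  Subtype.ext (heckeS_mul l _ (zetaC_spec l) _ _)

theorem TC_one (hl : ¬ l ∣ N) : TC hl (1 : D2.FC N) = 1 := Subtype.ext (heckeS_one l _)

/-- `TC` as a monoid homomorphism. -/
noncomputable def TChom (hl : ¬ l ∣ N) : D2.FC N →* D2.FC N where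
  toFun := TC hl
  map_one' := TC_one hl
  map_mul' := TC_mul hl

theorem TC_pow (hl : ¬ l ∣ N) (x : D2.FC N) (n : ℕ) : TC hl (x ^ n) = TC hl x ^ n :=
  map_pow (TChom hl) x n

theorem TC_ne_zero (hl : ¬ l ∣ N) {x : D2.FC N} (hx : x ≠ 0) : TC hl x ≠ 0 := by
  intro h
  have h1 := TC_mul hl x x⁻¹
  rw [mul_inv_cancel₀ hx, TC_one hl, h, zero_mul] at h1
  exact one_ne_zero h1

theorem TC_PhiF (hl : ¬ l ∣ N) (a : AA N) : TC hl (PhiF N a) = PhiF N (heckeA hl a) :=
  Subtype.ext (Phi_heckeA hl a).symm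

theorem cl_TT (hl : ¬ l ∣ N) (f : FN N) : cl N (TT N l f) = TC hl (cl N f) := by
  apply Subtype.ext
  rw [D2.cl_coe, coe_TT (heckeMem hl), coe_TC, D2.cl_coe, coeffMap_iota_heckeS _ (zl_spec l)]

end Fermat.Agent.S29.HA
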