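import Fermat.Agent.S29.EisTwD

set_option autoImplicit false

/-! # S29 (B1): output.  The multiplier `χ_c = ζ_p^c` of `c : Γ₀(N) → ℤ/p` and a holomorphic
function `v ≠ 0` on `ℍ` with `v(γ z) = χ_c(γ) v(z)`, meromorphic at all cusps. -/

namespace Fermat.Agent.S29

open UpperHalfPlane ModularForm Matrix Matrix.SpecialLinearGroup Filter
open CongruenceSubgroup
open scoped MatrixGroups ModularForm Manifold Topology
open Fermat.Agent.S24 (IsMer Mer qN)

variable {N : ℕ}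

/-- the multiplier `γ ↦ exp(2πi c(γ)/p)`. -/
noncomputable def chiOf (p : ℕ) [NeZero p] (c : Additive (Gamma0 N) →+ ZMod p) : Gamma0 N →* ℂˣ :=
  MonoidHom.toHomUnits
    { toFun := fun γ => ZMod.stdAddChar (c (Additive.ofMul γ))
      map_one' := by rw [ofMul_one, map_zero, AddChar.map_zero_eq_one]
      map_mul' := fun a b => by rw [ofMul_mul, map_add, AddChar.map_add_eq_mul] }

section chi

variable (p : ℕ) [NeZero p]

theorem chiOf_apply (c : Additive (Gamma0 N) →+ ZMod p) (γ : Gamma0 N) :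
    (chiOf p c γ : ℂ) = ZMod.stdAddChar (c (Additive.ofMul γ)) := rfl

theorem norm_chiOf (c : Additive (Gamma0 N) →+ ZMod p) (γ : Gamma0 N) :
    ‖(chiOf p c γ : ℂ)‖ = 1 := by
  rw [chiOf_apply]
  exact AddChar.norm_apply _ _

theorem chiOf_add (c c' : Additive (Gamma0 N) →+ ZMod p) :
    chiOf p (c + c') = chiOf p c * chiOf p c' := by
  ext γ
  rw [MonoidHom.mul_apply, Units.val_mul, chiOf_apply, chiOf_apply, chiOf_apply,
    AddMonoidHom.add_apply, AddChar.map_add_eq_mul]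

theorem chiOf_zero : chiOf p (0 : Additive (Gamma0 N) →+ ZMod p) = 1 := by
  ext γ
  rw [chiOf_apply, AddMonoidHom.zero_apply, AddChar.map_zero_eq_one]
  rfl

theorem chiOf_nsmul (n : ℕ) (c : Additive (Gamma0 N) →+ ZMod p) :
    chiOf p (n • c) = chiOf p c ^ n := by
  induction n with
  | zero => rw [zero_smul, chiOf_zero]; exact (pow_zero (chiOf p c)).symm
  | succ n ih => rw [succ_nsmul, chiOf_add, ih]; exact (pow_succ (chiOf p c) n).symm

theorem chiOf_pow (c : Additive (Gamma0 N) →+ ZMod p) : chiOf p c ^ p = 1 := by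
  rw [← chiOf_nsmul]
  have : p • c = 0 := by
    refine AddMonoidHom.ext fun γ => ?_
    rw [AddMonoidHom.nsmul_apply, AddMonoidHom.zero_apply, nsmul_eq_mul, CharP.cast_eq_zero,
      zero_mul]
  rw [this, chiOf_zero]

theorem chiOf_neg (c : Additive (Gamma0 N) →+ ZMod p) : chiOf p (-c) = (chiOf p c)⁻¹ := by
  have h : chiOf p (-c) * chiOf p c = 1 := by
    rw [← chiOf_add, neg_add_cancel, chiOf_zero]
  exact eq_inv_of_mul_eq_one_left (a := chiOf p (-c)) (b := chiOf p c) h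

theorem chiOf_eq_one_iff (c : Additive (Gamma0 N) →+ ZMod p) (γ : Gamma0 N) :
    chiOf p c γ = 1 ↔ c (Additive.ofMul γ) = 0 := by
  rw [← Units.val_inj, chiOf_apply, Units.val_one]
  constructor
  · intro h
    apply ZMod.injective_stdAddChar
    rw [h, AddChar.map_zero_eq_one]
  · intro h
    rw [h, AddChar.map_zero_eq_one]

theorem chiOf_injective :
    Function.Injective (chiOf p : (Additive (Gamma0 N) →+ ZMod p) → (Gamma0 N →* ℂˣ)) := by
  intro c c' h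
  ext γ
  apply ZMod.injective_stdAddChar
  have := congrArg (fun χ : Gamma0 N →* ℂˣ => (χ (Additive.toMul γ) : ℂ)) h
  exact this

theorem killsPE_chiOf {c : Additive (Gamma0 N) →+ ZMod p}
    (hc : c ∈ peHoms (ZMod p) N (ZMod p)) : Eis.KillsPE (chiOf p c) := by
  intro γ hγ
  rw [chiOf_eq_one_iff]
  exact hc γ hγ

theorem chiOf_heckeHom {l : ℕ} [Fact l.Prime] (hl : ¬ l ∣ N)
    (c : Additive (Gamma0 N) →+ ZMod p) (γ : Gamma0 N) :
    chiOf p (heckeHom hl c) γ = ∏ x : OnePoint (ZMod l), chiOf p c (hdelta hl γ x) := by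
  apply Units.ext
  rw [chiOf_apply, heckeHom_apply, Units.coe_prod]
  have : ∀ (s : Finset (OnePoint (ZMod l))) (f : OnePoint (ZMod l) → ZMod p),
      (ZMod.stdAddChar (∑ x ∈ s, f x) : ℂ) = ∏ x ∈ s, ZMod.stdAddChar (f x) := by
    intro s f
    induction s using Finset.cons_induction with
    | empty => simp
    | cons a s ha ih => rw [Finset.sum_cons, Finset.prod_cons, AddChar.map_add_eq_mul, ih]
  rw [this]
  rfl

end chi

/-- weight zero forms: plain composition. -/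
theorem IsForm.zero_iff {χ : Gamma0 N →* ℂˣ} {v : ℍ → ℂ} :
    IsForm N χ 0 v ↔ (∀ (δ : Gamma0 N) (z : ℍ), v ((δ : SL(2, ℤ)) • z) = (χ δ : ℂ) * v z) ∧
      ∀ γ : SL(2, ℤ), (fun z => v (γ • z)) ∈ Mer N := by
  have e : ∀ γ : SL(2, ℤ), v ∣[(0 : ℤ)] γ = fun z => v (γ • z) := by
    intro γ
    funext z
    rw [SL_slash_apply, neg_zero, zpow_zero, mul_one]
  constructor
  · intro h
    refine ⟨fun δ z => ?_, fun γ => ?_⟩
    · rw [h.apply_smul, zpow_zero, mul_one]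
    · rw [← e]
      exact h.mer γ
  · rintro ⟨h1, h2⟩
    refine ⟨fun δ => ?_, fun γ => ?_⟩
    · rw [e]
      funext z
      rw [h1]
      rfl
    · rw [e]
      exact h2 γ

/-- `v_χ = E_{12,χ} / Δ`. -/
noncomputable def vchi (χ : Gamma0 N →* ℂˣ) : ℍ → ℂ := Eis.Echi χ 12 * discF⁻¹

theorem isForm_vchi [NeZero N] {χ : Gamma0 N →* ℂˣ} (hχ : Eis.KillsPE χ)
    (hn : ∀ γ, ‖(χ γ : ℂ)‖ = 1) : IsForm N χ 0 (vchi χ) :=
  ((Eis.isForm_Echi hχ hn (by norm_num : (3 : ℤ) ≤ 12)).mul (isForm_inv_disc N)).congr_weight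
    (by norm_num) (mul_one χ)

theorem exists_vchi_ne_zero {χ : Gamma0 N →* ℂˣ} (hχ : Eis.KillsPE χ)
    (hn : ∀ γ, ‖(χ γ : ℂ)‖ = 1) : ∃ z, vchi χ z ≠ 0 := by
  obtain ⟨z, hz⟩ := Eis.exists_Echi_ne_zero hχ hn (by norm_num : (3 : ℤ) ≤ 12)
    (by decide : Even (12 : ℤ))
  exact ⟨z, mul_ne_zero hz (inv_ne_zero (discF_ne_zero z))⟩

/-- **(B1)** -/
theorem exists_multiplier_fun (N : ℕ) [NeZero N] (p : ℕ) [NeZero p]
    (c : Additive (Gamma0 N) →+ ZMod p) (hc : c ∈ peHoms (ZMod p) N (ZMod p)) :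
    ∃ v : ℍ → ℂ, (∀ γ : SL(2, ℤ), (fun z => v (γ • z)) ∈ Mer N) ∧ (∃ z, v z ≠ 0) ∧
      ∀ (δ : Gamma0 N) (z : ℍ), v ((δ : SL(2, ℤ)) • z) = (chiOf p c δ : ℂ) * v z := by
  have h := IsForm.zero_iff.mp (isForm_vchi (killsPE_chiOf p hc) (norm_chiOf p c))
  exact ⟨_, h.2, exists_vchi_ne_zero (killsPE_chiOf p hc) (norm_chiOf p c), h.1⟩

end Fermat.Agent.S29
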