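import Mathlib
import Fermat.Agent.S24.ModDefs

set_option autoImplicit false

/-! # S29 [S24C]: the function field of `X₀(N)` over `ℂ` (port of S24 with `ℚ̄` replaced by `ℂ`).

Inside this namespace `Kb`, `iota`, `FN`, `Jd`, `jF` denote the objects over `ℂ`. -/

namespace Fermat.Agent.S29.C24

open Fermat.Agent.S24 (Dv)

/-- the base field: `ℂ`. -/
abbrev Kb : Type := ℂ

/-- the identity embedding. -/
noncomputable def iota : Kb →+* ℂ := RingHom.id ℂ

theorem iota_apply (c : Kb) : iota c = c := rfl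

theorem algebraMap_Kb_complex (c : Kb) : algebraMap Kb ℂ c = iota c := rfl

/-- the function field `ℂ(j(q^d) : d ∣ N)` inside `ℂ((q))`. -/
noncomputable abbrev modularFunctionFieldBar (N : ℕ) : IntermediateField ℂ (LaurentSeries ℂ) :=
  ModularCurve.laurentBaseChange ℂ (ModularCurve.modularFunctionFieldFull N)

/-- the function field `ℂ(j(q^d) : d ∣ N)`. -/
abbrev FN (N : ℕ) : Type := ↥(modularFunctionFieldBar N)

/-- the generator `j(q^d)` of `FN N`. -/
noncomputable def Jd (N : ℕ) [NeZero N] (d : Dv N) : FN N :=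
  haveI : NeZero d.1 := ⟨d.ne_zero⟩
  ⟨ModularCurve.coeffEmb Kb (ModularCurve.qExpand ℚ d.1 ModularCurve.jq),
    ModularCurve.coeffEmb_mem_laurentBaseChange Kb (ModularCurve.jqd_mem_full N d.2)⟩

/-- `j` as an element of `FN N`. -/
noncomputable def jF (N : ℕ) [NeZero N] : FN N := Jd N ⟨1, one_dvd N⟩

theorem coeffMap_iota (S : LaurentSeries Kb) : ModularCurve.coeffMap iota S = S := by
  ext n
  rw [ModularCurve.coeffMap_coeff]
  rfl

end Fermat.Agent.S29.C24
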