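import Mathlib
import Fermat.Agent.S24.EngineAlg
import Fermat.Agent.S29.C24Defs

set_option autoImplicit false
set_option synthInstance.maxHeartbeats 400000

namespace Fermat.Agent.S29.C24

open Fermat.Agent.S24

open IntermediateField ModularCurve

theorem coe_Jd (N : ℕ) [NeZero N] (d : Dv N) :
    haveI : NeZero d.1 := ⟨d.ne_zero⟩
    ((Jd N d : FN N) : LaurentSeries Kb) = coeffEmb Kb (qExpand ℚ d.1 jq) := rfl

theorem coeffEmb_algebraMap (c : ℚ) :
    coeffEmb Kb (algebraMap ℚ (LaurentSeries ℚ) c) =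
      algebraMap Kb (LaurentSeries Kb) (algebraMap ℚ Kb c) := by
  rw [algebraMap_laurentSeries_eq_single, algebraMap_laurentSeries_eq_single, coeffEmb,
    coeffMap_single]

theorem adjoin_range_Jd (N : ℕ) [NeZero N] :
    IntermediateField.adjoin Kb (Set.range (Jd N)) = ⊤ := by
  set S : Set (LaurentSeries Kb) := (modularFunctionFieldBar N).val '' Set.range (Jd N) with hS
  have h1 : ∀ x ∈ modularFunctionFieldFull N, coeffEmb Kb x ∈ IntermediateField.adjoin Kb S := by
    intro x hx
    induction hx using IntermediateField.adjoin_induction with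
    | mem y hy =>
      obtain ⟨d, hd0, hdN, rfl⟩ := hy
      apply IntermediateField.subset_adjoin
      exact ⟨Jd N ⟨d, hdN⟩, ⟨_, rfl⟩, rfl⟩
    | algebraMap a =>
      rw [coeffEmb_algebraMap]
      exact IntermediateField.algebraMap_mem _ _
    | add a b _ _ ha hb => rw [map_add]; exact add_mem ha hb
    | inv a _ ha => rw [map_inv₀]; exact inv_mem ha
    | mul a b _ _ ha hb => rw [map_mul]; exact mul_mem ha hb
  have h2 : modularFunctionFieldBar N ≤ IntermediateField.adjoin Kb S := by
    rw [modularFunctionFieldBar, laurentBaseChange, IntermediateField.adjoin_le_iff]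
    rintro _ ⟨x, hx, rfl⟩
    exact h1 x hx
  rw [eq_top_iff]
  intro y _
  have h3 : (y : LaurentSeries Kb) ∈ IntermediateField.adjoin Kb S := h2 y.2
  rw [hS, ← IntermediateField.adjoin_map] at h3
  obtain ⟨z, hz, hzy⟩ := h3
  have : z = y := Subtype.ext hzy
  rwa [← this]

theorem FN_algHom_ext (N : ℕ) [NeZero N] {L : Type} [Field L] [Algebra Kb L]
    (σ σ' : FN N →ₐ[Kb] L) (h : ∀ d, σ (Jd N d) = σ' (Jd N d)) : σ = σ' := by
  ext y
  have hy : y ∈ IntermediateField.adjoin Kb (Set.range (Jd N)) := by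
    rw [adjoin_range_Jd]; trivial
  induction hy using IntermediateField.adjoin_induction with
  | mem y hy =>
    obtain ⟨i, rfl⟩ := hy
    exact h i
  | algebraMap a => rw [σ.commutes, σ'.commutes]
  | add a b _ _ ha hb => rw [map_add, map_add, ha, hb]
  | inv a _ ha => rw [map_inv₀, map_inv₀, ha]
  | mul a b _ _ ha hb => rw [map_mul, map_mul, ha, hb]

/-- every element of the function field is a quotient of polynomials in the `j(q^d)`. -/
theorem exists_aeval_div (N : ℕ) [NeZero N] (y : FN N) :
    ∃ P Q : MvPolynomial (Dv N) Kb,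
      y = MvPolynomial.aeval (Jd N) P / MvPolynomial.aeval (Jd N) Q := by
  have hy : y ∈ IntermediateField.adjoin Kb (Set.range (Jd N)) := by
    rw [adjoin_range_Jd]; trivial
  induction hy using IntermediateField.adjoin_induction with
  | mem y hy =>
    obtain ⟨i, rfl⟩ := hy
    exact ⟨MvPolynomial.X i, 1, by simp⟩
  | algebraMap a => exact ⟨MvPolynomial.C a, 1, by simp⟩
  | add a b _ _ ha hb =>
    obtain ⟨P, Q, rfl⟩ := ha
    obtain ⟨P', Q', rfl⟩ := hb
    by_cases hQ : MvPolynomial.aeval (Jd N) Q = 0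
    · exact ⟨P', Q', by rw [hQ, div_zero, zero_add]⟩
    by_cases hQ' : MvPolynomial.aeval (Jd N) Q' = 0
    · exact ⟨P, Q, by rw [hQ', div_zero, add_zero]⟩
    refine ⟨P * Q' + P' * Q, Q * Q', ?_⟩
    rw [map_add, map_mul, map_mul, map_mul]
    field_simp
  | inv a _ ha =>
    obtain ⟨P, Q, rfl⟩ := ha
    exact ⟨Q, P, by rw [inv_div]⟩
  | mul a b _ _ ha hb =>
    obtain ⟨P, Q, rfl⟩ := ha
    obtain ⟨P', Q', rfl⟩ := hb
    exact ⟨P * P', Q * Q', by rw [map_mul, map_mul, div_mul_div_comm]⟩

theorem coe_jF (N : ℕ) [NeZero N] : ((jF N : FN N) : LaurentSeries Kb) = coeffEmb Kb jq := by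
  rw [jF, coe_Jd, qExpand_one_apply]

theorem transcendental_jF (N : ℕ) [NeZero N] : Transcendental Kb (jF N) := by
  rw [transcendental_iff]
  intro p hp
  by_contra hp0
  have h1 : ((Polynomial.aeval (jF N) p : FN N) : LaurentSeries Kb) = 0 := by rw [hp]; rfl
  have h2 : ((Polynomial.aeval (jF N) p : FN N) : LaurentSeries Kb) =
      Polynomial.aeval (coeffEmb Kb jq) p := by
    rw [← coe_jF N]
    exact (Polynomial.aeval_algHom_apply (modularFunctionFieldBar N).val (jF N) p).symm
  rw [h2, Polynomial.aeval_eq_sum_range] at h1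
  have h3 := congrArg (fun f : LaurentSeries Kb => f.coeff (-(p.natDegree : ℤ))) h1
  simp only [HahnSeries.coeff_zero] at h3
  rw [HahnSeries.coeff_sum, Finset.sum_eq_single p.natDegree] at h3
  · rw [Algebra.smul_def, algebraMap_laurentSeries_eq_single, HahnSeries.coeff_single_mul, sub_zero,
      ← map_pow, coeffEmb_coeff, coeff_jq_pow_self, map_one, mul_one] at h3
    exact hp0 (Polynomial.leadingCoeff_eq_zero.mp h3)
  · intro i hi hne
    have hlt : i < p.natDegree := by
      have := Finset.mem_range.mp hi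
      omega
    rw [Algebra.smul_def, algebraMap_laurentSeries_eq_single, HahnSeries.coeff_single_mul, sub_zero,
      ← map_pow, coeffEmb_coeff, coeff_jq_pow_of_lt (by omega), map_zero, mul_zero]
  · intro h
    exact absurd (Finset.mem_range.mpr (Nat.lt_succ_self _)) h

end Fermat.Agent.S29.C24
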