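import Mathlib
import Fermat.Agent.S24.LevelOne
import Fermat.Agent.S29.C24Defs

set_option autoImplicit false
set_option maxHeartbeats 400000

namespace Fermat.Agent.S29.C24

open Fermat.Agent.S24

open UpperHalfPlane ModularForm EisensteinSeries Matrix.SpecialLinearGroup Filter
open scoped MatrixGroups ModularForm Manifold Topology
open Fermat.Agent.S20

/-- the formal `j(q_N^N)` over `ℚ̄`. -/
noncomputable def JNf (N : ℕ) [NeZero N] : LaurentSeries Kb :=
  ModularCurve.coeffEmb Kb (ModularCurve.qExpand ℚ N ModularCurve.jq)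

theorem iota_algebraMap_rat_L1 (r : ℚ) : iota (algebraMap ℚ Kb r) = algebraMap ℚ ℂ r := by
  simp

theorem expInf_jfun_level (N : ℕ) [NeZero N] :
    expInf N ⟨jfun, jfun_mem_Mer_level N⟩ = ModularCurve.coeffMap iota (JNf N) := by
  have e : (⟨jfun, jfun_mem_Mer_level N⟩ : Mer N) =
      ⟨_, comp_tri_mem_Mer N 1 1 0 one_ne_zero one_ne_zero (one_dvd N) ⟨jfun, jfun_mem_Mer⟩⟩ := by
    apply Subtype.ext
    funext z
    show jfun z = jfun (S22.tri 1 1 0 one_ne_zero one_ne_zero • z)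
    rw [tri_one_smul_L1]
  have hN : (1 * (N / 1) : ℕ) = N := by simp
  ext n
  rw [e, ModularCurve.coeffMap_coeff, JNf, ModularCurve.coeffEmb_coeff, iota_algebraMap_rat_L1]
  by_cases hn : (N : ℤ) ∣ n
  · obtain ⟨k, rfl⟩ := hn
    have h := expInf_comp_tri_coeff_mul N 1 1 0 one_ne_zero one_ne_zero (one_dvd N)
      ⟨jfun, jfun_mem_Mer⟩ k
    rw [hN] at h
    rw [h, expInf_jfun, ModularCurve.qExpand_coeff_mul, ModularCurve.coeffEmb_coeff]
    simp
  · rw [ModularCurve.qExpand_coeff_of_not_dvd N _ hn, map_zero]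
    refine expInf_comp_tri_coeff_of_not_dvd N 1 1 0 one_ne_zero one_ne_zero (one_dvd N) _ n ?_
    rwa [hN]

theorem JNf_pow (N : ℕ) [NeZero N] (k : ℕ) :
    JNf N ^ k = ModularCurve.coeffEmb Kb (ModularCurve.qExpand ℚ N (ModularCurve.jq ^ k)) := by
  rw [JNf, map_pow, map_pow]

theorem JNf_pow_coeff_self (N : ℕ) [NeZero N] (k : ℕ) :
    (JNf N ^ k).coeff (-((N : ℤ) * k)) = 1 := by
  rw [JNf_pow, ModularCurve.coeffEmb_coeff, show -((N : ℤ) * k) = (N : ℤ) * (-(k : ℤ)) by ring,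
    ModularCurve.qExpand_coeff_mul, ModularCurve.coeff_jq_pow_self, map_one]

theorem JNf_pow_coeff_of_lt (N : ℕ) [NeZero N] (k : ℕ) (n : ℤ) (hn : n < -((N : ℤ) * k)) :
    (JNf N ^ k).coeff n = 0 := by
  rw [JNf_pow, ModularCurve.coeffEmb_coeff]
  by_cases hd : (N : ℤ) ∣ n
  · obtain ⟨m, rfl⟩ := hd
    have hN : (0 : ℤ) < N := by exact_mod_cast Nat.pos_of_ne_zero (NeZero.ne N)
    rw [ModularCurve.qExpand_coeff_mul, ModularCurve.coeff_jq_pow_of_lt, map_zero]
    nlinarith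
  · rw [ModularCurve.qExpand_coeff_of_not_dvd N _ hd, map_zero]

theorem JNf_pow_coeff_of_not_dvd (N : ℕ) [NeZero N] (k : ℕ) (n : ℤ) (hn : ¬ (N : ℤ) ∣ n) :
    (JNf N ^ k).coeff n = 0 := by
  rw [JNf_pow, ModularCurve.coeffEmb_coeff, ModularCurve.qExpand_coeff_of_not_dvd N _ hn, map_zero]

theorem iota_inj_L1 : Function.Injective iota := iota.injective

theorem levelOne_base (N : ℕ) [NeZero N] (s : ℍ → ℂ) (hs : s ∈ Mer N)
    (hinv : ∀ (γ : SL(2, ℤ)) (z : ℍ), s (γ • z) = s z) (S : LaurentSeries Kb)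
    (hS : expInf N ⟨s, hs⟩ = ModularCurve.coeffMap iota S)
    (hM : ∀ n : ℤ, n < 0 → S.coeff n = 0) : ∀ z, s z = iota (S.coeff 0) := by
  have hord : 0 ≤ (expInf N ⟨s, hs⟩).order := by
    by_cases h0 : expInf N ⟨s, hs⟩ = 0
    · rw [h0, HahnSeries.order_zero]
    · by_contra hlt
      rw [not_le] at hlt
      apply h0
      apply HahnSeries.coeff_order_eq_zero.mp
      have h1 : ∀ n : ℤ, n < 0 → (expInf N ⟨s, hs⟩).coeff n = 0 := by
        intro n hn
        rw [hS, ModularCurve.coeffMap_coeff, hM n hn, map_zero]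
      exact h1 _ hlt
  have hb : IsBoundedAtImInfty s := isBoundedAtImInfty_of_order_nonneg N ⟨s, hs⟩ hord
  have hL : s ∈ Ls 0 := by
    refine mem_Ls_of hs.1 (fun γ => ?_) hb
    funext z
    rw [ModularForm.SL_slash_apply, hinv]
    simp
  obtain ⟨c, hc⟩ := exists_const_of_mem_Ls_zero hL
  have e : (⟨s, hs⟩ : Mer N) = algebraMap ℂ (Mer N) c := by
    apply Subtype.ext
    show s = _
    rw [hc]
    rfl
  have h1 : (expInf N ⟨s, hs⟩).coeff 0 = c := by
    rw [e, AlgHom.commutes, ModularCurve.algebraMap_laurentSeries_eq_single,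
      HahnSeries.coeff_single_same]
  intro z
  rw [← ModularCurve.coeffMap_coeff, ← hS, h1, hc]

theorem levelOne_aux (N : ℕ) [NeZero N] (M : ℕ) : ∀ (s : ℍ → ℂ) (hs : s ∈ Mer N)
    (_ : ∀ (γ : SL(2, ℤ)) (z : ℍ), s (γ • z) = s z) (S : LaurentSeries Kb)
    (_ : expInf N ⟨s, hs⟩ = ModularCurve.coeffMap iota S)
    (_ : ∀ n : ℤ, n < -((N : ℤ) * M) → S.coeff n = 0),
    ∃ p : Polynomial Kb, ∀ z, s z = Polynomial.aeval (jfun z) p := by
  induction M with
  | zero =>
    intro s hs hinv S hS hM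
    refine ⟨Polynomial.C (S.coeff 0), fun z => ?_⟩
    rw [levelOne_base N s hs hinv S hS (fun n hn => hM n (by simpa using hn)) z,
      Polynomial.aeval_C, algebraMap_Kb_complex]
  | succ M ih =>
    intro s hs hinv S hS hM
    have hN : (0 : ℤ) < N := by exact_mod_cast Nat.pos_of_ne_zero (NeZero.ne N)
    set a : Kb := S.coeff (-((N : ℤ) * (M + 1 : ℕ))) with ha
    set jN : Mer N := ⟨jfun, jfun_mem_Mer_level N⟩ with hjN
    set s' : Mer N := ⟨s, hs⟩ - algebraMap ℂ (Mer N) (iota a) * jN ^ (M + 1) with hs'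
    set S' : LaurentSeries Kb := S - HahnSeries.single 0 a * JNf N ^ (M + 1) with hS'
    have hval : ∀ z, s'.1 z = s z - iota a * jfun z ^ (M + 1) := fun z => rfl
    have hE : expInf N ⟨s'.1, s'.2⟩ = ModularCurve.coeffMap iota S' := by
      show expInf N s' = _
      rw [hs', hS', map_sub, map_mul, map_pow, AlgHom.commutes, hS, expInf_jfun_level,
        ModularCurve.algebraMap_laurentSeries_eq_single, map_sub, map_mul, map_pow,
        ModularCurve.coeffMap_single]
    have hper : ∀ n : ℤ, ¬ (N : ℤ) ∣ n → S.coeff n = 0 := by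
      intro n hn
      apply iota_inj_L1
      rw [map_zero, ← ModularCurve.coeffMap_coeff, ← hS]
      apply expInf_coeff_eq_zero_of_periodic N _ _ n hn
      intro z
      show s ((1 : ℝ) +ᵥ z) = s z
      rw [← UpperHalfPlane.modular_T_smul, hinv]
    obtain ⟨p, hp⟩ := ih s'.1 s'.2 (fun γ z => by rw [hval, hval, hinv, jfun_smul_aux]) S' hE (by
      intro n hn
      rw [hS', HahnSeries.coeff_sub, HahnSeries.coeff_single_mul, sub_zero]
      rcases lt_trichotomy n (-((N : ℤ) * (M + 1 : ℕ))) with h | h | h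
      · rw [hM n h, JNf_pow_coeff_of_lt N _ n h]; ring
      · rw [h, JNf_pow_coeff_self, ← ha]; ring
      · have hnd : ¬ (N : ℤ) ∣ n := by
          rintro ⟨k, rfl⟩
          push_cast at h
          have h1 : -((M : ℤ) + 1) < k := by nlinarith
          have h2 : k < -(M : ℤ) := by nlinarith
          omega
        rw [hper n hnd, JNf_pow_coeff_of_not_dvd N _ n hnd]; ring)
    refine ⟨p + Polynomial.C a * Polynomial.X ^ (M + 1), fun z => ?_⟩
    rw [map_add, map_mul, map_pow, Polynomial.aeval_C, Polynomial.aeval_X, ← hp z, hval,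
      algebraMap_Kb_complex]
    ring

/-- M8a -/
theorem levelOne_polynomial (N : ℕ) [NeZero N] (s : ℍ → ℂ) (hs : s ∈ Mer N)
    (hinv : ∀ (γ : SL(2, ℤ)) (z : ℍ), s (γ • z) = s z) (S : LaurentSeries Kb)
    (hS : expInf N ⟨s, hs⟩ = ModularCurve.coeffMap iota S) :
    ∃ p : Polynomial Kb, ∀ z, s z = Polynomial.aeval (jfun z) p := by
  refine levelOne_aux N (-S.order).toNat s hs hinv S hS (fun n hn => ?_)
  apply HahnSeries.coeff_eq_zero_of_lt_order
  have hN : (1 : ℤ) ≤ N := by exact_mod_cast Nat.pos_of_ne_zero (NeZero.ne N)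
  have h1 : -S.order ≤ ((-S.order).toNat : ℤ) := Int.self_le_toNat _
  have h2 : (0 : ℤ) ≤ ((-S.order).toNat : ℤ) := Int.natCast_nonneg _
  nlinarith

end Fermat.Agent.S29.C24
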