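import Mathlib
import Fermat.Agent.S24.Integral
import Fermat.Agent.S29.C24Engine
import Fermat.Agent.S29.C24LevelOne

set_option autoImplicit false
set_option linter.style.haveILetI false
set_option linter.unusedSectionVars false

namespace Fermat.Agent.S29.C24

open Fermat.Agent.S24

open UpperHalfPlane ModularForm EisensteinSeries Matrix.SpecialLinearGroup AlgebraicCurve
open IntermediateField
open scoped MatrixGroups ModularForm Manifold
open Fermat.Agent.S20 (Quo sl rho)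

/-! # S29 [S24C]: polynomial expressions in `Γ₀(N)`-invariant functions satisfy a monic equation of
degree `[SL₂(ℤ) : Γ₀(N)]` over `ℂ[j]`. -/

/-- a family of functions together with all their `SL₂(ℤ)`-conjugates:
`G i γ = (G i 1) ∘ γ`, `G i 1` is `Γ₀(N)`-invariant, all conjugates are in `Mer N`. -/
structure ConjSys (N : ℕ) [NeZero N] {ι : Type} (G : ι → SL(2, ℤ) → ℍ → ℂ) : Prop where
  mem : ∀ i γ, G i γ ∈ Mer N
  mul : ∀ i γ γ' z, G i (γ * γ') z = G i γ (γ' • z)
  inv : ∀ i δ γ, δ ∈ CongruenceSubgroup.Gamma0 N → G i (δ * γ) = G i γ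

theorem conjSys_jdg (N : ℕ) [NeZero N] : ConjSys N (fun d : Dv N => jdg N d) where
  mem := fun d γ => jdg_mem_Mer N d γ
  mul := fun d γ γ' z => jdg_mul N d γ γ' z
  inv := fun d δ γ hδ => jdg_Gamma0_mul N d δ γ hδ

namespace IntgC

variable {N : ℕ} [NeZero N] {ι : Type} {G : ι → SL(2, ℤ) → ℍ → ℂ} (hG : ConjSys N G)

/-- the conjugates of `P(G)`. -/
noncomputable def gP (G : ι → SL(2, ℤ) → ℍ → ℂ) (P : MvPolynomial ι ℂ) (γ : SL(2, ℤ)) : ℍ → ℂ :=
  MvPolynomial.aeval (fun d => G d γ) P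

theorem gP_apply (P : MvPolynomial ι ℂ) (γ : SL(2, ℤ)) (z : ℍ) :
    gP G P γ z = MvPolynomial.aeval (fun d => G d γ z) P :=
  MvPolynomial.comp_aeval_apply (fun d => G d γ) (Pi.evalAlgHom ℂ (fun _ : ℍ => ℂ) z) P

include hG in
theorem gP_mem (P : MvPolynomial ι ℂ) (γ : SL(2, ℤ)) : gP G P γ ∈ Mer N := by
  have h := (Mer N).mvPolynomial_aeval_coe (fun d => (⟨G d γ, hG.mem d γ⟩ : Mer N)) P
  unfold gP
  rw [h]
  exact SetLike.coe_mem _

include hG in
theorem gP_mul (P : MvPolynomial ι ℂ) (γ γ' : SL(2, ℤ)) (z : ℍ) :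
    gP G P (γ * γ') z = gP G P γ (γ' • z) := by
  rw [gP_apply, gP_apply]
  simp only [hG.mul]

include hG in
theorem gP_Gamma0_mul (P : MvPolynomial ι ℂ) (δ γ : SL(2, ℤ))
    (hδ : δ ∈ CongruenceSubgroup.Gamma0 N) : gP G P (δ * γ) = gP G P γ := by
  unfold gP
  simp only [hG.inv _ δ γ hδ]

/-- the conjugates indexed by the coset space. -/
noncomputable def GP (N : ℕ) [NeZero N] (G : ι → SL(2, ℤ) → ℍ → ℂ) (P : MvPolynomial ι ℂ)
    (q : Quo N) : ℍ → ℂ :=
  gP G P (S20.exists_mk q).choose⁻¹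

include hG in
theorem GP_mk (P : MvPolynomial ι ℂ) (γ : SL(2, ℤ)) :
    GP N G P (QuotientGroup.mk (sl γ) : Quo N) = gP G P γ⁻¹ := by
  unfold GP
  set δ := (S20.exists_mk (QuotientGroup.mk (sl γ) : Quo N)).choose with hδ
  have h1 : (QuotientGroup.mk (sl γ) : Quo N) = QuotientGroup.mk (sl δ) :=
    (S20.exists_mk (QuotientGroup.mk (sl γ) : Quo N)).choose_spec
  rw [S20.mk_eq_mk_iff] at h1
  have h2 : δ⁻¹ = (γ⁻¹ * δ)⁻¹ * γ⁻¹ := by group
  rw [h2, gP_Gamma0_mul hG P _ _ (inv_mem h1)]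

include hG in
theorem GP_mem (P : MvPolynomial ι ℂ) (q : Quo N) : GP N G P q ∈ Mer N := gP_mem hG P _

include hG in
theorem GP_smul (P : MvPolynomial ι ℂ) (q : Quo N) (γ : SL(2, ℤ))
    (z : ℍ) : GP N G P q (γ • z) = GP N G P (sl γ⁻¹ • q) z := by
  obtain ⟨δ, rfl⟩ := S20.exists_mk q
  rw [S20.sl_smul_mk, GP_mk hG, GP_mk hG, ← gP_mul hG]
  congr 1
  group

open Polynomial in
/-- the characteristic polynomial of `P(G)` over the level one functions. -/
noncomputable def chiAn (N : ℕ) [NeZero N] (G : ι → SL(2, ℤ) → ℍ → ℂ) (P : MvPolynomial ι ℂ) :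
    Polynomial (ℍ → ℂ) :=
  ∏ q : Quo N, (X - C (GP N G P q))

open Polynomial in
include hG in
theorem chiAn_coeff_mem (P : MvPolynomial ι ℂ) (i : ℕ) : (chiAn N G P).coeff i ∈ Mer N := by
  have h : chiAn N G P = (∏ q : Quo N, (X - C (⟨GP N G P q, GP_mem hG P q⟩ : Mer N))).map
      (Mer N).val.toRingHom := by
    rw [Polynomial.map_prod]
    unfold chiAn
    refine Finset.prod_congr rfl fun q _ => ?_
    simp
  rw [h, Polynomial.coeff_map]
  exact SetLike.coe_mem _

theorem chiAn_monic (P : MvPolynomial ι ℂ) : (chiAn N G P).Monic :=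
  Polynomial.monic_prod_of_monic _ _ fun _ _ => Polynomial.monic_X_sub_C _

theorem chiAn_natDegree (P : MvPolynomial ι ℂ) :
    (chiAn N G P).natDegree = Nat.card (Quo N) := by
  unfold chiAn
  rw [Polynomial.natDegree_prod_of_monic _ _ fun q _ => Polynomial.monic_X_sub_C _]
  simp

open Fermat.Agent.S24.Intg (compHom compHom_apply)

include hG in
theorem chiAn_map (P : MvPolynomial ι ℂ) (γ : SL(2, ℤ)) :
    (chiAn N G P).map (compHom γ) = chiAn N G P := by
  unfold chiAn
  rw [Polynomial.map_prod]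
  have h : ∀ q : Quo N, (Polynomial.X - Polynomial.C (GP N G P q)).map (compHom γ) =
      Polynomial.X - Polynomial.C (GP N G P (sl γ⁻¹ • q)) := by
    intro q
    have h1 : compHom γ (GP N G P q) = GP N G P (sl γ⁻¹ • q) := by
      funext z
      rw [compHom_apply, GP_smul hG]
    rw [Polynomial.map_sub, Polynomial.map_X, Polynomial.map_C, h1]
  rw [Finset.prod_congr rfl fun q _ => h q]
  exact Equiv.prod_comp (MulAction.toPerm (sl γ⁻¹ : 𝒮ℒ) : Equiv.Perm (Quo N))
    (fun q => Polynomial.X - Polynomial.C (GP N G P q))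

include hG in
theorem chiAn_coeff_smul (P : MvPolynomial ι ℂ) (i : ℕ) (γ : SL(2, ℤ))
    (z : ℍ) : (chiAn N G P).coeff i (γ • z) = (chiAn N G P).coeff i z := by
  conv_rhs => rw [← chiAn_map hG P γ, Polynomial.coeff_map]
  rfl

include hG in
theorem exists_coeff_poly (P : MvPolynomial ι ℂ) (i : ℕ) :
    ∃ p : Polynomial ℂ, ∀ z, (chiAn N G P).coeff i z = Polynomial.aeval (jfun z) p :=
  levelOne_polynomial N _ (chiAn_coeff_mem hG P i) (chiAn_coeff_smul hG P i) _
    (coeffMap_iota _).symm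

include hG in
theorem chiAn_eval (P : MvPolynomial ι ℂ) : (chiAn N G P).eval (gP G P 1) = 0 := by
  unfold chiAn
  rw [Polynomial.eval_prod]
  refine Finset.prod_eq_zero (Finset.mem_univ (QuotientGroup.mk (sl 1) : Quo N)) ?_
  rw [GP_mk hG]
  simp

theorem aeval_eval₂_transport {ι B : Type} [CommRing B] [Algebra ℂ B] (f : ι → B) (i₀ : ι)
    (χ : Polynomial (Polynomial ℂ)) (P : MvPolynomial ι ℂ) :
    MvPolynomial.aeval f
      (χ.eval₂ (Polynomial.aeval (MvPolynomial.X i₀ : MvPolynomial ι ℂ)).toRingHom P) =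
    χ.eval₂ (Polynomial.aeval (f i₀)).toRingHom (MvPolynomial.aeval f P) := by
  have h1 : ((MvPolynomial.aeval f : MvPolynomial ι ℂ →ₐ[ℂ] B).comp
      (Polynomial.aeval (MvPolynomial.X i₀ : MvPolynomial ι ℂ))) = Polynomial.aeval (f i₀) := by
    apply Polynomial.algHom_ext
    simp
  have h2 := Polynomial.hom_eval₂ χ
    (Polynomial.aeval (MvPolynomial.X i₀ : MvPolynomial ι ℂ)).toRingHom
    (MvPolynomial.aeval f : MvPolynomial ι ℂ →ₐ[ℂ] B).toRingHom P
  rw [← h1]
  exact h2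

theorem aeval_jfun_apply (p : Polynomial ℂ) (z : ℍ) :
    (Polynomial.aeval jfun p : ℍ → ℂ) z = Polynomial.aeval (jfun z) p :=
  (Polynomial.aeval_algHom_apply (Pi.evalAlgHom ℂ (fun _ : ℍ => ℂ) z) jfun p).symm

end IntgC

open IntgC

/-- the analytic monic relation. -/
theorem exists_monic_relation_fun {N : ℕ} [NeZero N] {ι : Type} {G : ι → SL(2, ℤ) → ℍ → ℂ}
    (hG : ConjSys N G) (P : MvPolynomial ι ℂ) :
    ∃ χ : Polynomial (Polynomial ℂ), χ.Monic ∧ χ.natDegree = Nat.card (Quo N) ∧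
      Polynomial.eval₂ (Polynomial.aeval jfun : Polynomial ℂ →ₐ[ℂ] (ℍ → ℂ)).toRingHom
        (MvPolynomial.aeval (fun i => G i 1) P) χ = 0 := by
  classical
  set μ := Nat.card (Quo N) with hμ
  choose p hp using exists_coeff_poly hG P
  let c : ℕ → Polynomial ℂ := fun i => if i = μ then 1 else p i
  let χ : Polynomial (Polynomial ℂ) := ∑ i ∈ Finset.range (μ + 1), Polynomial.monomial i (c i)
  have hcoeff : ∀ i, χ.coeff i = if i < μ + 1 then c i else 0 := by
    intro i
    simp only [χ, Polynomial.finsetSum_coeff, Polynomial.coeff_monomial]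
    rw [Finset.sum_ite_eq' (Finset.range (μ + 1)) i]
    simp
  have hle : χ.natDegree ≤ μ := by
    rw [Polynomial.natDegree_le_iff_coeff_eq_zero]
    intro i hi
    rw [hcoeff, if_neg (by omega)]
  have hμ1 : χ.coeff μ = 1 := by
    rw [hcoeff, if_pos (by omega)]
    simp [c]
  have hmonic : χ.Monic := Polynomial.monic_of_natDegree_le_of_coeff_eq_one μ hle hμ1
  have hnat : χ.natDegree = μ :=
    Polynomial.natDegree_eq_of_le_of_coeff_ne_zero hle (by rw [hμ1]; exact one_ne_zero)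
  refine ⟨χ, hmonic, hnat, ?_⟩
  have hmap : χ.map (Polynomial.aeval jfun : Polynomial ℂ →ₐ[ℂ] (ℍ → ℂ)).toRingHom
      = chiAn N G P := by
    ext i : 1
    rw [Polynomial.coeff_map, hcoeff]
    rcases lt_trichotomy i μ with hi | hi | hi
    · rw [if_pos (by omega)]
      simp only [c, if_neg hi.ne]
      funext z
      rw [hp i z]
      exact aeval_jfun_apply (p i) z
    · subst hi
      rw [if_pos (by omega)]
      simp only [c, if_true]
      rw [map_one]
      have := (chiAn_monic (N := N) (G := G) P).coeff_natDegree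
      rw [chiAn_natDegree] at this
      exact this.symm
    · rw [if_neg (by omega), map_zero]
      symm
      apply Polynomial.coeff_eq_zero_of_natDegree_lt
      rw [chiAn_natDegree]
      exact hi
  rw [Polynomial.eval₂_eq_eval_map, hmap]
  exact chiAn_eval hG P

theorem exists_monic_relation (N : ℕ) [NeZero N] (P : MvPolynomial (Dv N) Kb) :
    ∃ χ : Polynomial (Polynomial Kb), χ.Monic ∧ χ.natDegree = Nat.card (Quo N) ∧
      Polynomial.eval₂ (Polynomial.aeval (jF N)).toRingHom (MvPolynomial.aeval (Jd N) P) χ = 0 := by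
  obtain ⟨χ, hmonic, hnat, hχ⟩ := exists_monic_relation_fun (conjSys_jdg N) P
  refine ⟨χ, hmonic, hnat, ?_⟩
  have key := aeval_eval₂_transport (Jd N) ⟨1, one_dvd N⟩ χ P
  have key' := aeval_eval₂_transport (fun d => jdg N d 1) ⟨1, one_dvd N⟩ χ P
  show Polynomial.eval₂ (Polynomial.aeval (Jd N ⟨1, one_dvd N⟩)).toRingHom
    (MvPolynomial.aeval (Jd N) P) χ = 0
  rw [← key, aeval_Jd_eq_zero_iff N 1, key']
  simp only [jdg_one_dv]
  exact hχ

theorem finrank_FN_le (N : ℕ) [NeZero N] :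
    FiniteDimensional Kb⟮jF N⟯ (FN N) ∧ Module.finrank Kb⟮jF N⟯ (FN N) ≤ Nat.card (Quo N) := by
  haveI : Finite (Dv N) :=
    (Set.Finite.subset (Set.finite_Iic N) (fun d (hd : d ∣ N) =>
      Nat.le_of_dvd (Nat.pos_of_ne_zero (NeZero.ne N)) hd)).to_subtype
  exact finrank_le_of_monic (jF N) (Jd N) (adjoin_range_Jd N) _ (exists_monic_relation N)

end Fermat.Agent.S29.C24
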