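import Mathlib
import Fermat.Agent.S24.Local
import Fermat.Agent.S29.C24Engine

set_option autoImplicit false
set_option linter.style.haveILetI false

/-! # S29 [S24C]: analytic charts and the local uniformisation data over `ℂ` -/

namespace Fermat.Agent.S29.C24

open Fermat.Agent.S24

open UpperHalfPlane ModularForm EisensteinSeries Matrix.SpecialLinearGroup AlgebraicCurve
open IntermediateField
open scoped MatrixGroups ModularForm Manifold
open Fermat.Agent.S20 (Quo sl rho)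
open Fermat.Agent.S21 (rep mk_rep coc_mem)

/-- an analytic chart: an algebra of functions with an injective expansion map, and an element `g`
of `SL₂(ℤ)` (generator of the stabiliser of the centre) acting on expansions by a rotation. -/
structure Chart where
  A : Subalgebra ℂ (ℍ → ℂ)
  E : A →ₐ[ℂ] LaurentSeries ℂ
  E_inj : Function.Injective E
  g : SL(2, ℤ)
  ζ : ℂ
  e : ℕ
  e_pos : 0 < e
  hζ : IsPrimitiveRoot ζ e
  comp_mem : ∀ f : A, (fun z : ℍ => f.1 (g⁻¹ • z)) ∈ A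
  rot : ∀ (f : A) (n : ℤ), (E ⟨_, comp_mem f⟩).coeff n = ζ ^ n * (E f).coeff n

/-- the chart at the cusp `∞` (parameter `q_N`). -/
noncomputable def chartInf (N : ℕ) [NeZero N] : Chart where
  A := Mer N
  E := expInf N
  E_inj := expInf_injective N
  g := ModularGroup.T
  ζ := Complex.exp (2 * Real.pi * Complex.I * ((-1 : ℤ) : ℂ) / N)
  e := N
  e_pos := Nat.pos_of_ne_zero (NeZero.ne N)
  hζ := by
    have h := (Complex.isPrimitiveRoot_exp N (NeZero.ne N)).inv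
    rw [← Complex.exp_neg] at h
    have e : 2 * (Real.pi : ℂ) * Complex.I * ((-1 : ℤ) : ℂ) / N =
        -(2 * (Real.pi : ℂ) * Complex.I / N) := by
      push_cast
      ring
    rw [e]
    exact h
  comp_mem := fun f => by
    have h := vadd_mem_Mer N f (-1)
    have e : (fun z : ℍ => f.1 (ModularGroup.T⁻¹ • z)) =
        fun z : ℍ => f.1 ((((-1 : ℤ) : ℝ)) +ᵥ z) := by
      funext z
      rw [← zpow_neg_one, UpperHalfPlane.modular_T_zpow_smul]
    rw [e]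
    exact h
  rot := fun f n => by
    have e : (fun z : ℍ => f.1 (ModularGroup.T⁻¹ • z)) =
        fun z : ℍ => f.1 ((((-1 : ℤ) : ℝ)) +ᵥ z) := by
      funext z
      rw [← zpow_neg_one, UpperHalfPlane.modular_T_zpow_smul]
    have h := expInf_vadd_coeff N f (-1) n
    rw [← h]
    congr 2
    exact Subtype.ext e

/-- the chart at an interior point `τ₀` (disc coordinate). -/
noncomputable def chartAt (τ₀ : ℍ) (g : SL(2, ℤ)) (hg : g • τ₀ = τ₀) (e : ℕ) (he : 0 < e) (ζ : ℂ)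
    (hζdef : (denom (g⁻¹ : SL(2, ℤ)) τ₀) ^ (-2 : ℤ) = ζ) (hζ : IsPrimitiveRoot ζ e) : Chart where
  A := Hol
  E := psToLaurent.comp (tayAt τ₀)
  E_inj := psToLaurent_injective.comp (tayAt_injective τ₀)
  g := g
  ζ := ζ
  e := e
  e_pos := he
  hζ := hζ
  comp_mem := fun f => comp_smul_mem_Hol f g⁻¹
  rot := fun f n => by
    have hg' : g⁻¹ • τ₀ = τ₀ := by rw [inv_smul_eq_iff, hg]
    change (psToLaurent (tayAt τ₀ _)).coeff n = ζ ^ n * (psToLaurent (tayAt τ₀ _)).coeff n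
    rcases lt_or_ge n 0 with hneg | hpos
    · rw [psToLaurent_coeff_neg _ hneg, psToLaurent_coeff_neg _ hneg, mul_zero]
    · lift n to ℕ using hpos
      rw [psToLaurent_coeff_nat, psToLaurent_coeff_nat, tayAt_comp_smul_coeff τ₀ g⁻¹ hg', hζdef,
        zpow_natCast]

variable (N : ℕ) [NeZero N]

/-- `rotHom` after a `Kb`-embedding. -/
noncomputable def rotComp (ζ : ℂ) (hζ : ζ ≠ 0) (σ : FN N →ₐ[Kb] LaurentSeries ℂ) :
    FN N →ₐ[Kb] LaurentSeries ℂ where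
  toRingHom := (rotHom ζ hζ).toRingHom.comp σ.toRingHom
  commutes' c := by
    change rotHom ζ hζ (σ (algebraMap Kb (FN N) c)) = _
    rw [σ.commutes, (rotHom ζ hζ).commutes]

omit [NeZero N] in
theorem rotComp_apply (ζ : ℂ) (hζ : ζ ≠ 0) (σ : FN N →ₐ[Kb] LaurentSeries ℂ) (f : FN N) :
    rotComp N ζ hζ σ f = rotHom ζ hζ (σ f) := rfl

/-- local data attached to a chart, with the explicit description of the embeddings. -/
structure IsLocalOf (X : Chart) (hA : ∀ d γ, jdg N d γ ∈ X.A) {y : FN N}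
    (L : LocalData Kb (FN N) ℂ (Quo N) y) : Prop where
  ε_eq : L.ε = MulAction.toPerm (sl X.g)
  e_eq : L.e = X.e
  ζ_eq : L.ζ = X.ζ
  σ_eq : ∀ q d, L.σ q (Jd N d) = X.E ⟨jdg N d (rep q)⁻¹, hA d _⟩

theorem exists_localData_of (X : Chart) (hA : ∀ d γ, jdg N d γ ∈ X.A)
    (y : FN N) (Y : LaurentSeries ℂ) (hYord : Y.order = X.e)
    (hY : ∀ σ : FN N →ₐ[Kb] LaurentSeries ℂ,
      σ (jF N) = X.E ⟨jdg N ⟨1, one_dvd N⟩ 1, hA _ _⟩ → σ y = Y) :
    ∃ L : LocalData Kb (FN N) ℂ (Quo N) y, IsLocalOf N X hA L := by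
  have hζ0 : X.ζ ≠ 0 := X.hζ.ne_zero X.e_pos.ne'
  choose σ hσ using fun q : Quo N => exists_sigma N (rep q)⁻¹ X.A (fun d => hA d _) X.E X.E_inj
  have hjF : ∀ q, σ q (jF N) = X.E ⟨jdg N ⟨1, one_dvd N⟩ 1, hA _ _⟩ := by
    intro q
    refine (hσ q ⟨1, one_dvd N⟩).trans (congrArg X.E (Subtype.ext ?_))
    change jdg N ⟨1, one_dvd N⟩ (rep q)⁻¹ = jdg N ⟨1, one_dvd N⟩ 1
    rw [jdg_one_dv, jdg_one_dv]
  refine ⟨{ σ := σ, σ_inj := ?_, e := X.e, e_pos := X.e_pos, ζ := X.ζ, hζ := X.hζ,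
            ε := MulAction.toPerm (sl X.g), σ_y := ?_, order_y := ?_, rot := ?_ },
            ⟨rfl, rfl, rfl, hσ⟩⟩
  · intro q q' hqq
    have h1 : ∀ d, jdg N d (rep q)⁻¹ = jdg N d (rep q')⁻¹ := by
      intro d
      have h2 := hσ q d
      rw [hqq, hσ q' d] at h2
      exact (congrArg Subtype.val (X.E_inj h2)).symm
    have h3 := mem_Gamma0_of_jdg_eq N _ _ h1
    rw [inv_inv] at h3
    rw [← mk_rep q, ← mk_rep q', Fermat.Agent.S20.mk_eq_mk_iff]
    exact h3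
  · intro q q'
    rw [hY _ (hjF q), hY _ (hjF q')]
  · intro q
    rw [hY _ (hjF q), hYord]
  · intro q f n
    have key : σ (MulAction.toPerm (sl X.g) q) = rotComp N X.ζ hζ0 (σ q) := by
      apply FN_algHom_ext
      intro d
      have h1 : (rep (sl X.g • q))⁻¹ =
          ((rep (sl X.g • q))⁻¹ * X.g * rep q) * ((rep q)⁻¹ * X.g⁻¹) := by
        group
      have h2 : jdg N d (rep (sl X.g • q))⁻¹ = jdg N d ((rep q)⁻¹ * X.g⁻¹) := by
        rw [h1, jdg_Gamma0_mul N d _ _ (coc_mem X.g q)]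
      have h3 : σ (MulAction.toPerm (sl X.g) q) (Jd N d) =
          X.E ⟨jdg N d ((rep q)⁻¹ * X.g⁻¹), hA d _⟩ :=
        (hσ (MulAction.toPerm (sl X.g) q) d).trans (congrArg X.E (Subtype.ext h2))
      have h4 : (⟨jdg N d ((rep q)⁻¹ * X.g⁻¹), hA d _⟩ : X.A) =
          ⟨_, X.comp_mem ⟨jdg N d (rep q)⁻¹, hA d _⟩⟩ :=
        Subtype.ext (funext fun z => jdg_mul N d (rep q)⁻¹ X.g⁻¹ z)
      rw [h3, h4, rotComp_apply, hσ q d]
      ext m
      rw [rotHom_coeff, X.rot]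
    rw [key, rotComp_apply, rotHom_coeff]

/-! ## the cusp -/

theorem hA_inf : ∀ d γ, jdg N d γ ∈ (chartInf N).A := fun d γ => jdg_mem_Mer N d γ

theorem exists_localData_inf :
    ∃ L : LocalData Kb (FN N) ℂ (Quo N) (jF N)⁻¹, IsLocalOf N (chartInf N) (hA_inf N) L := by
  refine exists_localData_of N (chartInf N) (hA_inf N)
    (jF N)⁻¹ (expInf N ⟨jdg N ⟨1, one_dvd N⟩ 1, jdg_mem_Mer N _ 1⟩)⁻¹ ?_ ?_
  · rw [order_inv_laurent, order_expInf_jdg_one, neg_neg]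
    rfl
  · intro σ hσ
    rw [map_inv₀, hσ]
    rfl

/-! ## interior points -/

theorem hA_hol : ∀ d γ, jdg N d γ ∈ Hol := fun d γ => mem_Hol.mpr (jdg_mdiff N d γ)

theorem exists_localData_interior (τ₀ : ℍ) (g : SL(2, ℤ)) (hg : g • τ₀ = τ₀) (a : Kb) (e : ℕ)
    (he : 0 < e) (ζ : ℂ) (hζdef : (denom (g⁻¹ : SL(2, ℤ)) τ₀) ^ (-2 : ℤ) = ζ)
    (hζ : IsPrimitiveRoot ζ e)
    (hord : (tayAt τ₀ ⟨_, jfun_sub_mem_Hol (iota a)⟩).order = e) :
    ∃ L : LocalData Kb (FN N) ℂ (Quo N) (jF N - algebraMap Kb (FN N) a),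
      IsLocalOf N (chartAt τ₀ g hg e he ζ hζdef hζ) (hA_hol N) L := by
  refine exists_localData_of N (chartAt τ₀ g hg e he ζ hζdef hζ) (hA_hol N)
    (jF N - algebraMap Kb (FN N) a) (psToLaurent (tayAt τ₀ ⟨_, jfun_sub_mem_Hol (iota a)⟩))
    (order_psToLaurent _ e hord) ?_
  intro σ hσ
  rw [map_sub, hσ, σ.commutes]
  have e2 : (⟨_, jfun_sub_mem_Hol (iota a)⟩ : Hol) =
      ⟨jdg N ⟨1, one_dvd N⟩ 1, hA_hol N _ _⟩ - algebraMap ℂ Hol (iota a) := by
    apply Subtype.ext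
    funext z
    change jfun z - iota a = jdg N ⟨1, one_dvd N⟩ 1 z - iota a
    rw [jdg_one_dv]
  rw [e2, map_sub, map_sub, AlgHom.commutes, AlgHom.commutes]
  rfl

/-- the chart at a generic point. -/
noncomputable def chartGen (τ₀ : ℍ) : Chart :=
  chartAt τ₀ 1 (one_smul _ _) 1 one_pos 1 (by rw [denom_inv_eq]; simp) IsPrimitiveRoot.one

theorem exists_localData_generic (τ₀ : ℍ) (h0 : jfun τ₀ ≠ 0) (h1 : jfun τ₀ ≠ 1728) :
    ∃ L : LocalData Kb (FN N) ℂ (Quo N) (jF N - algebraMap Kb (FN N) (jfun τ₀)),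
      IsLocalOf N (chartGen τ₀) (hA_hol N) L := by
  have hord : (tayAt τ₀ ⟨_, jfun_sub_mem_Hol (iota (jfun τ₀))⟩).order = ((1 : ℕ) : ℕ∞) := by
    have h := order_tayAt_generic τ₀ h0 h1
    have e : (⟨_, jfun_sub_mem_Hol (iota (jfun τ₀))⟩ : Hol) = ⟨_, jfun_sub_mem_Hol (jfun τ₀)⟩ := rfl
    rw [e, h]
    rfl
  exact exists_localData_interior N τ₀ 1 (one_smul _ _) (jfun τ₀) 1 one_pos 1
    (by rw [denom_inv_eq]; simp) IsPrimitiveRoot.one hord

/-- the chart at `i`. -/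
noncomputable def chartI : Chart :=
  chartAt I ModularGroup.S Fermat.Agent.S20.S_smul_I 2 two_pos (-1)
    (by rw [denom_inv_eq]; simp [ModularGroup.coe_S, zpow_neg])
    (IsPrimitiveRoot.neg_one 0 (by norm_num))

theorem exists_localData_1728 :
    ∃ L : LocalData Kb (FN N) ℂ (Quo N) (jF N - algebraMap Kb (FN N) 1728),
      IsLocalOf N chartI (hA_hol N) L := by
  have hord : (tayAt I ⟨_, jfun_sub_mem_Hol (iota 1728)⟩).order = ((2 : ℕ) : ℕ∞) := by
    have e : (⟨_, jfun_sub_mem_Hol (iota 1728)⟩ : Hol) = ⟨_, jfun_sub_mem_Hol 1728⟩ := rfl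
    rw [e, order_tayAt_I]
    rfl
  exact exists_localData_interior N I ModularGroup.S Fermat.Agent.S20.S_smul_I 1728 2 two_pos (-1)
    _ _ hord

theorem denom_ST_rho :
    (denom ((ModularGroup.S * ModularGroup.T)⁻¹ : SL(2, ℤ)) rho) ^ (-2 : ℤ) = (rho : ℂ) := by
  have h00 : (ModularGroup.S * ModularGroup.T : SL(2, ℤ)) 0 0 = 0 := by
    rw [Fermat.Agent.S20.coe_ST]; rfl
  have h10 : (ModularGroup.S * ModularGroup.T : SL(2, ℤ)) 1 0 = 1 := by
    rw [Fermat.Agent.S20.coe_ST]; rfl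
  have h2 := Fermat.Agent.S20.rho_sq
  have hne : (rho : ℂ) ≠ 0 := isPrimitiveRoot_rho.ne_zero (by norm_num)
  rw [denom_inv_eq, h00, h10]
  push_cast
  rw [zpow_neg, add_zero, neg_one_mul, inv_eq_iff_eq_inv]
  symm
  apply inv_eq_of_mul_eq_one_left
  rw [show ((2 : ℤ)) = ((2 : ℕ) : ℤ) by norm_num, zpow_natCast]
  linear_combination ((rho : ℂ) - 1) * h2

/-- the chart at `ρ`. -/
noncomputable def chartRho : Chart :=
  chartAt rho (ModularGroup.S * ModularGroup.T) Fermat.Agent.S20.ST_smul_rho 3 (by norm_num)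
    (rho : ℂ) denom_ST_rho isPrimitiveRoot_rho

theorem exists_localData_zero :
    ∃ L : LocalData Kb (FN N) ℂ (Quo N) (jF N - algebraMap Kb (FN N) 0),
      IsLocalOf N chartRho (hA_hol N) L := by
  have hord : (tayAt rho ⟨_, jfun_sub_mem_Hol (iota 0)⟩).order = ((3 : ℕ) : ℕ∞) := by
    have e : (⟨_, jfun_sub_mem_Hol (iota 0)⟩ : Hol) = ⟨_, jfun_sub_mem_Hol 0⟩ := rfl
    rw [e, order_tayAt_rho]
    rfl
  exact exists_localData_interior N rho (ModularGroup.S * ModularGroup.T)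
    Fermat.Agent.S20.ST_smul_rho 0 3 (by norm_num) (rho : ℂ) denom_ST_rho isPrimitiveRoot_rho hord

end Fermat.Agent.S29.C24
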