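import Mathlib
import Fermat.Agent.S24.Count
import Fermat.Agent.S24.Center
import Fermat.Agent.S24.Orbits
import Fermat.Agent.S20.CardQuo
import Fermat.Agent.S18.ModB
import Fermat.Agent.S29.C24Integral
import Fermat.Agent.S29.C24Local

set_option autoImplicit false
set_option linter.style.haveILetI false
set_option maxHeartbeats 400000

/-! # S29 [S24C]: degree, ramification and classification of the places of `FN N` over `ℂ` -/

namespace Fermat.Agent.S29.C24

open Fermat.Agent.S24

open UpperHalfPlane AlgebraicCurve IntermediateField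
open scoped MatrixGroups
open Fermat.Agent.S20 (Quo sl rho)
open Fermat.Agent.S21 (rep mk_rep coc_mem)

section abstract

variable {K F : Type} [Field K] [Field F] [Algebra K F] [IsAlgClosed K] [CharZero K]

/-- the ramification index is the length of the orbit of the local monodromy. -/
theorem LocalData.ord_pl_eq_minimalPeriod {k Q : Type} [Field k] [Algebra K k] [Fintype Q] (y : F)
    [FiniteDimensional K⟮y⟯ F] (L : LocalData K F k Q y)
    (hcard : Fintype.card Q = Module.finrank K⟮y⟯ F) (γ : Q) :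
    (L.pl γ).ord y = (Function.minimalPeriod (L.ε • ·) γ : ℤ) := by
  classical
  have : Nonempty Q := ⟨γ⟩
  have htr := L.transcendental
  have hfin := finite_zeroSet y htr
  set Z := hfin.toFinset with hZ
  have hsum := sum_ord_zeroSet y htr
  rw [finsum_mem_eq_finite_toFinset_sum _ hfin, ← hcard] at hsum
  let fib : Place K F → Finset Q := fun v => Finset.univ.filter fun γ => L.pl γ = v
  have hfib : Fintype.card Q = ∑ v ∈ Z, (fib v).card := by
    rw [← Finset.card_univ]
    exact Finset.card_eq_sum_card_fiberwise fun γ _ => hfin.mem_toFinset.mpr (L.pl_mem γ)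
  let orb : Q → Finset Q := fun γ => (MulAction.orbit (Subgroup.zpowers L.ε) γ).toFinset
  have horb_sub : ∀ γ, orb γ ⊆ fib (L.pl γ) := by
    intro γ x hx
    rw [Set.mem_toFinset] at hx
    obtain ⟨⟨g, m, rfl⟩, rfl⟩ := hx
    rw [Finset.mem_filter]
    exact ⟨Finset.mem_univ _, L.pl_zpow m γ⟩
  have hper : ∀ γ, (orb γ).card = Function.minimalPeriod (L.ε • ·) γ := by
    intro γ
    rw [MulAction.minimalPeriod_eq_card, Set.toFinset_card]
  have horb_card : ∀ γ, (L.pl γ).ord y ≤ (orb γ).card := by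
    intro γ
    have h2 : 0 < (orb γ).card :=
      Finset.card_pos.mpr ⟨γ, by rw [Set.mem_toFinset]; exact MulAction.mem_orbit_self γ⟩
    apply L.ord_le_of_pow_eq γ h2
    rw [hper γ]
    have := Function.iterate_minimalPeriod (f := (L.ε • ·)) (x := γ)
    rw [smul_iterate] at this
    exact this
  have hle : ∀ v ∈ Z, v.ord y ≤ ((fib v).card : ℤ) := by
    intro v hv
    obtain ⟨γ, rfl⟩ := exists_pl_eq y L hcard v (hfin.mem_toFinset.mp hv)
    exact (horb_card γ).trans (by exact_mod_cast Finset.card_le_card (horb_sub γ))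
  have heq : ∀ v ∈ Z, v.ord y = ((fib v).card : ℤ) := by
    apply (Finset.sum_eq_sum_iff_of_le hle).mp
    rw [hsum, hfib]
    push_cast
    rfl
  have h1 := heq (L.pl γ) (hfin.mem_toFinset.mpr (L.pl_mem γ))
  have h2 := horb_card γ
  have h3 : ((orb γ).card : ℤ) ≤ (fib (L.pl γ)).card := by
    exact_mod_cast Finset.card_le_card (horb_sub γ)
  rw [← hper γ]
  omega

/-- `e = c · (orbit length)`. -/
theorem LocalData.e_eq_c_mul_minimalPeriod {k Q : Type} [Field k] [Algebra K k] [Fintype Q] (y : F)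
    [FiniteDimensional K⟮y⟯ F] (L : LocalData K F k Q y)
    (hcard : Fintype.card Q = Module.finrank K⟮y⟯ F) (γ : Q) :
    L.e = L.c γ * Function.minimalPeriod (L.ε • ·) γ := by
  have : Nonempty Q := ⟨γ⟩
  have h := L.e_eq γ
  rw [LocalData.ord_pl_eq_minimalPeriod y L hcard γ] at h
  exact_mod_cast h

/-- a Laurent series invariant under the rotation by `ζ ^ (orbit length)` has order divisible by
the index `c`. -/
theorem LocalData.c_dvd_order {k Q : Type} [Field k] [Algebra K k] [Fintype Q] (y : F)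
    [FiniteDimensional K⟮y⟯ F] (L : LocalData K F k Q y)
    (hcard : Fintype.card Q = Module.finrank K⟮y⟯ F) (γ : Q) (U : LaurentSeries k)
    (hU : ∀ n : ℤ, U.coeff n =
      L.ζ ^ ((Function.minimalPeriod (L.ε • ·) γ : ℤ) * n) * U.coeff n) :
    (L.c γ : ℤ) ∣ U.order := by
  by_cases hU0 : U = 0
  · rw [hU0, HahnSeries.order_zero]; exact dvd_zero _
  set r := Function.minimalPeriod (L.ε • ·) γ with hr
  have h2 := coeff_order_ne_zero' hU0
  have h3 := hU U.order
  have h4 : L.ζ ^ ((r : ℤ) * U.order) = 1 := by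
    have : (L.ζ ^ ((r : ℤ) * U.order) - 1) * U.coeff U.order = 0 := by
      rw [sub_mul, one_mul, ← h3, sub_self]
    rcases mul_eq_zero.mp this with h | h
    · exact sub_eq_zero.mp h
    · exact absurd h h2
  rw [L.hζ.zpow_eq_one_iff_dvd, LocalData.e_eq_c_mul_minimalPeriod y L hcard γ, ← hr] at h4
  have hr0 : (r : ℤ) ≠ 0 := by
    have he := LocalData.e_eq_c_mul_minimalPeriod y L hcard γ
    rw [← hr] at he
    have := L.e_pos
    intro h0
    have h0' : r = 0 := by exact_mod_cast h0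
    rw [he, h0', mul_zero] at this
    exact lt_irrefl _ this
  push_cast at h4
  rw [mul_comm (L.c γ : ℤ)] at h4
  exact (mul_dvd_mul_iff_left hr0).mp h4

/-- if `σ_γ f = U ^ p` with `U` invariant under the stabiliser rotation then `p ∣ ord f`. -/
theorem LocalData.dvd_ord_of_eq_pow {k Q : Type} [Field k] [Algebra K k] [Fintype Q] (y : F)
    [FiniteDimensional K⟮y⟯ F] (L : LocalData K F k Q y)
    (hcard : Fintype.card Q = Module.finrank K⟮y⟯ F) (γ : Q) (U : LaurentSeries k)
    (hU : ∀ n : ℤ, U.coeff n =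
      L.ζ ^ ((Function.minimalPeriod (L.ε • ·) γ : ℤ) * n) * U.coeff n)
    (f : F) (p : ℕ) (hf : L.σ γ f = U ^ p) : (p : ℤ) ∣ (L.pl γ).ord f := by
  by_cases hf0 : f = 0
  · rw [hf0, Place.ord_zero]; exact dvd_zero _
  obtain ⟨m, hm⟩ := LocalData.c_dvd_order y L hcard γ U hU
  have h1 := L.order_eq γ hf0
  rw [hf, HahnSeries.order_pow, hm, nsmul_eq_mul] at h1
  have hc : (L.c γ : ℤ) ≠ 0 := by exact_mod_cast (L.c_pos γ).ne'
  refine ⟨m, ?_⟩
  apply mul_left_cancel₀ hc
  rw [← h1]; ring

end abstract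

variable (N : ℕ) [NeZero N]

theorem finiteDimensional_FN : FiniteDimensional Kb⟮jF N⟯ (FN N) := (finrank_FN_le N).1

theorem card_quo_eq_finrank : Fintype.card (Quo N) = Module.finrank Kb⟮jF N⟯ (FN N) := by
  obtain ⟨hfd, hle⟩ := finrank_FN_le N
  haveI := hfd
  obtain ⟨Linf, hinf⟩ := exists_localData_inf N
  apply le_antisymm
  · have hfd' : FiniteDimensional Kb⟮(jF N)⁻¹⟯ (FN N) := by rw [adjoin_inv']; exact hfd
    have := card_le_finrank (jF N)⁻¹ Linf.σ Linf.σ_inj Linf.σ_y
    rwa [adjoin_inv'] at this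
  · rwa [Nat.card_eq_fintype_card] at hle

theorem finrank_FN : Module.finrank Kb⟮jF N⟯ (FN N) = ModularCurve.dedekindPsi N := by
  rw [← card_quo_eq_finrank, ← Nat.card_eq_fintype_card, Fermat.Agent.S20.card_quo]

theorem finiteDimensional_sub (a : Kb) :
    FiniteDimensional Kb⟮jF N - algebraMap Kb (FN N) a⟯ (FN N) := by
  rw [adjoin_sub_algebraMap]; exact finiteDimensional_FN N

theorem card_quo_eq_finrank_sub (a : Kb) :
    Fintype.card (Quo N) = Module.finrank Kb⟮jF N - algebraMap Kb (FN N) a⟯ (FN N) := by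
  rw [adjoin_sub_algebraMap]; exact card_quo_eq_finrank N

theorem finiteDimensional_inv : FiniteDimensional Kb⟮(jF N)⁻¹⟯ (FN N) := by
  rw [adjoin_inv']; exact finiteDimensional_FN N

theorem card_quo_eq_finrank_inv :
    Fintype.card (Quo N) = Module.finrank Kb⟮(jF N)⁻¹⟯ (FN N) := by
  rw [adjoin_inv']; exact card_quo_eq_finrank N

/-- generic values of `j` are unbranched. -/
theorem ord_sub_le_one (a : Kb) (h0 : a ≠ 0) (h1 : a ≠ 1728)
    (P : Place Kb (FN N)) : P.ord (jF N - algebraMap Kb (FN N) a) ≤ 1 := by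
  by_contra hlt
  push Not at hlt
  obtain ⟨τ₀, rfl⟩ := exists_jfun_eq a
  obtain ⟨L, hL⟩ := exists_localData_generic N τ₀ h0 h1
  haveI := finiteDimensional_sub N (jfun τ₀)
  have hε : L.ε = 1 := by
    rw [hL.ε_eq]
    show MulAction.toPerm (sl (1 : SL(2, ℤ))) = 1
    rw [Fermat.Agent.S20.sl_one]
    ext q
    simp
  have := S18.ModB.ord_dvd_of_pow_eq_one L (card_quo_eq_finrank_sub N (jfun τ₀)) (h := 1)
    (by rw [hε]; simp) P (by omega)
  have := Int.le_of_dvd (by norm_num) this
  omega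

/-- **classification of the places of `FN N`**: every place comes from an analytic chart. -/
theorem exists_chart (P : Place Kb (FN N)) :
    ∃ (X : Chart) (hA : ∀ d γ, jdg N d γ ∈ X.A) (_ : Mer N ≤ X.A) (y : FN N)
      (_ : FiniteDimensional Kb⟮y⟯ (FN N)) (_ : Fintype.card (Quo N) = Module.finrank Kb⟮y⟯ (FN N))
      (L : LocalData Kb (FN N) ℂ (Quo N) y) (q : Quo N),
      IsLocalOf N X hA L ∧ L.pl q = P ∧
        ((∃ τ : ℍ, X.g • τ = τ) ∨ X.g = ModularGroup.T) := by
  haveI := finiteDimensional_FN N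
  have hMH : Mer N ≤ Hol := fun f hf => mem_Hol.mpr hf.1
  rcases exists_center (jF N) (transcendental_jF N) P with hP | ⟨a, hP⟩
  · obtain ⟨L, hL⟩ := exists_localData_inf N
    haveI := finiteDimensional_inv N
    obtain ⟨q, hq⟩ := exists_pl_eq _ L (card_quo_eq_finrank_inv N) P hP
    exact ⟨chartInf N, hA_inf N, le_rfl, _, finiteDimensional_inv N, card_quo_eq_finrank_inv N, L, q,
      hL, hq, Or.inr rfl⟩
  · haveI := finiteDimensional_sub N a
    by_cases h0 : a = 0
    · subst h0
      obtain ⟨L, hL⟩ := exists_localData_zero N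
      obtain ⟨q, hq⟩ := exists_pl_eq _ L (card_quo_eq_finrank_sub N 0) P hP
      exact ⟨chartRho, hA_hol N, hMH, _, finiteDimensional_sub N 0, card_quo_eq_finrank_sub N 0, L, q,
        hL, hq, Or.inl ⟨rho, Fermat.Agent.S20.ST_smul_rho⟩⟩
    by_cases h1 : a = 1728
    · subst h1
      obtain ⟨L, hL⟩ := exists_localData_1728 N
      obtain ⟨q, hq⟩ := exists_pl_eq _ L (card_quo_eq_finrank_sub N 1728) P hP
      exact ⟨chartI, hA_hol N, hMH, _, finiteDimensional_sub N 1728,
        card_quo_eq_finrank_sub N 1728, L, q, hL, hq, Or.inl ⟨I, Fermat.Agent.S20.S_smul_I⟩⟩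
    · obtain ⟨τ₀, rfl⟩ := exists_jfun_eq a
      obtain ⟨L, hL⟩ := exists_localData_generic N τ₀ h0 h1
      obtain ⟨q, hq⟩ := exists_pl_eq _ L (card_quo_eq_finrank_sub N (jfun τ₀)) P hP
      exact ⟨chartGen τ₀, hA_hol N, hMH, _, finiteDimensional_sub N (jfun τ₀),
        card_quo_eq_finrank_sub N (jfun τ₀), L, q, hL, hq, Or.inl ⟨τ₀, one_smul _ _⟩⟩

end Fermat.Agent.S29.C24
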