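import Mathlib
import Fermat.Agent.S29.AnK
import Fermat.Agent.S29.C24Main
import Fermat.Agent.S29.HomDefs

set_option autoImplicit false
set_option synthInstance.maxHeartbeats 400000
set_option linter.style.haveILetI false

/-! # S29 [K'], [ORD]: the local expansions of `Phi a`; `p ∣ ord_P (v ^ p)` -/

namespace Fermat.Agent.S29.An

open UpperHalfPlane ModularForm Matrix.SpecialLinearGroup IntermediateField ModularCurve
open AlgebraicCurve
open scoped MatrixGroups ModularForm Manifold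
open Fermat.Agent.S20 (Quo sl)
open Fermat.Agent.S21 (rep mk_rep coc_mem)
open Fermat.Agent.S24
open Fermat.Agent.S29.D2 (FCf FC jC)
open Fermat.Agent.S29.C24 (Chart IsLocalOf)

theorem trace_sq_le_of_fix (γ : SL(2, ℤ)) (τ : ℍ) (h : γ • τ = τ) :
    (γ : Matrix (Fin 2) (Fin 2) ℤ).trace ^ 2 ≤ 4 := by
  have h1 := congrArg (fun z : ℍ => (z : ℂ)) h
  simp only [UpperHalfPlane.coe_specialLinearGroup_apply] at h1
  have hden : ((algebraMap ℤ ℝ (γ 1 0) : ℝ) : ℂ) * τ + ((algebraMap ℤ ℝ (γ 1 1) : ℝ) : ℂ) ≠ 0 := by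
    have := UpperHalfPlane.denom_ne_zero (γ : GL (Fin 2) ℝ) τ
    simpa [UpperHalfPlane.denom] using this
  rw [div_eq_iff hden] at h1
  have hdet := Matrix.SpecialLinearGroup.det_coe γ
  rw [Matrix.det_fin_two] at hdet
  set a := γ 0 0
  set b := γ 0 1
  set c := γ 1 0
  set d := γ 1 1
  have hre := congrArg Complex.re h1
  have him := congrArg Complex.im h1
  simp at hre him
  have hy : 0 < τ.im := τ.im_pos
  set x := τ.re
  set y := τ.im
  have hdetR : (a : ℝ) * d - b * c = 1 := by exact_mod_cast hdet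
  have e1 : (a : ℝ) - d = 2 * c * x := by
    have : y * ((a : ℝ) - d - 2 * c * x) = 0 := by linear_combination him
    rcases mul_eq_zero.mp this with h | h
    · exact absurd h hy.ne'
    · linarith
  have e2 : (b : ℝ) = - c * (x ^ 2 + y ^ 2) := by
    linear_combination hre - x * e1
  have : ((a : ℝ) + d) ^ 2 ≤ 4 := by
    have : ((a : ℝ) + d) ^ 2 - 4 = - 4 * c ^ 2 * y ^ 2 := by
      have : ((a : ℝ) + d) ^ 2 - 4 = (a - d) ^ 2 + 4 * b * c := by linear_combination 4 * hdetR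
      rw [this, e1, e2]; ring
    nlinarith [sq_nonneg ((c : ℝ) * y)]
  rw [Matrix.trace_fin_two]
  exact_mod_cast this

theorem isPE_conj (γ δ : SL(2, ℤ)) (h : IsPE γ) : IsPE (δ⁻¹ * γ * δ) := by
  unfold IsPE at h ⊢
  rw [Matrix.SpecialLinearGroup.coe_mul, Matrix.SpecialLinearGroup.coe_mul,
    Matrix.trace_mul_cycle, ← Matrix.SpecialLinearGroup.coe_mul, mul_inv_cancel,
    Matrix.SpecialLinearGroup.coe_one, one_mul]
  exact h

theorem isPE_T_zpow (n : ℤ) : IsPE (ModularGroup.T ^ n) := by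
  unfold IsPE
  rw [ModularGroup.coe_T_zpow, Matrix.trace_fin_two_of]
  norm_num

theorem isPE_of_fix (γ : SL(2, ℤ)) (τ : ℍ) (h : γ • τ = τ) : IsPE γ := trace_sq_le_of_fix γ τ h

variable {N : ℕ} [NeZero N]

/-- composition with `γ`, as an algebra homomorphism into the algebra of a chart. -/
noncomputable def cmpHom (A : Subalgebra ℂ (ℍ → ℂ)) (hX : Mer N ≤ A) (γ : SL(2, ℤ)) :
    AA N →ₐ[ℂ] A where
  toFun a := ⟨cmp a.1 γ, hX (a.2.1 γ)⟩
  map_one' := rfl
  map_mul' _ _ := rfl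
  map_zero' := rfl
  map_add' _ _ := rfl
  commutes' _ := rfl

/-- the expansion of `a ∘ γ` in a chart. -/
noncomputable def PsiX (X : Chart) (hX : Mer N ≤ X.A) (γ : SL(2, ℤ)) :
    AA N →ₐ[ℂ] LaurentSeries ℂ := X.E.comp (cmpHom X.A hX γ)

theorem PsiX_apply (X : Chart) (hX : Mer N ≤ X.A) (γ : SL(2, ℤ)) (a : AA N) :
    PsiX X hX γ a = X.E ⟨cmp a.1 γ, hX (a.2.1 γ)⟩ := rfl

theorem PhiF_jdA (d : Dv N) : PhiF N (jdA d) = C24.Jd N d := by
  apply Subtype.ext
  rw [coe_PhiF, Phi_jdA]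
  rfl

theorem PhiF_aeval (P : MvPolynomial (Dv N) ℂ) :
    PhiF N (MvPolynomial.aeval jdA P) = MvPolynomial.aeval (C24.Jd N) P := by
  rw [MvPolynomial.comp_aeval_apply jdA (PhiF N) P]
  congr 2
  funext d
  exact PhiF_jdA d

/-- **(K')** the local expansion of `Phi a` is the expansion of the conjugate function. -/
theorem sigma_PhiF {X : Chart} {hA : ∀ d γ, jdg N d γ ∈ X.A} (hX : Mer N ≤ X.A) {y : C24.FN N}
    {L : LocalData ℂ (C24.FN N) ℂ (Quo N) y} (hL : IsLocalOf N X hA L) (q : Quo N) (a : AA N) :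
    L.σ q (PhiF N a) = PsiX X hX (rep q)⁻¹ a := by
  have key : ∀ P : MvPolynomial (Dv N) ℂ, L.σ q (MvPolynomial.aeval (C24.Jd N) P) =
      PsiX X hX (rep q)⁻¹ (MvPolynomial.aeval jdA P) := by
    intro P
    have e : (fun d => L.σ q (C24.Jd N d)) = fun d => PsiX X hX (rep q)⁻¹ (jdA d) := by
      funext d
      rw [hL.σ_eq q d, PsiX_apply]
      exact congrArg X.E (Subtype.ext (cmp_jdg d _).symm)
    rw [MvPolynomial.comp_aeval_apply jdA (PsiX X hX (rep q)⁻¹) P,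
      MvPolynomial.comp_aeval_apply (C24.Jd N) (L.σ q) P, e]
  obtain ⟨P, Q, hPQ⟩ := C24.exists_aeval_div N (PhiF N a)
  by_cases hQ : MvPolynomial.aeval (C24.Jd N) Q = 0
  · rw [hQ, div_zero] at hPQ
    have ha : a = 0 := PhiF_injective (hPQ.trans (map_zero _).symm)
    rw [ha, map_zero, map_zero, map_zero]
  · rw [eq_div_iff hQ, ← PhiF_aeval, ← PhiF_aeval, ← map_mul] at hPQ
    have h1 := PhiF_injective hPQ
    have h2 := congrArg (PsiX X hX (rep q)⁻¹) h1
    rw [map_mul, ← key, ← key] at h2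
    have h3 : L.σ q (MvPolynomial.aeval (C24.Jd N) Q) ≠ 0 := (map_ne_zero _).mpr hQ
    apply mul_right_cancel₀ h3
    rw [h2, ← map_mul]
    congr 1
    rw [← PhiF_aeval, ← PhiF_aeval, ← map_mul, h1]

/-- iterating the rotation of a chart. -/
theorem chart_rot_pow (X : Chart) (r : ℕ) (f : ℍ → ℂ) (hf : f ∈ X.A) :
    ∃ h : (fun z : ℍ => f ((X.g⁻¹) ^ r • z)) ∈ X.A, ∀ n : ℤ,
      (X.E ⟨_, h⟩).coeff n = X.ζ ^ ((r : ℤ) * n) * (X.E ⟨f, hf⟩).coeff n := by
  induction r with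
  | zero =>
    have e : (fun z : ℍ => f ((X.g⁻¹) ^ 0 • z)) = f := by
      funext z; rw [pow_zero, one_smul]
    refine ⟨by rw [e]; exact hf, fun n => ?_⟩
    have e2 : (⟨fun z : ℍ => f ((X.g⁻¹) ^ 0 • z), by rw [e]; exact hf⟩ : X.A) = ⟨f, hf⟩ :=
      Subtype.ext e
    rw [e2]
    simp
  | succ r ih =>
    obtain ⟨h, hr⟩ := ih
    have e : (fun z : ℍ => f ((X.g⁻¹) ^ (r + 1) • z)) =
        fun z : ℍ => (fun w : ℍ => f ((X.g⁻¹) ^ r • w)) (X.g⁻¹ • z) := by
      funext z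
      rw [pow_succ, mul_smul]
    have hm := X.comp_mem ⟨_, h⟩
    refine ⟨by rw [e]; exact hm, fun n => ?_⟩
    have e2 : (⟨fun z : ℍ => f ((X.g⁻¹) ^ (r + 1) • z), by rw [e]; exact hm⟩ : X.A) =
        ⟨_, hm⟩ := Subtype.ext e
    have hζ0 : X.ζ ≠ 0 := X.hζ.ne_zero X.e_pos.ne'
    rw [e2, X.rot ⟨_, h⟩ n, hr n, ← mul_assoc, ← zpow_add₀ hζ0]
    congr 2
    push_cast
    ring

omit [NeZero N] in
theorem conj_mem_Gamma0_of_fix (g : SL(2, ℤ)) (q : Quo N) (h : sl g • q = q) :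
    (rep q)⁻¹ * g⁻¹ * rep q ∈ CongruenceSubgroup.Gamma0 N := by
  have h1 : sl g • (QuotientGroup.mk (sl (rep q)) : Quo N) = QuotientGroup.mk (sl (rep q)) := by
    rw [mk_rep]; exact h
  rw [S20.sl_smul_mk, S20.mk_eq_mk_iff] at h1
  have e : (rep q)⁻¹ * g⁻¹ * rep q = (g * rep q)⁻¹ * rep q := by group
  rw [e]
  exact h1

theorem sl_pow (g : SL(2, ℤ)) (r : ℕ) : sl (g ^ r) = sl g ^ r := by
  induction r with
  | zero => rw [pow_zero, pow_zero, S20.sl_one]
  | succ r ih => rw [pow_succ, pow_succ, S20.sl_mul, ih]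

/-- **(ORD)** if `v` is holomorphic, meromorphic at all cusps, `v ^ p` is `Γ₀(N)`-invariant and
`v` itself is invariant under the parabolic and elliptic elements of `Γ₀(N)`, then the divisor of
`v ^ p` is divisible by `p`. -/
theorem dvd_ord_PhiF (v : ℍ → ℂ) (hv : ∀ γ : SL(2, ℤ), cmp v γ ∈ Mer N) (p : ℕ)
    (hvp : v ^ p ∈ AA N)
    (hPE : ∀ δ ∈ CongruenceSubgroup.Gamma0 N, IsPE δ → ∀ z, v (δ • z) = v z)
    (P : Place ℂ (FC N)) : (p : ℤ) ∣ P.ord (PhiF N ⟨v ^ p, hvp⟩) := by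
  obtain ⟨X, hA, hX, y, hfd, hcard, L, q, hL, hP, hg⟩ := C24.exists_chart N P
  rw [← hP]
  set w : ℍ → ℂ := cmp v (rep q)⁻¹ with hw
  have hwA : w ∈ X.A := hX (hv _)
  refine C24.LocalData.dvd_ord_of_eq_pow y L hcard q (X.E ⟨w, hwA⟩) ?_ _ p ?_
  · intro n
    set r := Function.minimalPeriod (L.ε • ·) q with hr
    obtain ⟨h, hrot⟩ := chart_rot_pow X r w hwA
    have hfix : sl (X.g ^ r) • q = q := by
      have := Function.iterate_minimalPeriod (f := (L.ε • ·)) (x := q)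
      rw [smul_iterate, ← hr, hL.ε_eq] at this
      rw [sl_pow]
      have e : (MulAction.toPerm (sl X.g) : Equiv.Perm (Quo N)) ^ r =
          MulAction.toPerm (sl X.g ^ r) := by
        rw [← MulAction.toPermHom_apply, ← map_pow]; rfl
      rw [e] at this
      exact this
    have hδ := conj_mem_Gamma0_of_fix (X.g ^ r) q hfix
    have hpe : IsPE ((rep q)⁻¹ * (X.g ^ r)⁻¹ * rep q) := by
      apply isPE_conj
      rcases hg with ⟨τ, hτ⟩ | hT
      · apply isPE_of_fix _ τ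
        rw [inv_smul_eq_iff]
        clear hrot h hfix hδ
        induction r with
        | zero => rw [pow_zero, one_smul]
        | succ r ih => rw [pow_succ, mul_smul, hτ]; exact ih
      · rw [hT, ← zpow_natCast, ← zpow_neg]
        exact isPE_T_zpow _
    have e : (fun z : ℍ => w ((X.g⁻¹) ^ r • z)) = w := by
      funext z
      rw [hw, cmp_apply, cmp_apply, ← mul_smul, inv_pow]
      have e1 : (rep q)⁻¹ * (X.g ^ r)⁻¹ = ((rep q)⁻¹ * (X.g ^ r)⁻¹ * rep q) * (rep q)⁻¹ := by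
        group
      rw [e1, mul_smul, hPE _ hδ hpe]
    have e2 : (⟨fun z : ℍ => w ((X.g⁻¹) ^ r • z), h⟩ : X.A) = ⟨w, hwA⟩ := Subtype.ext e
    have := hrot n
    rw [e2] at this
    rw [hL.ζ_eq]
    exact this
  · have h1 := sigma_PhiF hX hL q ⟨v ^ p, hvp⟩
    refine h1.trans ?_
    rw [PsiX_apply, ← map_pow]
    rfl

end Fermat.Agent.S29.An
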