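import Mathlib
import Fermat.Agent.S18.R1

set_option autoImplicit false
set_option linter.unusedSectionVars false
set_option linter.style.haveILetI false

/-! # S29 [D4], part A: the upper bound for the twisted spaces `Vsp` (no divisibility hypothesis). -/

namespace Fermat.Agent.S29.Desc

open AlgebraicCurve IntermediateField IsDedekindDomain Fermat.Agent.S24 Fermat.Agent.S18
  Fermat.Agent.S18.R1
open scoped Classical

variable {K F : Type} [Field K] [Field F] [Algebra K F] [IsAlgClosed K] [CharZero K]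

theorem Vsp_eq_Lof' (t : F) (ht : Transcendental K t) (ht0 : t ≠ 0) [FiniteDimensional K⟮t⟯ F]
    (f : F) (hf : f ≠ 0) (p : ℕ) (hp : 0 < p) (a b : ℤ) :
    Vsp K t f ht0 p hp a b = Lof (fun P : Place K F => Efun t a b P + P.ord f / p) := by
  ext s
  rw [mem_Vsp, Lsp_eq_Lof t ht]
  by_cases hs : s = 0
  · subst hs
    simp [hp.ne']
  rw [mem_Lof_of_ne hs, mem_Lof_of_ne (mul_ne_zero (pow_ne_zero _ hs) hf)]
  refine forall_congr' fun P => ?_
  rw [P.ord_mul (pow_ne_zero _ hs) hf, ord_pow, Efun_mul]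
  have hp' : (0 : ℤ) < p := by exact_mod_cast hp
  have h1 := Int.mul_ediv_add_emod (P.ord f) p
  have h2 := Int.emod_nonneg (P.ord f) hp'.ne'
  have h3 := Int.emod_lt_of_pos (P.ord f) hp'
  set c := P.ord f / p
  set r := P.ord f % p
  constructor
  · intro h
    by_contra hcon
    push Not at hcon
    have : P.ord s + 1 ≤ -(Efun t a b P + c) := hcon
    have : (p : ℤ) * (P.ord s + 1) ≤ p * (-(Efun t a b P + c)) := mul_le_mul_of_nonneg_left this hp'.le
    nlinarith
  · intro h
    have : (p : ℤ) * (-(Efun t a b P + c)) ≤ p * P.ord s := mul_le_mul_of_nonneg_left h hp'.le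
    nlinarith

theorem support_ediv_finite (t : F) (ht : Transcendental K t) [FiniteDimensional K⟮t⟯ F]
    (f : F) (hf : f ≠ 0) (p : ℕ) :
    (Function.support fun P : Place K F => P.ord f / p).Finite := by
  refine (finite_support_ord t ht f hf).subset ?_
  intro P hP
  rw [Function.mem_support] at hP
  show P.ord f ≠ 0
  intro h
  rw [h] at hP
  simp at hP

/-- **[R1-upper]**. -/
theorem finrank_Vsp_le (t : F) (ht : Transcendental K t) (ht0 : t ≠ 0) [FiniteDimensional K⟮t⟯ F]
    (f : F) (hf : f ≠ 0) (p : ℕ) (hp : 0 < p) (g m₀ : ℤ)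
    (hL : ∀ a b : ℤ, m₀ ≤ a + b →
      (Module.finrank K (Lsp K t a b) : ℤ) = (a + b) * Module.finrank K⟮t⟯ F + 1 - g) :
    ∃ m₁ : ℤ, ∀ a b : ℤ, m₁ ≤ a + b →
      (Module.finrank K (Vsp K t f ht0 p hp a b) : ℤ) ≤
        (a + b) * Module.finrank K⟮t⟯ F + 1 - g + ∑ᶠ P : Place K F, P.ord f / p := by
  have hp' : (0 : ℤ) < p := by exact_mod_cast hp
  obtain ⟨f₁, f₂, hf₁, hf₂, hff, hi₁, hi₂⟩ := exists_num t ht f hf
  rw [isIntegral_adjoin_iff t ht] at hi₁ hi₂
  have hpol : {P : Place K F | P.ord t < 0}.Finite := by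
    refine (finite_support_ord t ht t ht0).subset ?_
    intro P hP
    have : P.ord t < 0 := hP
    show P.ord t ≠ 0
    omega
  obtain ⟨A₀, hA₀⟩ := (hpol.image (fun P : Place K F => -(P.ord f / p) - P.ord f₂)).bddAbove
  set A₁ : ℤ := max A₀ 0 with hA₁
  have hA₁0 : 0 ≤ A₁ := le_max_right _ _
  set G : Place K F → ℤ := fun P => A₁ * max (-(P.ord t)) 0 + P.ord f₂ + P.ord f / p with hG
  have hG0 : ∀ P, 0 ≤ G P := by
    intro P
    rcases lt_or_ge (P.ord t) 0 with h | h
    · have h1 : -(P.ord f / p) - P.ord f₂ ≤ A₀ := hA₀ ⟨P, h, rfl⟩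
      have h2 : A₀ ≤ A₁ := le_max_left _ _
      have h3 : max (-(P.ord t)) 0 = -(P.ord t) := max_eq_left (by omega)
      simp only [hG, h3]
      nlinarith
    · have h3 : max (-(P.ord t)) 0 = 0 := max_eq_right (by omega)
      have h4 := hi₁ P h
      have h5 := hi₂ P h
      have h6 : P.ord f = P.ord f₁ - P.ord f₂ := by
        rw [hff, div_eq_mul_inv, P.ord_mul hf₁ (inv_ne_zero hf₂), P.ord_inv]; ring
      simp only [hG, h3, mul_zero, zero_add]
      have h7 : -(P.ord f₂) ≤ P.ord f / p := by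
        rw [Int.le_ediv_iff_mul_le hp']
        nlinarith
      omega
  have hs1 := support_pole_finite t ht
  have hs2 : (Function.support fun P : Place K F => P.ord f₂).Finite := finite_support_ord t ht f₂ hf₂
  have hs3 := support_ediv_finite t ht f hf p
  have hs1' : (Function.support fun P : Place K F => A₁ * max (-(P.ord t)) 0).Finite := by
    refine hs1.subset ?_
    intro P hP
    rw [Function.mem_support] at hP ⊢
    intro h
    rw [h] at hP
    simp at hP
  have hs12 : (Function.support fun P : Place K F =>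
      A₁ * max (-(P.ord t)) 0 + P.ord f₂).Finite := by
    refine (hs1'.union hs2).subset ?_
    intro P hP
    rw [Function.mem_support] at hP
    by_contra hcon
    simp only [Set.mem_union, Function.mem_support, not_or, not_not] at hcon
    apply hP
    rw [hcon.1, hcon.2]
    ring
  have hGfin : (Function.support G).Finite := by
    refine (hs12.union hs3).subset ?_
    intro P hP
    rw [Function.mem_support] at hP
    by_contra hcon
    simp only [Set.mem_union, Function.mem_support, not_or, not_not] at hcon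
    apply hP
    simp only [hG]
    rw [hcon.1, hcon.2]
    ring
  have hsumG : ∑ᶠ P, G P = A₁ * Module.finrank K⟮t⟯ F + ∑ᶠ P : Place K F, P.ord f / p := by
    have e1 : ∑ᶠ P, G P = ∑ᶠ P : Place K F, (A₁ * max (-(P.ord t)) 0 + P.ord f₂)
        + ∑ᶠ P : Place K F, P.ord f / p := by
      rw [← finsum_add_distrib hs12 hs3]
    rw [e1, finsum_add_distrib hs1' hs2, finsum_ord_eq_zero t ht f₂ hf₂, add_zero,
      ← mul_finsum, finsum_pole t ht]
  obtain ⟨Gf, hGf, hGfsum⟩ := exists_finsupp G hG0 hGfin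
  refine ⟨m₀ + A₁, fun a b hab => ?_⟩
  have key := finrank_Lof_le_sub t ht Gf
    (fun P : Place K F => Efun t a b P + P.ord f / p)
  have e2 : (fun P : Place K F => Efun t a b P + P.ord f / p - (Gf P : ℤ)) =
      fun P : Place K F => Efun t (a - A₁) b P - P.ord f₂ := by
    funext P
    rw [hGf P]
    simp only [hG, Efun]
    ring
  rw [e2, finrank_Lof_sub_ord _ f₂ hf₂, ← Lsp_eq_Lof t ht, ← Vsp_eq_Lof' t ht ht0 f hf p hp] at key
  have h1 := hL (a - A₁) b (by omega)
  have key' : (Module.finrank K (Vsp K t f ht0 p hp a b) : ℤ) ≤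
      Module.finrank K (Lsp K t (a - A₁) b) + ((Gf.sum fun _ n => n : ℕ) : ℤ) := by
    exact_mod_cast key
  rw [hGfsum, hsumG, h1] at key'
  linarith

/-- the degree of `⌊div f / p⌋` is negative unless `p ∣ div f`. -/
theorem finsum_ediv_neg (t : F) (ht : Transcendental K t) [FiniteDimensional K⟮t⟯ F]
    (f : F) (hf : f ≠ 0) (p : ℕ) (hp : 0 < p) (Q : Place K F) (hQ : ¬ (p : ℤ) ∣ Q.ord f) :
    ∑ᶠ P : Place K F, P.ord f / p < 0 := by
  have hp' : (0 : ℤ) < p := by exact_mod_cast hp
  have hs3 := support_ediv_finite t ht f hf p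
  have hs4 : (Function.support fun P : Place K F => P.ord f % p).Finite := by
    refine (finite_support_ord t ht f hf).subset ?_
    intro P hP
    rw [Function.mem_support] at hP
    show P.ord f ≠ 0
    intro h
    rw [h] at hP
    simp at hP
  have hs3' : (Function.support fun P : Place K F => (p : ℤ) * (P.ord f / p)).Finite := by
    refine hs3.subset ?_
    intro P hP
    rw [Function.mem_support] at hP ⊢
    intro h
    rw [h] at hP
    simp at hP
  have h1 : (p : ℤ) * ∑ᶠ P : Place K F, P.ord f / p + ∑ᶠ P : Place K F, P.ord f % p = 0 := by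
    rw [mul_finsum, ← finsum_add_distrib hs3' hs4, ← finsum_ord_eq_zero t ht f hf]
    refine finsum_congr fun P => ?_
    exact Int.mul_ediv_add_emod _ _
  have h2 : 0 < ∑ᶠ P : Place K F, P.ord f % p := by
    refine finsum_pos (fun P => Int.emod_nonneg _ hp'.ne') ⟨Q, ?_⟩ hs4
    have := Int.emod_nonneg (Q.ord f) hp'.ne'
    have h3 : Q.ord f % p ≠ 0 := fun h => hQ (Int.dvd_of_emod_eq_zero h)
    omega
  by_contra hcon
  push Not at hcon
  nlinarith

end Fermat.Agent.S29.Desc
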