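import Mathlib
import Fermat.Agent.S29.DescA
import Fermat.Agent.S18.AbsFinal
import Fermat.Agent.S24.PlaceOf

set_option autoImplicit false
set_option linter.unusedSectionVars false
set_option linter.style.haveILetI false

/-! # S29 [D4], part B: descent of `p`-divisible divisor classes along a good reduction with
residue characteristic zero (abstract `VData` form). -/

namespace Fermat.Agent.S29.Desc

open AlgebraicCurve IntermediateField Polynomial Fermat.Agent.S24 Fermat.Agent.S18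

variable {L F k κ : Type} [Field L] [IsAlgClosed L] [CharZero L] [Field F] [Algebra L F]
  [Field k] [IsAlgClosed k] [CharZero k] [Field κ] [Algebra k κ]

/-- (D4a), dimension form. -/
theorem dvd_ord_rd_of_formula (V : VData L F k κ) (t : F) (h : GR.GoodCoord V t) (g m0 : ℤ)
    (hfdL : ∀ a b : ℤ, FiniteDimensional L (Lsp L t a b))
    (hfdk : ∀ a b : ℤ, FiniteDimensional k (Lsp k (V.rd t) a b))
    (hL : ∀ a b : ℤ, m0 ≤ a + b → (Module.finrank L (Lsp L t a b) : ℤ)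
        = (a + b) * Module.finrank L⟮t⟯ F + 1 - g)
    (hk : ∀ a b : ℤ, m0 ≤ a + b → (Module.finrank k (Lsp k (V.rd t) a b) : ℤ)
        = (a + b) * Module.finrank L⟮t⟯ F + 1 - g)
    (p : ℕ) (hp : 0 < p) (f : F) (hf : V.rd f ≠ 0)
    (hdiv : ∀ P : Place L F, (p : ℤ) ∣ P.ord f) (Q : Place k κ) : (p : ℤ) ∣ Q.ord (V.rd f) := by
  haveI := h.fd
  haveI := h.fdb
  have htL : Transcendental L t := V.transcendental_t h.htr
  have ht0 : t ≠ 0 := by
    rintro rfl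
    exact htL isAlgebraic_zero
  have hf0 : f ≠ 0 := by
    rintro rfl
    exact hf V.rd_zero
  have hfO : f ∈ V.O := V.mem_of_rd_ne_zero hf
  obtain ⟨B⟩ := V.exists_onBasis h.htr h.hn
  by_contra hQ
  have hneg := finsum_ediv_neg (V.rd t) h.htr (V.rd f) hf p hp Q hQ
  obtain ⟨m1, hm1⟩ := finrank_Vsp_le (V.rd t) h.htr h.rd_ne_zero (V.rd f) hf p hp g m0
    (by rw [← h.hn]; exact hk)
  rw [← h.hn] at hm1
  set a : ℤ := max m0 m1 with ha
  have h1 := R1.finrank_Vsp_ge t htL ht0 f hf0 p hp hdiv g m0 hL a 0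
    (by rw [add_zero]; exact le_max_left _ _)
  have h2 := hm1 a 0 (by rw [add_zero]; exact le_max_right _ _)
  haveI := hfdL (p * a) (p * 0)
  haveI := hfdk (p * a) (p * 0)
  haveI := finiteDimensional_Vsp (K := L) ht0 hf0 hp a 0
  haveI := finiteDimensional_Vsp (K := k) h.rd_ne_zero hf hp a 0
  have h3 := (GR.finrank_le_of_rd_mem V h.htr B (Vsp L t f ht0 p hp a 0)
    (Vsp k (V.rd t) (V.rd f) h.rd_ne_zero p hp a 0) (fun x hx hxO => by
      rw [mem_Vsp] at hx ⊢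
      rw [← V.rd_pow hxO, ← V.rd_mul (pow_mem hxO _) hfO]
      exact h.rd_mem_Lsp hx (mul_mem (pow_mem hxO _) hfO))).1
  have h3' : (Module.finrank L (Vsp L t f ht0 p hp a 0) : ℤ) ≤
      Module.finrank k (Vsp k (V.rd t) (V.rd f) h.rd_ne_zero p hp a 0) := by exact_mod_cast h3
  linarith

/-- (D4a). -/
theorem dvd_ord_rd (V : VData L F k κ) (t : F) (h : GR.GoodCoord V t)
    (β₀ β₁ : V.A[X]) (hsq₀ : Squarefree (β₀.map V.π)) (hsq₁ : Squarefree (β₁.map V.π))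
    (hunr₀ : GR.Hunr L t (β₀.map V.A.subtype)) (hunr₁ : GR.Hunr L t⁻¹ (β₁.map V.A.subtype))
    (p : ℕ) (hp : 0 < p) (f : F) (hf : V.rd f ≠ 0)
    (hdiv : ∀ P : Place L F, (p : ℤ) ∣ P.ord f) (Q : Place k κ) : (p : ℤ) ∣ Q.ord (V.rd f) := by
  obtain ⟨g, m0, h1, h2, h3, h4, -⟩ := h.good_reduction_of_hunr β₀ β₁ hsq₀ hsq₁ hunr₀ hunr₁
  exact dvd_ord_rd_of_formula V t h g m0 h1 h2 h3 h4 p hp f hf hdiv Q

omit [IsAlgClosed L] [CharZero L] [IsAlgClosed k] [CharZero k] in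
/-- restriction of places along a ring homomorphism `κ → F` over `k → L`. -/
theorem dvd_ord_of_ringHom (ι : κ →+* F) (j : k →+* L)
    (hιj : ∀ c : k, ι (algebraMap k κ c) = algebraMap L F (j c)) (m : ℕ) (f : κ)
    (hf : ∀ Q : Place k κ, (m : ℤ) ∣ Q.ord f) (P' : Place L F) : (m : ℤ) ∣ P'.ord (ι f) := by
  by_cases hf0 : f = 0
  · rw [hf0, map_zero, Place.ord_zero]
    exact dvd_zero _
  have hι : ∀ g : κ, g ≠ 0 → ι g ≠ 0 := fun g hg => (map_ne_zero ι).2 hg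
  by_cases hpos : ∃ y : κ, y ≠ 0 ∧ 0 < P'.ord (ι y)
  · let W : IntVal k κ :=
      { w := fun g => P'.ord (ι g)
        w_mul := fun f g hf hg => by
          show P'.ord (ι (f * g)) = _
          rw [map_mul, P'.ord_mul (hι f hf) (hι g hg)]
        w_add := fun f g _ _ hfg => by
          show _ ≤ P'.ord (ι (f + g))
          rw [map_add]
          refine ord_add_ge P' ?_
          rw [← map_add]
          exact hι _ hfg
        w_const := fun a => by
          show P'.ord (ι (algebraMap k κ a)) = 0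
          rw [hιj, ord_algebraMap]
        w_pos := hpos }
    obtain ⟨v, c, -, hc⟩ := W.exists_place
    have := hc f hf0
    show (m : ℤ) ∣ W.w f
    rw [this]
    exact Dvd.dvd.mul_left (hf v) _
  · push Not at hpos
    have h1 := hpos f hf0
    have h2 := hpos f⁻¹ (inv_ne_zero hf0)
    rw [map_inv₀, Place.ord_inv] at h2
    have : P'.ord (ι f) = 0 := by omega
    rw [this]
    exact dvd_zero _

/-- (D4b), surjectivity. -/
theorem exists_descent (V : VData L F k κ) (t : F) (h : GR.GoodCoord V t)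
    (hrk : ∀ c c0 : L, V.A.valuation c < 1 → c0 ≠ 0 →
      ∃ j : ℕ, V.A.valuation c ^ j ≤ V.A.valuation c0)
    (β₀ β₁ : V.A[X]) (hsq₀ : Squarefree (β₀.map V.π)) (hsq₁ : Squarefree (β₁.map V.π))
    (hunr₀ : GR.Hunr L t (β₀.map V.A.subtype)) (hunr₁ : GR.Hunr L t⁻¹ (β₁.map V.A.subtype))
    (ι : κ →+* F) (j : k →+* L)
    (hιj : ∀ c : k, ι (algebraMap k κ c) = algebraMap L F (j c))
    (hι : ∀ y : κ, ι y ∈ V.O ∧ V.rd (ι y) = y)
    (p : ℕ) (hp : 0 < p) (f : F) (hf : f ≠ 0)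
    (hdiv : ∀ P : Place L F, (p : ℤ) ∣ P.ord f) :
    ∃ f₀ : κ, f₀ ≠ 0 ∧ (∀ Q : Place k κ, (p : ℤ) ∣ Q.ord f₀) ∧ ∃ s : F, f = ι f₀ * s ^ p := by
  obtain ⟨c, hc, hne⟩ := V.exists_scale hf
  have hcF : algebraMap L F c ≠ 0 := by simpa using hc
  set f' : F := algebraMap L F c * f with hf'
  have hdiv' : ∀ P : Place L F, (p : ℤ) ∣ P.ord f' := by
    intro P
    rw [hf', P.ord_mul hcF hf, ord_algebraMap, zero_add]
    exact hdiv P
  have hQ := dvd_ord_rd V t h β₀ β₁ hsq₀ hsq₁ hunr₀ hunr₁ p hp f' hne hdiv'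
  set f₀ : κ := V.rd f' with hf₀
  have hιne : ι f₀ ≠ 0 := (map_ne_zero ι).2 hne
  have hrdι : V.rd (ι f₀) ≠ 0 := by rw [(hι f₀).2]; exact hne
  have hpk : ((p : ℕ) : k) ≠ 0 := by exact_mod_cast hp.ne'
  obtain ⟨s, hs⟩ := abs_core_of_hunr V t h hrk β₀ β₁ hsq₀ hsq₁ hunr₀ hunr₁ p hpk
    (f' * (ι f₀)⁻¹) 1 one_ne_zero (by
      rw [V.rd_mul (V.mem_of_rd_ne_zero hne) (V.inv_mem_of_rd_ne_zero hrdι), V.rd_inv hrdι,
        (hι f₀).2, one_pow]
      exact mul_inv_cancel₀ hne) (fun P => by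
      have hf'0 : f' ≠ 0 := mul_ne_zero hcF hf
      rw [P.ord_mul hf'0 (inv_ne_zero hιne), P.ord_inv]
      exact dvd_add (hdiv' P) ((dvd_neg).2 (dvd_ord_of_ringHom ι j hιj p f₀ hQ P)))
  obtain ⟨c', hc'⟩ := IsAlgClosed.exists_pow_nat_eq c hp
  have hc'0 : c' ≠ 0 := by
    rintro rfl
    rw [zero_pow hp.ne'] at hc'
    exact hc hc'.symm
  have hc'F : algebraMap L F c' ≠ 0 := by simpa using hc'0
  refine ⟨f₀, hne, hQ, s * (algebraMap L F c')⁻¹, ?_⟩
  rw [mul_pow, ← hs, inv_pow, ← map_pow, hc', hf']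
  field_simp

omit [IsAlgClosed L] [CharZero L] [IsAlgClosed k] [CharZero k] in
/-- (D4b), injectivity. -/
theorem exists_root_of_root (V : VData L F k κ) (ι : κ →+* F)
    (hι : ∀ y : κ, ι y ∈ V.O ∧ V.rd (ι y) = y)
    (p : ℕ) (hp : 0 < p) (f₀ : κ) (s : F) (hs : ι f₀ = s ^ p) : ∃ s₀ : κ, f₀ = s₀ ^ p := by
  by_cases hf0 : f₀ = 0
  · exact ⟨0, by rw [hf0, zero_pow hp.ne']⟩
  have hsO : s ∈ V.O := by
    rcases V.mem_or_inv_mem s with h | h
    · exact h
    · -- `s⁻¹ ∈ O` and `s ^ p` is a unit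
      have h1 : V.rd (s ^ p) ≠ 0 := by rw [← hs, (hι f₀).2]; exact hf0
      have hs0 : s ≠ 0 := by
        rintro rfl
        rw [zero_pow hp.ne'] at h1
        exact h1 V.rd_zero
      have h2 : s = s ^ p * (s⁻¹) ^ (p - 1) := by
        obtain ⟨q, rfl⟩ : ∃ q, p = q + 1 := ⟨p - 1, by omega⟩
        simp only [Nat.add_sub_cancel]
        rw [inv_pow, pow_succ, mul_comm (s ^ q) s, mul_assoc, mul_inv_cancel₀ (pow_ne_zero _ hs0),
          mul_one]
      rw [h2]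
      exact mul_mem (V.mem_of_rd_ne_zero h1) (pow_mem h _)
  refine ⟨V.rd s, ?_⟩
  rw [← V.rd_pow hsO, ← hs, (hι f₀).2]

end Fermat.Agent.S29.Desc
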