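import Mathlib
import Fermat.Agent.S29.DescB
import Fermat.Agent.S29.D2c
import Fermat.Agent.S29.Exotic
import Fermat.Agent.S18.ThreePt

set_option autoImplicit false
set_option linter.unusedSectionVars false
set_option linter.style.haveILetI false
set_option synthInstance.maxHeartbeats 400000

/-! # S29 [D4], part C: descent `F_ℂ → F_ℚ̄` of `p`-divisible divisor classes for `X₀(M)`. -/

namespace Fermat.Agent.S29.Desc

open AlgebraicCurve IntermediateField Polynomial Fermat.Agent.S24 Fermat.Agent.S18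
open Fermat.Agent.S29.D2

section three

variable {L F k κ : Type} [Field L] [IsAlgClosed L] [CharZero L] [Field F] [Algebra L F]
  [Field k] [IsAlgClosed k] [CharZero k] [Field κ] [Algebra k κ]

/-- descent for a good coordinate `x` whose branch values are among `0, c₂, ∞`. -/
theorem exists_descent_three (V : VData L F k κ) (x : F) (hx : V.GoodCoord x)
    [Algebra.IsSeparable k⟮V.rd x⟯ κ]
    (a₀ c₂ : V.A) (ha₀ : V.π a₀ ≠ 0) (hc₂ : V.π c₂ ≠ 0) (hne : V.π a₀ ≠ V.π c₂)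
    (hunb : ∀ c : L, c ≠ 0 → c ≠ c₂ → ∀ P : Place L F, P.ord (x - algebraMap L F c) ≤ 1)
    (hrk : ∀ c c0 : L, V.A.valuation c < 1 → c0 ≠ 0 →
      ∃ j : ℕ, V.A.valuation c ^ j ≤ V.A.valuation c0)
    (ι : κ →+* F) (j : k →+* L)
    (hιj : ∀ c : k, ι (algebraMap k κ c) = algebraMap L F (j c))
    (hι : ∀ y : κ, ι y ∈ V.O ∧ V.rd (ι y) = y)
    (p : ℕ) (hp : 0 < p) (f : F) (hf : f ≠ 0)
    (hdiv : ∀ P : Place L F, (p : ℤ) ∣ P.ord f) :
    ∃ f₀ : κ, f₀ ≠ 0 ∧ (∀ Q : Place k κ, (p : ℤ) ∣ Q.ord f₀) ∧ ∃ s : F, f = ι f₀ * s ^ p := by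
  have hsq0 : Squarefree ((ThreePt.beta0 a₀ c₂).map V.π) := by
    rw [ThreePt.map_beta0]
    exact ThreePt.squarefree_beta0 _ _ ha₀ (sub_ne_zero.2 hne.symm) (by simpa using hc₂)
  have hsq1 : Squarefree ((ThreePt.beta1 a₀ c₂).map V.π) := by
    rw [ThreePt.map_beta1]
    refine ThreePt.squarefree_beta1 _ _ ?_
    intro h
    apply hc₂
    linear_combination h
  exact exists_descent V _ (ThreePt.goodCoord V x hx a₀) hrk (ThreePt.beta0 a₀ c₂)
    (ThreePt.beta1 a₀ c₂) hsq0 hsq1 (ThreePt.hunr0 V x hx a₀ c₂ hunb)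
    (ThreePt.hunr1 V x hx a₀ c₂ hunb) ι j hιj hι p hp f hf hdiv

end three

/-- the branch hypothesis over `ℂ` (from [S24C]). -/
def HunbC (M : ℕ) : Prop :=
  ∀ c : ℂ, c ≠ 0 → c ≠ 1728 → ∀ P : Place ℂ (FC M), P.ord (jC M - algebraMap ℂ (FC M) c) ≤ 1

variable (M : ℕ) [NeZero M]

theorem desc (hunb : HunbC M) (p : ℕ) (hp : 0 < p) (f : FC M) (hf : f ≠ 0)
    (hdiv : ∀ P : Place ℂ (FC M), (p : ℤ) ∣ P.ord f) :
    ∃ f₀ : FN M, f₀ ≠ 0 ∧ (∀ Q : Place Kb (FN M), (p : ℤ) ∣ Q.ord f₀) ∧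
      ∃ s : FC M, f = cl M f₀ * s ^ p := by
  obtain ⟨B, π, hB, hrk⟩ := exists_exotic
  obtain ⟨D⟩ := exists_anData_top (M := M)
  set V := VC D B π hB with hV
  have hx : V.GoodCoord (jC M) := VC_goodCoord D B π hB
  haveI := hx.fd'
  haveI : CharZero Kb⟮V.rd (jC M)⟯ :=
    charZero_of_injective_algebraMap (algebraMap Kb Kb⟮V.rd (jC M)⟯).injective
  haveI : Algebra.IsSeparable Kb⟮V.rd (jC M)⟯ (FN M) := inferInstance
  have h1 : π (1 : B) = 1 := map_one π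
  have h1728 : π (1728 : B) = 1728 := map_ofNat π 1728
  refine exists_descent_three V (jC M) hx (1 : B) (1728 : B) ?_ ?_ ?_ ?_ hrk (cl M) iota
    (cl_algebraMap M) (VC_cl D B π hB) p hp f hf hdiv
  · show π (1 : B) ≠ 0
    rw [h1]; exact one_ne_zero
  · show π (1728 : B) ≠ 0
    rw [h1728]; norm_num
  · show π (1 : B) ≠ π (1728 : B)
    rw [h1, h1728]; norm_num
  · intro c hc0 hc P
    exact hunb c hc0 hc P

omit [NeZero M] in
theorem desc_dvd (p : ℕ) (f₀ : FN M) (h : ∀ Q : Place Kb (FN M), (p : ℤ) ∣ Q.ord f₀)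
    (P : Place ℂ (FC M)) : (p : ℤ) ∣ P.ord (cl M f₀) :=
  dvd_ord_of_ringHom (cl M) iota (cl_algebraMap M) p f₀ h P

theorem desc_inj (p : ℕ) (hp : 0 < p) (f₀ : FN M) (s : FC M) (hs : cl M f₀ = s ^ p) :
    ∃ s₀ : FN M, f₀ = s₀ ^ p := by
  obtain ⟨B, π, hB, -⟩ := exists_exotic
  obtain ⟨D⟩ := exists_anData_top (M := M)
  exact exists_root_of_root (VC D B π hB) (cl M) (VC_cl D B π hB) p hp f₀ s hs

end Fermat.Agent.S29.Desc
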