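import Mathlib
import Fermat.Agent.S29.DescC
import Fermat.Agent.S29.C24Main

set_option autoImplicit false
set_option linter.unusedSectionVars false
set_option linter.style.haveILetI false
set_option synthInstance.maxHeartbeats 400000

/-! # S29 [D4], part D: unconditional descent `F_ℂ → F_ℚ̄` for `X₀(M)`. -/

namespace Fermat.Agent.S29.Desc

open AlgebraicCurve IntermediateField Polynomial ModularCurve
open Fermat.Agent.S24 (Kb FN)
open Fermat.Agent.S29.D2

variable (M : ℕ) [NeZero M]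

theorem jF_eq_jC : C24.jF M = jC M := by
  apply Subtype.ext
  rw [C24.coe_jF]
  show coeffEmb ℂ jq = jqModC ℂ
  rw [coeffEmb, ← jqModC_rat, coeffMap_jqModC]

theorem hunbC : HunbC M := by
  intro c hc0 hc P
  have := C24.ord_sub_le_one M c hc0 hc P
  rw [jF_eq_jC] at this
  exact this

/-- **DESC**: every `f ∈ F_ℂ` with `p ∣ div f` is `cl f₀ * s ^ p` with `f₀ ∈ F_ℚ̄`, `p ∣ div f₀`. -/
theorem desc' (p : ℕ) (hp : 0 < p) (f : FC M) (hf : f ≠ 0)
    (hdiv : ∀ P : Place ℂ (FC M), (p : ℤ) ∣ P.ord f) :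
    ∃ f₀ : FN M, f₀ ≠ 0 ∧ (∀ Q : Place Kb (FN M), (p : ℤ) ∣ Q.ord f₀) ∧
      ∃ s : FC M, f = cl M f₀ * s ^ p :=
  desc M (hunbC M) p hp f hf hdiv

end Fermat.Agent.S29.Desc
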