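import Fermat.Agent.S29.EisTwA
import Fermat.Agent.S29.HomDefs

set_option autoImplicit false

/-! # S29 (B1): twisted Eisenstein series for a multiplier `χ : Γ₀(N) → ℂˣ` -/

namespace Fermat.Agent.S29

open UpperHalfPlane ModularForm EisensteinSeries Matrix Matrix.SpecialLinearGroup Filter Set
open CongruenceSubgroup
open scoped MatrixGroups ModularForm Manifold Topology

namespace Eis

/-- the bottom row. -/
def brow (γ : SL(2, ℤ)) : Fin 2 → ℤ := (γ : Matrix (Fin 2) (Fin 2) ℤ) 1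

theorem brow_mul (γ δ : SL(2, ℤ)) :
    brow (γ * δ) = brow γ ᵥ* (δ : Matrix (Fin 2) (Fin 2) ℤ) := by
  ext j
  simp [brow, Matrix.vecMul, dotProduct, Matrix.mul_apply, Matrix.SpecialLinearGroup.coe_mul]

/-- same bottom row: the quotient is unipotent. -/
theorem isPE_of_brow_eq {γ γ' : SL(2, ℤ)} (h : brow γ' = brow γ) : IsPE (γ' * γ⁻¹) := by
  have h0 : γ' 1 0 = γ 1 0 := congrFun h 0
  have h1 : γ' 1 1 = γ 1 1 := congrFun h 1
  have d' := Matrix.SpecialLinearGroup.det_coe γ'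
  have d := Matrix.SpecialLinearGroup.det_coe γ
  rw [Matrix.det_fin_two] at d d'
  unfold IsPE
  have : (((γ' * γ⁻¹ : SL(2, ℤ)) : Matrix (Fin 2) (Fin 2) ℤ)).trace = 2 := by
    rw [Matrix.SpecialLinearGroup.coe_mul, Matrix.SpecialLinearGroup.coe_inv,
      Matrix.adjugate_fin_two, Matrix.trace_fin_two]
    simp [Matrix.mul_apply, Fin.sum_univ_two]
    rw [h0, h1] at *
    linarith
  rw [this]
  norm_num

variable {N : ℕ}

/-- the multiplier kills the parabolic and the elliptic elements. -/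
def KillsPE (χ : Gamma0 N →* ℂˣ) : Prop := ∀ γ : Gamma0 N, IsPE (γ : SL(2, ℤ)) → χ γ = 1

/-- the coefficients of the twisted Eisenstein series. -/
noncomputable def coef (χ : Gamma0 N →* ℂˣ) (x : Fin 2 → ℤ) : ℂ :=
  open Classical in
  if h : ∃ γ : Gamma0 N, brow (γ : SL(2, ℤ)) = x then ((χ h.choose)⁻¹ : ℂˣ) else 0

theorem coef_brow {χ : Gamma0 N →* ℂˣ} (hχ : KillsPE χ) (γ : Gamma0 N) :
    coef χ (brow (γ : SL(2, ℤ))) = ((χ γ)⁻¹ : ℂˣ) := by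
  have h : ∃ γ' : Gamma0 N, brow (γ' : SL(2, ℤ)) = brow (γ : SL(2, ℤ)) := ⟨γ, rfl⟩
  unfold coef
  rw [dif_pos h]
  have h1 := hχ (h.choose * γ⁻¹) (by
    rw [Subgroup.coe_mul, Subgroup.coe_inv]
    exact isPE_of_brow_eq h.choose_spec)
  rw [map_mul, map_inv, mul_inv_eq_one] at h1
  rw [h1]

theorem coef_of_not {χ : Gamma0 N →* ℂˣ} {x : Fin 2 → ℤ}
    (h : ¬ ∃ γ : Gamma0 N, brow (γ : SL(2, ℤ)) = x) : coef χ x = 0 := by
  unfold coef
  rw [dif_neg h]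

theorem coef_vecMul {χ : Gamma0 N →* ℂˣ} (hχ : KillsPE χ) (δ : Gamma0 N) (x : Fin 2 → ℤ) :
    coef χ (x ᵥ* ((δ : SL(2, ℤ)) : Matrix (Fin 2) (Fin 2) ℤ)) = ((χ δ)⁻¹ : ℂˣ) * coef χ x := by
  by_cases h : ∃ γ : Gamma0 N, brow (γ : SL(2, ℤ)) = x
  · obtain ⟨γ, rfl⟩ := h
    rw [← brow_mul, ← Subgroup.coe_mul, coef_brow hχ, coef_brow hχ, map_mul, mul_inv,
      Units.val_mul, mul_comm]
  · rw [coef_of_not h, mul_zero]
    apply coef_of_not
    rintro ⟨γ, hγ⟩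
    apply h
    refine ⟨γ * δ⁻¹, ?_⟩
    rw [Subgroup.coe_mul, brow_mul, hγ, Subgroup.coe_inv, vecMul_vecMul_inv]

theorem norm_coef_le {χ : Gamma0 N →* ℂˣ} (hn : ∀ γ, ‖(χ γ : ℂ)‖ = 1) (x : Fin 2 → ℤ) :
    ‖coef χ x‖ ≤ 1 := by
  unfold coef
  split_ifs with h
  · rw [Units.val_inv_eq_inv_val, norm_inv, hn, inv_one]
  · simp

theorem wsum_const_mul (c : ℂ) (a : (Fin 2 → ℤ) → ℂ) (k : ℤ) (z : ℍ) :
    wsum (fun x => c * a x) k z = c * wsum a k z := by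
  unfold wsum
  rw [← tsum_mul_left]
  exact tsum_congr fun x => mul_assoc _ _ _

/-- the twisted Eisenstein series. -/
noncomputable def Echi (χ : Gamma0 N →* ℂˣ) (k : ℤ) (z : ℍ) : ℂ := wsum (coef χ) k z

theorem Echi_smul {χ : Gamma0 N →* ℂˣ} (hχ : KillsPE χ) (k : ℤ) (δ : Gamma0 N) (z : ℍ) :
    Echi χ k ((δ : SL(2, ℤ)) • z) = (χ δ : ℂ) * denom (δ : SL(2, ℤ)) z ^ k * Echi χ k z := by
  unfold Echi
  rw [wsum_smul]
  have : (fun x : Fin 2 → ℤ => coef χ (x ᵥ* (((δ : SL(2, ℤ))⁻¹ : SL(2, ℤ)) :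
      Matrix (Fin 2) (Fin 2) ℤ))) = fun x => (χ δ : ℂ) * coef χ x := by
    funext x
    rw [← Subgroup.coe_inv, coef_vecMul hχ, map_inv, inv_inv]
  rw [this, wsum_const_mul]
  ring

end Eis

end Fermat.Agent.S29
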