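import Fermat.Agent.S29.HomDefs
import Fermat.Agent.S24.MerTri
import Fermat.Agent.S28.Tri
import Fermat.Agent.S28.Herm

set_option autoImplicit false

/-! # S29 (B): holomorphic functions of weight `k` with a multiplier `χ : Γ₀(N) → ℂˣ` -/

namespace Fermat.Agent.S29

open UpperHalfPlane ModularForm Matrix Matrix.SpecialLinearGroup Filter
open CongruenceSubgroup
open scoped MatrixGroups ModularForm Manifold Topology
open Fermat.Agent.S24 (IsMer Mer qN)

/-- weight `k`, multiplier `χ`, level `Γ₀(N)`; every slash is holomorphic, `N`-periodic and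
meromorphic at `i∞`. -/
structure IsForm (N : ℕ) (χ : Gamma0 N →* ℂˣ) (k : ℤ) (A : ℍ → ℂ) : Prop where
  slash : ∀ δ : Gamma0 N, A ∣[k] (δ : SL(2, ℤ)) = (χ δ : ℂ) • A
  mer : ∀ γ : SL(2, ℤ), IsMer N (A ∣[k] γ)

namespace IsForm

variable {N : ℕ} {χ χ' : Gamma0 N →* ℂˣ} {k k' : ℤ} {A B : ℍ → ℂ}

theorem apply_smul (h : IsForm N χ k A) (δ : Gamma0 N) (z : ℍ) :
    A ((δ : SL(2, ℤ)) • z) = (χ δ : ℂ) * denom (δ : SL(2, ℤ)) z ^ k * A z := by
  have := congrFun (h.slash δ) z
  rw [SL_slash_apply, Pi.smul_apply, smul_eq_mul, _root_.zpow_neg,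
    mul_inv_eq_iff_eq_mul₀ (zpow_ne_zero _ (denom_ne_zero _ z))] at this
  rw [this]
  ring

theorem isMer (h : IsForm N χ k A) : IsMer N A := by
  have := h.mer 1
  rwa [SlashAction.slash_one] at this

theorem mdiff (h : IsForm N χ k A) : MDiff A := h.isMer.1

theorem mul (h : IsForm N χ k A) (h' : IsForm N χ' k' B) :
    IsForm N (χ * χ') (k + k') (A * B) where
  slash δ := by
    rw [mul_slash_SL2, h.slash, h'.slash]
    funext z
    simp only [Pi.mul_apply, Pi.smul_apply, smul_eq_mul, MonoidHom.mul_apply, Units.val_mul]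
    ring
  mer γ := by
    rw [mul_slash_SL2]
    exact (Mer N).mul_mem (h.mer γ) (h'.mer γ)

theorem add (h : IsForm N χ k A) (h' : IsForm N χ k B) : IsForm N χ k (A + B) where
  slash δ := by
    rw [SlashAction.add_slash, h.slash, h'.slash, smul_add]
  mer γ := by
    rw [SlashAction.add_slash]
    exact (Mer N).add_mem (h.mer γ) (h'.mer γ)

theorem const_smul (h : IsForm N χ k A) (c : ℂ) : IsForm N χ k (c • A) where
  slash δ := by
    rw [SL_smul_slash, h.slash, smul_comm]
  mer γ := by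
    rw [SL_smul_slash]
    exact (Mer N).smul_mem (h.mer γ) c

theorem one : IsForm N 1 0 (1 : ℍ → ℂ) where
  slash δ := by
    rw [is_invariant_one]
    simp
  mer γ := by
    rw [is_invariant_one]
    exact (Mer N).one_mem

theorem const (c : ℂ) : IsForm N 1 0 (fun _ => c) := by
  have := (one (N := N)).const_smul c
  convert this using 1
  funext z
  simp

theorem pow (h : IsForm N χ k A) (n : ℕ) : IsForm N (χ ^ n) (n * k) (A ^ n) := by
  induction n with
  | zero =>
    have e : χ ^ 0 = 1 := pow_zero χ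
    rw [e, pow_zero, Nat.cast_zero, zero_mul]
    exact one
  | succ n ih =>
    have := ih.mul h
    have e : χ ^ (n + 1) = χ ^ n * χ := pow_succ χ n
    rw [e, pow_succ]
    convert this using 1
    push_cast
    ring

theorem congr_weight (h : IsForm N χ k A) (hk : k = k') (hχ : χ = χ') : IsForm N χ' k' A := by
  subst hk hχ
  exact h

end IsForm

theorem qN_pow_self (N : ℕ) [NeZero N] (z : ℍ) : qN N z ^ N = qN 1 z := by
  unfold qN Function.Periodic.qParam
  rw [← Complex.exp_nat_mul]
  congr 1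
  have : (N : ℂ) ≠ 0 := by exact_mod_cast NeZero.ne N
  push_cast
  field_simp

theorem isMer_of_one (N : ℕ) [NeZero N] {f : ℍ → ℂ} (hf : IsMer 1 f) : IsMer N f := by
  obtain ⟨h1, h2, m, h3⟩ := hf
  refine ⟨h1, fun z => S24.mer_one_vadd_nat ⟨f, h1, h2, m, h3⟩ N z, N * m, ?_⟩
  refine h3.congr' ?_ (EventuallyEq.refl _ _)
  exact Eventually.of_forall fun z => by
    show qN 1 z ^ m * f z = qN N z ^ (N * m) * f z
    rw [pow_mul, qN_pow_self]

theorem isForm_of_levelOne (N : ℕ) [NeZero N] {k : ℤ} {A : ℍ → ℂ} (h1 : IsMer 1 A)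
    (h2 : ∀ γ : SL(2, ℤ), A ∣[k] γ = A) : IsForm N 1 k A where
  slash δ := by
    rw [h2]
    simp
  mer γ := by
    rw [h2]
    exact isMer_of_one N h1

/-- `Δ`. -/
noncomputable def discF (z : ℍ) : ℂ := ModularForm.discriminant z

theorem discF_ne_zero (z : ℍ) : discF z ≠ 0 := discriminant_ne_zero z

theorem isForm_disc (N : ℕ) [NeZero N] : IsForm N 1 12 discF := by
  apply isForm_of_levelOne
  · have := S24.discMer.2
    have e : S24.discMer.1 = discF := funext S24.discMer_apply
    rwa [e] at this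
  · intro γ
    funext z
    rw [SL_slash_apply, discF, S28.disc_smul_aux, _root_.zpow_neg, discF, mul_comm, ← mul_assoc,
      inv_mul_cancel₀ (zpow_ne_zero _ (denom_ne_zero _ z)), one_mul]

theorem isForm_inv_disc (N : ℕ) [NeZero N] : IsForm N 1 (-12) discF⁻¹ := by
  apply isForm_of_levelOne
  · exact S28.Tri.inv_disc_mem_Mer
  · intro γ
    funext z
    rw [SL_slash_apply, Pi.inv_apply, Pi.inv_apply, discF, S28.disc_smul_aux, neg_neg, discF,
      mul_inv, mul_comm, ← mul_assoc,
      mul_inv_cancel₀ (zpow_ne_zero _ (denom_ne_zero _ z)), one_mul]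

end Fermat.Agent.S29
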