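import Mathlib
import Fermat.Agent.S29.AnOrd
import Fermat.Agent.S29.DescD
import Fermat.Agent.S29.Defs
import Fermat.Agent.S29.EisTwB
import Fermat.Agent.S29.FormDefs

set_option autoImplicit false
set_option synthInstance.maxHeartbeats 400000
set_option linter.style.haveILetI false

/-! # S29 THETA PACKAGE, part A: characters, theta functions, the relation `Rel` -/

namespace Fermat.Agent.S29.Th

open UpperHalfPlane ModularForm Matrix.SpecialLinearGroup IntermediateField ModularCurve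
open AlgebraicCurve CongruenceSubgroup
open scoped MatrixGroups ModularForm Manifold
open Fermat.Agent.S24 (Mer expInf expInf_injective Kb FN)
open Fermat.Agent.S29.D2 (FCf FC jC cl)
open Fermat.Agent.S29.An (cmp AA Phi PhiF)

variable {N : ℕ} {p : ℕ} [NeZero p]

/-- the character `γ ↦ exp(2πi c(γ)/p)`. -/
noncomputable def chiOf (c : Additive (Gamma0 N) →+ ZMod p) : Gamma0 N →* ℂˣ where
  toFun γ := Units.mk0 (ZMod.stdAddChar (c (Additive.ofMul γ))) (by
    rw [ZMod.stdAddChar_apply]; exact Circle.coe_ne_zero _)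
  map_one' := by
    apply Units.ext
    simp
  map_mul' γ δ := by
    apply Units.ext
    simp [AddChar.map_add_eq_mul]

theorem chiOf_apply (c : Additive (Gamma0 N) →+ ZMod p) (γ : Gamma0 N) :
    ((chiOf c γ : ℂˣ) : ℂ) = ZMod.stdAddChar (c (Additive.ofMul γ)) := rfl

theorem chiOf_add (c c' : Additive (Gamma0 N) →+ ZMod p) :
    chiOf (c + c') = chiOf c * chiOf c' := by
  ext γ
  simp [chiOf_apply, AddChar.map_add_eq_mul]

theorem chiOf_zero : chiOf (0 : Additive (Gamma0 N) →+ ZMod p) = 1 := by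
  ext γ
  simp [chiOf_apply]

theorem chiOf_neg (c : Additive (Gamma0 N) →+ ZMod p) : chiOf (-c) = (chiOf c)⁻¹ := by
  have h : chiOf (-c) * chiOf c = 1 := by rw [← chiOf_add, neg_add_cancel, chiOf_zero]
  ext γ
  have h1 := congrArg (fun χ : Gamma0 N →* ℂˣ => χ γ) h
  simp only [MonoidHom.mul_apply, MonoidHom.one_apply] at h1
  rw [MonoidHom.inv_apply, eq_inv_of_mul_eq_one_left h1]

theorem chiOf_pow (c : Additive (Gamma0 N) →+ ZMod p) : chiOf c ^ p = 1 := by
  ext γ
  rw [MonoidHom.pow_apply, Units.val_pow_eq_pow_val, chiOf_apply, ← AddChar.map_nsmul_eq_pow]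
  simp

theorem chiOf_eq_one_iff (c : Additive (Gamma0 N) →+ ZMod p) : chiOf c = 1 ↔ c = 0 := by
  constructor
  · intro h
    ext γ
    have h1 := congrArg (fun χ : Gamma0 N →* ℂˣ => ((χ (Additive.toMul γ) : ℂˣ) : ℂ)) h
    simp only [chiOf_apply, MonoidHom.one_apply, Units.val_one] at h1
    rw [← (ZMod.stdAddChar (N := p)).map_zero_eq_one] at h1
    exact ZMod.injective_stdAddChar h1
  · rintro rfl
    exact chiOf_zero

theorem norm_chiOf (c : Additive (Gamma0 N) →+ ZMod p) (γ : Gamma0 N) :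
    ‖((chiOf c γ : ℂˣ) : ℂ)‖ = 1 := by
  rw [chiOf_apply, ZMod.stdAddChar_apply]
  exact Circle.norm_coe _

theorem killsPE_chiOf {c : Additive (Gamma0 N) →+ ZMod p}
    (hc : c ∈ peHoms (ZMod p) N (ZMod p)) : Eis.KillsPE (chiOf c) := by
  intro γ hγ
  apply Units.ext
  rw [chiOf_apply, hc γ hγ]
  simp

theorem chiOf_heckeHom {l : ℕ} [Fact l.Prime] (hl : ¬ l ∣ N)
    (c : Additive (Gamma0 N) →+ ZMod p) (γ : Gamma0 N) :
    chiOf (heckeHom hl c) γ = ∏ x : OnePoint (ZMod l), chiOf c (hdelta hl γ x) := by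
  apply Units.ext
  rw [chiOf_apply, heckeHom_apply, Units.coe_prod]
  exact map_sum (ZMod.stdAddChar (N := p)).toAddMonoidHom _ _

/-- a theta function: holomorphic, nonzero, meromorphic at the cusps, with multiplier `χ`. -/
structure IsTh (N : ℕ) (χ : Gamma0 N →* ℂˣ) (v : ℍ → ℂ) : Prop where
  mer : ∀ γ : SL(2, ℤ), cmp v γ ∈ Mer N
  mult : ∀ (δ : Gamma0 N) (z : ℍ), v ((δ : SL(2, ℤ)) • z) = (χ δ : ℂ) * v z
  ne : v ≠ 0

theorem slash_zero_eq (v : ℍ → ℂ) (γ : SL(2, ℤ)) : v ∣[(0 : ℤ)] γ = cmp v γ := by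
  funext z
  rw [SL_slash_apply, neg_zero, zpow_zero, mul_one]
  rfl

theorem isTh_of_isForm {χ : Gamma0 N →* ℂˣ} {v : ℍ → ℂ} (h : IsForm N χ 0 v) (hv : v ≠ 0) :
    IsTh N χ v where
  mer γ := by
    rw [← slash_zero_eq]
    exact h.mer γ
  mult δ z := by
    have := h.apply_smul δ z
    rwa [zpow_zero, mul_one] at this
  ne := hv

section
variable [NeZero N]

theorem mer_mul_ne_zero {a b : ℍ → ℂ} (ha : a ∈ Mer N) (hb : b ∈ Mer N) (ha0 : a ≠ 0)
    (hb0 : b ≠ 0) : a * b ≠ 0 := by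
  intro h
  have h1 : expInf N (⟨a, ha⟩ * ⟨b, hb⟩) = 0 := by
    have : (⟨a, ha⟩ * ⟨b, hb⟩ : Mer N) = 0 := Subtype.ext h
    rw [this, map_zero]
  rw [map_mul, mul_eq_zero] at h1
  rcases h1 with h1 | h1
  · exact ha0 (congrArg Subtype.val ((map_eq_zero_iff _ (expInf_injective N)).mp h1))
  · exact hb0 (congrArg Subtype.val ((map_eq_zero_iff _ (expInf_injective N)).mp h1))

namespace IsTh

variable {χ χ' : Gamma0 N →* ℂˣ} {v v' : ℍ → ℂ}

omit [NeZero N] in
theorem mem (h : IsTh N χ v) : v ∈ Mer N := by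
  have := h.mer 1
  rwa [An.cmp_one] at this

theorem mul (h : IsTh N χ v) (h' : IsTh N χ' v') : IsTh N (χ * χ') (v * v') where
  mer γ := (Mer N).mul_mem (h.mer γ) (h'.mer γ)
  mult δ z := by
    show v _ * v' _ = _ * (v z * v' z)
    rw [h.mult, h'.mult, MonoidHom.mul_apply, Units.val_mul]
    ring
  ne := mer_mul_ne_zero h.mem h'.mem h.ne h'.ne

omit [NeZero N] in
theorem one : IsTh N 1 (1 : ℍ → ℂ) where
  mer _ := (Mer N).one_mem
  mult δ z := by simp
  ne := one_ne_zero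

theorem pow (h : IsTh N χ v) (n : ℕ) : IsTh N (χ ^ n) (v ^ n) := by
  induction n with
  | zero =>
    have e : χ ^ 0 = 1 := pow_zero χ
    rw [e, pow_zero]; exact one
  | succ n ih =>
    have e : χ ^ (n + 1) = χ ^ n * χ := pow_succ χ n
    rw [e, pow_succ]; exact ih.mul h

omit [NeZero N] in
theorem mem_AA [NeZero N] (h : IsTh N 1 v) : v ∈ AA N :=
  ⟨h.mer, fun δ hδ z => by
    have := h.mult ⟨δ, hδ⟩ z
    simpa using this⟩

end IsTh

end

end Fermat.Agent.S29.Th
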