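import Mathlib
import Fermat.Agent.S29.ThetaA

set_option autoImplicit false
set_option synthInstance.maxHeartbeats 400000
set_option linter.style.haveILetI false

/-! # S29 THETA PACKAGE, part B: the relation `Rel c f` and its formal properties -/

namespace Fermat.Agent.S29.Th

open UpperHalfPlane ModularForm Matrix.SpecialLinearGroup IntermediateField ModularCurve
open AlgebraicCurve CongruenceSubgroup
open scoped MatrixGroups ModularForm Manifold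
open Fermat.Agent.S24 (Mer expInf expInf_injective Kb FN)
open Fermat.Agent.S29.D2 (FCf FC jC cl)
open Fermat.Agent.S29.An (cmp AA Phi PhiF PhiF_injective)

variable {N : ℕ} [NeZero N] {p : ℕ} [NeZero p]

/-- `f ∈ FN N` represents (modulo `p`-th powers in `F_ℂ`) the `p`-th power of a theta function
with character `exp(2πi c/p)`. -/
def Rel (c : Additive (Gamma0 N) →+ ZMod p) (f : FN N) : Prop :=
  ∃ v : ℍ → ℂ, IsTh N (chiOf c) v ∧ ∃ a : AA N, a.1 = v ^ p ∧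
    ∃ s : FC N, s ≠ 0 ∧ cl N f = PhiF N a * s ^ p

theorem IsTh.pow_mem_AA {c : Additive (Gamma0 N) →+ ZMod p} {v : ℍ → ℂ}
    (h : IsTh N (chiOf c) v) : v ^ p ∈ AA N := by
  have h1 := h.pow p
  rw [chiOf_pow] at h1
  exact h1.mem_AA

theorem IsTh.pow_ne_zero {χ : Gamma0 N →* ℂˣ} {v : ℍ → ℂ} (h : IsTh N χ v) (n : ℕ) :
    v ^ n ≠ 0 := (h.pow n).ne

theorem PhiF_ne_zero {a : AA N} (ha : a.1 ≠ 0) : PhiF N a ≠ 0 := by
  intro h
  apply ha
  have : a = 0 := PhiF_injective (h.trans (map_zero _).symm)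
  rw [this]
  rfl

namespace Rel

variable {c c' : Additive (Gamma0 N) →+ ZMod p} {f f' : FN N}

theorem ne_zero (h : Rel c f) : f ≠ 0 := by
  obtain ⟨v, hv, a, ha, s, hs, e⟩ := h
  rintro rfl
  rw [map_zero] at e
  have h1 : PhiF N a ≠ 0 := PhiF_ne_zero (by rw [ha]; exact hv.pow_ne_zero p)
  exact mul_ne_zero h1 (pow_ne_zero p hs) e.symm

theorem mul (h : Rel c f) (h' : Rel c' f') : Rel (c + c') (f * f') := by
  obtain ⟨v, hv, a, ha, s, hs, e⟩ := h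
  obtain ⟨v', hv', a', ha', s', hs', e'⟩ := h'
  refine ⟨v * v', by rw [chiOf_add]; exact hv.mul hv', a * a', ?_, s * s', mul_ne_zero hs hs', ?_⟩
  · show a.1 * a'.1 = _
    rw [ha, ha', mul_pow]
  · rw [map_mul, map_mul, e, e', mul_pow]
    ring

theorem mul_pow (h : Rel c f) {t : FN N} (ht : t ≠ 0) : Rel c (f * t ^ p) := by
  obtain ⟨v, hv, a, ha, s, hs, e⟩ := h
  refine ⟨v, hv, a, ha, s * cl N t, mul_ne_zero hs ((map_ne_zero _).mpr ht), ?_⟩
  rw [map_mul, map_pow, e, _root_.mul_pow]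
  ring

theorem inv (h : Rel c f) : Rel (-c) f⁻¹ := by
  obtain ⟨v, hv, a, ha, s, hs, e⟩ := h
  have hp : p - 1 + 1 = p := Nat.sub_add_cancel (Nat.pos_of_ne_zero (NeZero.ne p))
  have hχ : chiOf (-c) = chiOf c ^ (p - 1) := by
    rw [chiOf_neg]
    have h1 : chiOf c ^ (p - 1) * chiOf c = 1 := by
      have e1 : chiOf c ^ (p - 1 + 1) = chiOf c ^ (p - 1) * chiOf c :=
        pow_succ (chiOf c) (p - 1)
      rw [← e1, hp, chiOf_pow]
    ext γ
    have h2 := congrArg (fun χ : Gamma0 N →* ℂˣ => χ γ) h1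
    simp only [MonoidHom.mul_apply, MonoidHom.one_apply] at h2
    rw [MonoidHom.inv_apply, eq_inv_of_mul_eq_one_left h2]
  have hA : PhiF N a ≠ 0 := PhiF_ne_zero (by rw [ha]; exact hv.pow_ne_zero p)
  refine ⟨v ^ (p - 1), by rw [hχ]; exact hv.pow _, a ^ (p - 1), ?_, (PhiF N a)⁻¹ * s⁻¹,
    mul_ne_zero (inv_ne_zero hA) (inv_ne_zero hs), ?_⟩
  · show a.1 ^ (p - 1) = _
    rw [ha, ← pow_mul, ← pow_mul, mul_comm]
  · rw [map_inv₀, e, map_pow, _root_.mul_pow, inv_pow, inv_pow, mul_inv]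
    have : (PhiF N a) ^ p = (PhiF N a) ^ (p - 1) * PhiF N a := by
      rw [← pow_succ, hp]
    rw [this]
    field_simp

/-- **(c)** -/
theorem exists_root (h : Rel (0 : Additive (Gamma0 N) →+ ZMod p) f) : ∃ s : FN N, f = s ^ p := by
  obtain ⟨v, hv, a, ha, s, hs, e⟩ := h
  rw [chiOf_zero] at hv
  have e1 : a = (⟨v, hv.mem_AA⟩ : AA N) ^ p := Subtype.ext ha
  rw [e1, map_pow, ← _root_.mul_pow] at e
  exact Desc.desc_inj N p (Nat.pos_of_ne_zero (NeZero.ne p)) f _ e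

theorem dvd_ord_cl (hc : c ∈ peHoms (ZMod p) N (ZMod p)) (h : Rel c f) (P : Place ℂ (FC N)) :
    (p : ℤ) ∣ P.ord (cl N f) := by
  obtain ⟨v, hv, a, ha, s, hs, e⟩ := h
  have hA : PhiF N a ≠ 0 := PhiF_ne_zero (by rw [ha]; exact hv.pow_ne_zero p)
  have e1 : a = ⟨v ^ p, hv.pow_mem_AA⟩ := Subtype.ext ha
  have h1 := An.dvd_ord_PhiF v hv.mer p hv.pow_mem_AA (fun δ hδ hpe z => by
    have h2 := hv.mult ⟨δ, hδ⟩ z
    rw [killsPE_chiOf hc ⟨δ, hδ⟩ hpe] at h2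
    simpa using h2) P
  rw [e, P.ord_mul hA (pow_ne_zero p hs), S24.ord_pow, e1]
  exact dvd_add h1 (dvd_mul_right _ _)

/-- every function related to `c ∈ HH` has divisor divisible by `p`. -/
theorem divBy (hc : c ∈ peHoms (ZMod p) N (ZMod p)) (h : Rel c f) : DivBy p Kb f := by
  have hp : 0 < p := Nat.pos_of_ne_zero (NeZero.ne p)
  have hf := h.ne_zero
  obtain ⟨f₀, hf₀, hd, s, hs⟩ := Desc.desc' N p hp (cl N f) ((map_ne_zero _).mpr hf)
    (h.dvd_ord_cl hc)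
  have h1 : cl N (f / f₀) = s ^ p := by
    rw [map_div₀, hs]
    exact mul_div_cancel_left₀ _ ((map_ne_zero _).mpr hf₀)
  obtain ⟨s₀, hs₀⟩ := Desc.desc_inj N p hp _ _ h1
  have h2 : f = f₀ * s₀ ^ p := by
    rw [← hs₀]
    field_simp
  have hs0 : s₀ ≠ 0 := by
    rintro rfl
    rw [zero_pow hp.ne', mul_zero] at h2
    exact hf h2
  intro Q
  rw [h2, Q.ord_mul hf₀ (pow_ne_zero p hs0), S24.ord_pow]
  exact dvd_add (hd Q) (dvd_mul_right _ _)

end Rel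

/-- **(a)**, given a theta function. -/
theorem rel_exists_of {c : Additive (Gamma0 N) →+ ZMod p} (hc : c ∈ peHoms (ZMod p) N (ZMod p))
    (hB : ∃ v : ℍ → ℂ, IsTh N (chiOf c) v) : ∃ f : FN N, Rel c f := by
  obtain ⟨v, hv⟩ := hB
  have hp : 0 < p := Nat.pos_of_ne_zero (NeZero.ne p)
  have hA : PhiF N ⟨v ^ p, hv.pow_mem_AA⟩ ≠ 0 := PhiF_ne_zero (hv.pow_ne_zero p)
  obtain ⟨f₀, hf₀, -, s, hs⟩ := Desc.desc' N p hp (PhiF N ⟨v ^ p, hv.pow_mem_AA⟩) hA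
    (An.dvd_ord_PhiF v hv.mer p hv.pow_mem_AA (fun δ hδ hpe z => by
      have h2 := hv.mult ⟨δ, hδ⟩ z
      rw [killsPE_chiOf hc ⟨δ, hδ⟩ hpe] at h2
      simpa using h2))
  have hs0 : s ≠ 0 := by
    rintro rfl
    rw [zero_pow hp.ne', mul_zero] at hs
    exact hA hs
  refine ⟨f₀, v, hv, ⟨v ^ p, hv.pow_mem_AA⟩, rfl, s⁻¹, inv_ne_zero hs0, ?_⟩
  rw [hs, inv_pow]
  field_simp

end Fermat.Agent.S29.Th
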