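import Mathlib
import Fermat.Agent.S29.ThetaB

set_option autoImplicit false
set_option synthInstance.maxHeartbeats 400000
set_option linter.style.haveILetI false

/-! # S29 THETA PACKAGE, part C: injectivity -/

namespace Fermat.Agent.S29.Th

open UpperHalfPlane ModularForm Matrix.SpecialLinearGroup IntermediateField ModularCurve
open AlgebraicCurve CongruenceSubgroup
open scoped MatrixGroups ModularForm Manifold
open Fermat.Agent.S24 (Mer expInf expInf_injective Kb FN)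
open Fermat.Agent.S29.D2 (FCf FC jC cl)
open Fermat.Agent.S29.An (cmp AA Phi PhiF PhiF_injective)

variable {N : ℕ} [NeZero N] {p : ℕ} [NeZero p]

/-- `F_ℂ` is the fraction field of `AA N`. -/
theorem exists_PhiF_div (t : FC N) : ∃ b d : AA N, d ≠ 0 ∧ t = PhiF N b / PhiF N d := by
  obtain ⟨P, Q, hPQ⟩ := C24.exists_aeval_div N t
  by_cases hQ : MvPolynomial.aeval (C24.Jd N) Q = 0
  · refine ⟨0, 1, one_ne_zero, ?_⟩
    rw [hPQ, hQ, div_zero, map_zero, zero_div]
  · refine ⟨MvPolynomial.aeval An.jdA P, MvPolynomial.aeval An.jdA Q, ?_, ?_⟩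
    · intro h
      apply hQ
      rw [← An.PhiF_aeval, h, map_zero]
    · rw [An.PhiF_aeval, An.PhiF_aeval]
      exact hPQ

theorem eq_smul_of_pow_eq {x y : ℍ → ℂ} (hx : x ∈ Mer N) (hy : y ∈ Mer N) (hy0 : y ≠ 0)
    (h : x ^ p = y ^ p) : ∃ ω : ℂ, x = ω • y := by
  have hp : p ≠ 0 := NeZero.ne p
  set X := expInf N ⟨x, hx⟩ with hX
  set Y := expInf N ⟨y, hy⟩ with hY
  have hY0 : Y ≠ 0 := by
    intro h0
    exact hy0 (congrArg Subtype.val ((map_eq_zero_iff _ (expInf_injective N)).mp h0))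
  have hXY : X ^ p = Y ^ p := by
    rw [hX, hY, ← map_pow, ← map_pow]
    exact congrArg _ (Subtype.ext h)
  have h1 : (X / Y) ^ p = 1 := by
    rw [div_pow, hXY, div_self (pow_ne_zero p hY0)]
  have hζ := (Complex.isPrimitiveRoot_exp p hp).map_of_injective
    (f := algebraMap ℂ (LaurentSeries ℂ)) (algebraMap ℂ (LaurentSeries ℂ)).injective
  obtain ⟨i, -, hi⟩ := hζ.eq_pow_of_pow_eq_one h1
  refine ⟨Complex.exp (2 * Real.pi * Complex.I / p) ^ i, ?_⟩
  have h2 : X = expInf N (Complex.exp (2 * Real.pi * Complex.I / p) ^ i • ⟨y, hy⟩) := by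
    rw [Algebra.smul_def, map_mul, AlgHom.commutes, map_pow, hi, ← hY, div_mul_cancel₀ _ hY0]
  exact congrArg Subtype.val (expInf_injective N h2)

/-- **(e)** injectivity of `Θ`. -/
theorem Rel.eq_zero {c : Additive (Gamma0 N) →+ ZMod p} {f : FN N} (h : Rel c f)
    (hf : ∃ s : FN N, f = s ^ p) : c = 0 := by
  have hf0 := h.ne_zero
  obtain ⟨v, hv, a, ha, s, hs, e⟩ := h
  obtain ⟨s₀, rfl⟩ := hf
  obtain ⟨b, d, hd, ht⟩ := exists_PhiF_div (cl N s₀ / s)
  have hD : PhiF N d ≠ 0 := fun h0 => hd (PhiF_injective (h0.trans (map_zero _).symm))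
  -- `a d^p = b^p`
  have h1 : a * d ^ p = b ^ p := by
    apply PhiF_injective
    rw [map_mul, map_pow, map_pow]
    have h2 : PhiF N a = (cl N s₀ / s) ^ p := by
      rw [div_pow, ← map_pow, e]
      field_simp
    rw [h2, ht, div_pow]
    field_simp
  have h2 : (v * d.1) ^ p = b.1 ^ p := by
    rw [_root_.mul_pow, ← ha]
    exact congrArg Subtype.val h1
  have hdM : d.1 ∈ Mer N := by
    have := d.2.1 1
    rwa [An.cmp_one] at this
  have hbM : b.1 ∈ Mer N := by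
    have := b.2.1 1
    rwa [An.cmp_one] at this
  have hd0 : d.1 ≠ 0 := fun h0 => hd (Subtype.ext h0)
  have hvd : v * d.1 ≠ 0 := mer_mul_ne_zero hv.mem hdM hv.ne hd0
  have hb0 : b.1 ≠ 0 := by
    intro h0
    rw [h0, zero_pow (NeZero.ne p)] at h2
    have h3 : (⟨v * d.1, (Mer N).mul_mem hv.mem hdM⟩ : Mer N) ^ p = 0 := Subtype.ext h2
    have h4 := congrArg (expInf N) h3
    rw [map_pow, map_zero] at h4
    have h5 := pow_eq_zero_iff (NeZero.ne p) |>.mp h4
    exact hvd (congrArg Subtype.val ((map_eq_zero_iff _ (expInf_injective N)).mp h5))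
  obtain ⟨ω, hω⟩ := eq_smul_of_pow_eq ((Mer N).mul_mem hv.mem hdM) hbM hb0 h2
  obtain ⟨z₀, hz₀⟩ : ∃ z, (v * d.1) z ≠ 0 := by
    by_contra hcon
    push Not at hcon
    exact hvd (funext hcon)
  rw [← chiOf_eq_one_iff]
  ext δ
  have h3 : (v * d.1) ((δ : SL(2, ℤ)) • z₀) = (v * d.1) z₀ := by
    rw [hω]
    show ω * b.1 _ = ω * b.1 _
    rw [b.2.2 δ δ.2]
  have h4 : (v * d.1) ((δ : SL(2, ℤ)) • z₀) = (chiOf c δ : ℂ) * (v * d.1) z₀ := by
    show v _ * d.1 _ = _ * (v z₀ * d.1 z₀)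
    rw [hv.mult, d.2.2 δ δ.2]
    ring
  rw [h4] at h3
  have h5 : ((chiOf c δ : ℂ) - 1) * (v * d.1) z₀ = 0 := by
    rw [sub_mul, one_mul, h3, sub_self]
  rcases mul_eq_zero.mp h5 with h6 | h6
  · rw [MonoidHom.one_apply, Units.val_one]
    exact sub_eq_zero.mp h6
  · exact absurd h6 hz₀

end Fermat.Agent.S29.Th
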