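import Mathlib
import Fermat.Agent.S29.ThetaC
import Fermat.Agent.S29.EisOut
import Fermat.Agent.S29.HeckeMem
import Fermat.Agent.S29.HomPE

set_option autoImplicit false
set_option synthInstance.maxHeartbeats 400000
set_option linter.style.haveILetI false

/-! # S29 THETA PACKAGE, part D: existence and Hecke equivariance -/

namespace Fermat.Agent.S29.Th

open UpperHalfPlane ModularForm Matrix.SpecialLinearGroup IntermediateField ModularCurve
open AlgebraicCurve CongruenceSubgroup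
open scoped MatrixGroups ModularForm Manifold
open Fermat.Agent.S24 (Mer expInf expInf_injective Kb FN)
open Fermat.Agent.S29.D2 (FCf FC jC cl)
open Fermat.Agent.S29.An (cmp AA Phi PhiF PhiF_injective)

variable {N : ℕ} [NeZero N] {p : ℕ} [NeZero p]

/-- **(a)** -/
theorem rel_exists {c : Additive (Gamma0 N) →+ ZMod p} (hc : c ∈ peHoms (ZMod p) N (ZMod p)) :
    ∃ f : FN N, Rel c f := by
  refine rel_exists_of hc ?_
  obtain ⟨v, h1, ⟨z, hz⟩, h3⟩ := exists_multiplier_fun N p c hc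
  exact ⟨v, h1, h3, fun h0 => hz (by rw [h0]; rfl)⟩

theorem isTh_heckeProd {l : ℕ} [Fact l.Prime] (hl : ¬ l ∣ N)
    {c : Additive (Gamma0 N) →+ ZMod p} (hc : c ∈ peHoms (ZMod p) N (ZMod p)) {v : ℍ → ℂ}
    (hv : IsTh N (chiOf c) v) : IsTh N (chiOf (heckeHom hl c)) (HA.heckeProd l v) := by
  have hmult : ∀ (δ : Gamma0 N) (z : ℍ), HA.heckeProd l v ((δ : SL(2, ℤ)) • z) =
      (chiOf (heckeHom hl c) δ : ℂ) * HA.heckeProd l v z := by
    intro δ z
    rw [HA.heckeProd_smul hl (fun γ => (chiOf c γ : ℂ)) hv.mult δ z, chiOf_heckeHom,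
      Units.coe_prod]
  refine ⟨fun γ => ?_, hmult, HA.heckeProd_ne_zero hv.mem hv.ne⟩
  haveI : NeZero l := ⟨(Fact.out : l.Prime).ne_zero⟩
  refine HA.mem_Mer_of_periodic N l (HA.cmp_heckeProd_mem hv.mer γ) fun z => ?_
  rw [An.cmp_apply, An.cmp_apply, S21.smul_natCast_vadd]
  have h1 := hmult ⟨_, S21.conj_T_pow_mem_Gamma0 N γ⟩ (γ • z)
  have hpe : IsPE (γ * ModularGroup.T ^ (N : ℤ) * γ⁻¹) := (S21.trace_conj_T_zpow N γ).le
  rw [killsPE_chiOf (heckeHom_mem_peHoms hl hc) ⟨_, S21.conj_T_pow_mem_Gamma0 N γ⟩ hpe] at h1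
  simpa using h1

/-- **(d)** -/
theorem Rel.hecke {l : ℕ} [Fact l.Prime] (hl : ¬ l ∣ N)
    {c : Additive (Gamma0 N) →+ ZMod p} (hc : c ∈ peHoms (ZMod p) N (ZMod p)) {f : FN N}
    (h : Rel c f) : Rel (heckeHom hl c) (TT N l f) := by
  obtain ⟨v, hv, a, ha, s, hs, e⟩ := h
  refine ⟨HA.heckeProd l v, isTh_heckeProd hl hc hv, HA.heckeA hl a, ?_, HA.TC hl s,
    HA.TC_ne_zero hl hs, ?_⟩
  · show HA.heckeProd l a.1 = _
    rw [ha, HA.heckeProd_pow]
  · rw [HA.cl_TT hl, e, HA.TC_mul, HA.TC_pow, HA.TC_PhiF]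

end Fermat.Agent.S29.Th
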