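import Mathlib
import Fermat.Agent.S29.GlueC
import Fermat.Agent.S29.ThetaD
import Fermat.Agent.S29.HeckeMem
import Fermat.Agent.S29.DensFinal

set_option autoImplicit false
set_option linter.unusedSectionVars false
set_option linter.style.haveILetI false
set_option synthInstance.maxHeartbeats 400000

/-! # S29 [GLUE], part D: the core statement. -/

namespace Fermat.Agent.S29.Glue

open CongruenceSubgroup ModularCurve AlgebraicCurve Fermat.Agent.S24

/-- the theta package. -/
noncomputable def thetaPkg (N p : ℕ) [NeZero N] [Fact p.Prime] : ThetaPkg N p where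
  Rel := fun c f => Th.Rel c f
  ex := fun _ hc => Th.rel_exists hc
  ne_zero := fun h => Th.Rel.ne_zero h
  divBy := fun hc h => Th.Rel.divBy hc h
  mul := fun h h' => Th.Rel.mul h h'
  inv := fun h => Th.Rel.inv h
  zero := fun h => Th.Rel.exists_root h
  inj := fun h h' => Th.Rel.eq_zero h h'
  hecke := fun _ _ hl _ _ hc h => Th.Rel.hecke hl hc h

theorem core : Wrap.Core :=
  core_of Dens.densStmt (fun N p _ _ => thetaPkg N p) (fun _ _ _ _ hl => HA.heckeMem hl)

end Fermat.Agent.S29.Glue
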