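import Mathlib
import Fermat.Agent.S29.D2c
import Fermat.Agent.S18.ThreePt

set_option autoImplicit false
set_option synthInstance.maxHeartbeats 400000

/-! # S29 [D3]: the CORE statement for `(ℂ, B, Kb)` -/

namespace Fermat.Agent.S29.D2

noncomputable section

open ModularCurve Polynomial IntermediateField AlgebraicCurve
open Fermat.Agent.S24 (Kb iota FN jF)
open Fermat.Agent.S28 (AnData)
open Fermat.Agent.S18 (VData)
open Fermat.Agent.S18.Mo1 (RA)

variable {M : ℕ} [NeZero M] (D : AnData M (RA (⊤ : ValuationSubring Kb)))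
  (B : ValuationSubring ℂ) (π : B →+* Kb)
  (hB : ∀ x : Kb, ∃ h : iota x ∈ B, π ⟨iota x, h⟩ = x)

theorem VC_isSeparable (x : FC M) (hx : (VC D B π hB).GoodCoord x) :
    Algebra.IsSeparable Kb⟮(VC D B π hB).rd x⟯ (FN M) := by
  haveI := hx.fd'
  infer_instance

/-- the unbranchedness hypothesis (from [S24C]). -/
def Hunb (M : ℕ) : Prop :=
  ∀ c : ℂ, c ≠ 0 → c ≠ 1728 → ∀ P : Place ℂ (FC M), P.ord (jC M - algebraMap ℂ (FC M) c) ≤ 1

/-- **(D3)** CORE over `ℂ`. -/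
theorem core_C (hunb : Hunb M)
    (hrk : ∀ c c0 : ℂ, B.valuation c < 1 → c0 ≠ 0 → ∃ j : ℕ, B.valuation c ^ j ≤ B.valuation c0)
    (m : ℕ) (hm : m ≠ 0) (f : FC M) (t0 : FN M) (ht0 : t0 ≠ 0)
    (hf : (VC D B π hB).rd f = t0 ^ m)
    (hdiv : ∀ P : Place ℂ (FC M), (m : ℤ) ∣ P.ord f) : ∃ s : FC M, f = s ^ m := by
  haveI := VC_isSeparable D B π hB (jC M) (VC_goodCoord D B π hB)
  have h1 : π (1 : B) = 1 := map_one π
  have h2 : π (1728 : B) = 1728 := map_ofNat π 1728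
  refine S18.ThreePt.core (VC D B π hB) (jC M) (VC_goodCoord D B π hB) (1 : B) (1728 : B)
    ?_ ?_ ?_ ?_ hrk m (by exact_mod_cast hm) f t0 ht0 hf hdiv
  · show π (1 : B) ≠ 0
    rw [h1]; exact one_ne_zero
  · show π (1728 : B) ≠ 0
    rw [h2]; norm_num
  · show π (1 : B) ≠ π (1728 : B)
    rw [h1, h2]; norm_num
  · intro c hc0 hc1 P
    exact hunb c hc0 hc1 P

end

end Fermat.Agent.S29.D2
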