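import Mathlib
import Fermat.Agent.Lib.Frobenius

set_option autoImplicit false
set_option linter.style.haveILetI false

/-! # S29 [A2], algebraic part A: general lemmas on primes of norm `ℓ`, on `ℤ̄` -/

namespace Fermat.Agent.S29.Dens

open Polynomial NumberField Ideal IsDedekindDomain Fermat.Agent.Lib.Frobenius
open scoped Pointwise

local notation "Qb" => AlgebraicClosure ℚ
local notation "Zb" => integralClosure ℤ (AlgebraicClosure ℚ)
local notation "GQ" => (AlgebraicClosure ℚ ≃ₐ[ℚ] AlgebraicClosure ℚ)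

section NF

variable {M : Type*} [Field M] [NumberField M]

theorem absNorm_eq_of_pow_sub_mem {ℓ : ℕ} (hℓ : ℓ.Prime) (v : Ideal (𝓞 M)) [hv : v.IsPrime]
    (hℓv : (ℓ : 𝓞 M) ∈ v) (h : ∀ y : 𝓞 M, y ^ ℓ - y ∈ v) : absNorm v = ℓ := by
  classical
  have hne : v ≠ ⊥ := by
    intro h0
    rw [h0, Ideal.mem_bot] at hℓv
    exact hℓ.ne_zero (by exact_mod_cast hℓv)
  haveI hmax : v.IsMaximal := hv.isMaximal hne
  letI := Ideal.Quotient.field v
  haveI : Finite (𝓞 M ⧸ v) := Ideal.finiteQuotientOfFreeOfNeBot v hne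
  letI := Fintype.ofFinite (𝓞 M ⧸ v)
  have hcard : absNorm v = Fintype.card (𝓞 M ⧸ v) := by
    rw [absNorm_apply, Submodule.cardQuot_apply, Nat.card_eq_fintype_card]
  apply le_antisymm
  · rw [hcard]
    have hP : (X ^ ℓ - X : (𝓞 M ⧸ v)[X]) ≠ 0 := by
      intro h0
      have := FiniteField.X_pow_card_sub_X_natDegree_eq (𝓞 M ⧸ v) hℓ.one_lt
      rw [h0, natDegree_zero] at this
      exact hℓ.ne_zero this.symm
    have hsub : (Finset.univ : Finset (𝓞 M ⧸ v)).val ⊆ (X ^ ℓ - X : (𝓞 M ⧸ v)[X]).roots := by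
      intro r _
      rw [mem_roots hP]
      obtain ⟨y, rfl⟩ := Ideal.Quotient.mk_surjective r
      simp only [IsRoot.def, eval_sub, eval_pow, eval_X]
      rw [← map_pow, ← map_sub, Ideal.Quotient.eq_zero_iff_mem]
      exact h y
    have := card_le_degree_of_subset_roots hsub
    rwa [FiniteField.X_pow_card_sub_X_natDegree_eq _ hℓ.one_lt] at this
  · have h0 : absNorm v ≠ 0 := by rw [Ne, absNorm_eq_zero_iff]; exact hne
    apply Nat.le_of_dvd (Nat.pos_of_ne_zero h0)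
    by_contra hnd
    have hcop : Nat.Coprime ℓ (absNorm v) := (Nat.Prime.coprime_iff_not_dvd hℓ).mpr hnd
    have hb : (ℓ : ℤ) * Nat.gcdA ℓ (absNorm v) + (absNorm v : ℤ) * Nat.gcdB ℓ (absNorm v) = 1 := by
      have := Nat.gcd_eq_gcd_ab ℓ (absNorm v)
      rw [hcop] at this
      exact_mod_cast this.symm
    have h1 : (1 : 𝓞 M) ∈ v := by
      have h2 : (1 : 𝓞 M) = (ℓ : 𝓞 M) * ((Nat.gcdA ℓ (absNorm v) : ℤ) : 𝓞 M)
          + (absNorm v : 𝓞 M) * ((Nat.gcdB ℓ (absNorm v) : ℤ) : 𝓞 M) := by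
        have := congrArg (fun z : ℤ => (z : 𝓞 M)) hb
        push_cast at this
        exact this.symm
      rw [h2]
      exact v.add_mem (v.mul_mem_right _ hℓv) (v.mul_mem_right _ (absNorm_mem v))
    exact hv.ne_top ((Ideal.eq_top_iff_one v).mpr h1)

theorem exists_int_sub_mem {ℓ : ℕ} (hℓ : ℓ.Prime) (v : Ideal (𝓞 M)) (hv : absNorm v = ℓ)
    (y : 𝓞 M) : ∃ n : ℤ, y - (n : 𝓞 M) ∈ v := by
  haveI : Fact ℓ.Prime := ⟨hℓ⟩
  have hcard : Nat.card (𝓞 M ⧸ v) = ℓ := by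
    rw [← hv, absNorm_apply, Submodule.cardQuot_apply]
  have h1 : (1 : 𝓞 M ⧸ v) ≠ 0 := by
    intro h0
    have hsub : Subsingleton (𝓞 M ⧸ v) := subsingleton_of_zero_eq_one h0.symm
    have : Nat.card (𝓞 M ⧸ v) = 1 := Nat.card_eq_one_iff_unique.mpr ⟨hsub, ⟨0⟩⟩
    rw [hcard] at this
    exact hℓ.one_lt.ne' this
  obtain ⟨n, hn⟩ := AddSubgroup.mem_zmultiples_iff.mp
    (mem_zmultiples_of_prime_card hcard h1 (g' := Ideal.Quotient.mk v y))
  refine ⟨n, ?_⟩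
  rw [← Ideal.Quotient.eq_zero_iff_mem, map_sub, ← hn, map_intCast]
  simp

theorem natCast_mem_of_absNorm_eq {ℓ : ℕ} (v : Ideal (𝓞 M)) (hv : absNorm v = ℓ) :
    (ℓ : 𝓞 M) ∈ v := hv ▸ absNorm_mem v

theorem pow_sub_mem_of_absNorm_eq {ℓ : ℕ} (hℓ : ℓ.Prime) (v : Ideal (𝓞 M))
    (hv : absNorm v = ℓ) (y : 𝓞 M) : y ^ ℓ - y ∈ v := by
  haveI : Fact ℓ.Prime := ⟨hℓ⟩
  obtain ⟨n, hn⟩ := exists_int_sub_mem hℓ v hv y
  have hℓv := natCast_mem_of_absNorm_eq v hv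
  -- work in the quotient
  rw [← Ideal.Quotient.eq_zero_iff_mem] at hn hℓv ⊢
  rw [map_sub, sub_eq_zero] at hn
  rw [map_sub, map_pow, hn, sub_eq_zero, map_intCast]
  -- `n ^ ℓ = n` in a ring of characteristic `ℓ`
  have h2 : ((n ^ ℓ - n : ℤ) : 𝓞 M ⧸ v) = 0 := by
    have hdvd : (ℓ : ℤ) ∣ n ^ ℓ - n := by
      have := ZMod.pow_card (n : ZMod ℓ)
      rw [← Int.cast_pow, ← sub_eq_zero, ← Int.cast_sub,
        ZMod.intCast_zmod_eq_zero_iff_dvd] at this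
      exact this
    obtain ⟨c, hc⟩ := hdvd
    rw [hc]
    push_cast
    rw [map_natCast] at hℓv
    rw [hℓv, zero_mul]
  push_cast at h2
  exact sub_eq_zero.mp h2

end NF

section Zbar

theorem exists_nat_multiple (b : Zb) (hb : b ≠ 0) :
    ∃ n : ℕ, n ≠ 0 ∧ ∃ c : Zb, (n : Zb) = b * c := by
  have hb' : (b : Qb) ≠ 0 := fun h => hb (Subtype.ext h)
  have halg : IsAlgebraic ℤ ((b : Qb)⁻¹) :=
    (IsFractionRing.isAlgebraic_iff ℤ ℚ Qb).mpr (Algebra.IsAlgebraic.isAlgebraic _)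
  obtain ⟨n, hn0, hn⟩ := halg.exists_integral_multiple
  have key : ((n : ℤ) : Zb) = b * ⟨n • (b : Qb)⁻¹, hn⟩ := by
    apply Subtype.ext
    show ((n : ℤ) : Qb) = (b : Qb) * (n • (b : Qb)⁻¹)
    rw [zsmul_eq_mul]
    field_simp
  refine ⟨n.natAbs, Int.natAbs_ne_zero.mpr hn0, ?_⟩
  rcases Int.natAbs_eq n with h | h
  · refine ⟨⟨n • (b : Qb)⁻¹, hn⟩, ?_⟩
    rw [← key]
    conv_rhs => rw [h]
    simp
  · refine ⟨-⟨n • (b : Qb)⁻¹, hn⟩, ?_⟩
    rw [mul_neg, ← key]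
    conv_rhs => rw [h]
    simp

theorem under_eq_span {ℓ : ℕ} (hℓ : ℓ.Prime) (Q : Ideal Zb) [hQp : Q.IsPrime]
    (hQ : (ℓ : Zb) ∈ Q) : Q.under ℤ = Ideal.span {(ℓ : ℤ)} := by
  have hPmax : (Ideal.span {(ℓ : ℤ)}).IsMaximal :=
    PrincipalIdealRing.isMaximal_of_irreducible (Nat.prime_iff_prime_int.mp hℓ).irreducible
  symm
  refine hPmax.eq_of_le (Ideal.comap_ne_top _ hQp.ne_top) ?_
  rw [Ideal.span_singleton_le_iff_mem, Ideal.under_def, Ideal.mem_comap]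
  simpa using hQ

theorem exists_smul_eq {ℓ : ℕ} (hℓ : ℓ.Prime) (Q₁ Q : Ideal Zb) [Q₁.IsPrime] [Q.IsPrime]
    (h₁ : (ℓ : Zb) ∈ Q₁) (h : (ℓ : Zb) ∈ Q) : ∃ g : GQ, Q = g • Q₁ := by
  haveI := isInvariant
  letI : TopologicalSpace Zb := ⊥
  haveI : DiscreteTopology Zb := ⟨rfl⟩
  haveI : ContinuousSMul GQ Zb := by
    rw [continuousSMul_iff_stabilizer_isOpen]
    intro x
    have h := stabilizer_isOpen_of_isIntegral (K := ℚ) (L := Qb) (x : Qb)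
    convert h using 2
    ext g
    simp only [MulAction.mem_stabilizer_iff]
    exact Subtype.ext_iff
  exact Algebra.IsInvariant.exists_smul_of_under_eq_of_profinite (A := ℤ) Q₁ Q
    (by rw [under_eq_span hℓ Q₁ h₁, under_eq_span hℓ Q h])

theorem natCast_not_mem {ℓ : ℕ} (hℓ : ℓ.Prime) (Q : Ideal Zb) [hQp : Q.IsPrime]
    (hQ : (ℓ : Zb) ∈ Q) {D : ℕ} (hD : ¬ ℓ ∣ D) : (D : Zb) ∉ Q := by
  intro hDQ
  have hcop : Nat.Coprime ℓ D := (Nat.Prime.coprime_iff_not_dvd hℓ).mpr hD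
  have hb : (ℓ : ℤ) * Nat.gcdA ℓ D + (D : ℤ) * Nat.gcdB ℓ D = 1 := by
    have := Nat.gcd_eq_gcd_ab ℓ D
    rw [hcop] at this
    exact_mod_cast this.symm
  have h1 : (1 : Zb) ∈ Q := by
    have h2 : (1 : Zb) = (ℓ : Zb) * ((Nat.gcdA ℓ D : ℤ) : Zb) + (D : Zb) * ((Nat.gcdB ℓ D : ℤ) : Zb) := by
      have := congrArg (fun z : ℤ => (z : Zb)) hb
      push_cast at this
      exact this.symm
    rw [h2]
    exact Q.add_mem (Q.mul_mem_right _ hQ) (Q.mul_mem_right _ hDQ)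
  exact hQp.ne_top ((Ideal.eq_top_iff_one Q).mpr h1)

end Zbar

end Fermat.Agent.S29.Dens
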