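import Mathlib
import Fermat.Agent.S29.DensAlgA

set_option autoImplicit false
set_option linter.style.haveILetI false

/-! # S29 [A2], algebraic part B: primes of degree one of a fixed field and Frobenius elements -/

namespace Fermat.Agent.S29.Dens

open Polynomial NumberField Ideal IsDedekindDomain Fermat.Agent.Lib.Frobenius
open scoped Pointwise

local notation "Qb" => AlgebraicClosure ℚ
local notation "Zb" => integralClosure ℤ (AlgebraicClosure ℚ)
local notation "GQ" => (AlgebraicClosure ℚ ≃ₐ[ℚ] AlgebraicClosure ℚ)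

variable (L : IntermediateField ℚ Qb) [FiniteDimensional ℚ L] [Normal ℚ L]
variable (H : Subgroup (L ≃ₐ[ℚ] L))

instance instNumberFieldL : NumberField L where
  to_charZero := inferInstance
  to_finiteDimensional := inferInstance

instance instNumberFieldFixed : NumberField (IntermediateField.fixedField H) where
  to_charZero := inferInstance
  to_finiteDimensional := inferInstance

/-- the embedding `x|_M : M → ℚ̄` -/
noncomputable def embQ (x : L ≃ₐ[ℚ] L) : (IntermediateField.fixedField H) →+* Qb :=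
  (algebraMap L Qb).comp ((x : L →+* L).comp (algebraMap (IntermediateField.fixedField H) L))

theorem embQ_apply (x : L ≃ₐ[ℚ] L) (m : IntermediateField.fixedField H) :
    embQ L H x m = ((x (m : L) : L) : Qb) := rfl

/-- the embedding `x|_M` on integers -/
noncomputable def emb (x : L ≃ₐ[ℚ] L) : 𝓞 (IntermediateField.fixedField H) →+* Zb :=
  ((embQ L H x).comp (algebraMap (𝓞 (IntermediateField.fixedField H)) _)).codRestrict
    (integralClosure ℤ Qb).toSubring
    (fun y => map_isIntegral_int (embQ L H x) (RingOfIntegers.isIntegral_coe y))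

theorem coe_emb (x : L ≃ₐ[ℚ] L) (y : 𝓞 (IntermediateField.fixedField H)) :
    ((emb L H x y : Zb) : Qb) = ((x (((y : IntermediateField.fixedField H)) : L) : L) : Qb) := rfl

theorem emb_mul_of_mem (x : L ≃ₐ[ℚ] L) {h : L ≃ₐ[ℚ] L} (hh : h ∈ H) :
    emb L H (x * h) = emb L H x := by
  ext y
  rw [coe_emb, coe_emb, AlgEquiv.mul_apply]
  congr 2
  exact (IntermediateField.mem_fixedField_iff H _).mp (y : IntermediateField.fixedField H).2 h hh

theorem smul_emb (τ : GQ) (x : L ≃ₐ[ℚ] L) (y : 𝓞 (IntermediateField.fixedField H)) :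
    τ • emb L H x y = emb L H (AlgEquiv.restrictNormalHom L τ * x) y := by
  apply Subtype.ext
  show τ ((emb L H x y : Zb) : Qb) = _
  rw [coe_emb, coe_emb, AlgEquiv.mul_apply]
  exact (AlgEquiv.restrictNormal_commutes τ L _).symm

theorem emb_injective (x : L ≃ₐ[ℚ] L) : Function.Injective (emb L H x) := by
  intro y y' h
  have h1 := congrArg (fun b : Zb => (b : Qb)) h
  simp only [coe_emb] at h1
  have h2 : x ((y : IntermediateField.fixedField H) : L) = x ((y' : IntermediateField.fixedField H) : L) :=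
    Subtype.ext h1
  have h3 := x.injective h2
  exact RingOfIntegers.ext (Subtype.ext h3)

theorem mem_of_emb_eq {x x' : L ≃ₐ[ℚ] L} (h : ∀ y, emb L H x y = emb L H x' y) :
    x⁻¹ * x' ∈ H := by
  rw [← IntermediateField.fixingSubgroup_fixedField H, IntermediateField.mem_fixingSubgroup_iff]
  intro m hm
  have halg : IsAlgebraic ℤ (⟨m, hm⟩ : IntermediateField.fixedField H) :=
    (IsFractionRing.isAlgebraic_iff ℤ ℚ _).mpr (Algebra.IsAlgebraic.isAlgebraic _)
  obtain ⟨n, hn0, hn⟩ := halg.exists_integral_multiple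
  let y : 𝓞 (IntermediateField.fixedField H) :=
    IsIntegralClosure.mk' (𝓞 (IntermediateField.fixedField H)) _ hn
  have hy : ((y : IntermediateField.fixedField H) : L) = n • m := by
    have : (y : IntermediateField.fixedField H) = n • (⟨m, hm⟩ : IntermediateField.fixedField H) :=
      IsIntegralClosure.algebraMap_mk' _ _ hn
    rw [this]; rfl
  have h1 := congrArg (fun b : Zb => (b : Qb)) (h y)
  simp only [coe_emb, hy] at h1
  have h2 : x (n • m) = x' (n • m) := Subtype.ext h1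
  rw [map_zsmul, map_zsmul] at h2
  have h3 : x m = x' m := by
    have hn' : (n : L) ≠ 0 := by exact_mod_cast hn0
    rw [zsmul_eq_mul, zsmul_eq_mul] at h2
    exact mul_left_cancel₀ hn' h2
  rw [AlgEquiv.mul_apply, ← h3]
  exact x.symm_apply_apply m

/-- separation of the embeddings modulo almost all primes -/
theorem exists_sep : ∃ D₀ : ℕ, D₀ ≠ 0 ∧ ∀ Q : Ideal Zb, (D₀ : Zb) ∉ Q →
    ∀ x x' : L ≃ₐ[ℚ] L, (∀ y, emb L H x y - emb L H x' y ∈ Q) → x⁻¹ * x' ∈ H := by
  classical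
  have key : ∀ p : (L ≃ₐ[ℚ] L) × (L ≃ₐ[ℚ] L), ∃ n : ℕ, n ≠ 0 ∧ (p.1⁻¹ * p.2 ∉ H →
      ∃ y, ∃ c : Zb, (n : Zb) = (emb L H p.1 y - emb L H p.2 y) * c) := by
    intro p
    by_cases hp : p.1⁻¹ * p.2 ∈ H
    · exact ⟨1, one_ne_zero, fun h => absurd hp h⟩
    · have : ∃ y, emb L H p.1 y ≠ emb L H p.2 y := by
        by_contra hcon
        push Not at hcon
        exact hp (mem_of_emb_eq L H hcon)
      obtain ⟨y, hy⟩ := this
      obtain ⟨n, hn0, c, hc⟩ := exists_nat_multiple _ (sub_ne_zero.mpr hy)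
      exact ⟨n, hn0, fun _ => ⟨y, c, hc⟩⟩
  choose n hn0 hn using key
  refine ⟨∏ p, n p, Finset.prod_ne_zero_iff.mpr fun p _ => hn0 p, ?_⟩
  intro Q hQ x x' hxx'
  by_contra hcon
  obtain ⟨y, c, hc⟩ := hn (x, x') hcon
  apply hQ
  have h1 : (n (x, x') : Zb) ∈ Q := by rw [hc]; exact Q.mul_mem_right _ (hxx' y)
  obtain ⟨r, hr⟩ := Finset.dvd_prod_of_mem n (Finset.mem_univ (x, x'))
  rw [hr]
  push_cast
  exact Q.mul_mem_right _ h1

section Frob

variable {L H}
variable {ℓ : ℕ} (hℓ : ℓ.Prime) (Q : Ideal Zb) [hQp : Q.IsPrime] (hQ : (ℓ : Zb) ∈ Q)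
  (τ : GQ) (hfrob : ∀ b : Zb, τ • b - b ^ ℓ ∈ Q)

include hℓ hQ hfrob in
theorem absNorm_comap_emb {x : L ≃ₐ[ℚ] L} (hx : x⁻¹ * AlgEquiv.restrictNormalHom L τ * x ∈ H) :
    absNorm (Q.comap (emb L H x)) = ℓ := by
  apply absNorm_eq_of_pow_sub_mem hℓ
  · rw [Ideal.mem_comap, map_natCast]; exact hQ
  · intro y
    rw [Ideal.mem_comap, map_sub, map_pow]
    have h1 := hfrob (emb L H x y)
    have h2 : τ • emb L H x y = emb L H x y := by
      rw [smul_emb]
      have : AlgEquiv.restrictNormalHom L τ * x = x * (x⁻¹ * AlgEquiv.restrictNormalHom L τ * x) := by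
        group
      rw [this, emb_mul_of_mem L H x hx]
    rw [h2] at h1
    have := Q.neg_mem h1
    rwa [neg_sub] at this

include hℓ hQ hfrob in
theorem exists_of_absNorm_eq {D₀ : ℕ} (hD₀ : ∀ Q : Ideal Zb, (D₀ : Zb) ∉ Q →
      ∀ x x' : L ≃ₐ[ℚ] L, (∀ y, emb L H x y - emb L H x' y ∈ Q) → x⁻¹ * x' ∈ H)
    (hℓD : ¬ ℓ ∣ D₀) (v : Ideal (𝓞 (IntermediateField.fixedField H))) [hv : v.IsPrime]
    (hvn : absNorm v = ℓ) :
    ∃ x : L ≃ₐ[ℚ] L, x⁻¹ * AlgEquiv.restrictNormalHom L τ * x ∈ H ∧ Q.comap (emb L H x) = v := by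
  letI : Algebra (𝓞 (IntermediateField.fixedField H)) Zb := (emb L H 1).toAlgebra
  haveI : Algebra.IsIntegral (𝓞 (IntermediateField.fixedField H)) Zb :=
    ⟨fun b => (Algebra.IsIntegral.isIntegral (R := ℤ) b).tower_top⟩
  obtain ⟨Q₁, -, hQ₁p, hQ₁⟩ := Ideal.exists_ideal_over_prime_of_isIntegral v (⊥ : Ideal Zb) (by
    intro y hy
    rw [Ideal.mem_comap, Ideal.mem_bot] at hy
    have : y = 0 := emb_injective L H 1 (by rw [map_zero]; exact hy)
    rw [this]; exact v.zero_mem)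
  have hQ₁' : Q₁.comap (emb L H 1) = v := hQ₁
  have hℓ₁ : (ℓ : Zb) ∈ Q₁ := by
    have h1 : (ℓ : 𝓞 (IntermediateField.fixedField H)) ∈ Q₁.comap (emb L H 1) := by
      rw [hQ₁']; exact natCast_mem_of_absNorm_eq v hvn
    rw [Ideal.mem_comap, map_natCast] at h1
    exact h1
  obtain ⟨g, hg⟩ := exists_smul_eq hℓ Q₁ Q hℓ₁ hQ
  set x := AlgEquiv.restrictNormalHom L g with hx
  have hcomap : Q.comap (emb L H x) = v := by
    rw [← hQ₁']
    ext y
    rw [Ideal.mem_comap, Ideal.mem_comap, hg]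
    have : emb L H x y = g • emb L H 1 y := by rw [smul_emb, mul_one]
    rw [this, Ideal.smul_mem_pointwise_smul_iff]
  refine ⟨x, ?_, hcomap⟩
  have h1 : (AlgEquiv.restrictNormalHom L τ * x)⁻¹ * x ∈ H := by
    apply hD₀ Q (natCast_not_mem hℓ Q hQ hℓD)
    intro y
    rw [← smul_emb]
    have h2 := hfrob (emb L H x y)
    have h3 : y ^ ℓ - y ∈ Q.comap (emb L H x) := by
      rw [hcomap]; exact pow_sub_mem_of_absNorm_eq hℓ v hvn y
    rw [Ideal.mem_comap, map_sub, map_pow] at h3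
    have := Q.add_mem h2 h3
    rwa [sub_add_sub_cancel] at this
  have h2 := H.inv_mem h1
  have h3 : ((AlgEquiv.restrictNormalHom L τ * x)⁻¹ * x)⁻¹ = x⁻¹ * AlgEquiv.restrictNormalHom L τ * x := by
    group
  rwa [h3] at h2

include hℓ in
theorem mem_of_comap_eq {D₀ : ℕ} (hD₀ : ∀ Q : Ideal Zb, (D₀ : Zb) ∉ Q →
      ∀ x x' : L ≃ₐ[ℚ] L, (∀ y, emb L H x y - emb L H x' y ∈ Q) → x⁻¹ * x' ∈ H)
    (hQ : (ℓ : Zb) ∈ Q) (hℓD : ¬ ℓ ∣ D₀) {x x' : L ≃ₐ[ℚ] L}
    (hn : absNorm (Q.comap (emb L H x)) = ℓ)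
    (h : Q.comap (emb L H x) = Q.comap (emb L H x')) : x⁻¹ * x' ∈ H := by
  apply hD₀ Q (natCast_not_mem hℓ Q hQ hℓD)
  intro y
  obtain ⟨n, hn'⟩ := exists_int_sub_mem hℓ _ hn y
  have h1 := hn'
  rw [h] at h1
  rw [Ideal.mem_comap, map_sub, map_intCast] at hn' h1
  have := Q.sub_mem hn' h1
  rwa [sub_sub_sub_cancel_right] at this

end Frob

end Fermat.Agent.S29.Dens
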