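import Mathlib
import Fermat.Agent.S14.Euler
import Fermat.Agent.S14.Zeta
import Fermat.Agent.S14.Deg
import Fermat.Agent.S14.DensA

set_option autoImplicit false

/-! # S29 [A2], analytic part: logarithmic densities of functions on the primes -/

namespace Fermat.Agent.S29.Dens

open Filter Topology

noncomputable section

/-- `log (1/(s-1))` -/
def lam (s : ℝ) : ℝ := Real.log (1 / (s - 1))

/-- the Dirichlet series of `c`. -/
def T (c : ℕ → ℝ) (s : ℝ) : ℝ := ∑' n : ℕ, c n * (n : ℝ) ^ (-s)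

/-- `c` is bounded and `∑ c n n^{-s} = α log (1/(s-1)) + O(1)` as `s → 1+`. -/
def HasDens (c : ℕ → ℝ) (α : ℝ) : Prop :=
  (∃ B : ℝ, ∀ n, |c n| ≤ B) ∧
    ∃ δ : ℝ, 0 < δ ∧ ∃ C : ℝ, ∀ s ∈ Set.Ioo (1 : ℝ) (1 + δ), |T c s - α * lam s| ≤ C

theorem summable_term {c : ℕ → ℝ} {B : ℝ} (hB : ∀ n, |c n| ≤ B) {s : ℝ} (hs : 1 < s) :
    Summable (fun n : ℕ => c n * (n : ℝ) ^ (-s)) := by
  have h := (Real.summable_nat_rpow.mpr (by linarith : -s < -1)).mul_left B
  refine Summable.of_norm_bounded h (fun n => ?_)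
  rw [Real.norm_eq_abs, abs_mul, abs_of_nonneg (Real.rpow_nonneg (Nat.cast_nonneg n) _)]
  exact mul_le_mul_of_nonneg_right (hB n) (Real.rpow_nonneg (Nat.cast_nonneg n) _)

theorem T_add {c c' : ℕ → ℝ} {B B' : ℝ} (hB : ∀ n, |c n| ≤ B) (hB' : ∀ n, |c' n| ≤ B') {s : ℝ}
    (hs : 1 < s) : T (fun n => c n + c' n) s = T c s + T c' s := by
  unfold T
  rw [← (summable_term hB hs).tsum_add (summable_term hB' hs)]
  exact tsum_congr fun n => by ring

theorem T_const_mul (a : ℝ) (c : ℕ → ℝ) (s : ℝ) : T (fun n => a * c n) s = a * T c s := by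
  unfold T
  rw [← tsum_mul_left]
  exact tsum_congr fun n => by ring

theorem HasDens.add {c c' : ℕ → ℝ} {α α' : ℝ} (h : HasDens c α) (h' : HasDens c' α') :
    HasDens (fun n => c n + c' n) (α + α') := by
  obtain ⟨⟨B, hB⟩, δ, hδ, C, hC⟩ := h
  obtain ⟨⟨B', hB'⟩, δ', hδ', C', hC'⟩ := h'
  refine ⟨⟨B + B', fun n => (abs_add_le _ _).trans (add_le_add (hB n) (hB' n))⟩,
    min δ δ', lt_min hδ hδ', C + C', fun s hs => ?_⟩
  have h1 := hC s ⟨hs.1, lt_of_lt_of_le hs.2 (by linarith [min_le_left δ δ'])⟩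
  have h2 := hC' s ⟨hs.1, lt_of_lt_of_le hs.2 (by linarith [min_le_right δ δ'])⟩
  rw [T_add hB hB' hs.1]
  have : T c s + T c' s - (α + α') * lam s = (T c s - α * lam s) + (T c' s - α' * lam s) := by ring
  rw [this]
  exact (abs_add_le _ _).trans (add_le_add h1 h2)

theorem HasDens.const_mul {c : ℕ → ℝ} {α : ℝ} (a : ℝ) (h : HasDens c α) :
    HasDens (fun n => a * c n) (a * α) := by
  obtain ⟨⟨B, hB⟩, δ, hδ, C, hC⟩ := h
  refine ⟨⟨|a| * B, fun n => by
    rw [abs_mul]; exact mul_le_mul_of_nonneg_left (hB n) (abs_nonneg a)⟩, δ, hδ, |a| * C,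
    fun s hs => ?_⟩
  rw [T_const_mul]
  have : a * T c s - a * α * lam s = a * (T c s - α * lam s) := by ring
  rw [this, abs_mul]
  exact mul_le_mul_of_nonneg_left (hC s hs) (abs_nonneg a)

theorem HasDens.sub {c c' : ℕ → ℝ} {α α' : ℝ} (h : HasDens c α) (h' : HasDens c' α') :
    HasDens (fun n => c n - c' n) (α - α') := by
  have := h.add (h'.const_mul (-1))
  simpa [sub_eq_add_neg] using this

theorem hasDens_zero : HasDens (fun _ => 0) 0 := by
  refine ⟨⟨0, fun n => by simp⟩, 1, one_pos, 0, fun s _ => ?_⟩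
  simp [T]

theorem HasDens.sum {ι : Type*} (S : Finset ι) (c : ι → ℕ → ℝ) (α : ι → ℝ)
    (h : ∀ i ∈ S, HasDens (c i) (α i)) :
    HasDens (fun n => ∑ i ∈ S, c i n) (∑ i ∈ S, α i) := by
  classical
  induction S using Finset.induction_on with
  | empty => simpa using hasDens_zero
  | insert a S ha ih =>
    simp only [Finset.sum_insert ha]
    exact (h a (Finset.mem_insert_self _ _)).add
      (ih fun i hi => h i (Finset.mem_insert_of_mem hi))

theorem rpow_neg_le_one (n : ℕ) {s : ℝ} (hs : 0 < s) : (n : ℝ) ^ (-s) ≤ 1 := by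
  rcases Nat.eq_zero_or_pos n with rfl | hn
  · rw [Nat.cast_zero, Real.zero_rpow (by linarith)]; exact zero_le_one
  · exact Real.rpow_le_one_of_one_le_of_nonpos (by exact_mod_cast hn) (by linarith)

/-- finitely supported functions have density zero -/
theorem hasDens_of_finite_support {c : ℕ → ℝ} (S : Finset ℕ) (h : ∀ n, n ∉ S → c n = 0) :
    HasDens c 0 := by
  have hB : ∀ n, |c n| ≤ ∑ m ∈ S, |c m| := by
    intro n
    by_cases hn : n ∈ S
    · exact Finset.single_le_sum (f := fun m => |c m|) (fun _ _ => abs_nonneg _) hn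
    · rw [h n hn, abs_zero]; exact Finset.sum_nonneg fun _ _ => abs_nonneg _
  refine ⟨⟨_, hB⟩, 1, one_pos, ∑ m ∈ S, |c m|, fun s hs => ?_⟩
  have h1 : T c s = ∑ n ∈ S, c n * (n : ℝ) ^ (-s) := by
    unfold T
    exact tsum_eq_sum fun n hn => by rw [h n hn, zero_mul]
  rw [h1, zero_mul, sub_zero]
  refine (Finset.abs_sum_le_sum_abs _ _).trans (Finset.sum_le_sum fun n _ => ?_)
  rw [abs_mul, abs_of_nonneg (Real.rpow_nonneg (Nat.cast_nonneg n) _)]
  calc |c n| * (n : ℝ) ^ (-s) ≤ |c n| * 1 :=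
        mul_le_mul_of_nonneg_left (rpow_neg_le_one n (by linarith [hs.1])) (abs_nonneg _)
    _ = |c n| := mul_one _

theorem HasDens.congr_off_finite {c c' : ℕ → ℝ} {α : ℝ} (h : HasDens c α) (S : Finset ℕ)
    (hS : ∀ n, n ∉ S → c' n = c n) : HasDens c' α := by
  have h1 : HasDens (fun n => c' n - c n) 0 :=
    hasDens_of_finite_support S fun n hn => by rw [hS n hn, sub_self]
  have := h.add h1
  simpa using this

theorem lam_unbounded (δ : ℝ) (hδ : 0 < δ) (R : ℝ) : ∃ s ∈ Set.Ioo (1 : ℝ) (1 + δ), R < lam s := by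
  set ε := min (δ / 2) (Real.exp (-(R + 1))) with hε
  have hε0 : 0 < ε := lt_min (by linarith) (Real.exp_pos _)
  refine ⟨1 + ε, ⟨by linarith, by linarith [min_le_left (δ / 2) (Real.exp (-(R + 1)))]⟩, ?_⟩
  unfold lam
  rw [add_sub_cancel_left, one_div, Real.log_inv]
  have h1 : Real.log ε ≤ -(R + 1) := by
    rw [← Real.log_exp (-(R + 1))]
    exact Real.log_le_log hε0 (min_le_right _ _)
  linarith

/-- positive density implies infinitely many nonzero values -/
theorem HasDens.exists_ne_zero {c : ℕ → ℝ} {α : ℝ} (h : HasDens c α) (hα : 0 < α)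
    (S : Finset ℕ) : ∃ n, n ∉ S ∧ c n ≠ 0 := by
  by_contra hcon
  push Not at hcon
  have h0 : HasDens c 0 := hasDens_of_finite_support S hcon
  obtain ⟨-, δ, hδ, C, hC⟩ := h.sub h0
  obtain ⟨s, hs, hR⟩ := lam_unbounded δ hδ (C / α)
  have h1 := hC s hs
  have h2 : T (fun n => c n - c n) s = 0 := by simp [T]
  rw [h2, zero_sub, abs_neg, sub_zero] at h1
  have h3 : α * lam s ≤ C := (le_abs_self _).trans h1
  rw [div_lt_iff₀ hα] at hR
  linarith

end

end Fermat.Agent.S29.Dens
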