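import Mathlib
import Fermat.Agent.S29.DensAn

set_option autoImplicit false

/-! # S29 [A2]: the primes of degree one of a number field have density one -/

namespace Fermat.Agent.S29.Dens

open Filter Topology NumberField Ideal IsDedekindDomain Fermat.Agent.S14

noncomputable section

variable (M : Type*) [Field M] [NumberField M]

theorem finite_V (n : ℕ) : {v : HeightOneSpectrum (𝓞 M) | absNorm v.asIdeal = n}.Finite := by
  have h := (finite_setOfPred_absNorm_eq (S := 𝓞 M) n)
  refine Set.Finite.of_finite_image (f := fun v : HeightOneSpectrum (𝓞 M) => v.asIdeal)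
    (h.subset ?_) ?_
  · rintro _ ⟨v, hv, rfl⟩
    exact hv
  · intro v _ w _ hvw
    exact HeightOneSpectrum.ext hvw

/-- the primes of norm `n` -/
def Vset (n : ℕ) : Finset (HeightOneSpectrum (𝓞 M)) := (finite_V M n).toFinset

theorem mem_Vset {n : ℕ} {v : HeightOneSpectrum (𝓞 M)} : v ∈ Vset M n ↔ absNorm v.asIdeal = n := by
  simp [Vset]

/-- the number of primes of norm `n`, for `n` a prime number -/
def cM (n : ℕ) : ℝ := if n.Prime then ((Vset M n).card : ℝ) else 0

theorem card_Vset_le {n : ℕ} (hn : n.Prime) : (Vset M n).card ≤ Module.finrank ℚ M := by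
  classical
  have h := card_filter_ratPrime_le (Vset M n) n
  have h2 : (Vset M n).filter (fun v => ratPrime M v = n) = Vset M n := by
    apply Finset.filter_true_of_mem
    intro v hv
    obtain ⟨f, hf0, hf⟩ := absNorm_eq_ratPrime_pow v
    rw [(mem_Vset M).mp hv] at hf
    exact (Nat.prime_dvd_prime_iff_eq (ratPrime_prime v) hn).mp (hf ▸ dvd_pow_self _ hf0)
  rwa [h2] at h

theorem cM_nonneg (n : ℕ) : 0 ≤ cM M n := by
  unfold cM; split_ifs <;> positivity

theorem abs_cM_le (n : ℕ) : |cM M n| ≤ Module.finrank ℚ M := by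
  rw [abs_of_nonneg (cM_nonneg M n)]
  unfold cM
  split_ifs with hn
  · exact_mod_cast card_Vset_le M hn
  · positivity

theorem cM_mul_eq (n : ℕ) (s : ℝ) :
    cM M n * (n : ℝ) ^ (-s) = if n.Prime then ∑ v ∈ Vset M n, xterm s v else 0 := by
  unfold cM
  split_ifs with hn
  · rw [Finset.sum_congr rfl (g := fun _ => (n : ℝ) ^ (-s))]
    · simp
    · intro v hv
      unfold xterm
      rw [(mem_Vset M).mp hv]
  · simp

open Classical in
/-- finite partial sums of the Dirichlet series are sums over finite sets of primes -/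
theorem sum_cM_eq (Z : Finset ℕ) (s : ℝ) :
    ∑ n ∈ Z, cM M n * (n : ℝ) ^ (-s)
      = ∑ v ∈ (Z.filter Nat.Prime).biUnion (Vset M), xterm s v := by
  classical
  rw [Finset.sum_biUnion]
  · rw [Finset.sum_filter]
    exact Finset.sum_congr rfl fun n _ => cM_mul_eq M n s
  · intro a _ b _ hab
    rw [Function.onFun, Finset.disjoint_left]
    intro v hva hvb
    exact hab (((mem_Vset M).mp hva).symm.trans ((mem_Vset M).mp hvb))

theorem sum_prime_le_T {s : ℝ} (hs : 1 < s) (Y : Finset (HeightOneSpectrum (𝓞 M)))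
    (hY : ∀ v ∈ Y, (absNorm v.asIdeal).Prime) : ∑ v ∈ Y, xterm s v ≤ T (cM M) s := by
  classical
  set Z := Y.image (fun v => absNorm v.asIdeal) with hZ
  have h1 : ∑ v ∈ Y, xterm s v ≤ ∑ v ∈ (Z.filter Nat.Prime).biUnion (Vset M), xterm s v := by
    apply Finset.sum_le_sum_of_subset_of_nonneg
    · intro v hv
      rw [Finset.mem_biUnion]
      exact ⟨absNorm v.asIdeal, Finset.mem_filter.mpr ⟨Finset.mem_image_of_mem _ hv, hY v hv⟩,
        (mem_Vset M).mpr rfl⟩
    · intro v _ _
      exact (xterm_pos s v).le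
  rw [← sum_cM_eq] at h1
  refine h1.trans ?_
  exact (summable_term (abs_cM_le M) hs).sum_le_tsum _ fun n _ =>
    mul_nonneg (cM_nonneg M n) (Real.rpow_nonneg (Nat.cast_nonneg n) _)

theorem hasDens_cM : HasDens (cM M) 1 := by
  classical
  obtain ⟨CZ, hCZ⟩ := zetaBound M
  obtain ⟨c, hc, δ, hδ, hlow⟩ := zeta_lower M
  obtain ⟨Cd, hCd⟩ := deg_bound M 0
  have hE := eulerProp M
  refine ⟨⟨_, abs_cM_le M⟩, min δ 1, lt_min hδ one_pos,
    max (Real.log CZ) (Cd + zetaSum M 2 - Real.log c), fun s hs => ?_⟩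
  have hs1 : 1 < s := hs.1
  have hsδ : s < 1 + δ := lt_of_lt_of_le hs.2 (by linarith [min_le_left δ 1])
  have hs2 : s ≤ 2 := by linarith [hs.2, min_le_right δ 1]
  have hpos : 0 < s - 1 := by linarith
  have hzpos : 0 < zetaSum M s := lt_of_lt_of_le (div_pos hc hpos) (hlow s ⟨hs1, hsδ⟩)
  have hCZpos : 0 < CZ := by
    have := (hCZ s ⟨hs1, hs2⟩).2
    have h2 : 0 < CZ / (s - 1) := lt_of_lt_of_le hzpos this
    by_contra hneg
    push Not at hneg
    exact absurd h2 (not_lt.mpr (div_nonpos_of_nonpos_of_nonneg hneg hpos.le))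
  have hlam : ∀ a : ℝ, 0 < a → Real.log (a / (s - 1)) = Real.log a + lam s := by
    intro a ha
    unfold lam
    rw [div_eq_mul_one_div, Real.log_mul ha.ne' (one_div_pos.mpr hpos).ne']
  -- upper bound
  have hup : T (cM M) s ≤ Real.log CZ + lam s := by
    unfold T
    refine (summable_term (abs_cM_le M) hs1).tsum_le_of_sum_le fun Z => ?_
    rw [sum_cM_eq]
    have h1 := exp_sum_le_zetaSum hE hs1 ((Z.filter Nat.Prime).biUnion (Vset M))
    have h2 := h1.trans (hCZ s ⟨hs1, hs2⟩).2
    rw [← hlam CZ hCZpos]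
    rw [← Real.log_exp (∑ v ∈ (Z.filter Nat.Prime).biUnion (Vset M), xterm s v)]
    exact Real.log_le_log (Real.exp_pos _) h2
  -- lower bound
  have hlo : Real.log c + lam s ≤ T (cM M) s + (Cd + zetaSum M 2) := by
    have hW : ∀ Y : Finset (HeightOneSpectrum (𝓞 M)),
        ∑ v ∈ Y, (xterm s v + xterm s v ^ 2) ≤ T (cM M) s + (Cd + zetaSum M 2) := by
      intro Y
      rw [Finset.sum_add_distrib]
      have h1 := sum_xterm_sq_le (zetaBound M) hs1.le Y
      have h2 : ∑ v ∈ Y, xterm s v ≤ T (cM M) s + Cd := by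
        rw [← Finset.sum_filter_add_sum_filter_not Y (fun v => (absNorm v.asIdeal).Prime)]
        refine add_le_add (sum_prime_le_T M hs1 _ fun v hv => (Finset.mem_filter.mp hv).2) ?_
        exact hCd s hs1.le _ fun v hv => Or.inl (Finset.mem_filter.mp hv).2
      linarith
    have h3 := zetaSum_le_exp hE hs1 hW
    have h4 := (hlow s ⟨hs1, hsδ⟩).trans h3
    rw [← hlam c hc, ← Real.log_exp (T (cM M) s + (Cd + zetaSum M 2))]
    exact Real.log_le_log (div_pos hc hpos) h4
  rw [one_mul, abs_le]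
  constructor
  · have := le_max_right (Real.log CZ) (Cd + zetaSum M 2 - Real.log c)
    linarith
  · have := le_max_left (Real.log CZ) (Cd + zetaSum M 2 - Real.log c)
    linarith

end

end Fermat.Agent.S29.Dens
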