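import Mathlib
import Fermat.Agent.S29.DensAlgB
import Fermat.Agent.S29.DensNF

set_option autoImplicit false
set_option linter.style.haveILetI false
set_option linter.unusedSectionVars false

/-! # S29 [A2], algebraic part C: counting -/

namespace Fermat.Agent.S29.Dens

open Polynomial NumberField Ideal IsDedekindDomain Fermat.Agent.Lib.Frobenius
open scoped Pointwise

local notation "Qb" => AlgebraicClosure ℚ
local notation "Zb" => integralClosure ℤ (AlgebraicClosure ℚ)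
local notation "GQ" => (AlgebraicClosure ℚ ≃ₐ[ℚ] AlgebraicClosure ℚ)

variable {L : IntermediateField ℚ Qb} [FiniteDimensional ℚ L] [Normal ℚ L]
variable {H : Subgroup (L ≃ₐ[ℚ] L)}
variable {ℓ : ℕ} (hℓ : ℓ.Prime) (Q : Ideal Zb) [hQp : Q.IsPrime] (hQ : (ℓ : Zb) ∈ Q)
  (τ : GQ) (hfrob : ∀ b : Zb, τ • b - b ^ ℓ ∈ Q)

include hℓ hQ hfrob in
theorem card_conj_eq {D₀ : ℕ} (hD₀ : ∀ Q : Ideal Zb, (D₀ : Zb) ∉ Q →
      ∀ x x' : L ≃ₐ[ℚ] L, (∀ y, emb L H x y - emb L H x' y ∈ Q) → x⁻¹ * x' ∈ H)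
    (hℓD : ¬ ℓ ∣ D₀) :
    Nat.card {x : L ≃ₐ[ℚ] L // x⁻¹ * AlgEquiv.restrictNormalHom L τ * x ∈ H} =
      (Vset (IntermediateField.fixedField H) ℓ).card * Nat.card H := by
  classical
  set τb := AlgEquiv.restrictNormalHom L τ with hτb
  -- a section
  have hsec : ∀ v : ↥(Vset (IntermediateField.fixedField H) ℓ), ∃ x : L ≃ₐ[ℚ] L,
      x⁻¹ * τb * x ∈ H ∧ Q.comap (emb L H x) = v.1.asIdeal := by
    intro v
    haveI := v.1.isPrime
    exact exists_of_absNorm_eq hℓ Q hQ τ hfrob hD₀ hℓD v.1.asIdeal (mem_Vset _ |>.mp v.2)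
  choose s hs1 hs2 using hsec
  let g : ↥(Vset (IntermediateField.fixedField H) ℓ) × H →
      {x : L ≃ₐ[ℚ] L // x⁻¹ * τb * x ∈ H} := fun p => ⟨s p.1 * p.2.1, by
    have h1 : (s p.1 * p.2.1)⁻¹ * τb * (s p.1 * p.2.1) =
        (p.2.1)⁻¹ * ((s p.1)⁻¹ * τb * s p.1) * p.2.1 := by group
    rw [h1]
    exact H.mul_mem (H.mul_mem (H.inv_mem p.2.2) (hs1 p.1)) p.2.2⟩
  have hg : Function.Bijective g := by
    constructor
    · rintro ⟨v, h⟩ ⟨v', h'⟩ hvv
      have h0 : s v * h.1 = s v' * h'.1 := congrArg Subtype.val hvv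
      have h1 : v = v' := by
        apply Subtype.ext
        apply HeightOneSpectrum.ext
        rw [← hs2 v, ← hs2 v', ← emb_mul_of_mem L H (s v) h.2, ← emb_mul_of_mem L H (s v') h'.2, h0]
      subst h1
      have h2 : h = h' := Subtype.ext (mul_left_cancel h0)
      rw [h2]
    · rintro ⟨x, hx⟩
      have hn := absNorm_comap_emb hℓ Q hQ τ hfrob hx
      have hne : Q.comap (emb L H x) ≠ ⊥ := by
        intro hbot
        rw [hbot, Ideal.absNorm_bot] at hn
        exact hℓ.ne_zero hn.symm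
      let v : ↥(Vset (IntermediateField.fixedField H) ℓ) :=
        ⟨⟨Q.comap (emb L H x), Ideal.comap_isPrime _ _, hne⟩, (mem_Vset _).mpr hn⟩
      have hv : Q.comap (emb L H (s v)) = Q.comap (emb L H x) := hs2 v
      have hn' : absNorm (Q.comap (emb L H (s v))) = ℓ := by rw [hv]; exact hn
      have hmem := mem_of_comap_eq hℓ Q hD₀ hQ hℓD hn' hv
      refine ⟨(v, ⟨_, hmem⟩), Subtype.ext ?_⟩
      show s v * ((s v)⁻¹ * x) = x
      group
  rw [← Nat.card_congr (Equiv.ofBijective g hg), Nat.card_prod, Nat.card_eq_fintype_card,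
    Fintype.card_coe]

end Fermat.Agent.S29.Dens
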