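import Mathlib
import Fermat.Agent.S29.DensAn

set_option autoImplicit false

/-! # S29 [A2] (G): the group-theoretic induction of the Frobenius density theorem -/

namespace Fermat.Agent.S29.Dens

open Subgroup

section Cyclic

variable {G : Type} [Group G] [Finite G]

theorem mem_zpowers_pow_iff (g : G) {d : ℕ} (hd : d ∣ orderOf g) (y : G) :
    y ∈ zpowers (g ^ (orderOf g / d)) ↔ y ∈ zpowers g ∧ orderOf y ∣ d := by
  have hn : 0 < orderOf g := orderOf_pos g
  obtain ⟨m, hm⟩ := hd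
  have hd0 : 0 < d := Nat.pos_of_ne_zero (by rintro rfl; rw [zero_mul] at hm; omega)
  have hm0 : 0 < m := Nat.pos_of_ne_zero (by rintro rfl; rw [mul_zero] at hm; omega)
  have hdiv : orderOf g / d = m := by rw [hm]; exact Nat.mul_div_cancel_left m hd0
  rw [hdiv]
  constructor
  · intro hy
    refine ⟨zpowers_le_of_mem (Subgroup.pow_mem _ (mem_zpowers g) m) hy, ?_⟩
    rw [orderOf_dvd_iff_pow_eq_one]
    obtain ⟨k, rfl⟩ := mem_zpowers_iff.1 hy
    rw [← zpow_natCast, ← zpow_mul, mul_comm, zpow_mul, zpow_natCast, ← pow_mul, mul_comm m d, ← hm,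
      pow_orderOf_eq_one, one_zpow]
  · rintro ⟨hy, ho⟩
    obtain ⟨k, hk⟩ := (mem_powers_iff_mem_zpowers).2 hy
    have hk' : g ^ k = y := hk
    subst hk'
    have h1 : (g ^ k) ^ d = 1 := orderOf_dvd_iff_pow_eq_one.1 ho
    rw [← pow_mul, ← orderOf_dvd_iff_pow_eq_one, hm, mul_comm k d] at h1
    obtain ⟨j, rfl⟩ := Nat.dvd_of_mul_dvd_mul_left hd0 h1
    rw [pow_mul]
    exact Subgroup.pow_mem _ (mem_zpowers _) j

theorem card_zpowers_pow (g : G) {d : ℕ} (hd : d ∣ orderOf g) :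
    Nat.card (zpowers (g ^ (orderOf g / d))) = d := by
  have hn : 0 < orderOf g := orderOf_pos g
  obtain ⟨m, hm⟩ := hd
  have hd0 : 0 < d := Nat.pos_of_ne_zero (by rintro rfl; rw [zero_mul] at hm; omega)
  have hm0 : 0 < m := Nat.pos_of_ne_zero (by rintro rfl; rw [mul_zero] at hm; omega)
  have hdiv : orderOf g / d = m := by rw [hm]; exact Nat.mul_div_cancel_left m hd0
  rw [Nat.card_zpowers, hdiv, orderOf_pow_of_dvd hm0.ne' ⟨d, by rw [hm, mul_comm]⟩, hm]
  exact Nat.mul_div_cancel d hm0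

end Cyclic

open Classical in
/-- the number of `x` such that `x⁻¹ Fr x` lies in `⟨g⟩` and has order `d`. -/
noncomputable def Nf {G : Type} [Group G] (Fr : ℕ → G) (g : G) (d : ℕ) (n : ℕ) : ℝ :=
  if n.Prime then
    (Nat.card {x : G // x⁻¹ * Fr n * x ∈ zpowers g ∧ orderOf (x⁻¹ * Fr n * x) = d} : ℝ) else 0

open Classical in
theorem card_eq_sum_Nf {G : Type} [Group G] [Finite G] (Fr : ℕ → G) (g : G) {d : ℕ}
    (hd : d ∣ orderOf g) (n : ℕ) :
    (if n.Prime then (Nat.card {x : G // x⁻¹ * Fr n * x ∈ zpowers (g ^ (orderOf g / d))} : ℝ)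
      else 0) = ∑ e ∈ d.divisors, Nf Fr g e n := by
  have hd0 : d ≠ 0 := by
    rintro rfl
    exact (orderOf_pos g).ne' (Nat.eq_zero_of_zero_dvd hd)
  by_cases hn : n.Prime
  · simp only [Nf, if_pos hn]
    have := Fintype.ofFinite G
    simp only [Nat.card_eq_fintype_card, Fintype.card_subtype]
    rw [← Nat.cast_sum]
    congr 1
    rw [Finset.card_eq_sum_card_fiberwise (f := fun x => orderOf (x⁻¹ * Fr n * x))
      (t := d.divisors)]
    · refine Finset.sum_congr rfl fun e he => ?_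
      congr 1
      ext x
      simp only [Finset.mem_filter, Finset.mem_univ, true_and, mem_zpowers_pow_iff g hd]
      constructor
      · rintro ⟨⟨h1, -⟩, h3⟩; exact ⟨h1, h3⟩
      · rintro ⟨h1, h3⟩; exact ⟨⟨h1, h3 ▸ Nat.dvd_of_mem_divisors he⟩, h3⟩
    · intro x hx
      simp only [Finset.coe_filter, Finset.mem_univ, true_and, Set.mem_ofPred_eq,
        mem_zpowers_pow_iff g hd] at hx
      exact Nat.mem_divisors.2 ⟨hx.2, hd0⟩
  · simp [Nf, hn]

open Classical in
theorem hasDens_Nf {G : Type} [Group G] [Finite G] (Fr : ℕ → G)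
    (h : ∀ H : Subgroup G, HasDens (fun n => if n.Prime then
      (Nat.card {x : G // x⁻¹ * Fr n * x ∈ H} : ℝ) else 0) (Nat.card H))
    (g : G) (d : ℕ) (hd : d ∣ orderOf g) : HasDens (Nf Fr g d) (Nat.totient d) := by
  induction d using Nat.strong_induction_on with
  | _ d ih =>
    have hd0 : d ≠ 0 := by
      rintro rfl
      exact (orderOf_pos g).ne' (Nat.eq_zero_of_zero_dvd hd)
    have h1 := h (zpowers (g ^ (orderOf g / d)))
    rw [card_zpowers_pow g hd] at h1
    have h2 : HasDens (fun n => ∑ e ∈ d.properDivisors, Nf Fr g e n)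
        (∑ e ∈ d.properDivisors, (Nat.totient e : ℝ)) :=
      HasDens.sum _ _ _ fun e he =>
        ih e (Nat.mem_properDivisors.1 he).2 ((Nat.mem_properDivisors.1 he).1.trans hd)
    have h3 := h1.sub h2
    have e1 : (d : ℝ) - ∑ e ∈ d.properDivisors, (Nat.totient e : ℝ) = Nat.totient d := by
      have := Nat.sum_totient d
      rw [← Nat.insert_self_properDivisors hd0,
        Finset.sum_insert Nat.self_notMem_properDivisors] at this
      have h4 : ((Nat.totient d + ∑ e ∈ d.properDivisors, Nat.totient e : ℕ) : ℝ) = d := by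
        rw [this]
      push_cast at h4
      linarith
    rw [e1] at h3
    convert h3 using 1
    funext n
    rw [card_eq_sum_Nf Fr g hd n, ← Nat.insert_self_properDivisors hd0,
      Finset.sum_insert Nat.self_notMem_properDivisors]
    ring

open Classical in
/-- **(G)** -/
theorem exists_pow_conj {G : Type} [Group G] [Finite G] (Fr : ℕ → G)
    (h : ∀ H : Subgroup G, HasDens (fun n => if n.Prime then
      (Nat.card {x : G // x⁻¹ * Fr n * x ∈ H} : ℝ) else 0) (Nat.card H))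
    (g : G) (S : Finset ℕ) :
    ∃ ℓ, ℓ.Prime ∧ ℓ ∉ S ∧ ∃ x : G, ∃ i : ℕ, (x⁻¹ * Fr ℓ * x) ^ i = g := by
  have h1 := hasDens_Nf Fr h g (orderOf g) dvd_rfl
  have hpos : (0 : ℝ) < Nat.totient (orderOf g) := by
    exact_mod_cast Nat.totient_pos.2 (orderOf_pos g)
  obtain ⟨ℓ, hℓS, hℓ⟩ := h1.exists_ne_zero hpos S
  have hprime : ℓ.Prime := by
    by_contra hn
    exact hℓ (by simp [Nf, hn])
  simp only [Nf, if_pos hprime] at hℓ
  have hne : Nat.card {x : G // x⁻¹ * Fr ℓ * x ∈ zpowers g ∧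
      orderOf (x⁻¹ * Fr ℓ * x) = orderOf g} ≠ 0 := by
    intro h0; apply hℓ; rw [h0]; simp
  obtain ⟨⟨x, hx1, hx2⟩⟩ := (Nat.card_ne_zero.1 hne).1
  refine ⟨ℓ, hprime, hℓS, x, ?_⟩
  have heq : zpowers (x⁻¹ * Fr ℓ * x) = zpowers g := by
    apply Subgroup.eq_of_le_of_card_ge (zpowers_le_of_mem hx1)
    rw [Nat.card_zpowers, Nat.card_zpowers, hx2]
  have hg : g ∈ zpowers (x⁻¹ * Fr ℓ * x) := heq ▸ mem_zpowers g
  exact (mem_powers_iff_mem_zpowers).2 hg

end Fermat.Agent.S29.Dens
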