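import Mathlib
import Fermat.Agent.S29.DensAlgA

set_option autoImplicit false
set_option linter.style.haveILetI false

/-! # S29 [A2]: from Frobenius elements at ideals of `ℤ̄` to the valuation-subring shape -/

namespace Fermat.Agent.S29.Dens

open Fermat.Agent.Lib.Frobenius
open scoped Pointwise

local notation "Qb" => AlgebraicClosure ℚ
local notation "Zb" => integralClosure ℤ (AlgebraicClosure ℚ)
local notation "GQ" => (AlgebraicClosure ℚ ≃ₐ[ℚ] AlgebraicClosure ℚ)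

theorem isFrobeniusAt_of_center (A : ValuationSubring Qb) (ℓ : ℕ) (hℓ : ℓ.Prime)
    (hA : A.LiesOverPrime ℓ) (σ : GQ) (hσ : σ • center A = center A)
    (hfrob : ∀ b : Zb, σ • b - b ^ ℓ ∈ center A) : A.IsFrobeniusAt σ ℓ := by
  have hdec := mem_decompositionSubgroup A ℓ hℓ hA σ hσ
  refine ⟨hdec, fun xbar => ?_⟩
  obtain ⟨x, rfl⟩ := IsLocalRing.residue_surjective xbar
  obtain ⟨s, b, hs, hsb⟩ := exists_fraction A ℓ hℓ hA x x.2
  set g : A.decompositionSubgroup ℚ := ⟨σ, hdec⟩ with hg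
  have key : ∀ c : Zb, g • IsLocalRing.residue A (incl A c) =
      (IsLocalRing.residue A (incl A c)) ^ ℓ := by
    intro c
    rw [← IsLocalRing.ResidueField.residue_smul, ← map_pow, ← sub_eq_zero, ← map_sub,
      IsLocalRing.residue_eq_zero_iff]
    have h := hfrob c
    rw [center, Ideal.mem_comap] at h
    exact h
  have hsx : incl A s * x = incl A b := Subtype.ext hsb
  have hs0 : IsLocalRing.residue A (incl A s) ≠ 0 := by
    rw [Ne, IsLocalRing.residue_eq_zero_iff]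
    exact hs
  have h1 : g • (IsLocalRing.residue A (incl A s) * IsLocalRing.residue A x) =
      (IsLocalRing.residue A (incl A s) * IsLocalRing.residue A x) ^ ℓ := by
    rw [← map_mul, hsx, key]
  rw [smul_mul', key, mul_pow] at h1
  exact mul_left_cancel₀ (pow_ne_zero _ hs0) h1

theorem isMaximal_of_natCast_mem {ℓ : ℕ} (hℓ : ℓ.Prime) (Q : Ideal Zb) [hQp : Q.IsPrime]
    (hQ : (ℓ : Zb) ∈ Q) : Q.IsMaximal := by
  have hPmax : (Ideal.span {(ℓ : ℤ)}).IsMaximal :=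
    PrincipalIdealRing.isMaximal_of_irreducible (Nat.prime_iff_prime_int.mp hℓ).irreducible
  apply Ideal.isMaximal_of_isIntegral_of_isMaximal_comap (R := ℤ) Q
  have := under_eq_span hℓ Q hQ
  rw [Ideal.under_def] at this
  rw [this]
  exact hPmax

theorem smul_eq_of_frob {ℓ : ℕ} (Q : Ideal Zb) [hQp : Q.IsPrime]
    (τ : GQ) (hfrob : ∀ b : Zb, τ • b - b ^ ℓ ∈ Q) (hℓ0 : ℓ ≠ 0) : τ • Q = Q := by
  ext b
  rw [Ideal.mem_pointwise_smul_iff_inv_smul_mem]
  have h := hfrob (τ⁻¹ • b)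
  rw [smul_inv_smul] at h
  constructor
  · intro hc
    have := Q.add_mem h (Q.pow_mem_of_mem hc ℓ (Nat.pos_of_ne_zero hℓ0))
    rwa [sub_add_cancel] at this
  · intro hb
    have := Q.sub_mem hb h
    rw [sub_sub_cancel] at this
    exact hQp.mem_of_pow_mem _ this

theorem exists_center_eq {ℓ : ℕ} (hℓ : ℓ.Prime) (Q : Ideal Zb) [hQp : Q.IsPrime]
    (hQ : (ℓ : Zb) ∈ Q) : ∃ A : ValuationSubring Qb, A.LiesOverPrime ℓ ∧ center A = Q := by
  obtain ⟨A, -, hA⟩ := Ideal.image_subset_nonunits_valuationSubring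
    (A := (integralClosure ℤ Qb).toSubring) Q hQp.ne_top
  have hle : Q ≤ center A := by
    intro b hb
    rw [mem_center_iff]
    exact (ValuationSubring.mem_nonunits_iff A).mp (hA ⟨b, hb, rfl⟩)
  refine ⟨A, hA ⟨(ℓ : Zb), hQ, by simp⟩, ?_⟩
  exact ((isMaximal_of_natCast_mem hℓ Q hQ).eq_of_le (Ideal.IsPrime.ne_top inferInstance) hle).symm

theorem exists_isFrobeniusAt_of_ideal {ℓ : ℕ} (hℓ : ℓ.Prime) (Q : Ideal Zb) [Q.IsPrime]
    (hQ : (ℓ : Zb) ∈ Q) (τ : GQ) (hfrob : ∀ b : Zb, τ • b - b ^ ℓ ∈ Q) :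
    ∃ A : ValuationSubring Qb, A.LiesOverPrime ℓ ∧ A.IsFrobeniusAt τ ℓ := by
  obtain ⟨A, hA, hAQ⟩ := exists_center_eq hℓ Q hQ
  refine ⟨A, hA, isFrobeniusAt_of_center A ℓ hℓ hA τ ?_ ?_⟩
  · rw [hAQ]; exact smul_eq_of_frob Q τ hfrob hℓ.ne_zero
  · rw [hAQ]; exact hfrob

end Fermat.Agent.S29.Dens
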