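import Mathlib
import Fermat.Agent.S29.DensAlgC
import Fermat.Agent.S29.DensGrp
import Fermat.Agent.S29.DensTr

set_option autoImplicit false
set_option linter.style.haveILetI false
set_option linter.unusedSectionVars false

/-! # S29 [A2]: every element of a finite Galois group over `ℚ` is a power of a Frobenius -/

namespace Fermat.Agent.S29.Dens

open Polynomial NumberField Ideal IsDedekindDomain Fermat.Agent.Lib.Frobenius
open scoped Pointwise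

local notation "Qb" => AlgebraicClosure ℚ
local notation "Zb" => integralClosure ℤ (AlgebraicClosure ℚ)
local notation "GQ" => (AlgebraicClosure ℚ ≃ₐ[ℚ] AlgebraicClosure ℚ)

theorem exists_frob_data (n : ℕ) : ∃ (Q : Ideal Zb) (τ : GQ), n.Prime →
    (Q.IsPrime ∧ (n : Zb) ∈ Q ∧ ∀ b : Zb, τ • b - b ^ n ∈ Q) := by
  by_cases hn : n.Prime
  · obtain ⟨A, hA⟩ := exists_liesOverPrime n hn
    obtain ⟨σ, -, hσ⟩ := exists_frob_ideal n hn (center A) (natCast_mem_center A n hA)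
    exact ⟨center A, σ, fun _ => ⟨inferInstance, natCast_mem_center A n hA, hσ⟩⟩
  · exact ⟨⊥, 1, fun h => absurd h hn⟩

/-- a chosen prime of `ℤ̄` above `n` -/
noncomputable def Qf (n : ℕ) : Ideal Zb := (exists_frob_data n).choose

/-- a chosen Frobenius at `Qf n` -/
noncomputable def τf (n : ℕ) : GQ := (exists_frob_data n).choose_spec.choose

theorem frob_data {n : ℕ} (hn : n.Prime) :
    (Qf n).IsPrime ∧ (n : Zb) ∈ Qf n ∧ ∀ b : Zb, τf n • b - b ^ n ∈ Qf n :=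
  (exists_frob_data n).choose_spec.choose_spec hn

section

variable (L : IntermediateField ℚ Qb) [FiniteDimensional ℚ L] [Normal ℚ L]

open Classical in
theorem hasDens_conj (H : Subgroup (L ≃ₐ[ℚ] L)) :
    HasDens (fun n => if n.Prime then
      (Nat.card {x : L ≃ₐ[ℚ] L // x⁻¹ * AlgEquiv.restrictNormalHom L (τf n) * x ∈ H} : ℝ) else 0)
      (Nat.card H) := by
  obtain ⟨D₀, hD₀0, hD₀⟩ := exists_sep L H
  have h1 := (hasDens_cM (IntermediateField.fixedField H)).const_mul (Nat.card H : ℝ)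
  rw [mul_one] at h1
  refine h1.congr_off_finite D₀.divisors (fun n hn => ?_)
  by_cases hp : n.Prime
  · have hnD : ¬ n ∣ D₀ := fun h => hn (Nat.mem_divisors.mpr ⟨h, hD₀0⟩)
    obtain ⟨hQp, hQ, hfrob⟩ := frob_data hp
    haveI := hQp
    rw [if_pos hp, card_conj_eq hp (Qf n) hQ (τf n) hfrob hD₀ hnD, cM, if_pos hp]
    push_cast
    ring
  · rw [if_neg hp, cM, if_neg hp, mul_zero]

theorem exists_frobenius_pow_normal (σ : GQ) (D : ℕ) (hD : D ≠ 0) :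
    ∃ ℓ, ℓ.Prime ∧ ¬ ℓ ∣ D ∧ ∃ A : ValuationSubring Qb, A.LiesOverPrime ℓ ∧
      ∃ τ : GQ, A.IsFrobeniusAt τ ℓ ∧ ∃ i : ℕ, ∀ x ∈ L, (τ ^ i) x = σ x := by
  obtain ⟨ℓ, hℓ, hℓS, x, i, hx⟩ := exists_pow_conj
    (fun n => AlgEquiv.restrictNormalHom L (τf n)) (hasDens_conj L)
    (AlgEquiv.restrictNormalHom L σ) D.divisors
  have hℓD : ¬ ℓ ∣ D := fun h => hℓS (Nat.mem_divisors.mpr ⟨h, hD⟩)
  obtain ⟨xt, rfl⟩ := AlgEquiv.restrictNormalHom_surjective Qb x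
  obtain ⟨hQp, hQ, hfrob⟩ := frob_data hℓ
  haveI := hQp
  set τ' : GQ := xt⁻¹ * τf ℓ * xt with hτ'
  haveI : (xt⁻¹ • Qf ℓ).IsPrime := by
    rw [Ideal.pointwise_smul_def]
    exact Ideal.map_isPrime_of_equiv (MulSemiringAction.toRingEquiv GQ Zb xt⁻¹)
  have hQ' : (ℓ : Zb) ∈ xt⁻¹ • Qf ℓ := by
    have : (ℓ : Zb) = xt⁻¹ • (ℓ : Zb) := 
      (map_natCast (MulSemiringAction.toRingHom GQ Zb xt⁻¹) ℓ).symm
    rw [this, Ideal.smul_mem_pointwise_smul_iff]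
    exact hQ
  have hfrob' : ∀ b : Zb, τ' • b - b ^ ℓ ∈ xt⁻¹ • Qf ℓ := by
    intro b
    have h1 : τ' • b - b ^ ℓ = xt⁻¹ • (τf ℓ • (xt • b) - (xt • b) ^ ℓ) := by
      rw [smul_sub, smul_pow', inv_smul_smul, hτ', mul_smul, mul_smul]
    rw [h1, Ideal.smul_mem_pointwise_smul_iff]
    exact hfrob _
  obtain ⟨A, hA, hAτ⟩ := exists_isFrobeniusAt_of_ideal hℓ _ hQ' τ' hfrob'
  refine ⟨ℓ, hℓ, hℓD, A, hA, τ', hAτ, i, fun y hy => ?_⟩
  have h2 : AlgEquiv.restrictNormalHom L (τ' ^ i) = AlgEquiv.restrictNormalHom L σ := by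
    rw [map_pow, hτ', map_mul, map_mul, map_inv]
    exact hx
  have h3 := AlgEquiv.restrictNormal_commutes (τ' ^ i) L ⟨y, hy⟩
  have h4 := AlgEquiv.restrictNormal_commutes σ L ⟨y, hy⟩
  have h5 : (τ' ^ i).restrictNormal L = σ.restrictNormal L := h2
  rw [h5] at h3
  exact h3.symm.trans h4

end

theorem exists_frobenius_pow (L : IntermediateField ℚ Qb) [FiniteDimensional ℚ L] (σ : GQ)
    (D : ℕ) (hD : D ≠ 0) :
    ∃ ℓ, ℓ.Prime ∧ ¬ ℓ ∣ D ∧ ∃ A : ValuationSubring Qb, A.LiesOverPrime ℓ ∧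
      ∃ τ : GQ, A.IsFrobeniusAt τ ℓ ∧ ∃ i : ℕ, ∀ x ∈ L, (τ ^ i) x = σ x := by
  haveI : Normal ℚ Qb := IsGalois.to_normal
  haveI : Normal ℚ (IntermediateField.normalClosure ℚ L Qb) := normalClosure.normal ℚ L Qb
  obtain ⟨ℓ, hℓ, hℓD, A, hA, τ, hτ, i, hi⟩ :=
    exists_frobenius_pow_normal (IntermediateField.normalClosure ℚ L Qb) σ D hD
  exact ⟨ℓ, hℓ, hℓD, A, hA, τ, hτ, i, fun x hx => hi x (L.le_normalClosure hx)⟩

end Fermat.Agent.S29.Dens
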