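import Mathlib
import Fermat.Agent.S29.ESFinal

set_option autoImplicit false

/-! # S29: closure properties of `DivBy` on `FN N` -/

namespace Fermat.Agent.S29

open ModularCurve AlgebraicCurve IntermediateField Fermat.Agent.S24

theorem divBy_mul {N p : ℕ} {x y : FN N} (hx : DivBy p Kb x) (hy : DivBy p Kb y) :
    DivBy p Kb (x * y) := ES.dvd_ord_mul hx hy

theorem divBy_inv {N p : ℕ} {x : FN N} (hx : DivBy p Kb x) : DivBy p Kb x⁻¹ := ES.dvd_ord_inv hx

theorem divBy_pow {N p : ℕ} {x : FN N} (hx : DivBy p Kb x) (n : ℕ) : DivBy p Kb (x ^ n) :=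
  ES.dvd_ord_pow hx n

theorem divBy_ppow {N : ℕ} (p : ℕ) (s : FN N) : DivBy p Kb (s ^ p) := ES.dvd_ord_ppow p s

theorem divBy_mul_pow {N p : ℕ} {x : FN N} (s : FN N) (hx : DivBy p Kb x) :
    DivBy p Kb (x * s ^ p) := divBy_mul hx (divBy_ppow p s)

end Fermat.Agent.S29
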