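import Mathlib

set_option autoImplicit false

/-! # S29 (B1): weighted lattice sums `∑ a(c,d) (c z + d)^(-k)` -/

namespace Fermat.Agent.S29

open UpperHalfPlane ModularForm EisensteinSeries Matrix Matrix.SpecialLinearGroup Filter Set
open scoped MatrixGroups ModularForm Manifold Topology

namespace Eis

/-- the weighted lattice sum. -/
noncomputable def wsum (a : (Fin 2 → ℤ) → ℂ) (k : ℤ) (z : ℍ) : ℂ :=
  ∑' x : Fin 2 → ℤ, a x * eisSummand k x z

variable {a : (Fin 2 → ℤ) → ℂ} (ha : ∀ x, ‖a x‖ ≤ 1) {k : ℤ} (hk : 3 ≤ k)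

include ha in
theorem norm_term_le (x : Fin 2 → ℤ) (z : ℍ) : ‖a x * eisSummand k x z‖ ≤ ‖eisSummand k x z‖ := by
  rw [norm_mul]
  exact mul_le_of_le_one_left (norm_nonneg _) (ha x)

include ha hk in
theorem summable_term (z : ℍ) : Summable fun x : Fin 2 → ℤ => a x * eisSummand k x z :=
  Summable.of_norm_bounded (summable_norm_eisSummand hk z) fun x => norm_term_le ha x z

include ha hk in
theorem wsum_tendstoLocallyUniformly :
    TendstoLocallyUniformly (fun (s : Finset (Fin 2 → ℤ)) ↦ (∑ x ∈ s, a x * eisSummand k x ·))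
      (wsum a k ·) Filter.atTop := by
  have hk' : (2 : ℝ) < k := by norm_cast
  have p_sum : Summable fun x : Fin 2 → ℤ ↦ ‖x‖ ^ (-k) :=
    mod_cast (summable_one_div_norm_rpow hk')
  simp only [tendstoLocallyUniformly_iff_forall_isCompact, wsum]
  intro K hK
  obtain ⟨A, B, hB, HABK⟩ := subset_verticalStrip_of_isCompact hK
  refine (tendstoUniformlyOn_tsum (hu := p_sum.mul_left <| r ⟨⟨A, B⟩, hB⟩ ^ (-k : ℝ))
    (fun p z hz ↦ ?_)).mono HABK
  refine (norm_term_le ha p z).trans ?_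
  simpa only [eisSummand, one_div, ← _root_.zpow_neg, norm_zpow, ← Real.rpow_intCast,
    Int.cast_neg] using summand_bound_of_mem_verticalStrip (by positivity) p hB hz

include ha hk in
theorem wsum_tendstoLocallyUniformlyOn :
    TendstoLocallyUniformlyOn (fun (s : Finset (Fin 2 → ℤ)) ↦
      ↑ₕ(fun (z : ℍ) ↦ ∑ x ∈ s, a x * eisSummand k x z)) (↑ₕ(wsum a k))
          Filter.atTop {z : ℂ | 0 < z.im} := by
  rw [← upperHalfPlaneSet, ← range_coe, ← image_univ]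
  apply TendstoLocallyUniformlyOn.comp (s := ⊤) _ _ _ (OpenPartialHomeomorph.continuousOn_symm _)
  · simp only [Set.top_eq_univ, tendstoLocallyUniformlyOn_univ]
    exact wsum_tendstoLocallyUniformly ha hk
  · simp only [Topology.IsOpenEmbedding.toOpenPartialHomeomorph_target, Set.top_eq_univ, mapsTo_range_iff,
    Set.mem_univ, forall_const]

theorem term_differentiableOn (c : ℂ) (k : ℤ) (x : Fin 2 → ℤ) :
    DifferentiableOn ℂ (↑ₕ(fun z : ℍ => c * eisSummand k x z)) {z : ℂ | 0 < z.im} := by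
  have h := (eisSummand_extension_differentiableOn k x).const_mul c
  exact h

include ha hk in
theorem wsum_mdiff : MDiff (wsum a k) := by
  intro τ
  suffices DifferentiableAt ℂ (↑ₕ(wsum a k)) τ.1 by
    convert!
      MDifferentiableAt.comp τ (DifferentiableAt.mdifferentiableAt this) τ.mdifferentiable_coe
    exact funext fun z ↦ (comp_ofComplex (wsum a k) z).symm
  refine DifferentiableOn.differentiableAt ?_ (isOpen_upperHalfPlaneSet.mem_nhds τ.2)
  refine (wsum_tendstoLocallyUniformlyOn ha hk).differentiableOn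
    (Eventually.of_forall fun s ↦ ?_) isOpen_upperHalfPlaneSet
  have : (↑ₕ(fun (z : ℍ) ↦ ∑ x ∈ s, a x * eisSummand k x z)) =
      fun w => ∑ x ∈ s, (↑ₕ(fun z : ℍ => a x * eisSummand k x z)) w := by
    funext w
    simp [Function.comp]
  rw [this]
  exact DifferentiableOn.fun_sum fun x _ ↦ term_differentiableOn _ _ _

theorem coe_mul_inv (γ : SL(2, ℤ)) :
    (γ : Matrix (Fin 2) (Fin 2) ℤ) * ((γ⁻¹ : SL(2, ℤ)) : Matrix (Fin 2) (Fin 2) ℤ) = 1 := by
  have := Matrix.SpecialLinearGroup.coe_mul γ γ⁻¹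
  rw [mul_inv_cancel] at this
  exact this.symm.trans Matrix.SpecialLinearGroup.coe_one

theorem coe_inv_mul (γ : SL(2, ℤ)) :
    ((γ⁻¹ : SL(2, ℤ)) : Matrix (Fin 2) (Fin 2) ℤ) * (γ : Matrix (Fin 2) (Fin 2) ℤ) = 1 := by
  have := Matrix.SpecialLinearGroup.coe_mul γ⁻¹ γ
  rw [inv_mul_cancel] at this
  exact this.symm.trans Matrix.SpecialLinearGroup.coe_one

theorem vecMul_vecMul_inv (γ : SL(2, ℤ)) (v : Fin 2 → ℤ) :
    (v ᵥ* (γ : Matrix (Fin 2) (Fin 2) ℤ)) ᵥ* ((γ⁻¹ : SL(2, ℤ)) : Matrix (Fin 2) (Fin 2) ℤ) = v := by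
  rw [vecMul_vecMul, coe_mul_inv, vecMul_one]

theorem vecMul_inv_vecMul (γ : SL(2, ℤ)) (v : Fin 2 → ℤ) :
    (v ᵥ* ((γ⁻¹ : SL(2, ℤ)) : Matrix (Fin 2) (Fin 2) ℤ)) ᵥ* (γ : Matrix (Fin 2) (Fin 2) ℤ) = v := by
  rw [vecMul_vecMul, coe_inv_mul, vecMul_one]

/-- right multiplication by `γ` on row vectors. -/
def vecEquiv (γ : SL(2, ℤ)) : (Fin 2 → ℤ) ≃ (Fin 2 → ℤ) where
  toFun v := v ᵥ* (γ : Matrix (Fin 2) (Fin 2) ℤ)
  invFun v := v ᵥ* ((γ⁻¹ : SL(2, ℤ)) : Matrix (Fin 2) (Fin 2) ℤ)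
  left_inv v := vecMul_vecMul_inv γ v
  right_inv v := vecMul_inv_vecMul γ v

theorem vecEquiv_apply (γ : SL(2, ℤ)) (v : Fin 2 → ℤ) :
    vecEquiv γ v = v ᵥ* (γ : Matrix (Fin 2) (Fin 2) ℤ) := rfl

theorem wsum_smul (a : (Fin 2 → ℤ) → ℂ) (k : ℤ) (γ : SL(2, ℤ)) (z : ℍ) :
    wsum a k (γ • z) = denom γ z ^ k *
      wsum (fun x => a (x ᵥ* ((γ⁻¹ : SL(2, ℤ)) : Matrix (Fin 2) (Fin 2) ℤ))) k z := by
  unfold wsum
  rw [← tsum_mul_left, ← (vecEquiv γ).tsum_eq
    (fun x => denom γ z ^ k * (a (x ᵥ* ((γ⁻¹ : SL(2, ℤ)) : Matrix (Fin 2) (Fin 2) ℤ)) *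
      eisSummand k x z))]
  refine tsum_congr fun x => ?_
  rw [vecEquiv_apply, vecMul_vecMul_inv, eisSummand_SL2_apply]
  ring

include ha hk in
theorem norm_wsum_le (z : ℍ) : ‖wsum a k z‖ ≤ ∑' x : Fin 2 → ℤ, ‖eisSummand k x z‖ := by
  refine (norm_tsum_le_tsum_norm (summable_term ha hk z).norm).trans ?_
  exact (summable_term ha hk z).norm.tsum_le_tsum (fun x => norm_term_le ha x z)
    (summable_norm_eisSummand hk z)

theorem tsum_norm_T (k : ℤ) (n : ℤ) (z : ℍ) :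
    ∑' x : Fin 2 → ℤ, ‖eisSummand k x ((ModularGroup.T ^ n : SL(2, ℤ)) • z)‖ =
      ∑' x : Fin 2 → ℤ, ‖eisSummand k x z‖ := by
  rw [← (vecEquiv (ModularGroup.T ^ n)).tsum_eq (fun x => ‖eisSummand k x z‖)]
  refine tsum_congr fun x => ?_
  rw [eisSummand_SL2_apply]
  have : denom (ModularGroup.T ^ n : SL(2, ℤ)) z = 1 := by
    have h10 : (ModularGroup.T ^ n : SL(2, ℤ)) 1 0 = 0 := by
      rw [ModularGroup.coe_T_zpow]; rfl
    have h11 : (ModularGroup.T ^ n : SL(2, ℤ)) 1 1 = 1 := by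
      rw [ModularGroup.coe_T_zpow]; rfl
    rw [ModularGroup.denom_apply, h10, h11]
    simp
  rw [this, _root_.one_zpow, one_mul]
  rfl

include ha hk in
theorem wsum_bdd : IsBoundedAtImInfty (wsum a k) := by
  rw [UpperHalfPlane.isBoundedAtImInfty_iff]
  refine ⟨∑'(x : Fin 2 → ℤ), r ⟨⟨1, 2⟩, Nat.ofNat_pos⟩ ^ (-k) * ‖x‖ ^ (-k), 2, ?_⟩
  intro z hz
  obtain ⟨n, hn⟩ := (ModularGroup_T_zpow_mem_verticalStrip z (N := 1) one_pos)
  refine (norm_wsum_le ha hk z).trans ?_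
  rw [← tsum_norm_T k (1 * n) z]
  have hk' : (2 : ℝ) < k := by norm_cast
  apply (summable_norm_eisSummand hk _).tsum_le_tsum _
  · exact_mod_cast (summable_one_div_norm_rpow hk').mul_left <| r ⟨⟨1, 2⟩, Nat.ofNat_pos⟩ ^ (-k)
  · intro x
    simp_rw [eisSummand, norm_zpow]
    exact_mod_cast
      summand_bound_of_mem_verticalStrip (lt_trans two_pos hk').le x two_pos
      (verticalStrip_anti_right 1 hz (by exact_mod_cast hn))

end Eis

end Fermat.Agent.S29
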