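import Fermat.Agent.S29.EisTwB
import Fermat.Agent.S29.FormDefs

set_option autoImplicit false

/-! # S29 (B1): the twisted Eisenstein series is a form with multiplier -/

namespace Fermat.Agent.S29

open UpperHalfPlane ModularForm EisensteinSeries Matrix Matrix.SpecialLinearGroup Filter Set
open CongruenceSubgroup
open scoped MatrixGroups ModularForm Manifold Topology
open Fermat.Agent.S24 (IsMer Mer qN)

namespace Eis

theorem wsum_slash (a : (Fin 2 → ℤ) → ℂ) (k : ℤ) (γ : SL(2, ℤ)) :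
    (wsum a k) ∣[k] γ =
      wsum (fun x => a (x ᵥ* ((γ⁻¹ : SL(2, ℤ)) : Matrix (Fin 2) (Fin 2) ℤ))) k := by
  funext z
  rw [SL_slash_apply, wsum_smul, _root_.zpow_neg, mul_comm, ← mul_assoc,
    inv_mul_cancel₀ (zpow_ne_zero _ (denom_ne_zero _ z)), one_mul]

theorem denom_T_zpow (n : ℤ) (z : ℍ) : denom (ModularGroup.T ^ n : SL(2, ℤ)) z = 1 := by
  have h10 : (ModularGroup.T ^ n : SL(2, ℤ)) 1 0 = 0 := by
    rw [ModularGroup.coe_T_zpow]; rfl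
  have h11 : (ModularGroup.T ^ n : SL(2, ℤ)) 1 1 = 1 := by
    rw [ModularGroup.coe_T_zpow]; rfl
  rw [ModularGroup.denom_apply, h10, h11]
  simp

theorem wsum_vadd (a : (Fin 2 → ℤ) → ℂ) (k : ℤ) (n : ℤ)
    (h : ∀ x, a (x ᵥ* (((ModularGroup.T ^ n)⁻¹ : SL(2, ℤ)) : Matrix (Fin 2) (Fin 2) ℤ)) = a x)
    (z : ℍ) : wsum a k ((n : ℝ) +ᵥ z) = wsum a k z := by
  rw [← modular_T_zpow_smul, wsum_smul, denom_T_zpow, _root_.one_zpow, one_mul]
  congr 1
  funext x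
  exact h x

/-- the conjugate of a translation by a multiple of `N`. -/
theorem conj_T_mem (N : ℕ) (γ : SL(2, ℤ)) :
    γ * (ModularGroup.T ^ (N : ℤ))⁻¹ * γ⁻¹ ∈ Gamma0 N := by
  rw [Gamma0_mem, ← _root_.zpow_neg]
  have d := Matrix.SpecialLinearGroup.det_coe γ
  rw [Matrix.det_fin_two] at d
  have : ((γ * ModularGroup.T ^ (-(N : ℤ)) * γ⁻¹ : SL(2, ℤ)) : Matrix (Fin 2) (Fin 2) ℤ) 1 0 =
      N * (γ 1 0 * γ 1 0) := by
    rw [Matrix.SpecialLinearGroup.coe_mul, Matrix.SpecialLinearGroup.coe_mul,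
      Matrix.SpecialLinearGroup.coe_inv, Matrix.adjugate_fin_two, ModularGroup.coe_T_zpow]
    simp [Matrix.mul_apply, Fin.sum_univ_two]
    ring
  rw [this]
  simp

theorem conj_T_isPE (n : ℤ) (γ : SL(2, ℤ)) : IsPE (γ * (ModularGroup.T ^ n)⁻¹ * γ⁻¹) := by
  unfold IsPE
  rw [← _root_.zpow_neg]
  have d := Matrix.SpecialLinearGroup.det_coe γ
  rw [Matrix.det_fin_two] at d
  have : ((γ * ModularGroup.T ^ (-n) * γ⁻¹ : SL(2, ℤ)) : Matrix (Fin 2) (Fin 2) ℤ).trace = 2 := by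
    rw [Matrix.SpecialLinearGroup.coe_mul, Matrix.SpecialLinearGroup.coe_mul,
      Matrix.SpecialLinearGroup.coe_inv, Matrix.adjugate_fin_two, ModularGroup.coe_T_zpow,
      Matrix.trace_fin_two]
    simp [Matrix.mul_apply, Fin.sum_univ_two]
    linarith
  rw [this]
  norm_num

variable {N : ℕ} {χ : Gamma0 N →* ℂˣ}

theorem isForm_Echi (hχ : KillsPE χ) (hn : ∀ γ, ‖(χ γ : ℂ)‖ = 1) {k : ℤ} (hk : 3 ≤ k) :
    IsForm N χ k (Echi χ k) where
  slash δ := by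
    funext z
    rw [SL_slash_apply, Echi_smul hχ, Pi.smul_apply, smul_eq_mul, _root_.zpow_neg]
    have := zpow_ne_zero k (denom_ne_zero (δ : SL(2, ℤ)) z)
    field_simp
  mer γ := by
    have e : (Echi χ k) ∣[k] γ = _ := wsum_slash (coef χ) k γ
    rw [e]
    have ha : ∀ x : Fin 2 → ℤ,
        ‖coef χ (x ᵥ* ((γ⁻¹ : SL(2, ℤ)) : Matrix (Fin 2) (Fin 2) ℤ))‖ ≤ 1 :=
      fun x => norm_coef_le hn _
    refine ⟨wsum_mdiff ha hk, fun z => ?_, 0, ?_⟩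
    · have := wsum_vadd (fun x => coef χ (x ᵥ* ((γ⁻¹ : SL(2, ℤ)) : Matrix (Fin 2) (Fin 2) ℤ)))
        k (N : ℤ) ?_ z
      · simpa using this
      · intro x
        have h1 := coef_vecMul hχ ⟨_, conj_T_mem N γ⟩
          (x ᵥ* ((γ⁻¹ : SL(2, ℤ)) : Matrix (Fin 2) (Fin 2) ℤ))
        rw [hχ ⟨_, conj_T_mem N γ⟩ (conj_T_isPE _ γ), inv_one, Units.val_one, one_mul] at h1
        rw [← h1]
        congr 1
        show _ = (x ᵥ* ((γ⁻¹ : SL(2, ℤ)) : Matrix (Fin 2) (Fin 2) ℤ)) ᵥ*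
          ((γ * (ModularGroup.T ^ (N : ℤ))⁻¹ * γ⁻¹ : SL(2, ℤ)) : Matrix (Fin 2) (Fin 2) ℤ)
        rw [Matrix.SpecialLinearGroup.coe_mul, Matrix.SpecialLinearGroup.coe_mul,
          vecMul_vecMul, vecMul_vecMul, ← Matrix.mul_assoc, ← Matrix.mul_assoc, coe_inv_mul,
          Matrix.one_mul]
    · simp only [pow_zero, one_mul]
      exact wsum_bdd ha hk

end Eis

end Fermat.Agent.S29
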