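import Fermat.Agent.S29.EisTwC

set_option autoImplicit false

/-! # S29 (B1): the twisted Eisenstein series does not vanish identically -/

namespace Fermat.Agent.S29

open UpperHalfPlane ModularForm EisensteinSeries Matrix Matrix.SpecialLinearGroup Filter Set
open CongruenceSubgroup
open scoped MatrixGroups ModularForm Manifold Topology

namespace Eis

/-- the points `i (n + 1)`. -/
noncomputable def zn (n : ℕ) : ℍ := ⟨Complex.I * ((n : ℝ) + 1 : ℝ), by
  simp only [Complex.mul_im, Complex.I_re, Complex.ofReal_im, mul_zero, Complex.I_im,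
    Complex.ofReal_re, one_mul, zero_add]
  positivity⟩

theorem zn_coe (n : ℕ) : (zn n : ℂ) = Complex.I * ((n : ℝ) + 1 : ℝ) := rfl

theorem zn_im (n : ℕ) : (zn n).im = (n : ℝ) + 1 := by
  show (Complex.I * ((n : ℝ) + 1 : ℝ)).im = _
  simp

theorem zn_re (n : ℕ) : (zn n).re = 0 := by
  show (Complex.I * ((n : ℝ) + 1 : ℝ)).re = _
  simp

theorem tendsto_eisSummand_zero {k : ℤ} (hk : 1 ≤ k) (x : Fin 2 → ℤ) (hx : x 0 ≠ 0) :
    Tendsto (fun n => eisSummand k x (zn n)) atTop (𝓝 0) := by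
  refine squeeze_zero_norm (a := fun n : ℕ => 1 / ((n : ℝ) + 1)) (fun n => ?_)
    tendsto_one_div_add_atTop_nhds_zero_nat
  have hpos : (0 : ℝ) < (n : ℝ) + 1 := by positivity
  have h1 : (n : ℝ) + 1 ≤ ‖(x 0 : ℂ) * (zn n : ℂ) + x 1‖ := by
    refine le_trans ?_ (Complex.abs_im_le_norm _)
    have : ((x 0 : ℂ) * (zn n : ℂ) + x 1).im = x 0 * ((n : ℝ) + 1) := by
      rw [zn_coe]
      simp
    rw [this, abs_mul, abs_of_pos hpos]
    have h2 : (1 : ℝ) ≤ |(x 0 : ℝ)| := by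
      have := Int.one_le_abs hx
      exact_mod_cast this
    nlinarith
  rw [eisSummand, norm_zpow, _root_.zpow_neg, one_div]
  apply inv_anti₀ hpos
  calc (n : ℝ) + 1 ≤ ‖(x 0 : ℂ) * (zn n : ℂ) + x 1‖ := h1
    _ = ‖(x 0 : ℂ) * (zn n : ℂ) + x 1‖ ^ (1 : ℤ) := (zpow_one _).symm
    _ ≤ _ := zpow_le_zpow_right₀ (le_trans (by linarith) h1) hk

theorem eisSummand_of_zero (k : ℤ) (x : Fin 2 → ℤ) (hx : x 0 = 0) (z : ℍ) :
    eisSummand k x z = (x 1 : ℂ) ^ (-k) := by
  rw [eisSummand, hx]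
  simp

theorem tendsto_wsum {a : (Fin 2 → ℤ) → ℂ} (ha : ∀ x, ‖a x‖ ≤ 1) {k : ℤ} (hk : 3 ≤ k) :
    Tendsto (fun n => wsum a k (zn n)) atTop
      (𝓝 (∑' x : Fin 2 → ℤ, if x 0 = 0 then a x * (x 1 : ℂ) ^ (-k) else 0)) := by
  have hk' : (2 : ℝ) < k := by norm_cast
  unfold wsum
  refine tendsto_tsum_of_dominated_convergence
    (bound := fun x : Fin 2 → ℤ => r ⟨⟨1, 1⟩, one_pos⟩ ^ (-k) * ‖x‖ ^ (-k)) ?_ ?_ ?_
  · exact_mod_cast (summable_one_div_norm_rpow hk').mul_left <| r ⟨⟨1, 1⟩, one_pos⟩ ^ (-k)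
  · intro x
    by_cases hx : x 0 = 0
    · rw [if_pos hx]
      simp only [eisSummand_of_zero k x hx]
      exact tendsto_const_nhds
    · rw [if_neg hx]
      have := (tendsto_eisSummand_zero (by omega : 1 ≤ k) x hx).const_mul (a x)
      rwa [mul_zero] at this
  · refine Eventually.of_forall fun n x => ?_
    refine (norm_term_le ha x _).trans ?_
    have hz : zn n ∈ verticalStrip 1 1 := by
      refine ⟨?_, ?_⟩
      · rw [zn_re]; simp
      · rw [zn_im]
        have : (0 : ℝ) ≤ n := Nat.cast_nonneg n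
        linarith
    simp_rw [eisSummand, norm_zpow]
    exact_mod_cast
      summand_bound_of_mem_verticalStrip (lt_trans two_pos hk').le x one_pos hz

variable {N : ℕ} {χ : Gamma0 N →* ℂˣ}

theorem neg_one_mem_Gamma0 (N : ℕ) : (-1 : SL(2, ℤ)) ∈ Gamma0 N := by
  rw [Gamma0_mem]
  simp

theorem coef_zero_one (hχ : KillsPE χ) : coef χ ![0, 1] = 1 := by
  have := coef_brow hχ 1
  rw [map_one, inv_one, Units.val_one] at this
  rw [← this]
  congr 1
  ext i
  fin_cases i <;> simp [brow]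

theorem coef_zero_neg_one (hχ : KillsPE χ) : coef χ ![0, -1] = 1 := by
  have := coef_brow hχ ⟨-1, neg_one_mem_Gamma0 N⟩
  rw [hχ ⟨-1, neg_one_mem_Gamma0 N⟩ (by
    unfold IsPE
    simp [Matrix.trace_fin_two]), inv_one, Units.val_one] at this
  rw [← this]
  congr 1
  ext i
  fin_cases i <;> simp [brow]

theorem coef_zero_of_ne (χ : Gamma0 N →* ℂˣ) (x : Fin 2 → ℤ) (h0 : x 0 = 0)
    (h1 : x ≠ ![0, 1]) (h2 : x ≠ ![0, -1]) : coef χ x = 0 := by
  apply coef_of_not
  rintro ⟨γ, rfl⟩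
  have d := Matrix.SpecialLinearGroup.det_coe (γ : SL(2, ℤ))
  rw [Matrix.det_fin_two] at d
  have h0' : (γ : SL(2, ℤ)) 1 0 = 0 := h0
  rw [h0', mul_zero, sub_zero] at d
  rcases Int.eq_one_or_neg_one_of_mul_eq_one' d with ⟨-, h⟩ | ⟨-, h⟩
  · apply h1
    ext i
    fin_cases i
    · exact h0'
    · exact h
  · apply h2
    ext i
    fin_cases i
    · exact h0'
    · exact h

theorem tendsto_Echi (hχ : KillsPE χ) (hn : ∀ γ, ‖(χ γ : ℂ)‖ = 1) {k : ℤ} (hk : 3 ≤ k)
    (he : Even k) : Tendsto (fun n => Echi χ k (zn n)) atTop (𝓝 2) := by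
  have h := tendsto_wsum (norm_coef_le hn) hk
  have e : (∑' x : Fin 2 → ℤ, if x 0 = 0 then coef χ x * (x 1 : ℂ) ^ (-k) else 0) = 2 := by
    rw [tsum_eq_sum (s := {![0, 1], ![0, -1]})]
    · rw [Finset.sum_pair]
      · simp only [Matrix.cons_val_zero, if_true, Matrix.cons_val_one, Matrix.cons_val_fin_one,
          coef_zero_one hχ, coef_zero_neg_one hχ]
        have : ((-1 : ℤ) : ℂ) ^ (-k) = 1 := by
          push_cast
          exact Even.neg_one_zpow he.neg
        rw [this]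
        simp
        norm_num
      · intro h
        have := congrFun h 1
        simp at this
    · intro x hx
      simp only [Finset.mem_insert, Finset.mem_singleton, not_or] at hx
      split_ifs with h0
      · rw [coef_zero_of_ne χ x h0 hx.1 hx.2, zero_mul]
      · rfl
  rw [e] at h
  exact h

theorem exists_Echi_ne_zero (hχ : KillsPE χ) (hn : ∀ γ, ‖(χ γ : ℂ)‖ = 1) {k : ℤ} (hk : 3 ≤ k)
    (he : Even k) : ∃ z, Echi χ k z ≠ 0 := by
  have h := tendsto_Echi hχ hn hk he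
  have := h.eventually_ne (two_ne_zero)
  obtain ⟨n, hn⟩ := this.exists
  exact ⟨_, hn⟩

end Eis

end Fermat.Agent.S29
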