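import Mathlib

set_option autoImplicit false
set_option linter.unusedSectionVars false
set_option linter.style.haveILetI false

/-! # S29 (D1), generic part: a valuation ring `B` of `L` dominating a DVR `R`, `L` algebraic over
`R`: `B` has rank one, and its residue field is that of `R` if the latter is algebraically closed. -/

namespace Fermat.Agent.S29

open Polynomial

section Gen

variable {R L : Type} [CommRing R] [IsDomain R] [IsDiscreteValuationRing R] [Field L]
  (f : R →+* L) (B : ValuationSubring L)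

/-- `B` dominates `f(R)` and `L` is algebraic over `f(R)`. -/
structure Dominates : Prop where
  inj : Function.Injective f
  mem : ∀ r, f r ∈ B
  loc : ∀ r, B.valuation (f r) = 1 → IsUnit r
  alg : ∀ c : L, ∃ p : R[X], p ≠ 0 ∧ p.eval₂ f c = 0

variable {f B}

namespace Dominates

variable (h : Dominates f B)
include h

theorem val_le (r : R) : B.valuation (f r) ≤ 1 := (B.valuation_le_one_iff _).2 (h.mem r)

theorem val_unit {r : R} (hr : IsUnit r) : B.valuation (f r) = 1 := by
  obtain ⟨s, hs⟩ := hr.exists_right_inv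
  have h1 : B.valuation (f r) * B.valuation (f s) = 1 := by
    rw [← map_mul, ← map_mul, hs, map_one, map_one]
  refine le_antisymm (h.val_le r) ?_
  calc (1 : _) = B.valuation (f r) * B.valuation (f s) := h1.symm
    _ ≤ B.valuation (f r) * 1 := mul_le_mul' le_rfl (h.val_le s)
    _ = B.valuation (f r) := mul_one _

theorem val_irr_lt {ϖ : R} (hϖ : Irreducible ϖ) : B.valuation (f ϖ) < 1 := by
  refine lt_of_le_of_ne (h.val_le ϖ) fun h1 => hϖ.not_isUnit (h.loc ϖ h1)

theorem val_of_not_dvd {ϖ : R} (hϖ : Irreducible ϖ) {r : R} (hr : ¬ ϖ ∣ r) :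
    B.valuation (f r) = 1 := by
  apply h.val_unit
  by_contra hu
  have h1 : r ∈ IsLocalRing.maximalIdeal R := (IsLocalRing.mem_maximalIdeal r).2 hu
  rw [hϖ.maximalIdeal_eq, Ideal.mem_span_singleton] at h1
  exact hr h1

theorem val_of_dvd {ϖ r : R} (hr : ϖ ∣ r) : B.valuation (f r) ≤ B.valuation (f ϖ) := by
  obtain ⟨b, rfl⟩ := hr
  rw [map_mul, map_mul]
  exact mul_le_of_le_one_right' (h.val_le b)

theorem exists_pow_le {ϖ : R} (hϖ : Irreducible ϖ) {r : R} (hr : r ≠ 0) :
    ∃ e : ℕ, B.valuation (f ϖ) ^ e ≤ B.valuation (f r) := by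
  obtain ⟨n, u, rfl⟩ := IsDiscreteValuationRing.eq_unit_mul_pow_irreducible hr hϖ
  refine ⟨n, ?_⟩
  rw [map_mul, map_mul, h.val_unit u.isUnit, one_mul, map_pow, map_pow]

/-- a primitive relation. -/
theorem exists_prim (c : L) {ϖ : R} (hϖ : Irreducible ϖ) :
    ∃ p : R[X], p ≠ 0 ∧ p.eval₂ f c = 0 ∧ ∃ s, ¬ ϖ ∣ p.coeff s := by
  classical
  letI : StrongNormalizationMonoid R := UniqueFactorizationMonoid.strongNormalizationMonoid
  letI : NormalizedGCDMonoid R := UniqueFactorizationMonoid.toNormalizedGCDMonoid R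
  obtain ⟨p, hp0, hp⟩ := h.alg c
  refine ⟨p.primPart, p.primPart_ne_zero, ?_, ?_⟩
  · have h1 := p.eq_C_content_mul_primPart
    rw [h1, eval₂_mul, eval₂_C] at hp
    rcases mul_eq_zero.1 hp with h2 | h2
    · exfalso
      have : p.content = 0 := h.inj (by rw [h2, map_zero])
      exact hp0 (Polynomial.content_eq_zero_iff.1 this)
    · exact h2
  · by_contra hall
    push Not at hall
    have h1 : C ϖ ∣ p.primPart := (Polynomial.C_dvd_iff_dvd_coeff _ _).2 hall
    exact hϖ.not_isUnit (p.isPrimitive_primPart _ h1)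

theorem exists_pow_le_irr {ϖ : R} (hϖ : Irreducible ϖ) (c : L) (hc : B.valuation c < 1) :
    ∃ s : ℕ, B.valuation c ^ s ≤ B.valuation (f ϖ) := by
  classical
  by_cases hc0 : c = 0
  · exact ⟨1, by simp [hc0]⟩
  obtain ⟨p, hp0, hp, hex⟩ := h.exists_prim c hϖ
  let s := Nat.find hex
  have hs : ¬ ϖ ∣ p.coeff s := Nat.find_spec hex
  have hlt : ∀ i < s, ϖ ∣ p.coeff i := fun i hi => by
    have := Nat.find_min hex hi
    rwa [not_not] at this
  refine ⟨s, ?_⟩
  by_contra hcon
  rw [not_le] at hcon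
  set γ := B.valuation c with hγ
  have hγ0 : γ ≠ 0 := (Valuation.ne_zero_iff _).2 hc0
  have hγs : γ ^ s ≠ 0 := pow_ne_zero _ hγ0
  have hsum : ∑ i ∈ Finset.range (p.natDegree + 1), f (p.coeff i) * c ^ i = 0 := by
    rw [← hp, Polynomial.eval₂_eq_sum_range]
  have hsmem : s ∈ Finset.range (p.natDegree + 1) := by
    rw [Finset.mem_range, Nat.lt_succ_iff]
    apply Polynomial.le_natDegree_of_ne_zero
    intro h0
    exact hs (by rw [h0]; exact dvd_zero _)
  rw [← Finset.add_sum_erase _ _ hsmem] at hsum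
  have h1 : B.valuation (f (p.coeff s) * c ^ s) = γ ^ s := by
    rw [map_mul, map_pow, h.val_of_not_dvd hϖ hs, one_mul]
  have h2 : B.valuation (∑ i ∈ (Finset.range (p.natDegree + 1)).erase s,
      f (p.coeff i) * c ^ i) < γ ^ s := by
    refine Valuation.map_sum_lt _ hγs fun i hi => ?_
    have hne : i ≠ s := (Finset.mem_erase.1 hi).1
    rw [map_mul, map_pow]
    rcases lt_or_gt_of_ne hne with h' | h'
    · calc B.valuation (f (p.coeff i)) * γ ^ i ≤ B.valuation (f ϖ) * 1 :=
            mul_le_mul' (h.val_of_dvd (hlt i h')) (pow_le_one' hc.le i)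
        _ < γ ^ s := by rw [mul_one]; exact hcon
    · calc B.valuation (f (p.coeff i)) * γ ^ i ≤ 1 * γ ^ i :=
            mul_le_mul' (h.val_le _) le_rfl
        _ = γ ^ i := one_mul _
        _ < γ ^ s := pow_lt_pow_right_of_lt_one₀ (zero_lt_iff.2 hγ0) hc h'
  have h3 : f (p.coeff s) * c ^ s =
      - ∑ i ∈ (Finset.range (p.natDegree + 1)).erase s, f (p.coeff i) * c ^ i :=
    eq_neg_of_add_eq_zero_left hsum
  rw [h3, Valuation.map_neg] at h1
  exact absurd h1 h2.ne

theorem exists_irr_pow_le {ϖ : R} (hϖ : Irreducible ϖ) (c0 : L) (hc0 : c0 ≠ 0) :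
    ∃ e : ℕ, B.valuation (f ϖ) ^ e ≤ B.valuation c0 := by
  classical
  by_cases h1 : 1 ≤ B.valuation c0
  · exact ⟨0, by simpa using h1⟩
  rw [not_le] at h1
  set d := c0⁻¹ with hd
  have hd1 : 1 < B.valuation d := by
    rw [hd, map_inv₀]
    exact (one_lt_inv₀ (zero_lt_iff.2 ((Valuation.ne_zero_iff _).2 hc0))).2 h1
  obtain ⟨p, hp0, hp⟩ := h.alg d
  obtain ⟨e, he⟩ := h.exists_pow_le hϖ (Polynomial.leadingCoeff_ne_zero.2 hp0)
  refine ⟨e, he.trans ?_⟩
  set δ := B.valuation d with hδ
  have hδ0 : δ ≠ 0 := (zero_lt_one.trans hd1).ne'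
  have hsum : ∑ i ∈ Finset.range (p.natDegree + 1), f (p.coeff i) * d ^ i = 0 := by
    rw [← hp, Polynomial.eval₂_eq_sum_range]
  rw [Finset.sum_range_succ] at hsum
  by_cases hn : p.natDegree = 0
  · exfalso
    rw [hn] at hsum
    simp only [Finset.range_zero, Finset.sum_empty, pow_zero, mul_one, zero_add] at hsum
    have : p.coeff 0 = 0 := h.inj (by rw [hsum, map_zero])
    apply hp0
    rw [Polynomial.eq_C_of_natDegree_eq_zero hn, this, map_zero]
  have h2 : B.valuation (∑ i ∈ Finset.range p.natDegree, f (p.coeff i) * d ^ i)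
      ≤ δ ^ (p.natDegree - 1) := by
    refine Valuation.map_sum_le _ fun i hi => ?_
    rw [map_mul, map_pow]
    calc B.valuation (f (p.coeff i)) * δ ^ i ≤ 1 * δ ^ i :=
          mul_le_mul' (h.val_le _) le_rfl
      _ = δ ^ i := one_mul _
      _ ≤ δ ^ (p.natDegree - 1) :=
          pow_le_pow_right₀ hd1.le (by have := Finset.mem_range.1 hi; omega)
  have h3 : f (p.coeff p.natDegree) * d ^ p.natDegree =
      - ∑ i ∈ Finset.range p.natDegree, f (p.coeff i) * d ^ i :=
    eq_neg_of_add_eq_zero_right hsum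
  have h4 : B.valuation (f p.leadingCoeff) * δ ^ p.natDegree ≤ δ ^ (p.natDegree - 1) := by
    have := h2
    rw [← Valuation.map_neg, ← h3, map_mul, map_pow] at this
    exact this
  have h5 : δ ^ p.natDegree = δ ^ (p.natDegree - 1) * δ := by
    rw [← pow_succ]; congr 1; omega
  rw [h5, ← mul_assoc, mul_comm (B.valuation _), mul_assoc] at h4
  have h6 : B.valuation (f p.leadingCoeff) * δ ≤ 1 := by
    have hpos : 0 < δ ^ (p.natDegree - 1) := zero_lt_iff.2 (pow_ne_zero _ hδ0)
    by_contra hcon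
    rw [not_le] at hcon
    have := mul_lt_mul_of_pos_left hcon hpos
    rw [mul_one] at this
    exact absurd h4 (not_le.2 this)
  have h7 : B.valuation c0 = δ⁻¹ := by rw [hδ, hd, map_inv₀, inv_inv]
  rw [h7]
  calc B.valuation (f p.leadingCoeff)
      = B.valuation (f p.leadingCoeff) * δ * δ⁻¹ := by
        rw [mul_assoc, mul_inv_cancel₀ hδ0, mul_one]
    _ ≤ 1 * δ⁻¹ := mul_le_mul' h6 le_rfl
    _ = δ⁻¹ := one_mul _

/-- `B` has rank one. -/
theorem rank_one (c c0 : L) (hc : B.valuation c < 1) (hc0 : c0 ≠ 0) :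
    ∃ j : ℕ, B.valuation c ^ j ≤ B.valuation c0 := by
  obtain ⟨ϖ, hϖ⟩ := IsDiscreteValuationRing.exists_irreducible R
  obtain ⟨s, hs⟩ := h.exists_pow_le_irr hϖ c hc
  obtain ⟨e, he⟩ := h.exists_irr_pow_le hϖ c0 hc0
  refine ⟨s * e, ?_⟩
  rw [pow_mul]
  exact (pow_le_pow_left₀ zero_le hs e).trans he

/-- if `θ : k₀ → R` is a section-like ring hom from an algebraically closed field such that every
element of `R` is congruent to some `θ a` modulo the maximal ideal, then every element of `B` is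
congruent to some `f (θ a)` modulo the maximal ideal of `B`. -/
theorem exists_residue {k₀ : Type} [Field k₀] [IsAlgClosed k₀] (θ : k₀ →+* R)
    (hθ : ∀ r : R, ∃ a : k₀, ¬ IsUnit (r - θ a)) (z : L) (hz : z ∈ B) :
    ∃ a : k₀, B.valuation (z - f (θ a)) < 1 := by
  classical
  obtain ⟨ϖ, hϖ⟩ := IsDiscreteValuationRing.exists_irreducible R
  obtain ⟨p, hp0, hp, s, hs⟩ := h.exists_prim z hϖ
  choose cf hcf using hθ
  -- the reduced polynomial
  let q : k₀[X] := ∑ i ∈ Finset.range (p.natDegree + 1), C (cf (p.coeff i)) * X ^ i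
  have hnu : ∀ r : R, ¬ IsUnit r → B.valuation (f r) < 1 := fun r hr =>
    lt_of_le_of_ne (h.val_le r) fun h1 => hr (h.loc r h1)
  have hzv : B.valuation z ≤ 1 := (B.valuation_le_one_iff _).2 hz
  have hqcoeff : ∀ i, i ≤ p.natDegree → q.coeff i = cf (p.coeff i) := by
    intro i hi
    simp only [q, Polynomial.finsetSum_coeff, Polynomial.coeff_C_mul, Polynomial.coeff_X_pow]
    rw [Finset.sum_eq_single i]
    · simp
    · intro j _ hj
      rw [if_neg (fun h' => hj h'.symm), mul_zero]
    · intro h'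
      exact absurd (Finset.mem_range.2 (Nat.lt_succ_of_le hi)) h'
  have hsle : s ≤ p.natDegree := by
    apply Polynomial.le_natDegree_of_ne_zero
    intro h0
    exact hs (by rw [h0]; exact dvd_zero _)
  have hq0 : q ≠ 0 := by
    intro h0
    have h1 : cf (p.coeff s) = 0 := by rw [← hqcoeff s hsle, h0, coeff_zero]
    have h2 := hcf (p.coeff s)
    rw [h1, map_zero, sub_zero] at h2
    apply h2
    by_contra hu
    have h3 : p.coeff s ∈ IsLocalRing.maximalIdeal R := (IsLocalRing.mem_maximalIdeal _).2 hu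
    rw [hϖ.maximalIdeal_eq, Ideal.mem_span_singleton] at h3
    exact hs h3
  -- `q(z)` is small
  have hqz : B.valuation (q.eval₂ (f.comp θ) z) < 1 := by
    have h1 : q.eval₂ (f.comp θ) z =
        ∑ i ∈ Finset.range (p.natDegree + 1), f (θ (cf (p.coeff i))) * z ^ i := by
      simp only [q, Polynomial.eval₂_finsetSum, Polynomial.eval₂_mul, Polynomial.eval₂_C,
        Polynomial.eval₂_pow, Polynomial.eval₂_X, RingHom.comp_apply]
    have h2 : ∑ i ∈ Finset.range (p.natDegree + 1), f (p.coeff i) * z ^ i = 0 := by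
      rw [← hp, Polynomial.eval₂_eq_sum_range]
    have h3 : q.eval₂ (f.comp θ) z =
        - ∑ i ∈ Finset.range (p.natDegree + 1), f (p.coeff i - θ (cf (p.coeff i))) * z ^ i := by
      rw [h1, ← sub_zero (∑ i ∈ Finset.range (p.natDegree + 1), f (θ (cf (p.coeff i))) * z ^ i),
        ← h2, ← Finset.sum_sub_distrib, ← Finset.sum_neg_distrib]
      refine Finset.sum_congr rfl fun i _ => ?_
      rw [map_sub]; ring
    rw [h3, Valuation.map_neg]
    refine Valuation.map_sum_lt _ one_ne_zero fun i _ => ?_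
    rw [map_mul, map_pow]
    calc B.valuation (f (p.coeff i - θ (cf (p.coeff i)))) * B.valuation z ^ i
        ≤ B.valuation (f (p.coeff i - θ (cf (p.coeff i)))) * 1 :=
          mul_le_mul' le_rfl (pow_le_one' hzv i)
      _ < 1 := by rw [mul_one]; exact hnu _ (hcf _)
  -- factor `q`
  have hsplit : q.Splits := IsAlgClosed.splits q
  have hfac := hsplit.eq_prod_roots
  by_contra hcon
  push Not at hcon
  have hone : ∀ a : k₀, B.valuation (z - f (θ a)) = 1 := by
    intro a
    refine le_antisymm ?_ (hcon a)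
    exact (B.valuation_le_one_iff _).2 (sub_mem hz (h.mem _))
  have hval : B.valuation (q.eval₂ (f.comp θ) z) = 1 := by
    have hm : ∀ m : Multiset k₀,
        B.valuation (((m.map (fun a => X - C a)).prod).eval₂ (f.comp θ) z) = 1 := by
      intro m
      induction m using Multiset.induction_on with
      | empty => simp
      | cons a m ih =>
        rw [Multiset.map_cons, Multiset.prod_cons, Polynomial.eval₂_mul, map_mul, ih, mul_one,
          Polynomial.eval₂_sub, Polynomial.eval₂_X, Polynomial.eval₂_C]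
        exact hone a
    rw [hfac, Polynomial.eval₂_mul, Polynomial.eval₂_C, map_mul, hm, mul_one]
    apply h.val_unit
    exact (isUnit_iff_ne_zero.2 (Polynomial.leadingCoeff_ne_zero.2 hq0)).map θ
  exact absurd hval hqz.ne

end Dominates

end Gen

end Fermat.Agent.S29
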