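import Mathlib
import Fermat.Agent.S29.ThetaD

set_option autoImplicit false
set_option synthInstance.maxHeartbeats 400000
set_option linter.style.haveILetI false
set_option linter.unusedSectionVars false

/-! # S29 THETA PACKAGE, part E: change of modulus -/

namespace Fermat.Agent.S29.Th

open UpperHalfPlane ModularForm Matrix.SpecialLinearGroup IntermediateField ModularCurve
open AlgebraicCurve CongruenceSubgroup
open scoped MatrixGroups ModularForm Manifold
open Fermat.Agent.S24 (Mer expInf expInf_injective Kb FN)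
open Fermat.Agent.S29.D2 (FCf FC jC cl)
open Fermat.Agent.S29.An (cmp AA Phi PhiF PhiF_injective)

variable {N : ℕ} [NeZero N]

theorem stdAddChar_cast {m m' d : ℕ} [NeZero m] [NeZero m'] (h : m = d * m') (x : ZMod m) :
    ZMod.stdAddChar (ZMod.castHom (Dvd.intro_left d h.symm) (ZMod m') x) =
      ZMod.stdAddChar x ^ d := by
  obtain ⟨j, rfl⟩ := ZMod.intCast_surjective x
  rw [map_intCast, ZMod.stdAddChar_coe, ZMod.stdAddChar_coe, ← Complex.exp_nat_mul]
  congr 1
  have hm' : (m' : ℂ) ≠ 0 := Nat.cast_ne_zero.2 (NeZero.ne m')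
  have hd : (d : ℂ) ≠ 0 := by
    intro h0
    have : d = 0 := by exact_mod_cast h0
    exact NeZero.ne m (by rw [h, this, zero_mul])
  rw [h]
  push_cast
  field_simp

/-- reduction of the coefficients `ZMod m → ZMod m'`. -/
noncomputable def redHom {m m' : ℕ} (h : m' ∣ m) (c : Additive (Gamma0 N) →+ ZMod m) :
    Additive (Gamma0 N) →+ ZMod m' := (ZMod.castHom h (ZMod m')).toAddMonoidHom.comp c

theorem redHom_apply {m m' : ℕ} (h : m' ∣ m) (c : Additive (Gamma0 N) →+ ZMod m)
    (γ : Additive (Gamma0 N)) : redHom h c γ = ZMod.castHom h (ZMod m') (c γ) := rfl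

theorem chiOf_redHom {m m' d : ℕ} [NeZero m] [NeZero m'] (h : m = d * m')
    (c : Additive (Gamma0 N) →+ ZMod m) :
    chiOf (redHom (Dvd.intro_left d h.symm) c) = chiOf c ^ d := by
  ext γ
  rw [MonoidHom.pow_apply, Units.val_pow_eq_pow_val, chiOf_apply, chiOf_apply, redHom_apply,
    stdAddChar_cast h]

/-- compatibility of the relations for `m` and for a divisor `m'` of `m`. -/
theorem Rel.red {m m' d : ℕ} [NeZero m] [NeZero m'] (h : m = d * m')
    {c : Additive (Gamma0 N) →+ ZMod m} {f : FN N} (hr : Rel c f) :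
    Rel (redHom (Dvd.intro_left d h.symm) c) f := by
  obtain ⟨v, hv, a, ha, s, hs, e⟩ := hr
  refine ⟨v ^ d, by rw [chiOf_redHom h]; exact hv.pow d, a, ?_, s ^ d, pow_ne_zero d hs, ?_⟩
  · rw [ha, ← pow_mul, ← h]
  · rw [e, ← pow_mul, ← h]

theorem redHom_mem_peHoms {m m' : ℕ} (h : m' ∣ m) {c : Additive (Gamma0 N) →+ ZMod m}
    (hc : c ∈ peHoms (ZMod m) N (ZMod m)) : redHom h c ∈ peHoms (ZMod m') N (ZMod m') := by
  intro γ hγ
  rw [redHom_apply, hc γ hγ, map_zero]

end Fermat.Agent.S29.Th
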