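import Mathlib
import Fermat.Agent.S29.GlueC
import Fermat.Agent.S29.ThetaE
import Fermat.Agent.S29.HeckeMem

set_option autoImplicit false
set_option linter.unusedSectionVars false
set_option linter.style.haveILetI false
set_option synthInstance.maxHeartbeats 400000

/-! # S29/S30/S31 [GLUE]: the map `Θ_m : Hom_pe(Γ₀(N), ℤ/m) → FN^× / m` for a general modulus `m`,
its Galois properties and the compatibility for `m' ∣ m`. -/

namespace Fermat.Agent.S29.Glue

open CongruenceSubgroup ModularCurve AlgebraicCurve Fermat.Agent.S24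
open Fermat.Agent.S29.Cyc

section tower

variable {U : Type} [CommGroup U]

/-- the projection `U / U^m → U / U^m'` for `m' ∣ m`. -/
noncomputable def trX {m m' : ℕ} (h : m' ∣ m) : Xq U m →+ Xq U m' :=
  MonoidHom.toAdditive (QuotientGroup.map _ _ (MonoidHom.id U) (by
    rintro _ ⟨s, rfl⟩
    obtain ⟨d, rfl⟩ := h
    refine ⟨s ^ d, ?_⟩
    show (s ^ d) ^ m' = s ^ (m' * d)
    rw [← pow_mul, mul_comm]))

theorem trX_cls {m m' : ℕ} (h : m' ∣ m) (u : U) : trX h (cls m u) = cls m' u := rfl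

end tower

variable (N m : ℕ) [NeZero N] [NeZero m]

theorem exists_rel (c : HH m N) : ∃ u : (FN N)ˣ, Th.Rel c.1 (u : FN N) := by
  obtain ⟨f, hf⟩ := Th.rel_exists c.2
  exact ⟨Units.mk0 f hf.ne_zero, hf⟩

theorem exists_unit_root (u : (FN N)ˣ) (s : FN N) (hs : (u : FN N) = s ^ m) :
    ∃ s' : (FN N)ˣ, s' ^ m = u := by
  have hs0 : s ≠ 0 := by
    rintro rfl
    rw [zero_pow (NeZero.ne m)] at hs
    exact u.ne_zero hs
  exact ⟨Units.mk0 s hs0, Units.ext hs.symm⟩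

theorem exists_thetaM : ∃ Θ : HH m N →ₗ[ZMod m] Xq (FN N)ˣ m, Function.Injective Θ ∧
    ∀ (c : HH m N) (u : (FN N)ˣ), Th.Rel c.1 (u : FN N) → Θ c = cls m u :=
  exists_theta m (fun (c : HH m N) (u : (FN N)ˣ) => Th.Rel c.1 (u : FN N)) (exists_rel N m)
    (fun c c' u u' h h' => Th.Rel.mul h h')
    (fun c u h => by
      have := Th.Rel.inv h
      show Th.Rel (-c.1) ((u⁻¹ : (FN N)ˣ) : FN N)
      rw [Units.val_inv_eq_inv_val]
      exact this)
    (fun u h => by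
      obtain ⟨s, hs⟩ := Th.Rel.exists_root h
      exact exists_unit_root N m u s hs)
    (fun c u h ⟨s, hs⟩ => Subtype.ext (Th.Rel.eq_zero h ⟨(s : FN N), by rw [← hs]; rfl⟩))

/-- `Θ_m`. -/
noncomputable def thetaM : HH m N →ₗ[ZMod m] Xq (FN N)ˣ m := (exists_thetaM N m).choose

theorem thetaM_injective : Function.Injective (thetaM N m) := (exists_thetaM N m).choose_spec.1

theorem thetaM_eq (c : HH m N) (u : (FN N)ˣ) (h : Th.Rel c.1 (u : FN N)) :
    thetaM N m c = cls m u := (exists_thetaM N m).choose_spec.2 c u h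

theorem thetaM_level (c : HH m N) : ∃ L : IntermediateField ℚ Qb, FiniteDimensional ℚ L ∧
    ∀ σ : GQ, (∀ x ∈ L, σ x = x) → actG N m σ (thetaM N m c) = thetaM N m c := by
  obtain ⟨u, hu⟩ := exists_rel N m c
  obtain ⟨L, hL, h⟩ := exists_level_FN N (u : FN N)
  refine ⟨L, hL, fun σ hσ => ?_⟩
  rw [thetaM_eq N m c u hu, actG_cls]
  congr 1
  exact Units.ext (h σ hσ)

/-- Eichler-Shimura on the Galois orbit of the image of `Θ_m`. -/
theorem thetaM_frob {ℓ : ℕ} (hℓ : ℓ.Prime) (hℓN : ¬ ℓ ∣ N) (hℓm : ¬ ℓ ∣ m)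
    (A : ValuationSubring Qb) (hA : A.LiesOverPrime ℓ) (σ : GQ) (hσ : A.IsFrobeniusAt σ ℓ)
    (c : HH m N) (τ : GQ) :
    actG N m σ (actG N m σ (actG N m τ (thetaM N m c)))
      - actG N m σ (actG N m τ (thetaM N m (TH m N ℓ c))) + ℓ • actG N m τ (thetaM N m c) = 0 := by
  haveI : Fact ℓ.Prime := ⟨hℓ⟩
  have hm : HeckeMem N ℓ := HA.heckeMem hℓN
  obtain ⟨u, hu⟩ := exists_rel N m c
  have hT : Th.Rel (TH m N ℓ c).1 (TT N ℓ (u : FN N)) := by
    rw [coe_TH m hℓ hℓN]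
    exact Th.Rel.hecke hℓN c.2 hu
  set uT : (FN N)ˣ := Units.mk0 (TT N ℓ (u : FN N)) hT.ne_zero with huT
  rw [thetaM_eq N m c u hu, thetaM_eq N m _ uT hT]
  simp only [actG_cls]
  set x : FN N := gal N τ u with hx
  have hx0 : x ≠ 0 := (map_ne_zero _).2 u.ne_zero
  have hdx : DivBy m Kb x := divBy_gal τ (Th.Rel.divBy c.2 hu)
  have hTx : TT N ℓ (gal N σ x) = gal N σ (gal N τ (TT N ℓ (u : FN N))) := by
    rw [gal_TT hm, gal_TT hm]
  have hdT : DivBy m Kb (TT N ℓ (gal N σ x)) := by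
    rw [hTx]
    exact divBy_gal σ (divBy_gal τ (Th.Rel.divBy (TH m N ℓ c).2 hT))
  obtain ⟨s, hs⟩ := es_frob hℓ A hA N hℓN hm m (Nat.pos_of_ne_zero (NeZero.ne m)) hℓm σ hσ x hx0
    hdx hdT
  have hs0 : s ≠ 0 := by
    rintro rfl
    rw [zero_pow (NeZero.ne m), mul_zero] at hs
    exact mul_ne_zero ((map_ne_zero _).2 ((map_ne_zero _).2 hx0)) (pow_ne_zero _ hx0) hs
  have e : cls m (galU N σ (galU N σ (galU N τ u)) * (galU N τ u) ^ ℓ) =
      cls m (galU N σ (galU N τ uT)) := by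
    rw [cls_eq_iff]
    refine ⟨Units.mk0 s hs0, Units.ext ?_⟩
    rw [hTx] at hs
    exact hs
  rw [cls_mul, cls_pow] at e
  rw [← e]
  abel

/-- inertia acts trivially on the Galois orbit of the image of `Θ_m`. -/
theorem thetaM_inertia {ℓ : ℕ} (hℓ : ℓ.Prime) (hℓN : ¬ ℓ ∣ N) (hℓm : ¬ ℓ ∣ m)
    (A : ValuationSubring Qb) (hA : A.LiesOverPrime ℓ) (σ : GQ) (hσ : σ ∈ A.inertiaSubgroupIn ℚ)
    (c : HH m N) (τ : GQ) :
    actG N m σ (actG N m τ (thetaM N m c)) = actG N m τ (thetaM N m c) := by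
  obtain ⟨u, hu⟩ := exists_rel N m c
  rw [thetaM_eq N m c u hu]
  simp only [actG_cls]
  have hx0 : gal N τ (u : FN N) ≠ 0 := (map_ne_zero _).2 u.ne_zero
  obtain ⟨s, hs⟩ := es_inertia hℓ A hA N hℓN m (Nat.pos_of_ne_zero (NeZero.ne m)) hℓm σ hσ
    (gal N τ u) hx0 (divBy_gal τ (Th.Rel.divBy c.2 hu))
  have hs0 : s ≠ 0 := by
    rintro rfl
    rw [zero_pow (NeZero.ne m), mul_zero] at hs
    exact (map_ne_zero _).2 hx0 hs
  rw [cls_eq_iff]
  exact ⟨Units.mk0 s hs0, Units.ext hs⟩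

section red

variable {m} {m' : ℕ} [NeZero m']

/-- reduction of the coefficients. -/
noncomputable def redHH (h : m' ∣ m) : HH m N →+ HH m' N where
  toFun c := ⟨Th.redHom h c.1, Th.redHom_mem_peHoms h c.2⟩
  map_zero' := by
    apply Subtype.ext
    refine DFunLike.ext _ _ fun γ => ?_
    show Th.redHom h (0 : Additive (Gamma0 N) →+ ZMod m) γ = 0
    rw [Th.redHom_apply, AddMonoidHom.zero_apply, map_zero]
  map_add' c c' := by
    apply Subtype.ext
    refine DFunLike.ext _ _ fun γ => ?_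
    show Th.redHom h (c.1 + c'.1) γ = Th.redHom h c.1 γ + Th.redHom h c'.1 γ
    rw [Th.redHom_apply, Th.redHom_apply, Th.redHom_apply, AddMonoidHom.add_apply, map_add]

theorem coe_redHH (h : m' ∣ m) (c : HH m N) : (redHH N h c).1 = Th.redHom h c.1 := rfl

theorem trX_thetaM (h : m' ∣ m) (c : HH m N) :
    trX h (thetaM N m c) = thetaM N m' (redHH N h c) := by
  obtain ⟨u, hu⟩ := exists_rel N m c
  have ⟨d, hd⟩ := h
  have hd' : m = d * m' := by rw [hd, mul_comm]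
  have h2 : Th.Rel (redHH N h c).1 (u : FN N) := Th.Rel.red hd' hu
  rw [thetaM_eq N m c u hu, trX_cls]
  exact (thetaM_eq N m' _ u h2).symm

theorem trX_actG (h : m' ∣ m) (σ : GQ) (x : Xq (FN N)ˣ m) :
    trX h (actG N m σ x) = actG N m' σ (trX h x) := by
  obtain ⟨u, rfl⟩ := cls_surj m x
  rfl

end red

end Fermat.Agent.S29.Glue
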