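import Mathlib
import Fermat.Agent.S29.HeckeMem
import Fermat.Agent.S29.EisOut
import Fermat.Agent.S29.HomPE

set_option autoImplicit false
set_option synthInstance.maxHeartbeats 400000
set_option linter.style.haveILetI false

/-! # S29 THETA (d), (e): Hecke equivariance and injectivity, on explicit data -/

namespace Fermat.Agent.S29.HA

open UpperHalfPlane ModularForm Matrix.SpecialLinearGroup CongruenceSubgroup ModularCurve
open scoped MatrixGroups ModularForm Manifold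
open Fermat.Agent.S24 Fermat.Agent.S29.An
open Fermat.Agent.S29.D2 (FCf cl)

variable {N : ℕ} [NeZero N]

omit [NeZero N] in
theorem isPE_conj_T_pow (γ : SL(2, ℤ)) : IsPE (γ * ModularGroup.T ^ (N : ℤ) * γ⁻¹) := by
  unfold IsPE
  rw [S21.trace_conj_T_zpow]

section d

variable {l : ℕ} [Fact l.Prime]

theorem theta_d (hl : ¬ l ∣ N) (p : ℕ) [NeZero p] (c : Additive (Gamma0 N) →+ ZMod p)
    (hc : c ∈ peHoms (ZMod p) N (ZMod p)) (v : ℍ → ℂ) (hmer : ∀ γ : SL(2, ℤ), cmp v γ ∈ Mer N)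
    (hmult : ∀ (δ : Gamma0 N) (z : ℍ), v ((δ : SL(2, ℤ)) • z) = (chiOf p c δ : ℂ) * v z)
    (hne : v ≠ 0) (a : AA N) (ha : a.1 = v ^ p) (s : D2.FC N) (hs : s ≠ 0) (f : FN N)
    (hf : cl N f = PhiF N a * s ^ p) :
    (∀ γ : SL(2, ℤ), cmp (heckeProd l v) γ ∈ Mer N) ∧
    (∀ (δ : Gamma0 N) (z : ℍ), heckeProd l v ((δ : SL(2, ℤ)) • z) =
      (chiOf p (heckeHom hl c) δ : ℂ) * heckeProd l v z) ∧
    heckeProd l v ≠ 0 ∧ (heckeA hl a).1 = heckeProd l v ^ p ∧ TC hl s ≠ 0 ∧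
    cl N (TT N l f) = PhiF N (heckeA hl a) * TC hl s ^ p := by
  have hm : ∀ (δ : Gamma0 N) (z : ℍ), heckeProd l v ((δ : SL(2, ℤ)) • z) =
      (chiOf p (heckeHom hl c) δ : ℂ) * heckeProd l v z := by
    intro δ z
    rw [heckeProd_smul hl (fun δ => (chiOf p c δ : ℂ)) hmult, chiOf_heckeHom, Units.coe_prod]
  refine ⟨fun γ => ?_, hm, ?_, ?_, TC_ne_zero hl hs, ?_⟩
  · refine mem_Mer_of_periodic N l (cmp_heckeProd_mem hmer γ) fun z => ?_
    rw [cmp_apply, cmp_apply, S21.smul_natCast_vadd]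
    have h1 := hm ⟨_, S21.conj_T_pow_mem_Gamma0 N γ⟩ (γ • z)
    have h2 : chiOf p (heckeHom hl c) ⟨_, S21.conj_T_pow_mem_Gamma0 N γ⟩ = 1 := by
      rw [chiOf_eq_one_iff]
      exact heckeHom_mem_peHoms hl hc _ (isPE_conj_T_pow γ)
    rw [h2, Units.val_one, one_mul] at h1
    exact h1
  · have h1 := hmer 1
    rw [cmp_one] at h1
    exact heckeProd_ne_zero h1 hne
  · show heckeProd l a.1 = _
    rw [ha, heckeProd_pow]
  · rw [cl_TT hl, hf, TC_mul, TC_pow, TC_PhiF]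

end d

/-- in a domain containing the `p`-th roots of unity. -/
theorem eq_mul_of_pow_eq {R : Type*} [CommRing R] [IsDomain R] [Algebra ℂ R] (p : ℕ) [NeZero p]
    (x y : R) (h : x ^ p = y ^ p) : ∃ ζ : ℂ, x = algebraMap ℂ R ζ * y := by
  have hζ := Complex.isPrimitiveRoot_exp p (NeZero.ne p)
  have hζ' : IsPrimitiveRoot (algebraMap ℂ R (Complex.exp (2 * Real.pi * Complex.I / p))) p :=
    hζ.map_of_injective (FaithfulSMul.algebraMap_injective ℂ R)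
  have h1 := hζ'.pow_sub_pow_eq_prod_sub_mul x y (Nat.pos_of_ne_zero (NeZero.ne p))
  rw [h, sub_self] at h1
  obtain ⟨μ, hμ, h2⟩ := Finset.prod_eq_zero_iff.mp h1.symm
  rw [Polynomial.mem_nthRootsFinset (Nat.pos_of_ne_zero (NeZero.ne p))] at hμ
  obtain ⟨i, -, rfl⟩ := hζ'.eq_pow_of_pow_eq_one hμ
  exact ⟨Complex.exp (2 * Real.pi * Complex.I / p) ^ i, by rw [map_pow]; exact sub_eq_zero.mp h2⟩

instance isDomain_Mer (h : ℕ) [NeZero h] : IsDomain (Mer h) :=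
  (expInf_injective h).isDomain (expInf h).toRingHom

theorem theta_e (p : ℕ) [NeZero p] (c : Additive (Gamma0 N) →+ ZMod p) (v : ℍ → ℂ)
    (hmer : ∀ γ : SL(2, ℤ), cmp v γ ∈ Mer N)
    (hmult : ∀ (δ : Gamma0 N) (z : ℍ), v ((δ : SL(2, ℤ)) • z) = (chiOf p c δ : ℂ) * v z)
    (hne : v ≠ 0) (a : AA N) (ha : a.1 = v ^ p) (t : D2.FC N) (ht : PhiF N a = t ^ p) : c = 0 := by
  obtain ⟨b₁, b₂, hb⟩ := exists_frac t.2
  have hv : v ∈ Mer N := by
    have h1 := hmer 1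
    rwa [cmp_one] at h1
  have ha0 : a ≠ 0 := by
    intro h0
    apply hne
    have h1 : v ^ p = 0 := by rw [← ha, h0]; rfl
    funext z
    exact pow_eq_zero_iff (NeZero.ne p) |>.mp (congrFun h1 z)
  have ht' : Phi N a = (Phi N b₁ / Phi N b₂) ^ p := by
    rw [← hb]
    exact congrArg Subtype.val ht
  have hb₂ : b₂ ≠ 0 := by
    intro h0
    rw [h0, map_zero, div_zero, zero_pow (NeZero.ne p)] at ht'
    exact ha0 ((map_eq_zero_iff _ Phi_injective).mp ht')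
  have hΦ : Phi N b₂ ≠ 0 := fun h0 => hb₂ ((map_eq_zero_iff _ Phi_injective).mp h0)
  have h1 : a * b₂ ^ p = b₁ ^ p := by
    apply Phi_injective
    rw [map_mul, map_pow, map_pow, ht', div_pow]
    field_simp
  have hb₁m : b₁.1 ∈ Mer N := by
    have := b₁.2.1 1
    rwa [cmp_one] at this
  have hb₂m : b₂.1 ∈ Mer N := by
    have := b₂.2.1 1
    rwa [cmp_one] at this
  have h2 : ((⟨v, hv⟩ : Mer N) * ⟨b₂.1, hb₂m⟩) ^ p = (⟨b₁.1, hb₁m⟩ : Mer N) ^ p := by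
    apply Subtype.ext
    have := congrArg Subtype.val h1
    show (v * b₂.1) ^ p = b₁.1 ^ p
    rw [mul_pow, ← ha]
    exact this
  obtain ⟨ζ, hζ⟩ := eq_mul_of_pow_eq p _ _ h2
  have h3 : ∀ z, v z * b₂.1 z = ζ * b₁.1 z := fun z => congrFun (congrArg Subtype.val hζ) z
  have hne2 : (⟨v, hv⟩ : Mer N) * ⟨b₂.1, hb₂m⟩ ≠ 0 := by
    apply mul_ne_zero
    · intro h0
      exact hne (congrArg Subtype.val h0)
    · intro h0
      exact hb₂ (Subtype.ext (congrArg (Subtype.val : Mer N → (ℍ → ℂ)) h0))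
  obtain ⟨z₀, hz₀⟩ : ∃ z, v z * b₂.1 z ≠ 0 := by
    by_contra hcon
    push Not at hcon
    exact hne2 (Subtype.ext (funext hcon))
  refine AddMonoidHom.ext fun δ' => ?_
  obtain ⟨δ, rfl⟩ := Additive.ofMul.surjective δ'
  rw [AddMonoidHom.zero_apply, ← chiOf_eq_one_iff]
  apply Units.ext
  rw [Units.val_one]
  have h4 := h3 ((δ : SL(2, ℤ)) • z₀)
  rw [hmult, b₂.2.2 _ δ.2, b₁.2.2 _ δ.2, ← h3 z₀, mul_assoc] at h4
  exact mul_right_cancel₀ hz₀ (h4.trans (one_mul _).symm)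

end Fermat.Agent.S29.HA
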